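/-
(DS48), helper4 — valuation subrings of algebraically closed fields: the residue field is
algebraically closed; a valuation subring of `ℂ` with a given residue characteristic; valuation
subrings contain all algebraic integers.
-/
import Mathlib

set_option autoImplicit false

namespace Fermat.Agent.DS48.VALSUB

open IsLocalRing Polynomial

/-- the residue field of a valuation subring of an algebraically closed field is algebraically
closed -/
theorem isAlgClosed_residueField {K : Type*} [Field K] [IsAlgClosed K] (A : ValuationSubring K) :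
    IsAlgClosed (ResidueField ↥A) := by
  apply IsAlgClosed.of_exists_root
  intro pbar hmonic hirr
  -- lift to a monic polynomial over `A`
  have hsurj : Function.Surjective (residue ↥A) := residue_surjective
  have hlift : pbar ∈ Polynomial.lifts (residue ↥A) := by
    rw [Polynomial.mem_lifts]
    exact Polynomial.map_surjective _ hsurj pbar
  obtain ⟨p, hp, hdeg, hpm⟩ := Polynomial.lifts_and_natDegree_eq_and_monic hlift hmonic
  have hdeg0 : pbar.natDegree ≠ 0 := by
    intro h
    have := Polynomial.natDegree_pos_iff_degree_pos.mpr (Polynomial.degree_pos_of_irreducible hirr)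
    omega
  -- a root in `K`
  have hdegK : (p.map (algebraMap ↥A K)).degree ≠ 0 := by
    rw [Polynomial.degree_map_eq_of_injective (FaithfulSMul.algebraMap_injective ↥A K)]
    rw [Polynomial.degree_eq_natDegree hpm.ne_zero, hdeg]
    exact_mod_cast hdeg0
  obtain ⟨x, hx⟩ := IsAlgClosed.exists_root (p.map (algebraMap ↥A K)) hdegK
  have hint : IsIntegral ↥A x := ⟨p, hpm, by rwa [Polynomial.IsRoot.def, Polynomial.eval_map] at hx⟩
  obtain ⟨y, hy⟩ := (IsIntegrallyClosed.isIntegral_iff (R := ↥A) (K := K)).mp hint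
  refine ⟨residue ↥A y, ?_⟩
  have h0 : p.eval y = 0 := by
    apply FaithfulSMul.algebraMap_injective ↥A K
    rw [map_zero, ← Polynomial.eval₂_hom, hy]
    rwa [Polynomial.IsRoot.def, Polynomial.eval_map] at hx
  rw [← hp, Polynomial.eval_map, Polynomial.eval₂_hom, h0, map_zero]


/-- a valuation subring of `ℂ` in which the prime `ℓ` is not a unit -/
theorem exists_valuationSubring_prime (ℓ : ℕ) [Fact ℓ.Prime] :
    ∃ A : ValuationSubring ℂ, (ℓ : ℂ) ∈ A.nonunits := by
  classical
  let f : ℤ →+* ℂ := Int.castRingHom ℂ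
  have hf : Function.Injective f := Int.cast_injective
  let A₀ : Subring ℂ := f.range
  let e : ℤ ≃+* A₀ := RingEquiv.ofBijective f.rangeRestrict
    ⟨fun a b hab => hf (congrArg Subtype.val hab), f.rangeRestrict_surjective⟩
  let φ : A₀ →+* ZMod ℓ := (Int.castRingHom (ZMod ℓ)).comp e.symm.toRingHom
  let P : Ideal A₀ := RingHom.ker φ
  have : P.IsPrime := RingHom.ker_isPrime φ
  let R₀ : LocalSubring ℂ := LocalSubring.ofPrime A₀ P
  obtain ⟨B, hle, hloc⟩ := R₀.exists_le_valuationSubring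
  refine ⟨B, ?_⟩
  -- `ℓ` as an element of `A₀`
  have hℓA : (ℓ : ℂ) ∈ A₀ := ⟨(ℓ : ℤ), by simp [f]⟩
  have hℓP : (⟨(ℓ : ℂ), hℓA⟩ : A₀) ∈ P := by
    rw [RingHom.mem_ker]
    have h1 : e.symm ⟨(ℓ : ℂ), hℓA⟩ = (ℓ : ℤ) := by
      rw [RingEquiv.symm_apply_eq]
      apply Subtype.ext
      simp [e, f]
    show (Int.castRingHom (ZMod ℓ)) (e.symm ⟨(ℓ : ℂ), hℓA⟩) = 0
    rw [h1]
    simp
  have hmax : algebraMap A₀ R₀.toSubring ⟨(ℓ : ℂ), hℓA⟩ ∈ maximalIdeal R₀.toSubring :=
    (IsLocalization.AtPrime.to_map_mem_maximal_iff R₀.toSubring P _).mpr hℓP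
  rw [ValuationSubring.mem_nonunits_iff_or]
  right
  intro hinv
  have hℓR : (ℓ : ℂ) ∈ R₀.toSubring := LocalSubring.le_ofPrime A₀ P hℓA
  have hℓ0 : (ℓ : ℂ) ≠ 0 := by exact_mod_cast (Fact.out : ℓ.Prime).ne_zero
  have hunit : IsUnit (Subring.inclusion hle ⟨(ℓ : ℂ), hℓR⟩) := by
    rw [isUnit_iff_exists_inv]
    refine ⟨⟨(ℓ : ℂ)⁻¹, hinv⟩, ?_⟩
    apply Subtype.ext
    exact mul_inv_cancel₀ hℓ0
  have hunit' : IsUnit (⟨(ℓ : ℂ), hℓR⟩ : R₀.toSubring) := hloc.map_nonunit _ hunit
  exact (IsLocalRing.mem_maximalIdeal _).mp hmax hunit'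


/-- the residue characteristic -/
theorem charP_residueField {K : Type*} [Field K] (A : ValuationSubring K) (ℓ : ℕ) [Fact ℓ.Prime]
    (h : (ℓ : K) ∈ A.nonunits) : CharP (ResidueField ↥A) ℓ := by
  rw [CharP.charP_iff_prime_eq_zero (Fact.out : ℓ.Prime)]
  have hmem : (ℓ : K) ∈ A := A.nonunits_subset h
  have h1 : (⟨(ℓ : K), hmem⟩ : ↥A) ∈ maximalIdeal ↥A := by
    rw [← ValuationSubring.coe_mem_nonunits_iff]
    exact h
  have h2 : (⟨(ℓ : K), hmem⟩ : ↥A) = ((ℓ : ℕ) : ↥A) := by
    apply Subtype.ext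
    simp
  rw [h2] at h1
  have h3 := (residue_eq_zero_iff _).mpr h1
  rw [map_natCast] at h3
  exact h3

/-- a valuation subring contains all algebraic integers -/
theorem mem_of_isIntegral {K : Type*} [Field K] (A : ValuationSubring K) {x : K}
    (hx : IsIntegral ℤ x) : x ∈ A := by
  have h1 : IsIntegral ↥A x := hx.tower_top
  obtain ⟨y, hy⟩ := (IsIntegrallyClosed.isIntegral_iff (R := ↥A) (K := K)).mp h1
  rw [← hy]
  exact y.2

end Fermat.Agent.DS48.VALSUB
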