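import Fermat.Agent.RatStr.ConjCuspForm
import Fermat.Agent.RatStr.PrimitiveRat

set_option autoImplicit false

/-!
# [INT1] bounded denominators: the `q`-coefficients of a cusp form on `Γ₀(M)` lie in a finitely
generated `ℤ`-submodule of `ℂ`
-/

namespace Fermat.Agent.DS48

open CongruenceSubgroup ModularForm UpperHalfPlane ModularFormClass
open Fermat.Agent.RatStr
open scoped MatrixGroups ModularForm Manifold

noncomputable section

variable {M : ℕ} [NeZero M] {k : ℤ}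

theorem isNice_cuspForm_Gamma0 (g : CuspForm (Gamma0 M) k) : RatStr.IsNice (g : ℍ → ℂ) :=
  (IsCF.of_cuspForm g).toIsMF.isNice (T_mem_Gamma0 M)

theorem qCoeff_add_Gamma0 (g₁ g₂ : CuspForm (Gamma0 M) k) (n : ℕ) :
    qCoeff (g₁ + g₂ : CuspForm (Gamma0 M) k) n = qCoeff g₁ n + qCoeff g₂ n := by
  unfold qCoeff
  rw [CuspForm.coe_add,
    (isNice_cuspForm_Gamma0 g₁).qExpansion_add (isNice_cuspForm_Gamma0 g₂), map_add]

theorem qCoeff_smul_Gamma0 (c : ℂ) (g : CuspForm (Gamma0 M) k) (n : ℕ) :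
    qCoeff (c • g : CuspForm (Gamma0 M) k) n = c * qCoeff g n := by
  unfold qCoeff
  rw [CuspForm.coe_smul, (isNice_cuspForm_Gamma0 g).qExpansion_smul]
  simp

theorem qCoeff_zero_Gamma0 (n : ℕ) : qCoeff (0 : CuspForm (Gamma0 M) k) n = 0 := by
  unfold qCoeff
  rw [CuspForm.coe_zero, qExpansion_zero]
  simp

/-- elements of the integral lattice have integral coefficients -/
theorem intCoeff_of_mem_intLattice {g : CuspForm (Gamma0 M) k} (hg : g ∈ CuspForm.intLattice M k)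
    (n : ℕ) : ∃ m : ℤ, qCoeff g n = (m : ℂ) := by
  unfold CuspForm.intLattice at hg
  induction hg using Submodule.span_induction with
  | mem x hx => exact hx n
  | zero => exact ⟨0, by rw [qCoeff_zero_Gamma0]; simp⟩
  | add x y _ _ hx hy =>
    obtain ⟨a, ha⟩ := hx
    obtain ⟨b, hb⟩ := hy
    exact ⟨a + b, by rw [qCoeff_add_Gamma0, ha, hb]; push_cast; ring⟩
  | smul c x _ hx =>
    obtain ⟨a, ha⟩ := hx
    refine ⟨c * a, ?_⟩
    have : c • x = ((c : ℂ)) • x := by
      rw [← Int.cast_smul_eq_zsmul ℂ c x]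
    rw [this, qCoeff_smul_Gamma0, ha]
    push_cast; ring

/-- **bounded denominators** -/
theorem exists_fg_qCoeff (hk : 1 ≤ k) (h : CuspForm (Gamma0 M) k) :
    ∃ Λ : Submodule ℤ ℂ, Λ.FG ∧ ∀ n, qCoeff h n ∈ Λ := by
  have htop : h ∈ Submodule.span ℂ
      ((CuspForm.intLattice M k : Submodule ℤ (CuspForm (Gamma0 M) k)) :
        Set (CuspForm (Gamma0 M) k)) := by
    rw [show Submodule.span ℂ _ = ⊤ from RatStr.hasIntegralStructure M hk]
    exact Submodule.mem_top
  induction htop using Submodule.span_induction with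
  | mem x hx =>
    refine ⟨Submodule.span ℤ {1}, Submodule.fg_span_singleton 1, fun n => ?_⟩
    obtain ⟨m, hm⟩ := intCoeff_of_mem_intLattice hx n
    rw [hm, Submodule.mem_span_singleton]
    exact ⟨m, by simp⟩
  | zero =>
    exact ⟨⊥, Submodule.fg_bot, fun n => by rw [qCoeff_zero_Gamma0]; exact Submodule.zero_mem _⟩
  | add x y _ _ hx hy =>
    obtain ⟨Λ₁, h1, h1'⟩ := hx
    obtain ⟨Λ₂, h2, h2'⟩ := hy
    refine ⟨Λ₁ ⊔ Λ₂, h1.sup h2, fun n => ?_⟩
    rw [qCoeff_add_Gamma0]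
    exact Submodule.add_mem_sup (h1' n) (h2' n)
  | smul c x _ hx =>
    obtain ⟨Λ, h1, h1'⟩ := hx
    refine ⟨Λ.map ((LinearMap.mulLeft ℂ c).restrictScalars ℤ), h1.map _, fun n => ?_⟩
    rw [qCoeff_smul_Gamma0]
    exact Submodule.mem_map.mpr ⟨_, h1' n, rfl⟩

end

end Fermat.Agent.DS48
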