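import Fermat.Agent.DS48.ASM_lead_Defs
import Fermat.Prelude.Def_GaloisRep_Adic

set_option autoImplicit false

/-!
# [RED] definitions: the `ℓ`-adic (S30-shaped) statement for `Γ₁(M)` and the lifting statement
-/

namespace Fermat.Agent.DS48

open Matrix CongruenceSubgroup Polynomial IsLocalRing
open scoped MatrixGroups

local notation "Ω" => AlgebraicClosure ℚ
local notation "GQ" => (AlgebraicClosure ℚ ≃ₐ[ℚ] AlgebraicClosure ℚ)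

/-- **The `p`-adic Galois representations attached to the characteristic zero eigensystems of the
weight two Hecke algebra of `Γ₁(M)`** (the analogue of the frozen statement S30). -/
def AdicRepGamma1 : Prop :=
  ∀ (M : ℕ) [NeZero M], 5 ≤ M → ∀ (p : ℕ) [Fact p.Prime]
    (𝒪' : Type) [CommRing 𝒪'] [IsDomain 𝒪'] [IsDiscreteValuationRing 𝒪']
    [IsAdicComplete (maximalIdeal 𝒪') 𝒪'] [Finite (ResidueField 𝒪')] [CharZero 𝒪'],
    (p : 𝒪') ∈ maximalIdeal 𝒪' → ∀ χ : ↥(hecke1Alg M) →+* 𝒪',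
    ∃ (𝒪'' : Type) (_ : CommRing 𝒪'') (_ : IsDomain 𝒪'') (_ : IsDiscreteValuationRing 𝒪'')
      (_ : IsAdicComplete (maximalIdeal 𝒪'') 𝒪'') (_ : Finite (ResidueField 𝒪''))
      (_ : CharZero 𝒪'') (_ : Algebra 𝒪' 𝒪'') (_ : Module.Finite 𝒪' 𝒪'')
      (_ : IsLocalHom (algebraMap 𝒪' 𝒪'')),
      Function.Injective (algebraMap 𝒪' 𝒪'') ∧ ∃ ρ : GaloisRepAdic 𝒪'',
        (∀ (q : ℕ) (hq : q.Prime) (hqM : ¬ q ∣ M), q ≠ p →
          ∀ A : ValuationSubring Ω, A.LiesOverPrime q → ∀ σ : GQ, A.IsFrobeniusAt σ q →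
            LinearMap.charpoly (ρ.ρ σ) =
              X ^ 2 - C (algebraMap 𝒪' 𝒪''
                (χ ⟨heckeT1 2 hq hqM, heckeT1_mem_hecke1Alg M hq hqM⟩)) * X +
              C ((q : 𝒪'') * algebraMap 𝒪' 𝒪''
                (χ ⟨diamond 2 (primeUnit M hq hqM), diamond_mem_hecke1Alg M _⟩))) ∧
        (∀ q : ℕ, q.Prime → ¬ q ∣ M → q ≠ p → ρ.IsUnramifiedAt q)

/-- **[LIFTθ]**: lifting a mod `ℓ` eigensystem of a commutative finite torsion-free `ℤ`-algebra to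
characteristic zero (Deligne–Serre, Lemme 6.11). -/
def LiftTheta : Prop :=
  ∀ {𝕋 : Type} [Ring 𝕋], (∀ x y : 𝕋, x * y = y * x) → ∀ [Module.Finite ℤ 𝕋],
    (∀ (n : ℤ) (x : 𝕋), n • x = 0 → n = 0 ∨ x = 0) →
    ∀ {ℓ : ℕ} [Fact ℓ.Prime] {𝔽 : Type} [Field 𝔽] [CharP 𝔽 ℓ] (θ : 𝕋 →+* 𝔽),
    ∃ (𝒪 : Type) (_ : CommRing 𝒪) (_ : IsDomain 𝒪) (_ : IsDiscreteValuationRing 𝒪)
      (_ : IsAdicComplete (maximalIdeal 𝒪) 𝒪) (_ : Finite (ResidueField 𝒪)) (_ : CharZero 𝒪)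
      (Θ : 𝕋 →+* 𝒪), (ℓ : 𝒪) ∈ maximalIdeal 𝒪 ∧ ∀ x, Θ x ∈ maximalIdeal 𝒪 ↔ θ x = 0

end Fermat.Agent.DS48
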