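import Mathlib

set_option autoImplicit false

/-!
# [RANKIN] local factor

For a sequence `b` with `b 0 = 1`, `b (j+2) = b 1 * b (j+1) - ε * b j`, `‖ε‖ = 1`, the series
`F(T) = ∑ ‖b j‖² T^j` satisfies, whenever it converges at `0 ≤ T ≤ 1/2`,
`F(T) * (1 - A T + T²) * (1 - B T + T²) = 1 - T²` with real `A + B = ‖b 1‖²`, `B ≤ 2`,
and hence `log F(T) ≥ ‖b 1‖² T - 4 T²`.
-/

namespace Fermat.Agent.DS48

open Complex ComplexConjugate

private lemma nsq_cast (z : ℂ) : ((‖z‖ ^ 2 : ℝ) : ℂ) = z * conj z := by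
  rw [Complex.mul_conj']; push_cast; ring

private lemma nsq_cast' (z : ℂ) : ((‖z‖ : ℝ) : ℂ) ^ 2 = z * conj z :=
  (Complex.mul_conj' z).symm

private lemma two_re_cast (z : ℂ) : ((2 * z.re : ℝ) : ℂ) = z + conj z :=
  (Complex.add_conj z).symm

private lemma mul_conj_eq_one {ε : ℂ} (hε : ‖ε‖ = 1) : ε * conj ε = 1 := by
  rw [Complex.mul_conj', hε]; norm_num

/-- the order-4 recurrence satisfied by `‖b j‖²` -/
theorem normSq_rec4 {b : ℕ → ℂ} {ε : ℂ} (hε : ‖ε‖ = 1)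
    (hrec : ∀ j, b (j + 2) = b 1 * b (j + 1) - ε * b j) (j : ℕ) :
    ‖b (j + 4)‖ ^ 2 = ‖b 1‖ ^ 2 * ‖b (j + 3)‖ ^ 2
      - (2 * (b 1 ^ 2 * conj ε).re - 2) * ‖b (j + 2)‖ ^ 2
      + ‖b 1‖ ^ 2 * ‖b (j + 1)‖ ^ 2 - ‖b j‖ ^ 2 := by
  have hεε := mul_conj_eq_one hε
  apply Complex.ofReal_injective
  have e2 : b (j + 2) = b 1 * b (j + 1) - ε * b j := hrec j
  have e3 : b (j + 3) = b 1 * (b 1 * b (j + 1) - ε * b j) - ε * b (j + 1) := by
    rw [show j + 3 = (j + 1) + 2 by ring, hrec (j + 1), show j + 1 + 1 = j + 2 by ring, e2]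
  have e4 : b (j + 4) = b 1 * (b 1 * (b 1 * b (j + 1) - ε * b j) - ε * b (j + 1))
      - ε * (b 1 * b (j + 1) - ε * b j) := by
    rw [show j + 4 = (j + 2) + 2 by ring, hrec (j + 2), show j + 2 + 1 = j + 3 by ring, e3, e2]
  have h2re : ((2 * (b 1 ^ 2 * conj ε).re - 2 : ℝ) : ℂ)
      = (b 1 ^ 2 * conj ε) + conj (b 1 ^ 2 * conj ε) - 2 := by
    rw [← two_re_cast]; push_cast; ring
  push_cast [h2re]
  simp only [← Complex.ofReal_pow]
  rw [nsq_cast, nsq_cast, nsq_cast, nsq_cast, nsq_cast, nsq_cast, e4, e3, e2]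
  simp only [map_sub, map_mul, map_pow, Complex.conj_conj]
  generalize b 1 = e1 at *
  generalize conj e1 = f1 at *
  generalize conj ε = f2 at *
  generalize b j = h0 at *
  generalize b (j + 1) = h1 at *
  generalize conj h0 = k0 at *
  generalize conj h1 = k1 at *
  linear_combination (2 * ((e1 * h1 - ε * h0) * (f1 * k1 - f2 * k0)) + e1 * f1 * (h1 * k1)
    - (1 + ε * f2) * (h0 * k0)) * hεε


/-- initial values of `‖b j‖²` -/
theorem normSq_init {b : ℕ → ℂ} {ε : ℂ} (hε : ‖ε‖ = 1) (h0 : b 0 = 1)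
    (hrec : ∀ j, b (j + 2) = b 1 * b (j + 1) - ε * b j) :
    ‖b 2‖ ^ 2 = (‖b 1‖ ^ 2) ^ 2 - 2 * (b 1 ^ 2 * conj ε).re + 1 ∧
    ‖b 3‖ ^ 2 = ‖b 1‖ ^ 2 * ((‖b 1‖ ^ 2) ^ 2 - 4 * (b 1 ^ 2 * conj ε).re + 4) := by
  have hεε := mul_conj_eq_one hε
  have e2 : b 2 = b 1 * b 1 - ε := by
    have := hrec 0
    simpa [h0] using this
  have e3 : b 3 = b 1 * (b 1 * b 1 - ε) - ε * b 1 := by
    have := hrec 1
    simpa [e2] using this
  have h2re : ((2 * (b 1 ^ 2 * conj ε).re : ℝ) : ℂ)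
      = (b 1 ^ 2 * conj ε) + conj (b 1 ^ 2 * conj ε) := two_re_cast _
  have h4re : ((4 * (b 1 ^ 2 * conj ε).re : ℝ) : ℂ)
      = 2 * ((b 1 ^ 2 * conj ε) + conj (b 1 ^ 2 * conj ε)) := by
    rw [← two_re_cast]; push_cast; ring
  constructor
  · apply Complex.ofReal_injective
    push_cast [h2re]
    simp only [nsq_cast']
    rw [e2]
    simp only [map_sub, map_mul, map_pow, Complex.conj_conj]
    generalize b 1 = e1 at *
    generalize conj e1 = f1 at *
    generalize conj ε = f2 at *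
    linear_combination hεε
  · apply Complex.ofReal_injective
    push_cast [h4re]
    simp only [nsq_cast']
    rw [e3]
    simp only [map_sub, map_mul, map_pow, Complex.conj_conj]
    generalize b 1 = e1 at *
    generalize conj e1 = f1 at *
    generalize conj ε = f2 at *
    linear_combination (4 * e1 * f1) * hεε

/-- multiplying a power series satisfying an order-4 palindromic recurrence by its
characteristic polynomial -/
theorem tsum_mul_quartic {t : ℕ → ℝ} {c q T : ℝ}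
    (hrec : ∀ j, t (j + 4) = c * t (j + 3) - q * t (j + 2) + c * t (j + 1) - t j)
    (hsum : Summable fun j => t j * T ^ j) :
    (∑' j, t j * T ^ j) * (1 - c * T + q * T ^ 2 - c * T ^ 3 + T ^ 4) =
      t 0 + (t 1 - c * t 0) * T + (t 2 - c * t 1 + q * t 0) * T ^ 2
        + (t 3 - c * t 2 + q * t 1 - c * t 0) * T ^ 3 := by
  set F := ∑' j, t j * T ^ j with hF
  have hs := hsum.hasSum
  have h0 : HasSum (fun j => t j * T ^ j) F := hs
  have h1 := (hasSum_nat_add_iff' 1).mpr hs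
  have h2 := (hasSum_nat_add_iff' 2).mpr hs
  have h3 := (hasSum_nat_add_iff' 3).mpr hs
  have h4 := (hasSum_nat_add_iff' 4).mpr hs
  have H := ((((h4.sub (h3.mul_left (c * T))).add (h2.mul_left (q * T ^ 2))).sub
    (h1.mul_left (c * T ^ 3))).add (h0.mul_left (T ^ 4)))
  have hz : (fun j => t (j + 4) * T ^ (j + 4) - c * T * (t (j + 3) * T ^ (j + 3))
      + q * T ^ 2 * (t (j + 2) * T ^ (j + 2)) - c * T ^ 3 * (t (j + 1) * T ^ (j + 1))
      + T ^ 4 * (t j * T ^ j)) = fun _ => 0 := by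
    funext j
    rw [hrec j]
    ring
  rw [hz] at H
  have := H.unique hasSum_zero
  simp only [Finset.sum_range_succ, Finset.sum_range_zero, pow_zero, mul_one, pow_one,
    zero_add] at this
  rw [← hF] at this
  linear_combination this


/-- **Local Rankin inequality.** -/
theorem log_localFactor_ge {b : ℕ → ℂ} {ε : ℂ} (hε : ‖ε‖ = 1) (h0 : b 0 = 1)
    (hrec : ∀ j, b (j + 2) = b 1 * b (j + 1) - ε * b j) {T : ℝ} (hT0 : 0 ≤ T) (hT : T ≤ 1 / 2)
    (hsum : Summable fun j => ‖b j‖ ^ 2 * T ^ j) :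
    ‖b 1‖ ^ 2 * T - 4 * T ^ 2 ≤ Real.log (∑' j, ‖b j‖ ^ 2 * T ^ j) := by
  set c : ℝ := ‖b 1‖ ^ 2 with hc
  set R : ℝ := (b 1 ^ 2 * conj ε).re with hR
  set F : ℝ := ∑' j, ‖b j‖ ^ 2 * T ^ j with hF
  have hc0 : 0 ≤ c := by positivity
  have hRc : R ≤ c := by
    calc R ≤ ‖b 1 ^ 2 * conj ε‖ := Complex.re_le_norm _
      _ = c := by rw [norm_mul, norm_pow, RCLike.norm_conj, hε, mul_one]
  obtain ⟨i2, i3⟩ := normSq_init hε h0 hrec
  have ht0 : ‖b 0‖ ^ 2 = 1 := by rw [h0]; simp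
  have key := tsum_mul_quartic (t := fun j => ‖b j‖ ^ 2) (c := c) (q := 2 * R - 2) (T := T)
    (fun j => normSq_rec4 hε hrec j) hsum
  rw [← hF, i2, i3, ht0] at key
  have key' : F * (1 - c * T + (2 * R - 2) * T ^ 2 - c * T ^ 3 + T ^ 4) = 1 - T ^ 2 := by
    rw [key]; ring
  -- factorisation
  set D : ℝ := c ^ 2 - 8 * R + 16 with hD
  have hD0 : (c - 4) ^ 2 ≤ D := by rw [hD]; nlinarith
  have hD0' : 0 ≤ D := le_trans (sq_nonneg _) hD0
  set sD := Real.sqrt D with hsD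
  have hsq : sD ^ 2 = D := Real.sq_sqrt hD0'
  have habs : |c - 4| ≤ sD := Real.abs_le_sqrt hD0
  set A := (c + sD) / 2 with hA
  set B := (c - sD) / 2 with hB
  have hB2 : B ≤ 2 := by
    have := (abs_le.mp habs).2
    rw [hB]; linarith
  have hfac : (1 - A * T + T ^ 2) * (1 - B * T + T ^ 2)
      = 1 - c * T + (2 * R - 2) * T ^ 2 - c * T ^ 3 + T ^ 4 := by
    have hAB : A * B = 2 * R - 4 := by
      rw [hA, hB]
      have : (c + sD) / 2 * ((c - sD) / 2) = (c ^ 2 - sD ^ 2) / 4 := by ring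
      rw [this, hsq, hD]; ring
    have hApB : A + B = c := by rw [hA, hB]; ring
    have : (1 - A * T + T ^ 2) * (1 - B * T + T ^ 2)
        = 1 - (A + B) * T + (2 + A * B) * T ^ 2 - (A + B) * T ^ 3 + T ^ 4 := by ring
    rw [this, hAB, hApB]; ring
  have hF1 : 1 ≤ F := by
    have h := hsum.le_tsum 0 (fun j _ => by positivity)
    simpa [ht0] using h
  have hFpos : 0 < F := lt_of_lt_of_le one_pos hF1
  have hT2 : T ^ 2 ≤ 1 / 4 := by nlinarith
  have hPB : 0 < 1 - B * T + T ^ 2 := by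
    have : (1 - T) ^ 2 ≤ 1 - B * T + T ^ 2 := by nlinarith
    have h2 : 0 < (1 - T) ^ 2 := by
      apply pow_pos; linarith
    linarith
  have hprod : F * ((1 - A * T + T ^ 2) * (1 - B * T + T ^ 2)) = 1 - T ^ 2 := by
    rw [hfac]; exact key'
  have h1T : 0 < 1 - T ^ 2 := by linarith
  have hPA : 0 < 1 - A * T + T ^ 2 := by
    by_contra hneg
    simp only [not_lt] at hneg
    have : F * ((1 - A * T + T ^ 2) * (1 - B * T + T ^ 2)) ≤ 0 := by
      apply mul_nonpos_of_nonneg_of_nonpos hFpos.le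
      exact mul_nonpos_of_nonpos_of_nonneg hneg hPB.le
    linarith
  have hlog : Real.log F = Real.log (1 - T ^ 2) - Real.log (1 - A * T + T ^ 2)
      - Real.log (1 - B * T + T ^ 2) := by
    have : F = (1 - T ^ 2) / ((1 - A * T + T ^ 2) * (1 - B * T + T ^ 2)) := by
      rw [eq_div_iff (mul_pos hPA hPB).ne']; exact hprod
    rw [this, Real.log_div h1T.ne' (mul_pos hPA hPB).ne', Real.log_mul hPA.ne' hPB.ne']
    ring
  have hlA : Real.log (1 - A * T + T ^ 2) ≤ -(A * T) + T ^ 2 := by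
    have := Real.log_le_sub_one_of_pos hPA; linarith
  have hlB : Real.log (1 - B * T + T ^ 2) ≤ -(B * T) + T ^ 2 := by
    have := Real.log_le_sub_one_of_pos hPB; linarith
  have hl1 : -(4 / 3 * T ^ 2) ≤ Real.log (1 - T ^ 2) := by
    have h := Real.one_sub_inv_le_log_of_pos h1T
    have hu0 : 0 ≤ T ^ 2 := sq_nonneg T
    have h2 : (1 - T ^ 2)⁻¹ ≤ 1 + 4 / 3 * T ^ 2 := by
      rw [inv_le_iff_one_le_mul₀ h1T]
      have := mul_nonneg hu0 (sub_nonneg.mpr hT2)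
      linarith
    linarith
  have hApB : A + B = c := by rw [hA, hB]; ring
  have : c * T = A * T + B * T := by rw [← hApB]; ring
  rw [hlog, this]
  have hu0 : 0 ≤ T ^ 2 := sq_nonneg T
  linarith

end Fermat.Agent.DS48
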