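import Mathlib
import Fermat.Agent.Density.Mass_helper4
import Fermat.Agent.DS48.RANKIN_helper3_Local

set_option autoImplicit false

/-!
# [RANKIN] Euler product argument (abstract)

A sequence `b` with a mean-square bound `∑_{n ≤ M} ‖b n‖² ≤ C M` and the Hecke relations
(in the shape of `hT` of S48) at the primes not dividing `N` satisfies
`∑_{p ∤ N} ‖b p‖² p^{-s} ≤ log (1/(s-1)) + B` for `s ∈ (1,2]`.
-/

namespace Fermat.Agent.DS48

open Finset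


/-- **Abel's inequality**: comparing weighted sums through partial sums. -/
theorem abel_sum_le {w a a' : ℕ → ℝ} (hw : Antitone w) (hw0 : ∀ n, 0 ≤ w n)
    (hA : ∀ n, ∑ i ∈ range n, a i ≤ ∑ i ∈ range n, a' i) (n : ℕ) :
    ∑ i ∈ range n, w i * a i ≤ ∑ i ∈ range n, w i * a' i := by
  have h1 := Finset.sum_range_by_parts w a n
  have h2 := Finset.sum_range_by_parts w a' n
  simp only [smul_eq_mul] at h1 h2
  rw [h1, h2]
  have h3 : ∑ i ∈ range (n - 1), (w (i + 1) - w i) * ∑ j ∈ range (i + 1), a' j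
      ≤ ∑ i ∈ range (n - 1), (w (i + 1) - w i) * ∑ j ∈ range (i + 1), a j := by
    apply Finset.sum_le_sum
    intro i _
    apply mul_le_mul_of_nonpos_left (hA (i + 1))
    have := hw (Nat.le_succ i)
    linarith
  have h4 := mul_le_mul_of_nonneg_left (hA n) (hw0 (n - 1))
  linarith

theorem sum_rpow_inv_le {s : ℝ} (hs : 1 < s) (n : ℕ) :
    ∑ i ∈ range n, (((i + 1 : ℕ) : ℝ) ^ s)⁻¹ ≤ 1 + 1 / (s - 1) := by
  rcases Nat.eq_zero_or_pos n with rfl | hn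
  · simp; have : 0 < s - 1 := by linarith
    positivity
  have hanti : AntitoneOn (fun x : ℝ => (x ^ s)⁻¹) (Set.Icc ((1 : ℕ) : ℝ) ((n : ℕ) : ℝ)) := by
    intro x hx y hy hxy
    have hx0 : (0 : ℝ) < x := lt_of_lt_of_le (by norm_num) hx.1
    simp only
    gcongr
  have hint : MeasureTheory.IntegrableOn (fun x : ℝ => (x ^ s)⁻¹) (Set.Ioi ((1 : ℕ) : ℝ)) := by
    have := integrableOn_Ioi_rpow_of_lt (a := -s) (by linarith) (c := 1) one_pos
    rw [Nat.cast_one]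
    refine (this.congr_fun (fun x hx => ?_) measurableSet_Ioi)
    have hx0 : (0 : ℝ) ≤ x := le_trans zero_le_one (le_of_lt hx)
    simp only [Real.rpow_neg hx0]
  have hnn : ∀ t ∈ Set.Ioi ((1 : ℕ) : ℝ), 0 ≤ (fun x : ℝ => (x ^ s)⁻¹) t := by
    intro t ht
    have : (0 : ℝ) ≤ t := le_trans (by norm_num) (le_of_lt ht)
    positivity
  have h := AntitoneOn.sum_Ico_le_integral (f := fun x : ℝ => (x ^ s)⁻¹) (a := 1) (b := n) hanti hint hnn
  have hI : ∫ x in Set.Ioi ((1 : ℕ) : ℝ), (x ^ s)⁻¹ = 1 / (s - 1) := by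
    have := integral_Ioi_rpow_of_lt (a := -s) (by linarith) (c := 1) one_pos
    rw [Nat.cast_one]
    rw [show (∫ x in Set.Ioi (1 : ℝ), (x ^ s)⁻¹) = ∫ x in Set.Ioi (1 : ℝ), x ^ (-s) from ?_, this]
    · simp
      rw [neg_div, ← div_neg]; ring
    · apply MeasureTheory.setIntegral_congr_fun measurableSet_Ioi
      intro x hx
      have hx0 : (0 : ℝ) ≤ x := le_trans zero_le_one (le_of_lt hx)
      simp only [Real.rpow_neg hx0]
  rw [hI] at h
  -- split off the first term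
  have : ∑ i ∈ range n, (((i + 1 : ℕ) : ℝ) ^ s)⁻¹
      = 1 + ∑ i ∈ Ico 1 n, (((i + 1 : ℕ) : ℝ) ^ s)⁻¹ := by
    rw [Finset.range_eq_Ico, Finset.sum_eq_sum_Ico_succ_bot hn]
    simp
  rw [this]
  linarith


/-- A mean-square bound gives summability of the Dirichlet series on `(1,2]` with a bound
`2C/(s-1)`. -/
theorem summable_of_meanSq {a : ℕ → ℝ} (ha : ∀ n, 0 ≤ a n) {C : ℝ} (hC : 0 ≤ C)
    (hms : ∀ M : ℕ, ∑ n ∈ range (M + 1), a n ≤ C * M) {s : ℝ} (hs : 1 < s) (hs2 : s ≤ 2) :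
    Summable (fun n : ℕ => a n * ((n : ℝ) ^ s)⁻¹) ∧
      ∑' n : ℕ, a n * ((n : ℝ) ^ s)⁻¹ ≤ 2 * C / (s - 1) := by
  have hs1 : 0 < s - 1 := by linarith
  set w : ℕ → ℝ := fun i => (((i + 1 : ℕ) : ℝ) ^ s)⁻¹ with hw
  have hwanti : Antitone w := by
    intro i j hij
    simp only [hw]
    have : ((i + 1 : ℕ) : ℝ) ≤ ((j + 1 : ℕ) : ℝ) := by exact_mod_cast Nat.succ_le_succ hij
    have hi : (0 : ℝ) < ((i + 1 : ℕ) : ℝ) := by positivity
    gcongr
  have hw0 : ∀ n, 0 ≤ w n := fun n => by simp only [hw]; positivity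
  have hA : ∀ n, ∑ i ∈ range n, a (i + 1) ≤ ∑ i ∈ range n, C := by
    intro n
    have h1 := hms n
    rw [Finset.sum_range_succ'] at h1
    have h2 := ha 0
    simp only [Finset.sum_const, Finset.card_range, nsmul_eq_mul]
    linarith
  have hpart : ∀ n, ∑ i ∈ range n, a (i + 1) * (((i + 1 : ℕ) : ℝ) ^ s)⁻¹ ≤ 2 * C / (s - 1) := by
    intro n
    have h1 := abel_sum_le hwanti hw0 hA n
    have h2 := sum_rpow_inv_le hs n
    calc ∑ i ∈ range n, a (i + 1) * (((i + 1 : ℕ) : ℝ) ^ s)⁻¹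
        = ∑ i ∈ range n, w i * a (i + 1) := Finset.sum_congr rfl fun i _ => by
          simp only [hw]; ring
      _ ≤ ∑ i ∈ range n, w i * C := h1
      _ = C * ∑ i ∈ range n, (((i + 1 : ℕ) : ℝ) ^ s)⁻¹ := by
          rw [Finset.mul_sum]; exact Finset.sum_congr rfl fun i _ => by simp only [hw]; ring
      _ ≤ C * (1 + 1 / (s - 1)) := mul_le_mul_of_nonneg_left h2 hC
      _ ≤ 2 * C / (s - 1) := by
          rw [div_eq_mul_inv, div_eq_mul_inv]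
          have : 1 ≤ (s - 1)⁻¹ := by
            rw [one_le_inv₀ hs1]; linarith
          nlinarith
  have hnn : ∀ i, 0 ≤ a (i + 1) * (((i + 1 : ℕ) : ℝ) ^ s)⁻¹ := fun i =>
    mul_nonneg (ha _) (by positivity)
  have hsum1 : Summable (fun i : ℕ => a (i + 1) * (((i + 1 : ℕ) : ℝ) ^ s)⁻¹) :=
    summable_of_sum_range_le hnn hpart
  have hsum : Summable (fun n : ℕ => a n * ((n : ℝ) ^ s)⁻¹) :=
    (summable_nat_add_iff 1).mp hsum1
  refine ⟨hsum, ?_⟩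
  rw [hsum.tsum_eq_zero_add]
  have h0 : a 0 * (((0 : ℕ) : ℝ) ^ s)⁻¹ = 0 := by
    rw [Nat.cast_zero, Real.zero_rpow (by linarith), inv_zero, mul_zero]
  rw [h0, zero_add]
  exact Real.tsum_le_of_sum_range_le hnn hpart



/-- the Hecke relation at the primes not dividing `N`, in the shape of `hT` of S48 -/
def CoeffHeckeRel (N : ℕ) (b e : ℕ → ℂ) : Prop :=
  ∀ p : ℕ, p.Prime → ¬ p ∣ N → ∀ n : ℕ,
    b (p * n) + e p * (if p ∣ n then b (n / p) else 0) = b p * b n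

variable {N : ℕ} {b e : ℕ → ℂ}

theorem CoeffHeckeRel.pow_rec (h : CoeffHeckeRel N b e) {p : ℕ} (hp : p.Prime) (hpN : ¬ p ∣ N) (j : ℕ) :
    b (p ^ (j + 2)) = b p * b (p ^ (j + 1)) - e p * b (p ^ j) := by
  have := h p hp hpN (p ^ (j + 1))
  rw [if_pos (dvd_pow_self p (Nat.succ_ne_zero j)), pow_succ p j,
    Nat.mul_div_cancel _ hp.pos] at this
  rw [show p ^ (j + 2) = p * (p ^ j * p) by ring, show p ^ (j + 1) = p ^ j * p by ring]
  linear_combination this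

theorem CoeffHeckeRel.pow_mul (h : CoeffHeckeRel N b e) (h1 : b 1 = 1) {p : ℕ} (hp : p.Prime)
    (hpN : ¬ p ∣ N) {m : ℕ} (hm : ¬ p ∣ m) (j : ℕ) : b (p ^ j * m) = b (p ^ j) * b m := by
  induction j using Nat.twoStepInduction with
  | zero => simp [h1]
  | one =>
    have := h p hp hpN m
    rw [if_neg hm, mul_zero, add_zero] at this
    simpa using this
  | more j ih0 ih1 =>
    have := h p hp hpN (p ^ (j + 1) * m)
    rw [if_pos (Dvd.dvd.mul_right (dvd_pow_self p (Nat.succ_ne_zero j)) m)] at this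
    have hdiv : p ^ (j + 1) * m / p = p ^ j * m := by
      rw [pow_succ, mul_comm (p ^ j) p, mul_assoc, Nat.mul_div_cancel_left _ hp.pos]
    rw [hdiv, ih0, ih1] at this
    rw [show p ^ (j + 2) * m = p * (p ^ (j + 1) * m) by ring, h.pow_rec hp hpN j]
    linear_combination this

theorem CoeffHeckeRel.mul_coprime (h : CoeffHeckeRel N b e) (h1 : b 1 = 1) :
    ∀ n : ℕ, n.Coprime N → ∀ m : ℕ, n.Coprime m → b (n * m) = b n * b m := by
  intro n
  induction n using Nat.recOnPosPrimePosCoprime with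
  | prime_pow p k hp hk =>
    intro hN m hm
    have hpN : ¬ p ∣ N := by
      have := (Nat.coprime_pow_left_iff hk p N).mp hN
      exact (Nat.Prime.coprime_iff_not_dvd hp).mp this
    have hpm : ¬ p ∣ m := by
      have := (Nat.coprime_pow_left_iff hk p m).mp hm
      exact (Nat.Prime.coprime_iff_not_dvd hp).mp this
    exact h.pow_mul h1 hp hpN hpm k
  | zero =>
    intro _ m hm
    have : m = 1 := by simpa using hm
    subst this
    simp [h1]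
  | one =>
    intro _ m _
    simp [h1]
  | coprime a c _ _ hac iha ihc =>
    intro hN m hm
    have haN : a.Coprime N := Nat.Coprime.coprime_mul_right hN
    have hcN : c.Coprime N := Nat.Coprime.coprime_mul_left hN
    have ham : a.Coprime m := Nat.Coprime.coprime_mul_right hm
    have hcm : c.Coprime m := Nat.Coprime.coprime_mul_left hm
    rw [mul_assoc, iha haN (c * m) (Nat.Coprime.mul_right hac ham), ihc hcN m hcm,
      iha haN c hac]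
    ring

/-- the Dirichlet coefficients `[gcd(n,N)=1] ‖b n‖² n^{-s}` -/
noncomputable def rkF (N : ℕ) (b : ℕ → ℂ) (s : ℝ) (n : ℕ) : ℝ :=
  if n.Coprime N then ‖b n‖ ^ 2 * ((n : ℝ) ^ s)⁻¹ else 0

theorem rkF_nonneg (N : ℕ) (b : ℕ → ℂ) (s : ℝ) (n : ℕ) : 0 ≤ rkF N b s n := by
  unfold rkF; split_ifs <;> positivity

theorem rkF_one (h1 : b 1 = 1) (s : ℝ) : rkF N b s 1 = 1 := by
  unfold rkF; simp [h1]

theorem rkF_mul (h : CoeffHeckeRel N b e) (h1 : b 1 = 1) (s : ℝ) {m n : ℕ} (hmn : m.Coprime n) :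
    rkF N b s (m * n) = rkF N b s m * rkF N b s n := by
  unfold rkF
  by_cases hm : m.Coprime N
  · by_cases hn : n.Coprime N
    · rw [if_pos (Nat.Coprime.mul_left hm hn), if_pos hm, if_pos hn, h.mul_coprime h1 m hm n hmn,
        norm_mul, Nat.cast_mul, Real.mul_rpow (Nat.cast_nonneg _) (Nat.cast_nonneg _)]
      rw [mul_inv]; ring
    · rw [if_neg hn, mul_zero, if_neg]
      exact fun hc => hn (Nat.Coprime.coprime_mul_left hc)
  · rw [if_neg hm, zero_mul, if_neg]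
    exact fun hc => hm (Nat.Coprime.coprime_mul_right hc)

theorem rkF_prime_pow {p : ℕ} (hp : p.Prime) (hpN : ¬ p ∣ N) (s : ℝ) (j : ℕ) :
    rkF N b s (p ^ j) = ‖b (p ^ j)‖ ^ 2 * (((p : ℝ) ^ s)⁻¹) ^ j := by
  unfold rkF
  have : (p ^ j).Coprime N := Nat.Coprime.pow_left j ((Nat.Prime.coprime_iff_not_dvd hp).mpr hpN)
  have e : ((p : ℝ) ^ j) ^ s = ((p : ℝ) ^ s) ^ j := by
    rw [← Real.rpow_natCast, ← Real.rpow_mul (Nat.cast_nonneg _), mul_comm (j : ℝ) s,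
      Real.rpow_mul (Nat.cast_nonneg _), Real.rpow_natCast]
  rw [if_pos this, Nat.cast_pow, e, inv_pow]


/-- the key finite inequality -/
theorem sum_primes_le (h : CoeffHeckeRel N b e) (h1 : b 1 = 1)
    (he : ∀ p : ℕ, p.Prime → ¬ p ∣ N → ‖e p‖ = 1) {C : ℝ} (hC : 1 ≤ C)
    (hms : ∀ M : ℕ, ∑ n ∈ range (M + 1), ‖b n‖ ^ 2 ≤ C * M) {s : ℝ} (hs : 1 < s) (hs2 : s ≤ 2)
    (S : Finset ℕ) (hS : ∀ p ∈ S, p.Prime ∧ ¬ p ∣ N) :
    ∑ p ∈ S, ‖b p‖ ^ 2 * ((p : ℝ) ^ s)⁻¹ ≤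
      Real.log (1 / (s - 1)) + (Real.log (2 * C) + 4 * ∑' n : ℕ, ((n : ℝ) ^ 2)⁻¹) := by
  have hs1 : 0 < s - 1 := by linarith
  have hC0 : 0 ≤ C := by linarith
  obtain ⟨hg_sum, hg_le⟩ := summable_of_meanSq (a := fun n => ‖b n‖ ^ 2) (fun n => by positivity)
    hC0 hms hs hs2
  set f := rkF N b s with hf
  have hf0 : ∀ n, 0 ≤ f n := rkF_nonneg N b s
  have hfg : ∀ n, f n ≤ ‖b n‖ ^ 2 * ((n : ℝ) ^ s)⁻¹ := by
    intro n
    simp only [hf, rkF]
    split_ifs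
    · exact le_rfl
    · positivity
  have hf_sum : Summable f := Summable.of_nonneg_of_le hf0 hfg hg_sum
  have hf_norm : Summable (‖f ·‖) := by
    refine hf_sum.congr fun n => ?_
    rw [Real.norm_of_nonneg (hf0 n)]
  have hf_le : ∑' n, f n ≤ 2 * C / (s - 1) :=
    le_trans (hf_sum.tsum_le_tsum hfg hg_sum) hg_le
  have hf1 : f 1 = 1 := rkF_one h1 s
  have hmul : ∀ {m n : ℕ}, m.Coprime n → f (m * n) = f m * f n := fun hmn => rkF_mul h h1 s hmn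
  have hprod := EulerProduct.prod_filter_prime_tsum_eq_tsum_factoredNumbers hf1 hmul hf_norm S
  rw [Finset.filter_true_of_mem (fun p hp => (hS p hp).1)] at hprod
  have hle : ∏ p ∈ S, ∑' n : ℕ, f (p ^ n) ≤ 2 * C / (s - 1) := by
    rw [hprod]
    exact le_trans (Summable.tsum_subtype_le f _ hf0 hf_sum) hf_le
  -- local factors
  have hloc : ∀ p ∈ S, ‖b p‖ ^ 2 * ((p : ℝ) ^ s)⁻¹ - 4 * (((p : ℝ) ^ s)⁻¹) ^ 2
      ≤ Real.log (∑' n : ℕ, f (p ^ n)) ∧ 1 ≤ ∑' n : ℕ, f (p ^ n) := by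
    intro p hp
    obtain ⟨hpp, hpN⟩ := hS p hp
    have hp2 : (2 : ℝ) ≤ (p : ℝ) := by exact_mod_cast hpp.two_le
    have hT0 : 0 ≤ ((p : ℝ) ^ s)⁻¹ := by positivity
    have hT : ((p : ℝ) ^ s)⁻¹ ≤ 1 / 2 := by
      rw [one_div]
      apply inv_anti₀ (by norm_num)
      calc (2 : ℝ) ≤ p := hp2
        _ = (p : ℝ) ^ (1 : ℝ) := (Real.rpow_one _).symm
        _ ≤ (p : ℝ) ^ s := Real.rpow_le_rpow_of_exponent_le (by linarith) hs.le
    have hfp : ∀ j, f (p ^ j) = ‖b (p ^ j)‖ ^ 2 * (((p : ℝ) ^ s)⁻¹) ^ j :=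
      fun j => rkF_prime_pow hpp hpN s j
    have hsumj : Summable fun j : ℕ => ‖b (p ^ j)‖ ^ 2 * (((p : ℝ) ^ s)⁻¹) ^ j := by
      have := hf_sum.comp_injective (Nat.pow_right_injective hpp.two_le)
      refine this.congr fun j => ?_
      simp only [Function.comp_apply, hfp]
    have hloc := log_localFactor_ge (b := fun j => b (p ^ j)) (ε := e p) (he p hpp hpN)
      (by simpa using h1) (fun j => by simpa using h.pow_rec hpp hpN j) hT0 hT hsumj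
    simp only [pow_one] at hloc
    have heq : ∑' n : ℕ, f (p ^ n) = ∑' j : ℕ, ‖b (p ^ j)‖ ^ 2 * (((p : ℝ) ^ s)⁻¹) ^ j :=
      tsum_congr hfp
    rw [heq]
    refine ⟨hloc, ?_⟩
    have := hsumj.le_tsum 0 (fun j _ => by positivity)
    simpa [h1] using this
  have hlogprod : Real.log (∏ p ∈ S, ∑' n : ℕ, f (p ^ n)) = ∑ p ∈ S, Real.log (∑' n : ℕ, f (p ^ n)) :=
    Real.log_prod (fun p hp => (lt_of_lt_of_le one_pos (hloc p hp).2).ne')
  have hprodpos : 0 < ∏ p ∈ S, ∑' n : ℕ, f (p ^ n) :=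
    Finset.prod_pos fun p hp => lt_of_lt_of_le one_pos (hloc p hp).2
  have h3 : ∑ p ∈ S, Real.log (∑' n : ℕ, f (p ^ n)) ≤ Real.log (2 * C / (s - 1)) := by
    rw [← hlogprod]
    exact Real.log_le_log hprodpos hle
  have h4 : Real.log (2 * C / (s - 1)) = Real.log (2 * C) + Real.log (1 / (s - 1)) := by
    rw [div_eq_mul_one_div, Real.log_mul (by positivity) (by positivity)]
  have h5 : ∑ p ∈ S, (((p : ℝ) ^ s)⁻¹) ^ 2 ≤ ∑' n : ℕ, ((n : ℝ) ^ 2)⁻¹ := by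
    have hsum2 : Summable fun n : ℕ => ((n : ℝ) ^ 2)⁻¹ :=
      Real.summable_nat_pow_inv.mpr (by norm_num)
    calc ∑ p ∈ S, (((p : ℝ) ^ s)⁻¹) ^ 2 ≤ ∑ p ∈ S, ((p : ℝ) ^ 2)⁻¹ := by
          apply Finset.sum_le_sum
          intro p hp
          obtain ⟨hpp, _⟩ := hS p hp
          have hp1 : (1 : ℝ) ≤ (p : ℝ) := by exact_mod_cast hpp.one_lt.le
          rw [← inv_pow]
          apply pow_le_pow_left₀ (by positivity)
          apply inv_anti₀ (by positivity)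
          calc (p : ℝ) = (p : ℝ) ^ (1 : ℝ) := (Real.rpow_one _).symm
            _ ≤ (p : ℝ) ^ s := Real.rpow_le_rpow_of_exponent_le hp1 hs.le
      _ ≤ ∑' n : ℕ, ((n : ℝ) ^ 2)⁻¹ := hsum2.sum_le_tsum S (fun n _ => by positivity)
  have h6 : ∑ p ∈ S, (‖b p‖ ^ 2 * ((p : ℝ) ^ s)⁻¹ - 4 * (((p : ℝ) ^ s)⁻¹) ^ 2)
      ≤ ∑ p ∈ S, Real.log (∑' n : ℕ, f (p ^ n)) :=
    Finset.sum_le_sum fun p hp => (hloc p hp).1
  rw [Finset.sum_sub_distrib, ← Finset.mul_sum] at h6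
  linarith


/-- **Rankin's bound, abstract form**: mean-square bound + Hecke relations at `p ∤ N` give
`∑_{p ∤ N} ‖b_p‖² p^{-s} ≤ log (1/(s-1)) + B` on `(1,2]`. -/
theorem rankin_abstract (N : ℕ) (b e : ℕ → ℂ) (h1 : b 1 = 1) (h : CoeffHeckeRel N b e)
    (he : ∀ p : ℕ, p.Prime → ¬ p ∣ N → ‖e p‖ = 1)
    (hms : ∃ C : ℝ, ∀ M : ℕ, ∑ n ∈ range (M + 1), ‖b n‖ ^ 2 ≤ C * M) :
    ∃ B : ℝ, ∀ s : ℝ, 1 < s → s ≤ 2 →
      Summable (fun q : Nat.Primes =>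
        (if ¬ (q : ℕ) ∣ N then ‖b q‖ ^ 2 else 0) * (((q : ℕ) : ℝ) ^ s)⁻¹) ∧
      Density.mass (fun q => if ¬ q ∣ N then ‖b q‖ ^ 2 else 0) s ≤ Real.log (1 / (s - 1)) + B := by
  classical
  obtain ⟨C₀, hC₀⟩ := hms
  set C := max C₀ 1 with hCdef
  have hC : 1 ≤ C := le_max_right _ _
  have hms : ∀ M : ℕ, ∑ n ∈ range (M + 1), ‖b n‖ ^ 2 ≤ C * M := fun M =>
    le_trans (hC₀ M) (mul_le_mul_of_nonneg_right (le_max_left _ _) (Nat.cast_nonneg _))
  refine ⟨Real.log (2 * C) + 4 * ∑' n : ℕ, ((n : ℝ) ^ 2)⁻¹, fun s hs hs2 => ?_⟩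
  have hnn : ∀ q : Nat.Primes,
      0 ≤ (if ¬ (q : ℕ) ∣ N then ‖b q‖ ^ 2 else 0) * (((q : ℕ) : ℝ) ^ s)⁻¹ := by
    intro q
    split_ifs <;> positivity
  have hpart : ∀ u : Finset Nat.Primes,
      ∑ q ∈ u, (if ¬ (q : ℕ) ∣ N then ‖b q‖ ^ 2 else 0) * (((q : ℕ) : ℝ) ^ s)⁻¹ ≤
        Real.log (1 / (s - 1)) + (Real.log (2 * C) + 4 * ∑' n : ℕ, ((n : ℝ) ^ 2)⁻¹) := by
    intro u
    set S : Finset ℕ := Finset.image (fun q : Nat.Primes => (q : ℕ))
      (Finset.filter (fun q : Nat.Primes => ¬ (q : ℕ) ∣ N) u) with hSdef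
    have hS : ∀ p ∈ S, p.Prime ∧ ¬ p ∣ N := by
      intro p hp
      rw [hSdef, Finset.mem_image] at hp
      obtain ⟨q, hq, rfl⟩ := hp
      exact ⟨q.2, (Finset.mem_filter.mp hq).2⟩
    have key := sum_primes_le h h1 he hC hms hs hs2 S hS
    have heq : ∑ q ∈ u, (if ¬ (q : ℕ) ∣ N then ‖b q‖ ^ 2 else 0) * (((q : ℕ) : ℝ) ^ s)⁻¹
        = ∑ p ∈ S, ‖b p‖ ^ 2 * ((p : ℝ) ^ s)⁻¹ := by
      have e1 : ∑ p ∈ S, ‖b p‖ ^ 2 * ((p : ℝ) ^ s)⁻¹
          = ∑ q ∈ Finset.filter (fun q : Nat.Primes => ¬ (q : ℕ) ∣ N) u,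
              ‖b (q : ℕ)‖ ^ 2 * (((q : ℕ) : ℝ) ^ s)⁻¹ :=
        Finset.sum_image (f := fun p : ℕ => ‖b p‖ ^ 2 * ((p : ℝ) ^ s)⁻¹)
          (g := fun q : Nat.Primes => (q : ℕ))
          (fun x _ y _ hxy => Nat.Primes.coe_nat_injective hxy)
      rw [e1, Finset.sum_filter]
      refine Finset.sum_congr rfl fun q _ => ?_
      split_ifs <;> simp
    rw [heq]
    exact key
  have hsum : Summable (fun q : Nat.Primes =>
      (if ¬ (q : ℕ) ∣ N then ‖b q‖ ^ 2 else 0) * (((q : ℕ) : ℝ) ^ s)⁻¹) :=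
    summable_of_sum_le hnn hpart
  refine ⟨hsum, ?_⟩
  unfold Density.mass
  exact hsum.tsum_le_of_sum_le hpart

end Fermat.Agent.DS48
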