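import Mathlib

set_option autoImplicit false

/-!
# [RANKIN] mean-square bound for the `q`-coefficients of a cusp form

`∑_{n ≤ M} ‖b_n‖² ≤ C M^k` for a cusp form of weight `k` (Parseval on the line `Im τ = 1/M` and
the bound `‖f τ‖ ≤ C (Im τ)^{-k/2}`).
-/

namespace Fermat.Agent.DS48

open UpperHalfPlane Complex Finset
open scoped Real

local notation "𝕢" => Function.Periodic.qParam

/-- the point `u + i t` of the upper half plane -/
noncomputable def rkHoriz (t : ℝ) (ht : 0 < t) (u : ℝ) : ℍ :=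
  ⟨(u : ℂ) + t * Complex.I, by simpa using ht⟩

theorem continuous_rkHoriz (t : ℝ) (ht : 0 < t) : Continuous (rkHoriz t ht) := by
  unfold rkHoriz
  refine Continuous.upperHalfPlaneMk ?_ _
  fun_prop

theorem im_rkHoriz (t : ℝ) (ht : 0 < t) (u : ℝ) : (rkHoriz t ht u).im = t := by
  simp [rkHoriz, UpperHalfPlane.im]

/-- the horizontal-line Fourier coefficient -/
theorem qExpansion_coeff_eq_exp_mul_fourierCoeffOn {k : ℤ} {Γ : Subgroup (GL (Fin 2) ℝ)}
    {F : Type*} [FunLike F ℍ ℂ] [ModularFormClass F Γ k] (f : F)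
    (hΓ : (1 : ℝ) ∈ Γ.strictPeriods) (n : ℕ) {t : ℝ} (ht : 0 < t) :
    (qExpansion 1 f).coeff n = (Real.exp (2 * π * n * t) : ℂ) *
      fourierCoeffOn (zero_lt_one' ℝ) (fun u : ℝ => f (rkHoriz t ht u)) (n : ℤ) := by
  rw [ModularFormClass.qExpansion_coeff_eq_intervalIntegral f zero_lt_one hΓ n ht,
    fourierCoeffOn_eq_integral, ← intervalIntegral.integral_const_mul]
  simp only [sub_zero, one_div, inv_one, one_smul, ofReal_one, one_mul, smul_eq_mul]
  rw [← intervalIntegral.integral_const_mul]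
  apply intervalIntegral.integral_congr
  intro u _
  simp only
  rw [fourier_coe_apply]
  have : (𝕢 1 ((u : ℂ) + t * Complex.I))⁻¹ ^ n
      = (Real.exp (2 * π * n * t) : ℂ) * Complex.exp (2 * π * Complex.I * ((-(n : ℤ) : ℤ) : ℂ) * u / (1 : ℝ)) := by
    rw [Function.Periodic.qParam, ← Complex.exp_neg, ← Complex.exp_nat_mul, Complex.ofReal_exp,
      ← Complex.exp_add]
    congr 1
    push_cast
    have := Complex.I_mul_I
    ring_nf
    rw [Complex.I_sq]
    ring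
  rw [inv_pow] at this
  rw [this, sub_zero]
  unfold rkHoriz
  ring


/-- **Mean-square bound** for the `q`-coefficients of a cusp form of weight `k`:
`∑_{n ≤ M} ‖b_n‖² ≤ C M^k`. -/
theorem meanSq_qExpansion {k : ℤ} {Γ : Subgroup (GL (Fin 2) ℝ)} [Γ.IsArithmetic]
    {F : Type*} [FunLike F ℍ ℂ] [CuspFormClass F Γ k] (f : F)
    (hΓ : (1 : ℝ) ∈ Γ.strictPeriods) :
    ∃ C : ℝ, ∀ M : ℕ,
      ∑ n ∈ range (M + 1), ‖(qExpansion 1 f).coeff n‖ ^ 2 ≤ C * (M : ℝ) ^ (k : ℝ) := by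
  obtain ⟨C₁, hC₁⟩ := CuspFormClass.exists_bound f
  refine ⟨Real.exp (4 * π) * C₁ ^ 2, fun M => ?_⟩
  rcases Nat.eq_zero_or_pos M with rfl | hM
  · have h0 : (qExpansion 1 f).coeff 0 = 0 :=
      CuspFormClass.qExpansion_coeff_zero f zero_lt_one hΓ
    simp only [zero_add, Finset.range_one, Finset.sum_singleton, h0, norm_zero, ne_eq,
      OfNat.ofNat_ne_zero, not_false_eq_true, zero_pow, Nat.cast_zero]
    have : 0 ≤ (0 : ℝ) ^ (k : ℝ) := Real.rpow_nonneg le_rfl _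
    positivity
  have hM0 : (0 : ℝ) < M := by exact_mod_cast hM
  set t : ℝ := 1 / M with ht_def
  have ht : 0 < t := by positivity
  set G : ℝ → ℂ := fun u => f (rkHoriz t ht u) with hG
  have hfcont : Continuous (f : ℍ → ℂ) := (ModularFormClass.holo f).continuous
  have hGcont : Continuous G := hfcont.comp (continuous_rkHoriz t ht)
  set D : ℝ := C₁ / t ^ ((k : ℝ) / 2) with hD
  have hGbd : ∀ u, ‖G u‖ ≤ D := by
    intro u
    have := hC₁ (rkHoriz t ht u)
    rwa [im_rkHoriz] at this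
  have hD0 : 0 ≤ D := le_trans (norm_nonneg _) (hGbd 0)
  -- Parseval
  have hL2 : MeasureTheory.MemLp G 2 (MeasureTheory.volume.restrict (Set.Ioc (0 : ℝ) 1)) := by
    refine MeasureTheory.MemLp.of_bound hGcont.aestronglyMeasurable D ?_
    exact Filter.Eventually.of_forall hGbd
  have hP := hasSum_sq_fourierCoeffOn (zero_lt_one' ℝ) hL2
  have hint : ∫ x in (0 : ℝ)..1, ‖G x‖ ^ 2 ≤ D ^ 2 := by
    have h1 : ∀ x ∈ Set.Icc (0 : ℝ) 1, ‖G x‖ ^ 2 ≤ D ^ 2 := fun x _ =>
      pow_le_pow_left₀ (norm_nonneg _) (hGbd x) 2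
    have hi1 : IntervalIntegrable (fun x => ‖G x‖ ^ 2) MeasureTheory.volume 0 1 :=
      (hGcont.norm.pow 2).intervalIntegrable _ _
    have hi2 : IntervalIntegrable (fun _ : ℝ => D ^ 2) MeasureTheory.volume 0 1 :=
      continuous_const.intervalIntegrable _ _
    have := intervalIntegral.integral_mono_on (zero_le_one' ℝ) hi1 hi2 h1
    simpa using this
  have hsumle : ∑ n ∈ range (M + 1), ‖fourierCoeffOn (zero_lt_one' ℝ) G (n : ℤ)‖ ^ 2 ≤ D ^ 2 := by
    have h2 := sum_le_hasSum ((range (M + 1)).map Nat.castEmbedding)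
      (fun i _ => by positivity) hP
    rw [Finset.sum_map] at h2
    simp only [sub_zero, inv_one, one_smul, Nat.castEmbedding_apply] at h2
    exact le_trans h2 hint
  -- compare
  have hcoef : ∀ n ∈ range (M + 1), ‖(qExpansion 1 f).coeff n‖ ^ 2
      ≤ Real.exp (4 * π) * ‖fourierCoeffOn (zero_lt_one' ℝ) G (n : ℤ)‖ ^ 2 := by
    intro n hn
    have hnM : (n : ℝ) ≤ M := by exact_mod_cast Nat.lt_succ_iff.mp (Finset.mem_range.mp hn)
    rw [qExpansion_coeff_eq_exp_mul_fourierCoeffOn f hΓ n ht, norm_mul, mul_pow,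
      Complex.norm_real, Real.norm_of_nonneg (Real.exp_pos _).le, ← Real.exp_nat_mul]
    apply mul_le_mul_of_nonneg_right _ (by positivity)
    apply Real.exp_le_exp.mpr
    have : (n : ℝ) * t ≤ 1 := by
      rw [ht_def, mul_one_div]; exact (div_le_one hM0).mpr hnM
    push_cast
    nlinarith [Real.pi_pos]
  calc ∑ n ∈ range (M + 1), ‖(qExpansion 1 f).coeff n‖ ^ 2
      ≤ ∑ n ∈ range (M + 1), Real.exp (4 * π) * ‖fourierCoeffOn (zero_lt_one' ℝ) G (n : ℤ)‖ ^ 2 :=
        Finset.sum_le_sum hcoef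
    _ = Real.exp (4 * π) * ∑ n ∈ range (M + 1), ‖fourierCoeffOn (zero_lt_one' ℝ) G (n : ℤ)‖ ^ 2 :=
        (Finset.mul_sum _ _ _).symm
    _ ≤ Real.exp (4 * π) * D ^ 2 := mul_le_mul_of_nonneg_left hsumle (Real.exp_pos _).le
    _ = Real.exp (4 * π) * C₁ ^ 2 * (M : ℝ) ^ (k : ℝ) := by
        rw [hD, div_pow, ← Real.rpow_natCast (t ^ ((k : ℝ) / 2)) 2, ← Real.rpow_mul ht.le]
        have : (k : ℝ) / 2 * ((2 : ℕ) : ℝ) = k := by push_cast; ring
        rw [this, ht_def, one_div, Real.inv_rpow hM0.le, div_eq_mul_inv, inv_inv]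
        ring

end Fermat.Agent.DS48
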