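import Mathlib
import Fermat.Prelude.Def_FLTPrelim_Modularity
import Fermat.Agent.DS48.RANKIN_helper3_Euler
import Fermat.Agent.DS48.RANKIN_helper3_MeanSq

set_option autoImplicit false

/-!
# [RANKIN] main statements

* `rankin_bound`: for a weight-one cusp form on `Γ₁(N)` satisfying the hypotheses `hf₁`, `hT` of
  S48, `∑_{p ∤ N} ‖a_p‖² p^{-s} ≤ log (1/(s-1)) + B` on `(1,2]` (in the `Density.mass` currency).
* `rankin_exceptional`: finitely many such bounds give an exceptional set of primes of small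
  upper Dirichlet density outside of which `∑_σ ‖b^σ_p‖² ≤ K`.
* `rankin_finite_values`: number-field version, the `a_p` outside the exceptional set lie in a
  finite set.
-/

namespace Fermat.Agent.DS48

open Finset CongruenceSubgroup
open scoped MatrixGroups

/-- **(L)** Rankin's bound for a weight-one eigenform (hypotheses in the shape of S48). -/
theorem rankin_bound (N : ℕ) [NeZero N] (ε : DirichletCharacter ℂ N)
    (f : CuspForm (Gamma1 N) 1) (hf₁ : ModularFormClass.qCoeff f 1 = 1)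
    (hT : ∀ p : ℕ, p.Prime → ¬ p ∣ N → ∀ n : ℕ,
        ModularFormClass.qCoeff f (p * n) +
            ε (p : ZMod N) * (if p ∣ n then ModularFormClass.qCoeff f (n / p) else 0) =
          ModularFormClass.qCoeff f p * ModularFormClass.qCoeff f n) :
    ∃ B : ℝ, ∀ s : ℝ, 1 < s → s ≤ 2 →
      Summable (fun q : Nat.Primes =>
        (if ¬ (q : ℕ) ∣ N then ‖ModularFormClass.qCoeff f q‖ ^ 2 else 0) *
          (((q : ℕ) : ℝ) ^ s)⁻¹) ∧
      Density.mass (fun q => if ¬ q ∣ N then ‖ModularFormClass.qCoeff f q‖ ^ 2 else 0) s ≤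
        Real.log (1 / (s - 1)) + B := by
  refine rankin_abstract N (fun n => ModularFormClass.qCoeff f n) (fun p => ε (p : ZMod N))
    hf₁ hT ?_ ?_
  · intro p hp hpN
    have hcop : Nat.Coprime p N := (Nat.Prime.coprime_iff_not_dvd hp).mpr hpN
    have hu : IsUnit ((p : ℕ) : ZMod N) := (ZMod.isUnit_iff_coprime p N).mpr hcop
    obtain ⟨u, hu⟩ := hu
    rw [← hu]
    exact ε.unit_norm_eq_one u
  · have hΓ : (1 : ℝ) ∈ (Gamma1 N : Subgroup (GL (Fin 2) ℝ)).strictPeriods := by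
      simp [CongruenceSubgroup.strictPeriods_Gamma1]
    obtain ⟨C, hC⟩ := meanSq_qExpansion f hΓ
    refine ⟨C, fun M => ?_⟩
    have := hC M
    simpa [ModularFormClass.qCoeff] using this


open Classical in
/-- **(L2), abstract**: finitely many nonnegative prime-indexed sequences `c σ` with
`mass (c σ) s ≤ log (1/(s-1)) + B_σ` possess, for every `η > 0`, a threshold `K` such that the set
of primes with `K < ∑_σ c σ p` has mass at most `η log (1/(s-1)) + B`. -/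
theorem rankin_exceptional {ι : Type*} [Fintype ι] (c : ι → ℕ → ℝ) (hc0 : ∀ σ p, 0 ≤ c σ p)
    (hL : ∀ σ, ∃ B : ℝ, ∀ s : ℝ, 1 < s → s ≤ 2 →
      Summable (fun q : Nat.Primes => c σ q * (((q : ℕ) : ℝ) ^ s)⁻¹) ∧
      Density.mass (c σ) s ≤ Real.log (1 / (s - 1)) + B)
    {η : ℝ} (hη : 0 < η) :
    ∃ K B : ℝ, 0 < K ∧ ∀ s : ℝ, 1 < s → s ≤ 2 →
      Summable (fun q : Nat.Primes =>
        (if K < ∑ σ, c σ q then (1 : ℝ) else 0) * (((q : ℕ) : ℝ) ^ s)⁻¹) ∧
      Density.mass (fun p => if K < ∑ σ, c σ p then (1 : ℝ) else 0) s ≤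
        η * Real.log (1 / (s - 1)) + B := by
  choose Bσ hBσ using hL
  set r : ℝ := (Fintype.card ι : ℝ) with hr
  set K : ℝ := max 1 (r / η) with hK
  have hK1 : 1 ≤ K := le_max_left _ _
  have hK0 : 0 < K := lt_of_lt_of_le one_pos hK1
  have hrK : r / K ≤ η := by
    rw [div_le_iff₀ hK0]
    have : r / η ≤ K := le_max_right _ _
    rw [div_le_iff₀ hη] at this
    linarith [mul_comm η K]
  refine ⟨K, |∑ σ, Bσ σ|, hK0, fun s hs hs2 => ?_⟩
  have hlog : 0 ≤ Real.log (1 / (s - 1)) := by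
    apply Real.log_nonneg
    rw [le_div_iff₀ (by linarith)]
    linarith
  have hsumσ : ∀ σ, Summable (fun q : Nat.Primes => c σ q * (((q : ℕ) : ℝ) ^ s)⁻¹) :=
    fun σ => (hBσ σ s hs hs2).1
  have hsumtot : Summable (fun q : Nat.Primes => (∑ σ, c σ q) * (((q : ℕ) : ℝ) ^ s)⁻¹) := by
    have : Summable (fun q : Nat.Primes => ∑ σ, c σ q * (((q : ℕ) : ℝ) ^ s)⁻¹) :=
      summable_sum fun σ _ => hsumσ σ
    refine this.congr fun q => ?_
    rw [Finset.sum_mul]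
  have hpt : ∀ q : Nat.Primes,
      (if K < ∑ σ, c σ q then (1 : ℝ) else 0) * (((q : ℕ) : ℝ) ^ s)⁻¹
        ≤ K⁻¹ * ((∑ σ, c σ q) * (((q : ℕ) : ℝ) ^ s)⁻¹) := by
    intro q
    have hpos : (0 : ℝ) ≤ (((q : ℕ) : ℝ) ^ s)⁻¹ := by positivity
    have hsum0 : 0 ≤ ∑ σ, c σ q := Finset.sum_nonneg fun σ _ => hc0 σ q
    rw [← mul_assoc]
    apply mul_le_mul_of_nonneg_right _ hpos
    split_ifs with hlt
    · rw [inv_mul_eq_div, le_div_iff₀ hK0]; linarith
    · positivity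
  have hnn : ∀ q : Nat.Primes,
      0 ≤ (if K < ∑ σ, c σ q then (1 : ℝ) else 0) * (((q : ℕ) : ℝ) ^ s)⁻¹ := by
    intro q
    split_ifs <;> positivity
  have hsumX : Summable (fun q : Nat.Primes =>
      (if K < ∑ σ, c σ q then (1 : ℝ) else 0) * (((q : ℕ) : ℝ) ^ s)⁻¹) :=
    Summable.of_nonneg_of_le hnn hpt (hsumtot.mul_left _)
  refine ⟨hsumX, ?_⟩
  have h1 : Density.mass (fun p => if K < ∑ σ, c σ p then (1 : ℝ) else 0) s
      ≤ K⁻¹ * Density.mass (fun p => ∑ σ, c σ p) s := by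
    unfold Density.mass
    rw [← tsum_mul_left]
    exact hsumX.tsum_le_tsum hpt (hsumtot.mul_left _)
  have h2 : Density.mass (fun p => ∑ σ, c σ p) s = ∑ σ, Density.mass (c σ) s :=
    Density.mass_finset_sum Finset.univ c fun σ _ => hsumσ σ
  have h3 : ∑ σ, Density.mass (c σ) s ≤ r * Real.log (1 / (s - 1)) + ∑ σ, Bσ σ := by
    calc ∑ σ, Density.mass (c σ) s ≤ ∑ σ, (Real.log (1 / (s - 1)) + Bσ σ) :=
          Finset.sum_le_sum fun σ _ => (hBσ σ s hs hs2).2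
      _ = r * Real.log (1 / (s - 1)) + ∑ σ, Bσ σ := by
          rw [Finset.sum_add_distrib, Finset.sum_const, Finset.card_univ, nsmul_eq_mul]
  have hKinv : K⁻¹ ≤ 1 := inv_le_one_of_one_le₀ hK1
  have hKinv0 : 0 ≤ K⁻¹ := by positivity
  calc Density.mass (fun p => if K < ∑ σ, c σ p then (1 : ℝ) else 0) s
      ≤ K⁻¹ * (r * Real.log (1 / (s - 1)) + ∑ σ, Bσ σ) := by
        rw [h2] at h1
        exact le_trans h1 (mul_le_mul_of_nonneg_left h3 hKinv0)
    _ = (r / K) * Real.log (1 / (s - 1)) + K⁻¹ * ∑ σ, Bσ σ := by ring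
    _ ≤ η * Real.log (1 / (s - 1)) + |∑ σ, Bσ σ| := by
        have ha : K⁻¹ * ∑ σ, Bσ σ ≤ |∑ σ, Bσ σ| := by
          calc K⁻¹ * ∑ σ, Bσ σ ≤ K⁻¹ * |∑ σ, Bσ σ| :=
                mul_le_mul_of_nonneg_left (le_abs_self _) hKinv0
            _ ≤ 1 * |∑ σ, Bσ σ| := mul_le_mul_of_nonneg_right hKinv (abs_nonneg _)
            _ = |∑ σ, Bσ σ| := one_mul _
        have hb : (r / K) * Real.log (1 / (s - 1)) ≤ η * Real.log (1 / (s - 1)) :=
          mul_le_mul_of_nonneg_right hrK hlog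
        linarith


open Classical in
/-- **(L2), number-field form**: if `a p ∈ K` are algebraic integers and every complex embedding
`φ` of `K` satisfies Rankin's bound for `‖φ (a p)‖²`, then for every `η > 0` there are a finite
`Y ⊆ K` and a set `X` of primes of mass `≤ η log (1/(s-1)) + B` such that `a p ∈ Y` for all
primes `p ∤ N` outside `X`. -/
theorem rankin_finite_values (K : Type*) [Field K] [NumberField K] (N : ℕ) (a : ℕ → K)
    (hint : ∀ p : ℕ, p.Prime → ¬ p ∣ N → IsIntegral ℤ (a p))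
    (hL : ∀ φ : K →+* ℂ, ∃ B : ℝ, ∀ s : ℝ, 1 < s → s ≤ 2 →
      Summable (fun q : Nat.Primes =>
        (if ¬ (q : ℕ) ∣ N then ‖φ (a q)‖ ^ 2 else 0) * (((q : ℕ) : ℝ) ^ s)⁻¹) ∧
      Density.mass (fun q => if ¬ q ∣ N then ‖φ (a q)‖ ^ 2 else 0) s ≤
        Real.log (1 / (s - 1)) + B)
    {η : ℝ} (hη : 0 < η) :
    ∃ (Y : Set K) (X : Set ℕ) (B : ℝ), Y.Finite ∧
      (∀ s : ℝ, 1 < s → s ≤ 2 →
        Summable (fun q : Nat.Primes =>
          (if (q : ℕ) ∈ X then (1 : ℝ) else 0) * (((q : ℕ) : ℝ) ^ s)⁻¹) ∧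
        Density.mass (fun p => if p ∈ X then (1 : ℝ) else 0) s ≤
          η * Real.log (1 / (s - 1)) + B) ∧
      ∀ p : ℕ, p.Prime → ¬ p ∣ N → p ∉ X → a p ∈ Y := by
  set c : (K →+* ℂ) → ℕ → ℝ := fun φ q => if ¬ q ∣ N then ‖φ (a q)‖ ^ 2 else 0 with hc
  have hc0 : ∀ φ p, 0 ≤ c φ p := by
    intro φ p
    simp only [hc]
    split_ifs <;> positivity
  obtain ⟨T, B, hT0, hTB⟩ := rankin_exceptional c hc0 hL hη
  refine ⟨{x : K | IsIntegral ℤ x ∧ ∀ φ : K →+* ℂ, ‖φ x‖ ≤ Real.sqrt T},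
    {p : ℕ | T < ∑ φ, c φ p}, B, NumberField.Embeddings.finite_of_norm_le K ℂ _, ?_, ?_⟩
  · intro s hs hs2
    exact hTB s hs hs2
  · intro p hp hpN hpX
    refine ⟨hint p hp hpN, fun φ => ?_⟩
    have hle : ∑ ψ, c ψ p ≤ T := not_lt.mp hpX
    have h1 : c φ p ≤ ∑ ψ, c ψ p :=
      Finset.single_le_sum (fun ψ _ => hc0 ψ p) (Finset.mem_univ φ)
    have h2 : ‖φ (a p)‖ ^ 2 ≤ T := by
      have : c φ p = ‖φ (a p)‖ ^ 2 := by simp only [hc, if_pos hpN]
      rw [← this]; exact le_trans h1 hle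
    exact Real.le_sqrt_of_sq_le h2

end Fermat.Agent.DS48
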