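import Fermat.Agent.DS48.ASM_lead_Char
import Fermat.Agent.DS48.RANKIN_helper3_Main
import Fermat.Agent.Density.CHEBD_helper4_Rho

set_option autoImplicit false
set_option linter.style.haveILetI false

/-!
# [ASM] stage G: irreducibility, from Rankin's bound and Chebotarev's density theorem
-/

namespace Fermat.Agent.DS48

open Matrix CongruenceSubgroup ModularFormClass Density
open scoped MatrixGroups

local notation "Ω" => AlgebraicClosure ℚ
local notation "GQ" => (AlgebraicClosure ℚ ≃ₐ[ℚ] AlgebraicClosure ℚ)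

variable {N : ℕ} [NeZero N]

open Classical in
/-- **[ASM] stage G**: a representation of finite level all of whose Frobenius traces at the
primes `p ∤ N` are the coefficients `a_p` of a normalised weight one eigenform has no invariant
line. -/
theorem no_invariant_line (ε : DirichletCharacter ℂ N)
    (f : CuspForm (Gamma1 N) 1) (hf₁ : qCoeff f 1 = 1)
    (hT : ∀ p : ℕ, p.Prime → ¬ p ∣ N → ∀ n : ℕ,
        qCoeff f (p * n) + ε (p : ZMod N) * (if p ∣ n then qCoeff f (n / p) else 0) =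
          qCoeff f p * qCoeff f n)
    (ρ : GQ →* GL (Fin 2) ℂ) (hfl : GaloisFactorsThroughFiniteLevel ρ)
    (hFrob : ∀ p : ℕ, p.Prime → ¬ p ∣ N → ∀ B : ValuationSubring Ω, B.LiesOverPrime p →
      ∀ σ : GQ, B.IsFrobeniusAt σ p →
        ((ρ σ : GL (Fin 2) ℂ) : Matrix (Fin 2) (Fin 2) ℂ).trace = qCoeff f p) :
    ¬ ∃ v : Fin 2 → ℂ, v ≠ 0 ∧
      ∀ g, ∃ c : ℂ, ((ρ g : GL (Fin 2) ℂ) : Matrix (Fin 2) (Fin 2) ℂ).mulVec v = c • v := by
  rintro ⟨v, hv, hline⟩
  haveI : Finite ρ.range := (finite_range_of_factors ρ hfl).to_subtype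
  haveI : Fintype ρ.range := Fintype.ofFinite _
  have hG1 := two_mul_card_le_sum_norm_trace_sq ρ.range.subtype hv (fun g => by
    obtain ⟨σ, hσ⟩ := g.2
    have : ρ.range.subtype g = ρ σ := hσ.symm
    rw [this]
    exact hline σ)
  set tr : ρ.range → ℂ :=
    fun x => ((x : GL (Fin 2) ℂ) : Matrix (Fin 2) (Fin 2) ℂ).trace with htr
  set Tr : Finset ℂ := Finset.univ.image tr with hTr
  set C : ℂ → Set (GL (Fin 2) ℂ) :=
    fun t => {g | (g : Matrix (Fin 2) (Fin 2) ℂ).trace = t} with hC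
  have hCconj : ∀ t, ∀ g ∈ C t, ∀ τ : GQ, ρ τ * g * (ρ τ)⁻¹ ∈ C t := by
    intro t g hg τ
    show ((ρ τ * g * (ρ τ)⁻¹ : GL (Fin 2) ℂ) : Matrix (Fin 2) (Fin 2) ℂ).trace = t
    have e1 : ((ρ τ * g * (ρ τ)⁻¹ : GL (Fin 2) ℂ) : Matrix (Fin 2) (Fin 2) ℂ).trace =
        (g : Matrix (Fin 2) (Fin 2) ℂ).trace := by
      simpa using Matrix.trace_units_conj (ρ τ) (g : Matrix (Fin 2) (Fin 2) ℂ)
    rw [e1]
    exact hg
  set nn : ℂ → ℕ := fun t => Nat.card ↥(C t ∩ Set.range ρ) with hnn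
  have hnn' : ∀ t, nn t = (Finset.univ.filter (fun x : ρ.range => tr x = t)).card := by
    intro t
    have himg : C t ∩ Set.range ρ = Subtype.val '' {x : ρ.range | tr x = t} := by
      ext g
      constructor
      · rintro ⟨hg, hgr⟩
        exact ⟨⟨g, hgr⟩, hg, rfl⟩
      · rintro ⟨x, hx, rfl⟩
        exact ⟨hx, x.2⟩
    show Nat.card ↥(C t ∩ Set.range ρ) = _
    rw [Nat.card_coe_set_eq, himg, Set.ncard_image_of_injective _ Subtype.val_injective,
      Set.ncard_eq_toFinset_card']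
    congr 1
    ext x
    simp
  have hfib : ∑ t ∈ Tr, ‖t‖ ^ 2 * (nn t : ℝ) = ∑ x : ρ.range, ‖tr x‖ ^ 2 := by
    rw [← Finset.sum_fiberwise_of_maps_to (s := Finset.univ) (t := Tr) (g := tr)
      (fun x _ => Finset.mem_image_of_mem _ (Finset.mem_univ x)) (fun x => ‖tr x‖ ^ 2)]
    refine Finset.sum_congr rfl fun t _ => ?_
    rw [hnn' t]
    have : ∀ x ∈ Finset.univ.filter (fun x : ρ.range => tr x = t), ‖tr x‖ ^ 2 = ‖t‖ ^ 2 :=
      fun x hx => by rw [(Finset.mem_filter.mp hx).2]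
    rw [Finset.sum_congr rfl this, Finset.sum_const, nsmul_eq_mul, mul_comm]
  have hNpos : 0 < N := NeZero.pos N
  set T : Finset ℕ := N.primeFactors with hTdef
  set S : ℝ := ∑ t ∈ Tr, ‖t‖ ^ 2 with hS
  have hS0 : 0 ≤ S := Finset.sum_nonneg fun t _ => by positivity
  set ε' : ℝ := 1 / (2 * (S + 1)) with hε'def
  have hε' : 0 < ε' := by positivity
  have hε'S : ε' * S ≤ 1 / 2 := by
    rw [hε'def, div_mul_eq_mul_div, one_mul, div_le_iff₀ (by positivity)]
    linarith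
  have hcheb : ∀ t, ∃ B : ℝ, ∀ s : ℝ, 1 < s → s ≤ 2 →
      |mass (frobInd (ρ ⁻¹' C t) T) s -
        ((nn t : ℝ) / Nat.card ↥(Set.range ρ)) * Real.log (1 / (s - 1))| ≤
        ε' * Real.log (1 / (s - 1)) + B :=
    fun t => chebotarev_density_rho ρ hfl (C t) (hCconj t) T hε'
  choose Bt hBt using hcheb
  obtain ⟨BR, hBR⟩ := rankin_bound N ε f hf₁ hT
  set cR : ℕ → ℝ := fun q => if ¬ q ∣ N then ‖qCoeff f q‖ ^ 2 else 0 with hcR
  have hpt : ∀ q : Nat.Primes,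
      ∑ t ∈ Tr, ‖t‖ ^ 2 * frobInd (ρ ⁻¹' C t) T q ≤ cR q := by
    intro q
    by_cases hqN : (q : ℕ) ∣ N
    · have hqT : (q : ℕ) ∈ T := Nat.mem_primeFactors.mpr ⟨q.2, hqN, hNpos.ne'⟩
      have h0 : ∀ t ∈ Tr, ‖t‖ ^ 2 * frobInd (ρ ⁻¹' C t) T q = 0 := fun t _ => by
        have : frobInd (ρ ⁻¹' C t) T q = 0 := by
          unfold frobInd
          rw [if_neg]
          intro hmem
          exact hmem.2.1 hqT
        rw [this, mul_zero]
      rw [Finset.sum_eq_zero h0]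
      simp only [hcR, hqN, not_true_eq_false, if_false, le_refl]
    · have hterm : ∀ t ∈ Tr, ‖t‖ ^ 2 * frobInd (ρ ⁻¹' C t) T q ≤
          if t = qCoeff f q then ‖qCoeff f q‖ ^ 2 else 0 := by
        intro t _
        unfold frobInd
        split_ifs with h1 h2 h2
        · rw [h2, mul_one]
        · exfalso
          obtain ⟨_, _, B, φ, hB, hφ, hmem⟩ := h1
          have e1 : ((ρ φ : GL (Fin 2) ℂ) : Matrix (Fin 2) (Fin 2) ℂ).trace = t := hmem
          rw [hFrob q q.2 hqN B hB φ hφ] at e1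
          exact h2 e1.symm
        · rw [mul_zero]
          positivity
        · rw [mul_zero]
      refine le_trans (Finset.sum_le_sum hterm) ?_
      rw [Finset.sum_ite_eq']
      simp only [hcR, hqN, not_false_eq_true, if_true]
      split_ifs
      · exact le_refl _
      · positivity
  have hineq : ∀ s : ℝ, 1 < s → s ≤ 2 →
      (1 / 2) * Real.log (1 / (s - 1)) ≤ BR + ∑ t ∈ Tr, ‖t‖ ^ 2 * Bt t := by
    intro s hs1 hs2
    obtain ⟨hsum, hmass⟩ := hBR s hs1 hs2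
    set L := Real.log (1 / (s - 1)) with hL
    have hL0 : 0 ≤ L := log_inv_nonneg hs1 hs2
    have hsum0 : ∀ t, Summable fun q : Nat.Primes =>
        frobInd (ρ ⁻¹' C t) T q * (((q : ℕ) : ℝ) ^ s)⁻¹ :=
      fun t => summable_mass_of_bdd (fun q => abs_frobInd_le _ T q) hs1
    have hsumt : ∀ t ∈ Tr, Summable fun q : Nat.Primes =>
        (‖t‖ ^ 2 * frobInd (ρ ⁻¹' C t) T q) * (((q : ℕ) : ℝ) ^ s)⁻¹ := fun t _ =>
      ((hsum0 t).mul_left (‖t‖ ^ 2)).congr fun q => by ring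
    have h1 : mass (fun q => ∑ t ∈ Tr, ‖t‖ ^ 2 * frobInd (ρ ⁻¹' C t) T q) s =
        ∑ t ∈ Tr, ‖t‖ ^ 2 * mass (frobInd (ρ ⁻¹' C t) T) s := by
      rw [mass_finset_sum Tr (fun t q => ‖t‖ ^ 2 * frobInd (ρ ⁻¹' C t) T q) hsumt]
      exact Finset.sum_congr rfl fun t _ => mass_const_mul _ _ _
    have hsumAll : Summable fun q : Nat.Primes =>
        (∑ t ∈ Tr, ‖t‖ ^ 2 * frobInd (ρ ⁻¹' C t) T q) * (((q : ℕ) : ℝ) ^ s)⁻¹ := by
      have h4 : Summable fun q : Nat.Primes =>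
          ∑ t ∈ Tr, (‖t‖ ^ 2 * frobInd (ρ ⁻¹' C t) T q) * (((q : ℕ) : ℝ) ^ s)⁻¹ :=
        summable_sum hsumt
      refine h4.congr fun q => ?_
      rw [Finset.sum_mul]
    have h2 : mass (fun q => ∑ t ∈ Tr, ‖t‖ ^ 2 * frobInd (ρ ⁻¹' C t) T q) s ≤ mass cR s := by
      unfold mass
      refine Summable.tsum_le_tsum (fun q => ?_) hsumAll hsum
      exact mul_le_mul_of_nonneg_right (hpt q)
        (inv_nonneg.mpr (Real.rpow_nonneg (Nat.cast_nonneg _) _))
    have hcard : (Nat.card ↥(Set.range ρ) : ℝ) = (Fintype.card ρ.range : ℝ) := by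
      have : Nat.card ↥(Set.range ρ) = Nat.card ρ.range := rfl
      rw [this, Nat.card_eq_fintype_card]
    have hcardpos : (0 : ℝ) < (Fintype.card ρ.range : ℝ) := by
      exact_mod_cast Fintype.card_pos
    have h3 : ∀ t ∈ Tr, ‖t‖ ^ 2 * (((nn t : ℝ) / Fintype.card ρ.range) * L - ε' * L - Bt t) ≤
        ‖t‖ ^ 2 * mass (frobInd (ρ ⁻¹' C t) T) s := by
      intro t _
      have := (abs_le.mp (hBt t s hs1 hs2)).1
      rw [hcard] at this
      refine mul_le_mul_of_nonneg_left ?_ (by positivity)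
      linarith
    have h4 := Finset.sum_le_sum h3
    have h5 : ∑ t ∈ Tr, ‖t‖ ^ 2 * (((nn t : ℝ) / Fintype.card ρ.range) * L - ε' * L - Bt t) =
        (∑ t ∈ Tr, ‖t‖ ^ 2 * (nn t : ℝ)) / Fintype.card ρ.range * L - ε' * S * L -
          ∑ t ∈ Tr, ‖t‖ ^ 2 * Bt t := by
      rw [hS, Finset.sum_div, Finset.mul_sum, Finset.sum_mul, Finset.sum_mul,
        ← Finset.sum_sub_distrib, ← Finset.sum_sub_distrib]
      refine Finset.sum_congr rfl fun t _ => ?_
      ring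
    rw [h5, hfib] at h4
    have h6 : 2 ≤ (∑ x : ρ.range, ‖tr x‖ ^ 2) / Fintype.card ρ.range := by
      rw [le_div_iff₀ hcardpos]
      exact hG1
    have h7 : 2 * L ≤ (∑ x : ρ.range, ‖tr x‖ ^ 2) / Fintype.card ρ.range * L :=
      mul_le_mul_of_nonneg_right h6 hL0
    have h8 : ε' * S * L ≤ (1 / 2) * L := mul_le_mul_of_nonneg_right hε'S hL0
    rw [← h1] at h4
    linarith
  obtain ⟨s, hs1, hs2, hs⟩ := exists_log_gt (c := 1 / 2) (by norm_num)
    (BR + ∑ t ∈ Tr, ‖t‖ ^ 2 * Bt t)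
  linarith [hineq s hs1 hs2]

end Fermat.Agent.DS48
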