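import Fermat.Agent.DS48.ASM_lead_Rep
import Fermat.Agent.DS48.ASM_lead_Irr

set_option autoImplicit false

/-!
# [ASM] the Deligne–Serre theorem (statement S48) from the existence of the mod `ℓ`
representations attached to the weight two Hecke algebras of `Γ₁(M)` (`ModRepGamma1` = W1)
-/

namespace Fermat.Agent.DS48

open Matrix CongruenceSubgroup ModularFormClass
open scoped MatrixGroups

local notation "Ω" => AlgebraicClosure ℚ
local notation "GQ" => (AlgebraicClosure ℚ ≃ₐ[ℚ] AlgebraicClosure ℚ)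

/-- **Deligne–Serre**, conditional on `ModRepGamma1`. -/
theorem s48_of_modRep (hW : ModRepGamma1)
    (N : ℕ) [NeZero N] (ε : DirichletCharacter ℂ N) (f : CuspForm (Gamma1 N) 1)
    (hf₁ : ModularFormClass.qCoeff f 1 = 1)
    (hT : ∀ p : ℕ, p.Prime → ¬ p ∣ N → ∀ n : ℕ,
        ModularFormClass.qCoeff f (p * n) +
            ε (p : ZMod N) * (if p ∣ n then ModularFormClass.qCoeff f (n / p) else 0) =
          ModularFormClass.qCoeff f p * ModularFormClass.qCoeff f n) :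
    ∃ ρ : GQ →* GL (Fin 2) ℂ, GaloisFactorsThroughFiniteLevel ρ ∧
      (Deformation.matrixRepresentation ρ).IsIrreducible ∧
      ∀ p : ℕ, p.Prime → ¬ p ∣ N →
        ∀ A : ValuationSubring (AlgebraicClosure ℚ), A.LiesOverPrime p →
          (∀ σ ∈ A.inertiaSubgroupIn ℚ, ρ σ = 1) ∧
          ∀ σ : GQ, A.IsFrobeniusAt σ p →
            ((ρ σ : GL (Fin 2) ℂ) : Matrix (Fin 2) (Fin 2) ℂ).trace = ModularFormClass.qCoeff f p ∧
            ((ρ σ : GL (Fin 2) ℂ) : Matrix (Fin 2) (Fin 2) ℂ).det = ε (p : ZMod N) := by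
  obtain ⟨ρ, hfl, hρ⟩ := exists_rep hW ε f hf₁ hT
  exact ⟨ρ, hfl, isIrreducible_of_no_line ρ (no_invariant_line ε f hf₁ hT ρ hfl
    (fun p hp hpN B hB σ hσ => ((hρ p hp hpN B hB).2 σ hσ).1)), hρ⟩

end Fermat.Agent.DS48
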