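import Fermat.Agent.DS48.HECKE1_lead_QExp
import Fermat.Prelude.Thm_UpperHalfPlane_eq_of_forall_qCoeff_eq

set_option autoImplicit false

/-!
# [HECKE1] commutation relations: `⟨d⟩ T_p = T_p ⟨d⟩`, `T_p T_q = T_q T_p`
-/

namespace Fermat.Agent.DS48

open Matrix CongruenceSubgroup ModularForm UpperHalfPlane ModularFormClass
open scoped MatrixGroups ModularForm Manifold

/-- the sum over a system of representatives does not depend on the system -/
theorem sum_slash_eq_of_reps {ι : Type*} [Fintype ι] {k : ℤ}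
    (Γ : Subgroup (GL (Fin 2) ℝ)) (Δ : Set (GL (Fin 2) ℝ)) (r r' : ι → GL (Fin 2) ℝ)
    (hr' : ∀ i, r' i ∈ Δ)
    (hE : ∀ α ∈ Δ, ∃ i, α * (r i)⁻¹ ∈ Γ)
    (hU' : ∀ i j, r' i * (r' j)⁻¹ ∈ Γ → i = j)
    (f : ℍ → ℂ) (hf : ∀ γ ∈ Γ, f ∣[k] γ = f) :
    ∑ i, f ∣[k] r' i = ∑ i, f ∣[k] r i := by
  classical
  choose π hπ using fun i => hE (r' i) (hr' i)
  have hinj : Function.Injective π := by
    intro i j hij
    apply hU'
    have h1 := hπ i
    have h2 := hπ j
    rw [hij] at h1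
    have : r' i * (r' j)⁻¹ = (r' i * (r (π j))⁻¹) * (r' j * (r (π j))⁻¹)⁻¹ := by group
    rw [this]
    exact Γ.mul_mem h1 (Γ.inv_mem h2)
  have hbij : Function.Bijective π := hinj.bijective_of_finite
  have h1 : ∀ i, f ∣[k] r' i = f ∣[k] r (π i) := by
    intro i
    have : r' i = (r' i * (r (π i))⁻¹) * r (π i) := by group
    rw [this, SlashAction.slash_mul, hf _ (hπ i)]
  simp_rw [h1]
  exact Fintype.sum_bijective π hbij _ _ (fun _ => rfl)

/-- conjugation by `σ ∈ Γ₀(N)` preserves `DeltaInt` -/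
theorem DeltaInt.conj_mem {N p : ℕ} {A : Matrix (Fin 2) (Fin 2) ℤ} (hA : A ∈ DeltaInt N p)
    {σ : SL(2, ℤ)} (hσ : σ ∈ Gamma0 N) : (σ⁻¹).1 * A * σ.1 ∈ DeltaInt N p := by
  have hlr := DeltaInt.lowerRight hA
  obtain ⟨hdet, h10, h00⟩ := hA
  rw [Gamma0_mem] at hσ
  have hσdet : ((σ.1 0 0 : ℤ) : ZMod N) * ((σ.1 1 1 : ℤ) : ZMod N) = 1 := by
    have h := congrArg (fun x : ℤ => (x : ZMod N)) σ.2
    rw [Matrix.det_fin_two] at h
    push_cast at h
    rw [hσ, mul_zero, sub_zero] at h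
    exact h
  have hs := Matrix.SpecialLinearGroup.SL2_inv_expl σ
  have hs10 : (σ⁻¹).1 1 0 = - σ.1 1 0 := by
    have := congrArg (fun m : SL(2, ℤ) => m.1 1 0) hs
    simpa using this
  have hs00 : (σ⁻¹).1 0 0 = σ.1 1 1 := by
    have := congrArg (fun m : SL(2, ℤ) => m.1 0 0) hs
    simpa using this
  refine ⟨by rw [Matrix.det_mul, Matrix.det_mul, hdet, (σ⁻¹).2, σ.2]; ring, ?_, ?_⟩
  · simp only [Matrix.mul_apply, Fin.sum_univ_two]
    rw [hs10]
    push_cast
    rw [hσ, h10]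
    ring
  · simp only [Matrix.mul_apply, Fin.sum_univ_two]
    rw [hs00]
    push_cast
    rw [hσ, h10, h00]
    linear_combination hσdet

section reps

variable {N p : ℕ} (hp : p.Prime) (hpN : ¬ p ∣ N) {σ : SL(2, ℤ)} (hσ : σ ∈ Gamma0 N)
  (hσp : ((σ 1 1 : ℤ) : ZMod N) = (p : ZMod N))

/-- the integer matrix of a representative -/
def heckeRepInt (p : ℕ) (σ : SL(2, ℤ)) : Option (Fin p) → Matrix (Fin 2) (Fin 2) ℤ
  | some j => repJ p j
  | none => σ.1 * repD p

theorem heckeRep_val_int {p : ℕ} (hp0 : p ≠ 0) (σ : SL(2, ℤ)) (i : Option (Fin p)) :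
    ((heckeRep p σ i : GL (Fin 2) ℝ) : Matrix (Fin 2) (Fin 2) ℝ) =
      (heckeRepInt p σ i).map (Int.cast : ℤ → ℝ) := by
  rw [heckeRep_val hp0]
  cases i <;> rfl

include hσ hσp in
theorem heckeRepInt_mem (i : Option (Fin p)) : heckeRepInt p σ i ∈ DeltaInt N p := by
  cases i with
  | some j => exact repJ_mem N p j
  | none => exact sigma_repD_mem hσ hσp

include hσ hσp in
theorem heckeRep_mem (hp0 : p ≠ 0) (i : Option (Fin p)) : heckeRep p σ i ∈ DeltaR N p :=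
  ⟨heckeRepInt p σ i, heckeRepInt_mem hσ hσp i, heckeRep_val_int hp0 σ i⟩

include hp hpN hσ hσp in
theorem heckeRep_exists (α : GL (Fin 2) ℝ) (hα : α ∈ DeltaR N p) :
    ∃ i, α * (heckeRep p σ i)⁻¹ ∈ (Gamma1 N : Subgroup (GL (Fin 2) ℝ)) := by
  have hp0 : p ≠ 0 := hp.ne_zero
  have hu : IsUnit (p : ZMod N) := by
    rw [ZMod.isUnit_iff_coprime]
    exact (Nat.Prime.coprime_iff_not_dvd hp).mpr hpN
  obtain ⟨A, hA, hαA⟩ := hα
  by_cases h : (p : ℤ) ∣ A 0 0 ∧ (p : ℤ) ∣ A 1 0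
  · obtain ⟨g, hg, hAg⟩ := exists_repD_of_dvd hp hu hA h hσ hσp
    refine ⟨none, mul_inv_mem_of_int_eq hαA (heckeRep_val_int hp0 σ none) hg ?_⟩
    rw [hAg, Matrix.mul_assoc]
    rfl
  · obtain ⟨j, hj, g, hg, hAg⟩ := exists_repJ_of_not_dvd hp hu hA h
    exact ⟨some ⟨j, hj⟩, mul_inv_mem_of_int_eq hαA (heckeRep_val_int hp0 σ (some ⟨j, hj⟩)) hg hAg⟩

include hp in
theorem heckeRep_unique (i j : Option (Fin p))
    (hij : heckeRep p σ i * (heckeRep p σ j)⁻¹ ∈ (Gamma1 N : Subgroup (GL (Fin 2) ℝ))) : i = j := by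
  have hp0 : p ≠ 0 := hp.ne_zero
  obtain ⟨g, -, hg⟩ := int_eq_of_mul_inv_mem (heckeRep_val_int hp0 σ i) (heckeRep_val_int hp0 σ j) hij
  cases i with
  | some a =>
    cases j with
    | some b =>
      have := repJ_unique a.2 b.2 (g := g) hg
      exact congrArg some (Fin.ext this)
    | none =>
      have hg' : repJ p a = g.1 * σ.1 * repD p := by
        rw [Matrix.mul_assoc]; exact hg
      exact (repJ_ne_repD hp hg').elim
  | none =>
    cases j with
    | some b => exact (repD_ne_repJ hp (g := g) (σ := σ) hg).elim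
    | none => rfl

include hp hpN hσ hσp in
/-- **`T_p` commutes with slashing by `τ ∈ Γ₀(N)`** (function level) -/
theorem heckeT1Fun_slash_Gamma0 {k : ℤ} (f : ℍ → ℂ)
    (hf : ∀ γ ∈ (Gamma1 N : Subgroup (GL (Fin 2) ℝ)), f ∣[k] γ = f)
    {τ : SL(2, ℤ)} (hτ : τ ∈ Gamma0 N) :
    (heckeT1Fun k p σ f) ∣[k] τ = heckeT1Fun k p σ (f ∣[k] τ) := by
  have hp0 : p ≠ 0 := hp.ne_zero
  set T : GL (Fin 2) ℝ := Matrix.SpecialLinearGroup.mapGL ℝ τ with hT
  have hτT : ∀ F : ℍ → ℂ, F ∣[k] τ = F ∣[k] T := fun F => rfl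
  rw [heckeT1Fun_eq_sum, heckeT1Fun_eq_sum]
  rw [hτT, SlashAction.sum_slash]
  -- conjugated representatives
  set r' : Option (Fin p) → GL (Fin 2) ℝ := fun i => T⁻¹ * heckeRep p σ i * T with hr'
  have h1 : ∀ i, (f ∣[k] heckeRep p σ i) ∣[k] T = (f ∣[k] τ) ∣[k] r' i := by
    intro i
    rw [hτT, ← SlashAction.slash_mul, ← SlashAction.slash_mul]
    congr 1
    rw [hr']
    group
  simp_rw [h1]
  refine sum_slash_eq_of_reps (Gamma1 N : Subgroup (GL (Fin 2) ℝ)) (DeltaR N p)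
    (heckeRep p σ) r' ?_ (heckeRep_exists hp hpN hσ hσp) ?_ (f ∣[k] T)
    (slash_Gamma0_invariant hτ f hf)
  · intro i
    refine ⟨(τ⁻¹).1 * heckeRepInt p σ i * τ.1,
      DeltaInt.conj_mem (heckeRepInt_mem hσ hσp i) hτ, ?_⟩
    rw [hr', Units.val_mul, Units.val_mul, heckeRep_val_int hp0, hT, ← map_inv, mapGL_val, mapGL_val,
      map_intCast_mul, map_intCast_mul]
  · intro i j hij
    apply heckeRep_unique hp (σ := σ) (N := N)
    obtain ⟨g, hg, hge⟩ := hij
    refine ⟨τ * g * τ⁻¹, conj_mem_Gamma1 hτ hg, ?_⟩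
    have e1 : (Matrix.SpecialLinearGroup.mapGL ℝ) (τ * g * τ⁻¹) = T * (r' i * (r' j)⁻¹) * T⁻¹ := by
      rw [map_mul, map_mul, hge, map_inv]
    rw [e1, hr']
    group

end reps

variable {N : ℕ} [NeZero N]

/-- **`⟨d⟩` commutes with `T_p`** -/
theorem diamond_heckeT1_comm (k : ℤ) (d : (ZMod N)ˣ) {p : ℕ} (hp : p.Prime) (hpN : ¬ p ∣ N) :
    (diamond k d).comp (heckeT1 k hp hpN) = (heckeT1 k hp hpN).comp (diamond k d) := by
  apply LinearMap.ext
  intro f
  apply DFunLike.coe_injective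
  show (heckeT1Fun k p (sigmaOf N (primeUnit N hp hpN)) ⇑f) ∣[k] (sigmaOf N d) =
    heckeT1Fun k p (sigmaOf N (primeUnit N hp hpN)) (⇑f ∣[k] (sigmaOf N d))
  exact heckeT1Fun_slash_Gamma0 hp hpN (sigmaOf_mem _) (sigmaOf_primeUnit_lowerRight hp hpN) ⇑f
    (fun g hg => SlashInvariantFormClass.slash_action_eq f g hg) (sigmaOf_mem d)

theorem diamond_heckeT1_apply (k : ℤ) (d : (ZMod N)ˣ) {p : ℕ} (hp : p.Prime) (hpN : ¬ p ∣ N)
    (f : CuspForm (Gamma1 N) k) :
    diamond k d (heckeT1 k hp hpN f) = heckeT1 k hp hpN (diamond k d f) :=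
  LinearMap.congr_fun (diamond_heckeT1_comm k d hp hpN) f

theorem diamond_comm_apply (k : ℤ) (d d' : (ZMod N)ˣ) (f : CuspForm (Gamma1 N) k) :
    diamond k d (diamond k d' f) = diamond k d' (diamond k d f) := by
  have h := LinearMap.congr_fun (diamond_comm k d d') f
  rw [LinearMap.comp_apply, LinearMap.comp_apply] at h
  exact h

/-- two cusp forms on `Γ₁(N)` with the same `q`-coefficients are equal -/
theorem cuspForm_ext_qCoeff {k : ℤ} {f g : CuspForm (Gamma1 N) k}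
    (h : ∀ n, qCoeff f n = qCoeff g n) : f = g := by
  apply DFunLike.coe_injective
  exact UpperHalfPlane.eq_of_forall_qCoeff_eq (periodic_cuspForm f) (CuspFormClass.holo f)
    (isBoundedAtImInfty_cuspForm f) (periodic_cuspForm g) (CuspFormClass.holo g)
    (isBoundedAtImInfty_cuspForm g) h

/-- the coefficient-level Hecke operator with two input sequences -/
def coeffT2 (P : ℂ) (p : ℕ) (a a' : ℕ → ℂ) (n : ℕ) : ℂ :=
  a (n * p) + if p ∣ n then P * a' (n / p) else 0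

theorem coeffT2_comm {p q : ℕ} (hp : p.Prime) (hq : q.Prime) (hpq : p ≠ q) (P Q : ℂ)
    (a b c d : ℕ → ℂ) (n : ℕ) :
    coeffT2 P p (coeffT2 Q q a c) (coeffT2 Q q b d) n =
      coeffT2 Q q (coeffT2 P p a b) (coeffT2 P p c d) n := by
  have hpq' : ¬ p ∣ q := fun h => hpq ((Nat.prime_dvd_prime_iff_eq hp hq).mp h)
  have hqp' : ¬ q ∣ p := fun h => hpq ((Nat.prime_dvd_prime_iff_eq hq hp).mp h).symm
  have hp0 := hp.pos
  have hq0 := hq.pos
  have e1 : ∀ m, q ∣ m * p ↔ q ∣ m := fun m =>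
    ⟨fun h => (hq.dvd_mul.mp h).resolve_right hqp', fun h => Dvd.dvd.mul_right h p⟩
  have e2 : ∀ m, p ∣ m * q ↔ p ∣ m := fun m =>
    ⟨fun h => (hp.dvd_mul.mp h).resolve_right hpq', fun h => Dvd.dvd.mul_right h q⟩
  unfold coeffT2
  simp only [e1, e2]
  by_cases h1 : p ∣ n <;> by_cases h2 : q ∣ n
  · obtain ⟨m, rfl⟩ := h1
    have h2' : q ∣ m := (hq.dvd_mul.mp h2).resolve_left hqp'
    obtain ⟨l, rfl⟩ := h2'
    have d1 : p * (q * l) / p = q * l := Nat.mul_div_cancel_left _ hp0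
    have d2 : p * (q * l) / q = p * l := by
      rw [show p * (q * l) = q * (p * l) by ring, Nat.mul_div_cancel_left _ hq0]
    have d3 : p * (q * l) * p / q = p * l * p := by
      rw [show p * (q * l) * p = q * (p * l * p) by ring, Nat.mul_div_cancel_left _ hq0]
    have d4 : p * (q * l) * q / p = q * l * q := by
      rw [show p * (q * l) * q = p * (q * l * q) by ring, Nat.mul_div_cancel_left _ hp0]
    have d5 : q * l / q = l := Nat.mul_div_cancel_left _ hq0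
    have d6 : p * l / p = l := Nat.mul_div_cancel_left _ hp0
    have t1 : p ∣ p * (q * l) := dvd_mul_right _ _
    have t2 : q ∣ p * (q * l) := h2
    have t3 : q ∣ q * l := dvd_mul_right _ _
    have t4 : p ∣ p * l := dvd_mul_right _ _
    simp only [t1, t2, if_true, d1, d2, d3, d4, t3, t4, d5, d6]
    rw [show p * (q * l) * p * q = p * (q * l) * q * p by ring]
    ring
  · obtain ⟨m, rfl⟩ := h1
    have h2' : ¬ q ∣ m := fun h => h2 (Dvd.dvd.mul_left h p)
    have d1 : p * m / p = m := Nat.mul_div_cancel_left _ hp0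
    have d4 : p * m * q / p = m * q := by
      rw [show p * m * q = p * (m * q) by ring, Nat.mul_div_cancel_left _ hp0]
    have t1 : p ∣ p * m := dvd_mul_right _ _
    simp only [t1, h2, h2', if_true, if_false, d1, d4, add_zero]
    rw [show p * m * p * q = p * m * q * p by ring]
  · obtain ⟨m, rfl⟩ := h2
    have h1' : ¬ p ∣ m := fun h => h1 (Dvd.dvd.mul_left h q)
    have d1 : q * m / q = m := Nat.mul_div_cancel_left _ hq0
    have d4 : q * m * p / q = m * p := by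
      rw [show q * m * p = q * (m * p) by ring, Nat.mul_div_cancel_left _ hq0]
    have t1 : q ∣ q * m := dvd_mul_right _ _
    simp only [t1, h1, h1', if_true, if_false, d1, d4, add_zero]
    rw [show q * m * p * q = q * m * q * p by ring]
  · simp only [h1, h2, if_false, add_zero]
    rw [show n * p * q = n * q * p by ring]


theorem qCoeff_heckeT1_eq_coeffT2 (k : ℤ) {p : ℕ} (hp : p.Prime) (hpN : ¬ p ∣ N)
    (f : CuspForm (Gamma1 N) k) (n : ℕ) :
    qCoeff (heckeT1 k hp hpN f) n =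
      coeffT2 ((p : ℂ) ^ (k - 1)) p (qCoeff f) (qCoeff (diamond k (primeUnit N hp hpN) f)) n :=
  qCoeff_heckeT1 k hp hpN f n

/-- **`T_p T_q = T_q T_p`** -/
theorem heckeT1_comm (k : ℤ) {p q : ℕ} (hp : p.Prime) (hpN : ¬ p ∣ N) (hq : q.Prime)
    (hqN : ¬ q ∣ N) :
    (heckeT1 k hp hpN).comp (heckeT1 k hq hqN) = (heckeT1 k hq hqN).comp (heckeT1 k hp hpN) := by
  by_cases hpq : p = q
  · subst hpq; rfl
  apply LinearMap.ext
  intro f
  apply cuspForm_ext_qCoeff
  intro n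
  simp only [LinearMap.comp_apply]
  have e3 : (diamond k (primeUnit N hp hpN)) ((diamond k (primeUnit N hq hqN)) f) =
      (diamond k (primeUnit N hq hqN)) ((diamond k (primeUnit N hp hpN)) f) :=
    diamond_comm_apply k (primeUnit N hp hpN) (primeUnit N hq hqN) f
  rw [qCoeff_heckeT1_eq_coeffT2, qCoeff_heckeT1_eq_coeffT2 k hq hqN (heckeT1 k hp hpN f)]
  have h1 : qCoeff (heckeT1 k hq hqN f) = coeffT2 ((q : ℂ) ^ (k - 1)) q (qCoeff f)
      (qCoeff (diamond k (primeUnit N hq hqN) f)) := funext fun m =>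
    qCoeff_heckeT1_eq_coeffT2 k hq hqN f m
  have h2 : qCoeff (heckeT1 k hp hpN f) = coeffT2 ((p : ℂ) ^ (k - 1)) p (qCoeff f)
      (qCoeff (diamond k (primeUnit N hp hpN) f)) := funext fun m =>
    qCoeff_heckeT1_eq_coeffT2 k hp hpN f m
  have h3 : qCoeff (diamond k (primeUnit N hp hpN) (heckeT1 k hq hqN f)) =
      coeffT2 ((q : ℂ) ^ (k - 1)) q (qCoeff (diamond k (primeUnit N hp hpN) f))
        (qCoeff (diamond k (primeUnit N hq hqN) (diamond k (primeUnit N hp hpN) f))) := by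
    rw [diamond_heckeT1_apply]
    exact funext fun m => qCoeff_heckeT1_eq_coeffT2 k hq hqN _ m
  have h4 : qCoeff (diamond k (primeUnit N hq hqN) (heckeT1 k hp hpN f)) =
      coeffT2 ((p : ℂ) ^ (k - 1)) p (qCoeff (diamond k (primeUnit N hq hqN) f))
        (qCoeff (diamond k (primeUnit N hp hpN) (diamond k (primeUnit N hq hqN) f))) := by
    rw [diamond_heckeT1_apply]
    exact funext fun m => qCoeff_heckeT1_eq_coeffT2 k hp hpN _ m
  rw [h1, h2, h3, h4, e3]
  exact coeffT2_comm hp hq hpq _ _ _ _ _ _ n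

end Fermat.Agent.DS48
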