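import Fermat.Agent.DS48.ASM_lead_Resid

set_option autoImplicit false
set_option linter.style.haveILetI false

/-!
# [RED] a common finite extension of two finite fields receiving the same ring with the same kernel
-/

namespace Fermat.Agent.DS48

/-- Two ring homomorphisms with the same kernel from a ring to finite fields become equal in a
common finite extension. -/
theorem exists_common_extension {R : Type*} [Ring R] {F₁ F₂ : Type} [Field F₁] [Field F₂]
    [Finite F₁] [Finite F₂] (θ₁ : R →+* F₁) (θ₂ : R →+* F₂)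
    (hker : ∀ x, θ₁ x = 0 ↔ θ₂ x = 0) :
    ∃ (F' : Type) (_ : Field F') (_ : Finite F') (j₁ : F₁ →+* F') (j₂ : F₂ →+* F'),
      ∀ x, j₁ (θ₁ x) = j₂ (θ₂ x) := by
  obtain ⟨S, hS⟩ := exists_subfield_of_finite_range θ₁ (Set.toFinite _)
  have hθS : ∀ x, θ₁ x ∈ S.toSubring := fun x => by
    show θ₁ x ∈ (S : Set F₁)
    rw [hS]
    exact ⟨x, rfl⟩
  set θ₁' : R →+* S := θ₁.codRestrict S.toSubring hθS with hθ₁'
  have hsurj : Function.Surjective θ₁' := by
    rintro ⟨y, hy⟩
    have hy' : y ∈ (S : Set F₁) := hy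
    rw [hS] at hy'
    obtain ⟨x, rfl⟩ := hy'
    exact ⟨x, rfl⟩
  have hkerle : RingHom.ker θ₁' ≤ RingHom.ker θ₂ := by
    intro x hx
    rw [RingHom.mem_ker] at hx ⊢
    have : θ₁ x = 0 := congrArg Subtype.val hx
    exact (hker x).mp this
  set φ : S →+* F₂ := θ₁'.liftOfSurjective hsurj ⟨θ₂, hkerle⟩ with hφ
  have hφθ : ∀ x, φ (θ₁' x) = θ₂ x := fun x =>
    θ₁'.liftOfRightInverse_comp_apply _ _ ⟨θ₂, hkerle⟩ x
  letI : Algebra S F₂ := φ.toAlgebra
  haveI : Finite S := Finite.of_injective (fun x : S => (x : F₁)) Subtype.val_injective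
  haveI : Module.Finite S F₂ := Module.Finite.of_finite
  haveI : Algebra.IsAlgebraic S F₂ := Algebra.IsAlgebraic.of_finite S F₂
  haveI : Module.IsTorsionFree S F₂ := DivisionSemiring.to_moduleIsTorsionFree
  haveI : Module.IsTorsionFree S (AlgebraicClosure F₁) := DivisionSemiring.to_moduleIsTorsionFree
  set j₂ : F₂ →ₐ[S] AlgebraicClosure F₁ := IsAlgClosed.lift with hj₂
  have hj₂θ : ∀ x, j₂ (θ₂ x) = algebraMap F₁ (AlgebraicClosure F₁) (θ₁ x) := fun x => by
    rw [← hφθ x]
    have : φ (θ₁' x) = algebraMap S F₂ (θ₁' x) := rfl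
    rw [this, AlgHom.commutes]
    rfl
  set F' : IntermediateField F₁ (AlgebraicClosure F₁) :=
    IntermediateField.adjoin F₁ (Set.range j₂) with hF'
  haveI : Finite (Set.range j₂) := Set.finite_range j₂
  haveI : FiniteDimensional F₁ F' :=
    IntermediateField.finiteDimensional_adjoin fun x _ =>
      (Algebra.IsAlgebraic.isAlgebraic x).isIntegral
  haveI : Finite F' := Module.finite_of_finite F₁
  have hj₂mem : ∀ y, j₂ y ∈ F'.toSubring := fun y =>
    IntermediateField.subset_adjoin F₁ _ ⟨y, rfl⟩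
  refine ⟨F', inferInstance, inferInstance, algebraMap F₁ F',
    j₂.toRingHom.codRestrict F'.toSubring hj₂mem, fun x => ?_⟩
  apply Subtype.ext
  exact (hj₂θ x).symm

end Fermat.Agent.DS48
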