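import Fermat.Agent.DS48.Defs_lead

set_option autoImplicit false
set_option linter.style.haveILetI false

/-!
# [RED] semisimplification of a two-dimensional representation
-/

namespace Fermat.Agent.DS48

open Matrix Polynomial

variable {k : Type*} [Field k]

theorem charpoly_eval_eigen_field (M : Matrix (Fin 2) (Fin 2) k) {v : Fin 2 → k} (hv : v ≠ 0)
    {c : k} (h : M.mulVec v = c • v) : c * c - M.trace * c + M.det = 0 := by
  have h1 : (M - c • (1 : Matrix (Fin 2) (Fin 2) k)).mulVec v = 0 := by
    rw [Matrix.sub_mulVec, h, Matrix.smul_mulVec, Matrix.one_mulVec, sub_self]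
  have h2 : (M - c • (1 : Matrix (Fin 2) (Fin 2) k)).det = 0 :=
    Matrix.exists_mulVec_eq_zero_iff.mp ⟨v, hv, h1⟩
  rw [Matrix.det_fin_two] at h2
  simp only [Matrix.sub_apply, Matrix.smul_apply, Matrix.one_apply_eq, smul_eq_mul, mul_one,
    Matrix.one_apply_ne (show (0 : Fin 2) ≠ 1 by decide),
    Matrix.one_apply_ne (show (1 : Fin 2) ≠ 0 by decide), mul_zero, sub_zero] at h2
  rw [Matrix.trace_fin_two, Matrix.det_fin_two]
  linear_combination h2

theorem charpoly_diagonal_two (a b : k) :
    (Matrix.diagonal ![a, b] : Matrix (Fin 2) (Fin 2) k).charpoly =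
      X ^ 2 - C (a + b) * X + C (a * b) := by
  rw [Matrix.charpoly_fin_two, Matrix.trace_fin_two, Matrix.det_fin_two]
  simp

/-- **semisimplification** -/
theorem exists_semisimple {G : Type*} [Group G] (r : G →* GL (Fin 2) k) :
    ∃ r' : G →* GL (Fin 2) k, IsSemisimpleRep r' ∧
      (∀ g, ((r' g : GL (Fin 2) k) : Matrix (Fin 2) (Fin 2) k).charpoly =
        ((r g : GL (Fin 2) k) : Matrix (Fin 2) (Fin 2) k).charpoly) ∧
      ∀ g, r g = 1 → r' g = 1 := by
  classical
  by_cases h : ∃ v : Fin 2 → k, v ≠ 0 ∧
      ∀ g, ∃ c : k, ((r g : GL (Fin 2) k) : Matrix (Fin 2) (Fin 2) k).mulVec v = c • v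
  · obtain ⟨v, hv, hline⟩ := h
    choose c hc using hline
    have hinj := smul_left_injective k hv
    have hc1 : c 1 = 1 := hinj (by
      show c 1 • v = (1 : k) • v
      rw [← hc 1, map_one, one_smul]
      simp)
    have hcmul : ∀ g h, c (g * h) = c g * c h := fun g h => hinj (by
      show c (g * h) • v = (c g * c h) • v
      rw [← hc (g * h), map_mul, Units.val_mul, ← Matrix.mulVec_mulVec, hc h,
        Matrix.mulVec_smul, hc g, smul_smul, mul_comm])
    have hc0 : ∀ g, c g ≠ 0 := fun g h0 => by
      have := hcmul g g⁻¹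
      rw [mul_inv_cancel, hc1, h0, zero_mul] at this
      exact one_ne_zero this
    set d : G → k := fun g => ((r g : GL (Fin 2) k) : Matrix (Fin 2) (Fin 2) k).det with hd
    have hd1 : d 1 = 1 := by simp [hd]
    have hdmul : ∀ g h, d (g * h) = d g * d h := fun g h => by simp [hd]
    let m : G →* Matrix (Fin 2) (Fin 2) k :=
      { toFun := fun g => Matrix.diagonal ![c g, d g / c g]
        map_one' := by
          rw [hc1, hd1, div_one, ← Matrix.diagonal_one]
          congr 1
          ext i
          fin_cases i <;> rfl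
        map_mul' := fun g h => by
          rw [Matrix.diagonal_mul_diagonal]
          congr 1
          ext i
          fin_cases i
          · exact hcmul g h
          · show d (g * h) / c (g * h) = d g / c g * (d h / c h)
            rw [hdmul, hcmul]
            have := hc0 g
            have := hc0 h
            field_simp }
    have hm : ∀ g, ((m.toHomUnits g : (Matrix (Fin 2) (Fin 2) k)ˣ) : Matrix (Fin 2) (Fin 2) k) =
        Matrix.diagonal ![c g, d g / c g] := fun g => rfl
    refine ⟨m.toHomUnits, ?_, fun g => ?_, fun g hg => ?_⟩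
    · intro _
      refine ⟨![1, 0], ![0, 1], ?_, fun g => ⟨c g, ?_⟩, fun g => ⟨d g / c g, ?_⟩⟩
      · rw [LinearIndependent.pair_iff]
        intro s t hst
        have h0 := congrFun hst 0
        have h1 := congrFun hst 1
        simp at h0 h1
        exact ⟨h0, h1⟩
      · show (Matrix.diagonal ![c g, d g / c g]).mulVec ![1, 0] = c g • ![1, 0]
        ext i
        fin_cases i <;> simp [Matrix.mulVec_diagonal]
      · show (Matrix.diagonal ![c g, d g / c g]).mulVec ![0, 1] = (d g / c g) • ![0, 1]
        ext i
        fin_cases i <;> simp [Matrix.mulVec_diagonal]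
    · show (Matrix.diagonal ![c g, d g / c g]).charpoly = _
      rw [charpoly_diagonal_two, Matrix.charpoly_fin_two]
      have h1 := charpoly_eval_eigen_field _ hv (hc g)
      have h2 := hc0 g
      have e1 : c g + d g / c g =
          ((r g : GL (Fin 2) k) : Matrix (Fin 2) (Fin 2) k).trace := by
        field_simp
        linear_combination h1
      have e2 : c g * (d g / c g) =
          ((r g : GL (Fin 2) k) : Matrix (Fin 2) (Fin 2) k).det := by
        field_simp
        rfl
      rw [e1, e2]
    · apply Units.ext
      show Matrix.diagonal ![c g, d g / c g] = 1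
      have hcg : c g = 1 := hinj (by
        show c g • v = (1 : k) • v
        rw [← hc g, hg, one_smul]
        simp)
      have hdg : d g = 1 := by simp [hd, hg]
      rw [hcg, hdg, div_one, ← Matrix.diagonal_one]
      congr 1
      ext i
      fin_cases i <;> rfl
  · exact ⟨r, fun h' => absurd h' h, fun _ => rfl, fun _ hg => hg⟩

end Fermat.Agent.DS48
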