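import Fermat.Agent.DS48.RED_lead_Defs
import Fermat.Agent.DS48.RED_lead_Comp
import Fermat.Agent.DS48.RED_lead_Semi
import Fermat.Agent.DS48.HECKE1_lead_Comm
import Fermat.Agent.S53.L0_helper3_Matrix

set_option autoImplicit false
set_option linter.style.haveILetI false

/-!
# [RED] the mod `ℓ` representations (`ModRepGamma1`) from the `ℓ`-adic ones (`AdicRepGamma1`), the
lifting lemma (`LiftTheta`) and the finiteness of the Hecke algebra
-/

namespace Fermat.Agent.DS48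

open Matrix CongruenceSubgroup Polynomial IsLocalRing
open scoped MatrixGroups

local notation "Ω" => AlgebraicClosure ℚ
local notation "GQ" => (AlgebraicClosure ℚ ≃ₐ[ℚ] AlgebraicClosure ℚ)

section Hecke

variable (M : ℕ) [NeZero M]

/-- the Hecke algebra is commutative -/
theorem hecke1Alg_comm (x y : ↥(hecke1Alg M)) : x * y = y * x := by
  set s : Set (Module.End ℂ (CuspForm (Gamma1 M) 2)) :=
    {t | ∃ (p : ℕ) (hp : p.Prime) (hpM : ¬ p ∣ M), t = heckeT1 2 hp hpM} ∪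
      {t | ∃ d : (ZMod M)ˣ, t = diamond 2 d} with hs
  have hcomm : ∀ a ∈ s, ∀ b ∈ s, a * b = b * a := by
    rintro a (⟨p, hp, hpM, rfl⟩ | ⟨d, rfl⟩) b (⟨q, hq, hqM, rfl⟩ | ⟨d', rfl⟩)
    · exact heckeT1_comm 2 hp hpM hq hqM
    · exact (diamond_heckeT1_comm 2 d' hp hpM).symm
    · exact diamond_heckeT1_comm 2 d hq hqM
    · exact diamond_comm 2 d d'
  letI := Algebra.adjoinCommRingOfComm ℤ hcomm
  have key : ∀ x y : ↥(Algebra.adjoin ℤ s), x * y = y * x := fun x y => mul_comm x y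
  exact key x y

/-- the Hecke algebra is torsion free -/
theorem hecke1Alg_torsionFree (n : ℤ) (x : ↥(hecke1Alg M)) (h : n • x = 0) : n = 0 ∨ x = 0 := by
  by_cases hn : n = 0
  · exact Or.inl hn
  · right
    apply Subtype.ext
    have h1 : n • (x : Module.End ℂ (CuspForm (Gamma1 M) 2)) = 0 := by
      have := congrArg Subtype.val h
      simpa using this
    have h2 : ((n : ℂ)) • (x : Module.End ℂ (CuspForm (Gamma1 M) 2)) = 0 := by
      rw [← h1]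
      exact (Int.cast_smul_eq_zsmul ℂ n _)
    rcases smul_eq_zero.mp h2 with h3 | h3
    · exact absurd (by exact_mod_cast h3) hn
    · exact h3

end Hecke

theorem residue_algebraMap_eq_zero_iff {𝒪 𝒪'' : Type} [CommRing 𝒪] [IsLocalRing 𝒪]
    [CommRing 𝒪''] [IsLocalRing 𝒪''] [Algebra 𝒪 𝒪''] [IsLocalHom (algebraMap 𝒪 𝒪'')] (y : 𝒪) :
    residue 𝒪'' (algebraMap 𝒪 𝒪'' y) = 0 ↔ y ∈ maximalIdeal 𝒪 := by
  rw [residue_eq_zero_iff, mem_maximalIdeal, mem_maximalIdeal, mem_nonunits_iff,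
    mem_nonunits_iff, not_iff_not]
  exact ⟨fun h => isUnit_of_map_unit (algebraMap 𝒪 𝒪'') y h, fun h => h.map _⟩

/-- **[RED]** -/
theorem modRepGamma1_of_adic (hA : AdicRepGamma1) (hL : LiftTheta)
    (hfin : ∀ (M : ℕ) [NeZero M], Module.Finite ℤ ↥(hecke1Alg M)) : ModRepGamma1 := by
  intro M _ hM5 ℓ _ 𝔽 _ _ _ θ
  haveI := hfin M
  obtain ⟨𝒪, i1, i2, i3, i4, i5, i6, Θ, hℓ𝒪, hΘ⟩ :=
    hL (hecke1Alg_comm M) (hecke1Alg_torsionFree M) θ
  letI := i1
  letI := i2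
  letI := i3
  letI := i4
  letI := i5
  letI := i6
  obtain ⟨𝒪'', k1, k2, k3, k4, k5, k6, k7, k8, k9, hinj, ρ, hcp, hunr⟩ :=
    hA M hM5 ℓ 𝒪 hℓ𝒪 Θ
  letI := k1
  letI := k2
  letI := k3
  letI := k4
  letI := k5
  letI := k6
  letI := k7
  letI := k8
  letI := k9
  set θ₂ : ↥(hecke1Alg M) →+* ResidueField 𝒪'' :=
    (residue 𝒪'').comp ((algebraMap 𝒪 𝒪'').comp Θ) with hθ₂
  have hker : ∀ x, θ x = 0 ↔ θ₂ x = 0 := fun x => by
    rw [← hΘ x]
    exact (residue_algebraMap_eq_zero_iff (Θ x)).symm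
  obtain ⟨𝔽', iF, iFin, j₁, j₂, hj⟩ := exists_common_extension θ θ₂ hker
  letI := iF
  letI := iFin
  letI : Algebra 𝔽 𝔽' := j₁.toAlgebra
  set f : 𝒪'' →+* 𝔽' := j₂.comp (residue 𝒪'') with hf
  have hfΘ : ∀ t, f (algebraMap 𝒪 𝒪'' (Θ t)) = algebraMap 𝔽 𝔽' (θ t) := fun t => (hj t).symm
  set b := S53.someBasis ρ with hb
  set r₀ : GQ →* Matrix (Fin 2) (Fin 2) 𝒪'' := S53.matrixOf ρ b with hr₀
  set r₁ : GQ →* Matrix (Fin 2) (Fin 2) 𝔽' := S53.mapMat f r₀ with hr₁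
  set rbar : GQ →* GL (Fin 2) 𝔽' := r₁.toHomUnits with hrbar
  have hrbar_val : ∀ σ, ((rbar σ : GL (Fin 2) 𝔽') : Matrix (Fin 2) (Fin 2) 𝔽') = (r₀ σ).map f :=
    fun σ => rfl
  have hone : ∀ σ : GQ, ρ.ρ σ = 1 → rbar σ = 1 := fun σ h => by
    apply Units.ext
    rw [hrbar_val]
    have : r₀ σ = 1 := by
      rw [hr₀, S53.matrixOf_eq_toMatrix, h]
      exact LinearMap.toMatrix_one b
    rw [this]
    simp
  obtain ⟨r', hss, hcp', h1'⟩ := exists_semisimple rbar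
  refine ⟨𝔽', iF, iFin, inferInstance, r', ?_, hss, fun q hq hqM hqℓ A hAq => ⟨?_, ?_⟩⟩
  · obtain ⟨L, hLfd, hL⟩ := S53.matCont_matrixOf ρ b 1
    refine ⟨L, hLfd, fun σ hσ => h1' σ ?_⟩
    apply Units.ext
    rw [hrbar_val]
    ext i j
    have h1 := hL σ hσ i j
    rw [pow_one, ← residue_eq_zero_iff, Matrix.sub_apply, map_sub, sub_eq_zero] at h1
    show f (r₀ σ i j) = (1 : Matrix (Fin 2) (Fin 2) 𝔽') i j
    rw [hf, RingHom.comp_apply, h1, Matrix.one_apply, Matrix.one_apply]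
    split_ifs
    · simp
    · simp
  · intro σ hσ
    exact h1' σ (hone σ (hunr q hq hqM hqℓ A hAq σ hσ))
  · intro σ hσ
    rw [hcp' σ, hrbar_val, Matrix.charpoly_map]
    have h2 : (r₀ σ).charpoly = LinearMap.charpoly (ρ.ρ σ) := by
      rw [hr₀, S53.matrixOf_eq_toMatrix]
      exact LinearMap.charpoly_toMatrix (ρ.ρ σ) b
    rw [h2, hcp q hq hqM hqℓ A hAq σ hσ]
    simp only [Polynomial.map_add, Polynomial.map_sub, Polynomial.map_mul, Polynomial.map_pow,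
      Polynomial.map_X, Polynomial.map_C, map_mul, map_natCast, hfΘ, Polynomial.map_natCast]

end Fermat.Agent.DS48
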