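import Fermat.Agent.DS48.HECKE1_lead_Forms

set_option autoImplicit false

/-!
# [DS48] shared definitions: the weight-2 Hecke algebra of `Γ₁(M)` and semisimplicity of a
two-dimensional representation (frozen interface between W1 = [GRΓ1] and [ASM]).
-/

namespace Fermat.Agent.DS48

open Matrix CongruenceSubgroup
open scoped MatrixGroups

/-- The `ℤ`-algebra generated by the `T_p` (`p ∤ M`) and the diamond operators on
`S₂(Γ₁(M))`. -/
noncomputable def hecke1Alg (M : ℕ) [NeZero M] :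
    Subalgebra ℤ (Module.End ℂ (CuspForm (Gamma1 M) 2)) :=
  Algebra.adjoin ℤ
    ({t | ∃ (p : ℕ) (hp : p.Prime) (hpM : ¬ p ∣ M), t = heckeT1 2 hp hpM} ∪
      {t | ∃ d : (ZMod M)ˣ, t = diamond 2 d})

theorem heckeT1_mem_hecke1Alg (M : ℕ) [NeZero M] {p : ℕ} (hp : p.Prime) (hpM : ¬ p ∣ M) :
    heckeT1 2 hp hpM ∈ hecke1Alg M :=
  Algebra.subset_adjoin (Or.inl ⟨p, hp, hpM, rfl⟩)

theorem diamond_mem_hecke1Alg (M : ℕ) [NeZero M] (d : (ZMod M)ˣ) :
    diamond 2 d ∈ hecke1Alg M :=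
  Algebra.subset_adjoin (Or.inr ⟨d, rfl⟩)

/-- A two-dimensional representation is semisimple: an invariant line has an invariant
complement. -/
def IsSemisimpleRep {G k : Type*} [Group G] [Field k] (ρ : G →* GL (Fin 2) k) : Prop :=
  (∃ v : Fin 2 → k, v ≠ 0 ∧ ∀ g, ∃ c : k, (ρ g).val.mulVec v = c • v) →
  ∃ v w : Fin 2 → k, LinearIndependent k ![v, w] ∧
    (∀ g, ∃ c : k, (ρ g).val.mulVec v = c • v) ∧ (∀ g, ∃ c : k, (ρ g).val.mulVec w = c • w)

end Fermat.Agent.DS48
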