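import Fermat.Agent.DS48.HECKE1_lead_Forms
import Fermat.Prelude.Thm_UpperHalfPlane_qCoeff_heckeU
import Fermat.Prelude.Thm_UpperHalfPlane_qCoeff_heckeT
import Fermat.Prelude.Thm_ModularForm_isBoundedAtImInfty_heckeT
import Fermat.Prelude.Thm_ModularForm_isBoundedAtImInfty_heckeU
import Fermat.Prelude.Thm_ModularForm_periodic_heckeT_comp_ofComplex
import Fermat.Prelude.Thm_ModularForm_periodic_heckeU_comp_ofComplex

set_option autoImplicit false

namespace Fermat.Agent.DS48

open Matrix CongruenceSubgroup ModularForm UpperHalfPlane ModularFormClass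
open scoped MatrixGroups ModularForm Manifold

variable {N : ℕ} [NeZero N]

theorem one_mem_strictPeriods_Gamma1 (N : ℕ) : (1 : ℝ) ∈
    (Gamma1 N : Subgroup (GL (Fin 2) ℝ)).strictPeriods := by
  simp [CongruenceSubgroup.strictPeriods_Gamma1]

omit [NeZero N] in
theorem periodic_cuspForm {k : ℤ} (f : CuspForm (Gamma1 N) k) :
    Function.Periodic ((f : ℍ → ℂ) ∘ UpperHalfPlane.ofComplex) 1 :=
  SlashInvariantFormClass.periodic_comp_ofComplex f (one_mem_strictPeriods_Gamma1 N)

theorem isBoundedAtImInfty_cuspForm {k : ℤ} (f : CuspForm (Gamma1 N) k) :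
    IsBoundedAtImInfty (f : ℍ → ℂ) :=
  ModularFormClass.bdd_at_infty f

/-- **q-coefficients of `T_p`** on `S_k(Γ₁(N))`. -/
theorem qCoeff_heckeT1 (k : ℤ) {p : ℕ} (hp : p.Prime) (hpN : ¬ p ∣ N)
    (f : CuspForm (Gamma1 N) k) (n : ℕ) :
    qCoeff (heckeT1 k hp hpN f) n =
      qCoeff f (n * p) + (if p ∣ n then (p : ℂ) ^ (k - 1) *
        qCoeff (diamond k (primeUnit N hp hpN) f) (n / p) else 0) := by
  set g := diamond k (primeUnit N hp hpN) f with hg
  have hp0 : p ≠ 0 := hp.ne_zero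
  -- analyticity of the three cusp functions
  have hfper := periodic_cuspForm f
  have hfhol : MDiff (f : ℍ → ℂ) := CuspFormClass.holo f
  have hfbdd := isBoundedAtImInfty_cuspForm f
  have hgper := periodic_cuspForm g
  have hghol : MDiff (g : ℍ → ℂ) := CuspFormClass.holo g
  have hgbdd := isBoundedAtImInfty_cuspForm g
  have aUf : AnalyticAt ℂ (cuspFunction 1 (heckeU k p ⇑f)) 0 :=
    analyticAt_cuspFunction_zero one_pos (periodic_heckeU_comp_ofComplex hfper k p)
      (mdifferentiable_heckeU hfhol k p) (isBoundedAtImInfty_heckeU hfbdd k p)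
  have aUg : AnalyticAt ℂ (cuspFunction 1 (heckeU k p ⇑g)) 0 :=
    analyticAt_cuspFunction_zero one_pos (periodic_heckeU_comp_ofComplex hgper k p)
      (mdifferentiable_heckeU hghol k p) (isBoundedAtImInfty_heckeU hgbdd k p)
  have aTg : AnalyticAt ℂ (cuspFunction 1 (heckeT k p ⇑g)) 0 :=
    analyticAt_cuspFunction_zero one_pos (periodic_heckeT_comp_ofComplex hgper k p)
      (mdifferentiable_heckeT hghol k p) (isBoundedAtImInfty_heckeT hgbdd k p)
  have e : (⇑(heckeT1 k hp hpN f) : ℍ → ℂ) = heckeU k p ⇑f + (heckeT k p ⇑g - heckeU k p ⇑g) := by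
    rw [coe_heckeT1, heckeT_eq_heckeU_add, add_sub_cancel_left]
  have aD : AnalyticAt ℂ (cuspFunction 1 (heckeT k p ⇑g - heckeU k p ⇑g)) 0 := by
    rw [cuspFunction_sub aTg.continuousAt aUg.continuousAt]
    exact aTg.sub aUg
  unfold qCoeff
  rw [e, qExpansion_add aUf aD, qExpansion_sub aTg aUg]
  simp only [map_add, map_sub]
  have h1 := UpperHalfPlane.qCoeff_heckeU hfper hfhol hfbdd k hp0 n
  have h2 := UpperHalfPlane.qCoeff_heckeT hgper hghol hgbdd k hp0 n
  have h3 := UpperHalfPlane.qCoeff_heckeU hgper hghol hgbdd k hp0 n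
  unfold qCoeff at h1 h2 h3
  rw [h1, h2, h3, coeffHeckeU_apply, coeffHeckeT_apply, coeffHeckeU_apply]
  ring

end Fermat.Agent.DS48
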