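/-
PROJECT DS (S48), lead — the final funnel: **S48 from the three open inputs of W1**:
* `hL : LiftTheta` ([LIFTθ]),
* `FixHyp`: every point of `J₁ M` is defined over a finite extension of `ℚ`,
* `ClauseHyp`: the Eichler–Shimura clauses for `J₁ M` at all `ℓ ∤ M p` (helper7's [A5]),
in the literal shapes of helper9's `W1.stageIData₁_of`.
-/
import Fermat.Agent.DS48.ASM_lead_Main
import Fermat.Agent.DS48.RED_lead_Main
import Fermat.Agent.W1.TOP1_lead_Main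
import Fermat.Agent.W1.TOP1_helper9_Inst
import Fermat.Agent.W1.MULT1_helper2_Lattice

set_option autoImplicit false

namespace Fermat.Agent.DS48

open CongruenceSubgroup
open scoped MatrixGroups

local notation "Ω" => AlgebraicClosure ℚ
local notation "GQ" => (AlgebraicClosure ℚ ≃ₐ[ℚ] AlgebraicClosure ℚ)

/-- (fix) for `J₁ M`. -/
def FixHyp (M : ℕ) : Prop :=
  ∀ x : W1.J₁ M, ∃ L : IntermediateField ℚ Ω, FiniteDimensional ℚ L ∧
    ∀ σ : GQ, (∀ a ∈ L, σ a = a) → σ • x = x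

/-- (clause) for `J₁ M` at `p`: the Eichler–Shimura congruences at all `ℓ ∤ M p`. -/
def ClauseHyp (M : ℕ) [NeZero M] (hM : M ≠ 1) (p : ℕ) : Prop :=
  ∀ ℓ : ℕ, (hℓ : ℓ.Prime) → (hℓMp : ¬ ℓ ∣ M * p) →
    ∀ A : ValuationSubring Ω, A.LiesOverPrime ℓ →
      ∃ (Mod : Type) (_ : AddCommGroup Mod) (red : W1.J₁ M →+ Mod) (Fr : Mod →+ Mod) (σ₀ : GQ),
        A.IsFrobeniusAt σ₀ ℓ ∧
        (∀ σ ∈ A.inertiaSubgroupIn ℚ, ∀ x : W1.J₁ M, red (σ • x) = red x) ∧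
        (∀ σ : GQ, A.IsFrobeniusAt σ ℓ → ∀ x : W1.J₁ M, red (σ • x) = Fr (red x)) ∧
        (∀ x : W1.J₁ M,
          red (σ₀ • σ₀ • x - W1.opBar M hM (Sum.inl ⟨ℓ, hℓ⟩) (σ₀ • x) +
            ℓ • W1.opBar M hM (Sum.inr (primeUnit M hℓ
              (fun h => hℓMp (Dvd.dvd.mul_right h p)))) x) = 0) ∧
        (∀ x : W1.J₁ M, (∃ n : ℕ, p ^ n • x = 0) → red x = 0 → x = 0)

theorem modRepGamma1_of_inputs (hL : LiftTheta)
    (hfix : ∀ (M : ℕ) [NeZero M], 5 ≤ M → FixHyp M)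
    (hclause : ∀ (M : ℕ) [NeZero M] (hM : M ≠ 1), 5 ≤ M → ∀ (p : ℕ) [Fact p.Prime],
      ClauseHyp M hM p) : ModRepGamma1 := by
  refine modRepGamma1_of_adic (W1.adicRepGamma1_of_stageIData₁ ?_) hL
    (fun M _ => W1.hecke1Alg_moduleFinite M)
  intro M _ hM5 p _
  have hM : M ≠ 1 := by omega
  exact ⟨W1.stageIData₁_of M hM p (hfix M hM5) (hclause M hM hM5 p)⟩

/-- **S48 from the open inputs.** -/
theorem s48_of_inputs (hL : LiftTheta)
    (hfix : ∀ (M : ℕ) [NeZero M], 5 ≤ M → FixHyp M)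
    (hclause : ∀ (M : ℕ) [NeZero M] (hM : M ≠ 1), 5 ≤ M → ∀ (p : ℕ) [Fact p.Prime],
      ClauseHyp M hM p)
    (N : ℕ) [NeZero N] (ε : DirichletCharacter ℂ N) (f : CuspForm (Gamma1 N) 1)
    (hf₁ : ModularFormClass.qCoeff f 1 = 1)
    (hT : ∀ p : ℕ, p.Prime → ¬ p ∣ N → ∀ n : ℕ,
        ModularFormClass.qCoeff f (p * n) +
            ε (p : ZMod N) * (if p ∣ n then ModularFormClass.qCoeff f (n / p) else 0) =
          ModularFormClass.qCoeff f p * ModularFormClass.qCoeff f n) :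
    ∃ ρ : GQ →* GL (Fin 2) ℂ, GaloisFactorsThroughFiniteLevel ρ ∧
      (Deformation.matrixRepresentation ρ).IsIrreducible ∧
      ∀ p : ℕ, p.Prime → ¬ p ∣ N →
        ∀ A : ValuationSubring (AlgebraicClosure ℚ), A.LiesOverPrime p →
          (∀ σ ∈ A.inertiaSubgroupIn ℚ, ρ σ = 1) ∧
          ∀ σ : GQ, A.IsFrobeniusAt σ p →
            ((ρ σ : GL (Fin 2) ℂ) : Matrix (Fin 2) (Fin 2) ℂ).trace = ModularFormClass.qCoeff f p ∧
            ((ρ σ : GL (Fin 2) ℂ) : Matrix (Fin 2) (Fin 2) ℂ).det = ε (p : ZMod N) :=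
  s48_of_modRep (modRepGamma1_of_inputs hL hfix hclause) N ε f hf₁ hT

end Fermat.Agent.DS48
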