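/-
DS48 [FINAL-LIFT] (lead): the `LiftTheta` input of `s48_of_inputs` is helper3's
`W1.exists_lift_char_zero`; S48 from the two arithmetic inputs `FixHyp`, `ClauseHyp` alone.
-/
import Fermat.Agent.DS48.FINAL_lead_Glue
import Fermat.Agent.W1.LIFTTH_helper3_Main

set_option autoImplicit false

namespace Fermat.Agent.DS48

open Matrix CongruenceSubgroup

/-- **[LIFTθ]** in the shape consumed by `modRepGamma1_of_adic`. -/
theorem liftTheta_holds : LiftTheta := by
  intro 𝕋 _ hcomm _ htf ℓ _ 𝔽 _ _ θ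
  exact W1.exists_lift_char_zero hcomm htf θ

/-- `ModRepGamma1` from `FixHyp` and `ClauseHyp` alone. -/
theorem modRepGamma1_of_fix_clause
    (hfix : ∀ (M : ℕ) [NeZero M], 5 ≤ M → FixHyp M)
    (hclause : ∀ (M : ℕ) [NeZero M] (hM : M ≠ 1), 5 ≤ M → ∀ (p : ℕ) [Fact p.Prime],
      ClauseHyp M hM p) : ModRepGamma1 :=
  modRepGamma1_of_inputs liftTheta_holds hfix hclause

end Fermat.Agent.DS48
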