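/-
[GRP-2] (DS48), helper4 — main theorem `grp2`: a finite subgroup `G` of `GL₂(k)` of order prime to
the characteristic, a proportion `≥ 1 - η` (`η < 1/2`) of whose elements have at most `M` distinct
characteristic polynomials, has order at most `grp2Bound η M`.

Proof: a pairwise commuting subset of `G` has at most two elements with a given characteristic
polynomial; hence (C1) few scalars, (C2) small centralizers of non-scalar elements (double
counting of conjugates), (C3) the class equation.
-/
import Fermat.Agent.DS48.GRP2_helper4_Mat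

set_option autoImplicit false

namespace Fermat.Agent.DS48.GRP2

open Matrix Finset

section core

variable {k : Type*} [Field k] {Γ : Type*} [Group Γ] (ι : Γ →* GL (Fin 2) k)

/-- the matrix of an element of `Γ` -/
def mat (γ : Γ) : Matrix (Fin 2) (Fin 2) k := ((ι γ : GL (Fin 2) k) : Matrix (Fin 2) (Fin 2) k)

theorem mat_mul (a b : Γ) : mat ι (a * b) = mat ι a * mat ι b := by
  simp [mat]

theorem mat_one : mat ι (1 : Γ) = 1 := by simp [mat]

theorem mat_pow (a : Γ) (n : ℕ) : mat ι (a ^ n) = mat ι a ^ n := by simp [mat]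

theorem mat_injective (hι : Function.Injective ι) : Function.Injective (mat ι) := by
  intro a b h
  apply hι
  exact Units.ext h

theorem commute_of_mat (hι : Function.Injective ι) {a b : Γ}
    (h : mat ι a * mat ι b = mat ι b * mat ι a) : a * b = b * a := by
  apply mat_injective ι hι
  rw [mat_mul, mat_mul, h]

theorem mat_commute {a b : Γ} (h : a * b = b * a) : mat ι a * mat ι b = mat ι b * mat ι a := by
  rw [← mat_mul, h, mat_mul]

theorem charpoly_conj (x a : Γ) : (mat ι (x * a * x⁻¹)).charpoly = (mat ι a).charpoly := by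
  have h := Matrix.charpoly_units_conj (ι x) (mat ι a)
  rw [mat_mul, mat_mul]
  have e : mat ι x⁻¹ = (((ι x)⁻¹ : (Matrix (Fin 2) (Fin 2) k)ˣ) : Matrix (Fin 2) (Fin 2) k) := by
    unfold mat
    rw [map_inv]
  rw [e, Matrix.coe_units_inv]
  exact h

/-- scalar elements -/
def IsScal (γ : Γ) : Prop := ∃ c : k, mat ι γ = c • (1 : Matrix (Fin 2) (Fin 2) k)

theorem eq_or_mat_eq [Fintype Γ] (hι : Function.Injective ι) (hn : (Fintype.card Γ : k) ≠ 0)
    {a b : Γ} (hab : a * b = b * a) (hc : (mat ι a).charpoly = (mat ι b).charpoly) :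
    b = a ∨ mat ι b = (mat ι a).trace • (1 : Matrix (Fin 2) (Fin 2) k) - mat ι a := by
  have h := eq_or_eq_of_charpoly_eq (mat ι a) (mat ι b) (mat_commute ι hab) hn
    (by rw [← mat_pow, pow_card_eq_one, mat_one]) (by rw [← mat_pow, pow_card_eq_one, mat_one]) hc
  rcases h with h | h
  · left; exact mat_injective ι hι h
  · right; exact h

open scoped Classical in
theorem card_filter_charpoly_le_two [Fintype Γ] (hι : Function.Injective ι)
    (hn : (Fintype.card Γ : k) ≠ 0) (S : Finset Γ) (hS : ∀ a ∈ S, ∀ b ∈ S, a * b = b * a)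
    (p : Polynomial k) : (S.filter (fun s => (mat ι s).charpoly = p)).card ≤ 2 := by
  by_contra hlt
  push Not at hlt
  obtain ⟨a, b, c, ha, hb, hc, hab, hac, hbc⟩ := Finset.two_lt_card_iff.mp hlt
  simp only [Finset.mem_filter] at ha hb hc
  rcases eq_or_mat_eq ι hι hn (hS a ha.1 b hb.1) (ha.2.trans hb.2.symm) with h1 | h1
  · exact hab h1.symm
  rcases eq_or_mat_eq ι hι hn (hS a ha.1 c hc.1) (ha.2.trans hc.2.symm) with h2 | h2
  · exact hac h2.symm
  exact hbc (mat_injective ι hι (h1.trans h2.symm))

open scoped Classical in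
/-- a pairwise commuting set meets `H` in at most `2 |PS|` elements -/
theorem card_filter_mem_le [Fintype Γ] (hι : Function.Injective ι)
    (hn : (Fintype.card Γ : k) ≠ 0) (S : Finset Γ) (hS : ∀ a ∈ S, ∀ b ∈ S, a * b = b * a)
    (H : Finset Γ) (PS : Finset (Polynomial k)) (hPS : ∀ h ∈ H, (mat ι h).charpoly ∈ PS) :
    (S.filter (· ∈ H)).card ≤ 2 * PS.card := by
  have h1 := Finset.card_le_mul_card_image (f := fun s => (mat ι s).charpoly)
    (S.filter (· ∈ H)) 2 ?_
  · refine h1.trans (Nat.mul_le_mul_left 2 (Finset.card_le_card ?_))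
    intro p hp
    obtain ⟨s, hs, rfl⟩ := Finset.mem_image.mp hp
    exact hPS s (Finset.mem_filter.mp hs).2
  · intro p _
    refine le_trans (Finset.card_le_card ?_) (card_filter_charpoly_le_two ι hι hn S hS p)
    intro s hs
    simp only [Finset.mem_filter] at hs ⊢
    exact ⟨hs.1.1, hs.2⟩

theorem commute_aux (G : Matrix (Fin 2) (Fin 2) k) (x y x' y' : k) :
    Commute (x • (1 : Matrix (Fin 2) (Fin 2) k) + y • G) (x' • 1 + y' • G) := by
  refine Commute.add_left (Commute.add_right ?_ ?_) (Commute.add_right ?_ ?_)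
  · exact ((Commute.one_left _).smul_left x).smul_right x'
  · exact ((Commute.one_left _).smul_left x).smul_right y'
  · exact ((Commute.one_right _).smul_left y).smul_right x'
  · exact ((Commute.refl G).smul_left y).smul_right y'

/-- the centralizer of a non-scalar element is commutative -/
theorem commute_of_centralizer (hι : Function.Injective ι) {g a b : Γ} (hg : ¬ IsScal ι g)
    (ha : a * g = g * a) (hb : b * g = g * b) : a * b = b * a := by
  obtain ⟨x, y, hxy⟩ := exists_eq_add_smul_of_commute (mat ι g) (mat ι a) hg (mat_commute ι ha)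
  obtain ⟨x', y', hxy'⟩ := exists_eq_add_smul_of_commute (mat ι g) (mat ι b) hg (mat_commute ι hb)
  apply commute_of_mat ι hι
  rw [hxy, hxy']
  exact (commute_aux (mat ι g) x y x' y').eq

/-- the centralizer of a non-scalar element of the centralizer of a non-scalar `g` is
contained in the centralizer of `g` -/
theorem centralizer_subset (hι : Function.Injective ι) {g a b : Γ} (hg : ¬ IsScal ι g)
    (ha : a * g = g * a) (hna : ¬ IsScal ι a) (hb : b * a = a * b) : b * g = g * b := by
  obtain ⟨x, y, hxy⟩ := exists_eq_add_smul_of_commute (mat ι g) (mat ι a) hg (mat_commute ι ha)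
  have hy : y ≠ 0 := by
    rintro rfl
    apply hna
    exact ⟨x, by rw [hxy, zero_smul, add_zero]⟩
  apply commute_of_mat ι hι
  have h1 : mat ι b * mat ι a = mat ι a * mat ι b := mat_commute ι hb
  rw [hxy] at h1
  have h2 : y • (mat ι b * mat ι g) = y • (mat ι g * mat ι b) := by
    rw [mul_add, add_mul, Matrix.mul_smul, Matrix.smul_mul, mul_one, one_mul, Matrix.mul_smul,
      Matrix.smul_mul] at h1
    exact add_left_cancel h1
  exact smul_right_injective _ hy h2

theorem isScal_commute (hι : Function.Injective ι) {z : Γ} (hz : IsScal ι z) (a : Γ) :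
    z * a = a * z := by
  obtain ⟨c, hc⟩ := hz
  apply commute_of_mat ι hι
  rw [hc, Matrix.smul_mul, Matrix.mul_smul, one_mul, mul_one]


open scoped Classical in
/-- (C1): few scalars -/
theorem card_scal_mul_card_le [Fintype Γ] (hι : Function.Injective ι)
    (hn : (Fintype.card Γ : k) ≠ 0) (H : Finset Γ) (PS : Finset (Polynomial k))
    (hPS : ∀ h ∈ H, (mat ι h).charpoly ∈ PS) :
    (univ.filter (IsScal ι)).card * H.card ≤ Fintype.card Γ * (2 * PS.card) := by
  set Z := univ.filter (IsScal ι) with hZ
  have key : ∀ y : Γ, (Z.filter (fun z => y * z ∈ H)).card ≤ 2 * PS.card := by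
    intro y
    have h1 : ((Z.image (fun z => y * z)).filter (· ∈ H)).card ≤ 2 * PS.card := by
      apply card_filter_mem_le ι hι hn _ _ H PS hPS
      intro a ha b hb
      obtain ⟨z₁, hz₁, rfl⟩ := Finset.mem_image.mp ha
      obtain ⟨z₂, hz₂, rfl⟩ := Finset.mem_image.mp hb
      have c1 := isScal_commute ι hι (Finset.mem_filter.mp hz₁).2
      have c2 := isScal_commute ι hι (Finset.mem_filter.mp hz₂).2
      calc y * z₁ * (y * z₂) = y * (z₁ * y) * z₂ := by group
        _ = y * (y * z₁) * z₂ := by rw [c1 y]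
        _ = y * y * (z₁ * z₂) := by group
        _ = y * y * (z₂ * z₁) := by rw [c1 z₂]
        _ = y * (y * z₂) * z₁ := by group
        _ = y * (z₂ * y) * z₁ := by rw [c2 y]
        _ = y * z₂ * (y * z₁) := by group
    rw [Finset.filter_image, Finset.card_image_of_injective _ (mul_right_injective y)] at h1
    exact h1
  have hz : ∀ z : Γ, (univ.filter (fun y : Γ => y * z ∈ H)).card = H.card := by
    intro z
    apply Finset.card_bij (fun y _ => y * z)
    · intro y hy
      exact (Finset.mem_filter.mp hy).2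
    · intro y₁ _ y₂ _ h
      exact mul_right_cancel h
    · intro h hh
      exact ⟨h * z⁻¹, by simp [hh], by simp⟩
  calc Z.card * H.card = ∑ z ∈ Z, (univ.filter (fun y : Γ => y * z ∈ H)).card := by
        rw [Finset.sum_congr rfl (fun z _ => hz z), Finset.sum_const, smul_eq_mul]
    _ = ∑ y : Γ, (Z.filter (fun z => y * z ∈ H)).card :=
        (Finset.sum_card_bipartiteAbove_eq_sum_card_bipartiteBelow (s := (univ : Finset Γ))
          (t := Z) (r := fun y z => y * z ∈ H)).symm
    _ ≤ ∑ _y : Γ, 2 * PS.card := Finset.sum_le_sum (fun y _ => key y)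
    _ = Fintype.card Γ * (2 * PS.card) := by
        rw [Finset.sum_const, smul_eq_mul, Finset.card_univ]

open scoped Classical in
/-- (C2): the centralizer of a non-scalar element is small -/
theorem card_centralizer_mul_le [Fintype Γ] (hι : Function.Injective ι)
    (hn : (Fintype.card Γ : k) ≠ 0) (H : Finset Γ) (PS : Finset (Polynomial k))
    (hPS : ∀ h ∈ H, (mat ι h).charpoly ∈ PS) (g : Γ) (hg : ¬ IsScal ι g) :
    Fintype.card Γ * (univ.filter (fun a => a * g = g * a)).card ≤
      Fintype.card Γ * (univ.filter (IsScal ι)).card + Fintype.card Γ * (2 * PS.card) +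
        2 * (univ.filter (fun a => a * g = g * a)).card * (univ.filter (· ∉ H)).card := by
  set A := univ.filter (fun a => a * g = g * a) with hA
  set Z := univ.filter (IsScal ι) with hZ
  set Hc := univ.filter (· ∉ H) with hHc
  set AZ := A.filter (fun a => ¬ IsScal ι a) with hAZ
  have hAmem : ∀ a, a ∈ A ↔ a * g = g * a := fun a => by simp [hA]
  have hAcard : A.card ≤ AZ.card + Z.card := by
    refine le_trans (Finset.card_le_card ?_) (Finset.card_union_le AZ Z)
    intro a ha
    by_cases h : IsScal ι a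
    · exact Finset.mem_union_right _ (by simp [hZ, h])
    · exact Finset.mem_union_left _ (by simp [hAZ, ha, h])
  have hAcomm : ∀ a ∈ A, ∀ b ∈ A, a * b = b * a := fun a ha b hb =>
    commute_of_centralizer ι hι hg ((hAmem a).mp ha) ((hAmem b).mp hb)
  set P := (univ : Finset Γ) ×ˢ AZ with hP
  have hPcard : P.card = Fintype.card Γ * AZ.card := by
    rw [hP, Finset.card_product, Finset.card_univ]
  set cj : Γ × Γ → Γ := fun p => p.1 * p.2 * p.1⁻¹ with hcj
  have hsplit : (P.filter (fun p => cj p ∈ H)).card + (P.filter (fun p => ¬ cj p ∈ H)).card =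
      P.card := Finset.card_filter_add_card_filter_not _
  -- first part
  have hP1 : (P.filter (fun p => cj p ∈ H)).card ≤ Fintype.card Γ * (2 * PS.card) := by
    have h1 := Finset.card_le_mul_card_image (f := Prod.fst) (P.filter (fun p => cj p ∈ H))
      (2 * PS.card) ?_
    · refine h1.trans ?_
      rw [mul_comm]
      exact Nat.mul_le_mul_right _ (Finset.card_le_univ _)
    · intro x _
      have h2 : (((A.image (fun a => x * a * x⁻¹))).filter (· ∈ H)).card ≤ 2 * PS.card := by
        apply card_filter_mem_le ι hι hn _ _ H PS hPS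
        intro a ha b hb
        obtain ⟨a', ha', rfl⟩ := Finset.mem_image.mp ha
        obtain ⟨b', hb', rfl⟩ := Finset.mem_image.mp hb
        have := hAcomm a' ha' b' hb'
        calc x * a' * x⁻¹ * (x * b' * x⁻¹) = x * (a' * b') * x⁻¹ := by group
          _ = x * (b' * a') * x⁻¹ := by rw [this]
          _ = x * b' * x⁻¹ * (x * a' * x⁻¹) := by group
      refine le_trans (Finset.card_le_card_of_injOn cj ?_ ?_) h2
      · intro p hp
        simp only [Finset.coe_filter, Set.mem_ofPred_eq, Finset.mem_filter, hP,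
          Finset.mem_product, Finset.mem_univ, true_and, hAZ] at hp
        simp only [Finset.coe_filter, Set.mem_ofPred_eq, Finset.mem_image]
        refine ⟨⟨p.2, hp.1.1.1, ?_⟩, hp.1.2⟩
        rw [hcj, ← hp.2]
      · intro p hp q hq hpq
        simp only [Finset.coe_filter, Set.mem_ofPred_eq] at hp hq
        have e1 : p.1 = q.1 := hp.2.trans hq.2.symm
        have e2 : p.2 = q.2 := by
          have : p.1 * p.2 * p.1⁻¹ = q.1 * q.2 * q.1⁻¹ := hpq
          rw [← e1] at this
          exact mul_left_cancel (mul_right_cancel this)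
        exact Prod.ext e1 e2
  -- second part
  have hP2 : (P.filter (fun p => ¬ cj p ∈ H)).card ≤ 2 * A.card * Hc.card := by
    have h1 := Finset.card_le_mul_card_image (f := cj) (P.filter (fun p => ¬ cj p ∈ H))
      (2 * A.card) ?_
    · refine h1.trans (Nat.mul_le_mul_left _ (Finset.card_le_card ?_))
      intro w hw
      obtain ⟨p, hp, rfl⟩ := Finset.mem_image.mp hw
      simp only [hHc, Finset.mem_filter, Finset.mem_univ, true_and]
      exact (Finset.mem_filter.mp hp).2
    · intro w _
      set F := (P.filter (fun p => ¬ cj p ∈ H)).filter (fun p => cj p = w) with hF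
      have hFmem : ∀ p ∈ F, p.2 * g = g * p.2 ∧ ¬ IsScal ι p.2 ∧ p.1 * p.2 * p.1⁻¹ = w := by
        intro p hp
        simp only [hF, hP, hAZ, Finset.mem_filter, Finset.mem_product, Finset.mem_univ,
          true_and] at hp
        exact ⟨(hAmem _).mp hp.1.1.1, hp.1.1.2, hp.2⟩
      have h2 := Finset.card_le_mul_card_image (f := Prod.snd) F A.card ?_
      · refine h2.trans ?_
        rw [mul_comm]
        refine Nat.mul_le_mul_right _ (le_trans (Finset.card_le_card ?_)
          (card_filter_charpoly_le_two ι hι hn A hAcomm (mat ι w).charpoly))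
        intro a ha
        obtain ⟨p, hp, rfl⟩ := Finset.mem_image.mp ha
        obtain ⟨h1, _, h3⟩ := hFmem p hp
        simp only [Finset.mem_filter]
        refine ⟨(hAmem _).mpr h1, ?_⟩
        rw [← h3, charpoly_conj]
      · intro a _
        rcases (F.filter (fun p => p.2 = a)).eq_empty_or_nonempty with he | ⟨p₀, hp₀⟩
        · rw [he]; simp
        · have hp₀' := Finset.mem_filter.mp hp₀
          obtain ⟨h01, h02, h03⟩ := hFmem p₀ hp₀'.1
          refine Finset.card_le_card_of_injOn (fun p => p₀.1⁻¹ * p.1) ?_ ?_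
          · intro p hp
            have hp' := Finset.mem_filter.mp hp
            obtain ⟨h11, h12, h13⟩ := hFmem p hp'.1
            simp only [Finset.mem_coe]
            rw [hAmem]
            have e : p.2 = p₀.2 := hp'.2.trans hp₀'.2.symm
            refine centralizer_subset ι hι hg h01 h02 ?_
            -- `p₀.1⁻¹ * p.1` commutes with `p₀.2`
            have h4 : p.1 * p₀.2 * p.1⁻¹ = p₀.1 * p₀.2 * p₀.1⁻¹ := by
              rw [← e, h13, e, h03]
            calc p₀.1⁻¹ * p.1 * p₀.2 = p₀.1⁻¹ * (p.1 * p₀.2 * p.1⁻¹) * p.1 := by group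
              _ = p₀.1⁻¹ * (p₀.1 * p₀.2 * p₀.1⁻¹) * p.1 := by rw [h4]
              _ = p₀.2 * (p₀.1⁻¹ * p.1) := by group
          · intro p hp q hq hpq
            have hp' := Finset.mem_filter.mp hp
            have hq' := Finset.mem_filter.mp hq
            have e1 : p.1 = q.1 := mul_left_cancel hpq
            exact Prod.ext e1 (hp'.2.trans hq'.2.symm)
  calc Fintype.card Γ * A.card ≤ Fintype.card Γ * (AZ.card + Z.card) :=
        Nat.mul_le_mul_left _ hAcard
    _ = Fintype.card Γ * Z.card + P.card := by rw [hPcard]; ring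
    _ = Fintype.card Γ * Z.card + ((P.filter (fun p => cj p ∈ H)).card +
          (P.filter (fun p => ¬ cj p ∈ H)).card) := by rw [hsplit]
    _ ≤ Fintype.card Γ * Z.card + (Fintype.card Γ * (2 * PS.card) + 2 * A.card * Hc.card) :=
        Nat.add_le_add_left (Nat.add_le_add hP1 hP2) _
    _ = _ := by ring


end core

/-- a finite group all of whose non-central elements have a centralizer of order at most `m`
has order at most `m ! * |Z(Γ)|` (class equation) -/
theorem card_le_factorial_mul_card_center {Γ : Type*} [Group Γ] [Finite Γ] (m : ℕ)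
    (hm : ∀ g : Γ, g ∉ Subgroup.center Γ → Nat.card {a : Γ // a * g = g * a} ≤ m) :
    Nat.card Γ ≤ m.factorial * Nat.card (Subgroup.center Γ) := by
  classical
  have : Finite (ConjAct Γ) := Finite.of_equiv Γ ConjAct.toConjAct.toEquiv
  have key : ∀ x ∈ ConjClasses.noncenter Γ,
      Nat.card Γ ∣ m.factorial * Nat.card x.carrier := by
    intro x hx
    obtain ⟨g, rfl⟩ := ConjClasses.mk_surjective x
    have hg : g ∉ Subgroup.center Γ := by
      intro hgc
      exact (ConjClasses.mk_bijOn Γ).mapsTo hgc hx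
    have h1 : (MulAction.stabilizer (ConjAct Γ) g).index =
        Nat.card (ConjClasses.mk g).carrier := by
      rw [MulAction.index_stabilizer, ConjAct.orbit_eq_carrier_conjClasses, Nat.card_coe_set_eq]
    have h2 : Nat.card (MulAction.stabilizer (ConjAct Γ) g) *
        (MulAction.stabilizer (ConjAct Γ) g).index = Nat.card Γ := by
      rw [Subgroup.card_mul_index]
      rfl
    have h3 : Nat.card (MulAction.stabilizer (ConjAct Γ) g) ≤ m := by
      refine le_trans ?_ (hm g hg)
      refine Nat.card_le_card_of_injective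
        (fun a => (⟨ConjAct.ofConjAct a.1, ?_⟩ : {a : Γ // a * g = g * a})) ?_
      · have := a.2
        rw [MulAction.mem_stabilizer_iff, ConjAct.smul_def] at this
        exact mul_inv_eq_iff_eq_mul.mp this
      · intro a b hab
        have := congrArg Subtype.val hab
        simp only at this
        exact Subtype.ext (ConjAct.ofConjAct.injective this)
    have h4 : Nat.card (MulAction.stabilizer (ConjAct Γ) g) ∣ m.factorial :=
      Nat.dvd_factorial Nat.card_pos h3
    obtain ⟨t, ht⟩ := h4
    rw [← h1, ht, ← h2]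
    exact ⟨t, by ring⟩
  have hS : Nat.card Γ ∣ m.factorial * ∑ᶠ x ∈ ConjClasses.noncenter Γ, Nat.card x.carrier :=
    finsum_mem_induction (fun t => Nat.card Γ ∣ m.factorial * t) (by simp)
      (fun x y hx hy => by rw [mul_add]; exact dvd_add hx hy) key
  have hce := Group.nat_card_center_add_sum_card_noncenter_eq_card Γ
  have hd : Nat.card Γ ∣ m.factorial * Nat.card (Subgroup.center Γ) := by
    have h5 : Nat.card Γ ∣ m.factorial * Nat.card (Subgroup.center Γ) +
        m.factorial * ∑ᶠ x ∈ ConjClasses.noncenter Γ, Nat.card x.carrier := by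
      rw [← mul_add, hce]
      exact dvd_mul_left _ _
    exact (Nat.dvd_add_iff_left hS).mpr h5
  exact Nat.le_of_dvd (Nat.mul_pos (Nat.factorial_pos m) Nat.card_pos) hd


/-- the bound of (GRP-2) -/
noncomputable def grp2Bound (η : ℝ) (M : ℕ) : ℝ :=
  (⌊(2 * (M : ℝ) / (1 - η) + 2 * (M : ℝ)) / (1 - 2 * η)⌋₊ : ℝ) +
    ((⌊(2 * (M : ℝ) / (1 - η) + 2 * (M : ℝ)) / (1 - 2 * η)⌋₊).factorial : ℝ) *
      (2 * (M : ℝ) / (1 - η))

section core2

variable {k : Type*} [Field k] {Γ : Type*} [Group Γ] (ι : Γ →* GL (Fin 2) k)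

open scoped Classical in
theorem card_le_grp2Bound [Fintype Γ] (hι : Function.Injective ι)
    (hn : (Fintype.card Γ : k) ≠ 0) (H : Finset Γ) (PS : Finset (Polynomial k))
    (hPS : ∀ h ∈ H, (mat ι h).charpoly ∈ PS) (M : ℕ) (hM : PS.card ≤ M) (η : ℝ)
    (hη2 : η < 1 / 2) (hη : (1 - η) * (Fintype.card Γ : ℝ) ≤ (H.card : ℝ)) :
    (Fintype.card Γ : ℝ) ≤ grp2Bound η M := by
  have hN : (0 : ℝ) < (Fintype.card Γ : ℝ) := by exact_mod_cast Fintype.card_pos
  have h1η : 0 < 1 - η := by linarith
  have h2η : 0 < 1 - 2 * η := by linarith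
  have hMr : (PS.card : ℝ) ≤ (M : ℝ) := by exact_mod_cast hM
  set Z := univ.filter (IsScal ι) with hZ
  set z : ℝ := 2 * (M : ℝ) / (1 - η) with hz
  set m : ℕ := ⌊(z + 2 * (M : ℝ)) / (1 - 2 * η)⌋₊ with hm
  -- few scalars
  have hZz : (Z.card : ℝ) ≤ z := by
    have h1 : ((Z.card * H.card : ℕ) : ℝ) ≤ ((Fintype.card Γ * (2 * PS.card) : ℕ) : ℝ) := by
      exact_mod_cast card_scal_mul_card_le ι hι hn H PS hPS
    push_cast at h1
    rw [hz, le_div_iff₀ h1η]
    have h2 : (Z.card : ℝ) * ((1 - η) * (Fintype.card Γ : ℝ)) ≤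
        (Fintype.card Γ : ℝ) * (2 * (M : ℝ)) := by
      calc (Z.card : ℝ) * ((1 - η) * (Fintype.card Γ : ℝ)) ≤ (Z.card : ℝ) * (H.card : ℝ) :=
            mul_le_mul_of_nonneg_left hη (Nat.cast_nonneg _)
        _ ≤ (Fintype.card Γ : ℝ) * (2 * (PS.card : ℝ)) := h1
        _ ≤ (Fintype.card Γ : ℝ) * (2 * (M : ℝ)) := by
            apply mul_le_mul_of_nonneg_left _ hN.le
            linarith
    have h3 : ((Z.card : ℝ) * (1 - η)) * (Fintype.card Γ : ℝ) ≤
        (2 * (M : ℝ)) * (Fintype.card Γ : ℝ) := by
      calc ((Z.card : ℝ) * (1 - η)) * (Fintype.card Γ : ℝ) =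
          (Z.card : ℝ) * ((1 - η) * (Fintype.card Γ : ℝ)) := by ring
        _ ≤ (Fintype.card Γ : ℝ) * (2 * (M : ℝ)) := h2
        _ = (2 * (M : ℝ)) * (Fintype.card Γ : ℝ) := by ring
    exact le_of_mul_le_mul_right h3 hN
  have hz0 : 0 ≤ z := le_trans (Nat.cast_nonneg _) hZz
  -- the complement of `H` is small
  have hHc : ((univ.filter (· ∉ H)).card : ℝ) ≤ η * (Fintype.card Γ : ℝ) := by
    have h1 : (univ.filter (· ∈ H)).card + (univ.filter (· ∉ H)).card = Fintype.card Γ := by
      rw [Finset.card_filter_add_card_filter_not, Finset.card_univ]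
    have h2 : (univ.filter (· ∈ H)).card = H.card := by
      congr 1
      ext x
      simp
    rw [h2] at h1
    have h3 : (H.card : ℝ) + ((univ.filter (· ∉ H)).card : ℝ) = (Fintype.card Γ : ℝ) := by
      exact_mod_cast h1
    linarith
  -- small centralizers
  have hcent : ∀ g : Γ, ¬ IsScal ι g → (univ.filter (fun a => a * g = g * a)).card ≤ m := by
    intro g hg
    have h1 := card_centralizer_mul_le ι hι hn H PS hPS g hg
    set A := univ.filter (fun a => a * g = g * a) with hA
    have h2 : (Fintype.card Γ : ℝ) * (A.card : ℝ) ≤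
        (Fintype.card Γ : ℝ) * (Z.card : ℝ) + (Fintype.card Γ : ℝ) * (2 * (PS.card : ℝ)) +
          2 * (A.card : ℝ) * ((univ.filter (· ∉ H)).card : ℝ) := by
      exact_mod_cast h1
    have h3 : (Fintype.card Γ : ℝ) * ((A.card : ℝ) * (1 - 2 * η)) ≤
        (Fintype.card Γ : ℝ) * (z + 2 * (M : ℝ)) := by
      have h4 : 2 * (A.card : ℝ) * ((univ.filter (· ∉ H)).card : ℝ) ≤
          2 * (A.card : ℝ) * (η * (Fintype.card Γ : ℝ)) :=
        mul_le_mul_of_nonneg_left hHc (by positivity)
      have h5 : (Fintype.card Γ : ℝ) * (Z.card : ℝ) ≤ (Fintype.card Γ : ℝ) * z :=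
        mul_le_mul_of_nonneg_left hZz hN.le
      have h6 : (Fintype.card Γ : ℝ) * (2 * (PS.card : ℝ)) ≤
          (Fintype.card Γ : ℝ) * (2 * (M : ℝ)) := by
        apply mul_le_mul_of_nonneg_left _ hN.le
        linarith
      nlinarith
    have h7 : (A.card : ℝ) * (1 - 2 * η) ≤ z + 2 * (M : ℝ) := le_of_mul_le_mul_left h3 hN
    apply Nat.le_floor
    rw [le_div_iff₀ h2η]
    exact h7
  -- class equation
  have hmr : (m : ℝ) ≤ grp2Bound η M := by
    unfold grp2Bound
    rw [← hz, ← hm]
    have : 0 ≤ (m.factorial : ℝ) * z := by positivity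
    linarith
  by_cases hc : ∃ g₀ ∈ Subgroup.center Γ, ¬ IsScal ι g₀
  · obtain ⟨g₀, hg₀, hs⟩ := hc
    have h1 := hcent g₀ hs
    have h2 : univ.filter (fun a => a * g₀ = g₀ * a) = univ := by
      ext a
      simp only [Finset.mem_filter, Finset.mem_univ, true_and, iff_true]
      exact Subgroup.mem_center_iff.mp hg₀ a
    rw [h2, Finset.card_univ] at h1
    have : (Fintype.card Γ : ℝ) ≤ (m : ℝ) := by exact_mod_cast h1
    linarith
  · push Not at hc
    have h1 : Nat.card Γ ≤ m.factorial * Nat.card (Subgroup.center Γ) := by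
      apply card_le_factorial_mul_card_center
      intro g hg
      rw [Nat.card_eq_fintype_card, Fintype.card_subtype]
      apply hcent g
      intro hs
      apply hg
      rw [Subgroup.mem_center_iff]
      intro a
      exact (isScal_commute ι hι hs a).symm
    have h2 : Nat.card (Subgroup.center Γ) ≤ Z.card := by
      have h3 : Nat.card {a : Γ // IsScal ι a} = Z.card := by
        rw [Nat.card_eq_fintype_card, Fintype.card_subtype]
      rw [← h3]
      exact Nat.card_le_card_of_injective
        (fun a => (⟨a.1, hc a.1 a.2⟩ : {a : Γ // IsScal ι a}))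
        (fun a b hab => Subtype.ext (congrArg (fun t : {a : Γ // IsScal ι a} => t.1) hab))
    rw [Nat.card_eq_fintype_card] at h1
    have h4 : (Fintype.card Γ : ℝ) ≤ (m.factorial : ℝ) * (Nat.card (Subgroup.center Γ) : ℝ) := by
      exact_mod_cast h1
    have h5 : (Nat.card (Subgroup.center Γ) : ℝ) ≤ z :=
      le_trans (by exact_mod_cast h2) hZz
    have h6 : (m.factorial : ℝ) * (Nat.card (Subgroup.center Γ) : ℝ) ≤ (m.factorial : ℝ) * z :=
      mul_le_mul_of_nonneg_left h5 (Nat.cast_nonneg _)
    unfold grp2Bound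
    rw [← hz, ← hm]
    have : (0 : ℝ) ≤ (m : ℝ) := Nat.cast_nonneg _
    linarith

end core2

/-- **(GRP-2).**  If a finite subgroup `G` of `GL₂(k)` of order prime to the characteristic
contains a subset `H` of proportion `≥ 1 - η`, `η < 1/2`, whose elements have at most `M`
distinct characteristic polynomials, then `|G| ≤ grp2Bound η M`. -/
theorem grp2 {k : Type*} [Field k] (G : Subgroup (GL (Fin 2) k)) [Finite G]
    (hG : (Nat.card G : k) ≠ 0) (H : Set (GL (Fin 2) k)) (hHG : H ⊆ G)
    (PS : Finset (Polynomial k))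
    (hPS : ∀ h ∈ H, (h : Matrix (Fin 2) (Fin 2) k).charpoly ∈ PS) (M : ℕ) (hM : PS.card ≤ M)
    (η : ℝ) (hη2 : η < 1 / 2) (hη : (1 - η) * (Nat.card G : ℝ) ≤ (H.ncard : ℝ)) :
    (Nat.card G : ℝ) ≤ grp2Bound η M := by
  classical
  have : Fintype G := Fintype.ofFinite G
  rw [Nat.card_eq_fintype_card] at hG hη ⊢
  set HΓ : Finset G := univ.filter (fun γ => (γ : GL (Fin 2) k) ∈ H) with hHΓ
  have hcard : H.ncard = HΓ.card := by
    have h1 : H = Subtype.val '' (HΓ : Set G) := by
      ext h
      constructor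
      · intro hh
        exact ⟨⟨h, hHG hh⟩, by simp [hHΓ, hh], rfl⟩
      · rintro ⟨γ, hγ, rfl⟩
        simpa [hHΓ] using hγ
    rw [h1, Set.ncard_image_of_injective _ Subtype.val_injective, Set.ncard_coe_finset]
  rw [hcard] at hη
  refine card_le_grp2Bound G.subtype G.subtype_injective hG HΓ PS ?_ M hM η hη2 hη
  intro h hh
  exact hPS _ (Finset.mem_filter.mp hh).2

end Fermat.Agent.DS48.GRP2
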