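import Mathlib

set_option autoImplicit false
set_option linter.unusedSectionVars false

/-!
# [GRP], part 1: the abstract counting core of (GRP-1)

Let `Γ` be a finite group, `u v : Γ`, and `tr c : Γ → k` functions with values in a field of
characteristic `ℓ` such that `tr (g * u ^ x) = tr g + x * c g`, the zero set of `c` is closed under
multiplication and inverses, and `c (v ^ y) = 0` only for `ℓ ∣ y`.  Then every subset `H` of `Γ`
on which `tr` takes at most `m` values satisfies `ℓ * |H| ≤ (m + 1) * |Γ|`.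
-/

namespace Fermat.Agent.DS48

section core

variable {Γ : Type*} [Group Γ] [Fintype Γ] [DecidableEq Γ] {k : Type*} [Field k] [DecidableEq k]
  {ℓ : ℕ} [Fact ℓ.Prime] [CharP k ℓ]
  (u v : Γ) (tr c : Γ → k)
  (htr : ∀ (g : Γ) (x : ℕ), tr (g * u ^ x) = tr g + x * c g)
  (hmul : ∀ g h : Γ, c g = 0 → c h = 0 → c (g * h) = 0)
  (hinv : ∀ g : Γ, c g = 0 → c g⁻¹ = 0)
  (hv : ∀ y : ℕ, c (v ^ y) = 0 → ℓ ∣ y)

include hmul hinv hv in
/-- the zero set of `c` has at most `|Γ| / ℓ` elements -/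
theorem grpCore_card_zero_le :
    ℓ * (Finset.univ.filter fun g : Γ => c g = 0).card ≤ Fintype.card Γ := by
  classical
  set P := Finset.univ.filter fun g : Γ => c g = 0 with hP
  have hinj : Set.InjOn (fun yp : Fin ℓ × Γ => v ^ (yp.1 : ℕ) * yp.2)
      ((Finset.univ ×ˢ P : Finset (Fin ℓ × Γ)) : Set (Fin ℓ × Γ)) := by
    have key : ∀ (y y' : Fin ℓ) (p p' : Γ), c p = 0 → c p' = 0 → (y : ℕ) ≤ (y' : ℕ) →
        v ^ (y : ℕ) * p = v ^ (y' : ℕ) * p' → y = y' ∧ p = p' := by
      intro y y' p p' hp hp' hle heq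
      have h1 : v ^ ((y' : ℕ) - (y : ℕ)) = p * p'⁻¹ := by
        have h2 : v ^ (y' : ℕ) = v ^ (y : ℕ) * v ^ ((y' : ℕ) - (y : ℕ)) := by
          rw [← pow_add, Nat.add_sub_cancel' hle]
        rw [h2, mul_assoc] at heq
        have h3 : p = v ^ ((y' : ℕ) - (y : ℕ)) * p' := mul_left_cancel heq
        rw [h3, mul_inv_cancel_right]
      have h5 : c (v ^ ((y' : ℕ) - (y : ℕ))) = 0 := by
        rw [h1]
        exact hmul _ _ hp (hinv _ hp')
      have h6 := hv _ h5
      have h7 : (y' : ℕ) - (y : ℕ) < ℓ := lt_of_le_of_lt (Nat.sub_le _ _) y'.2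
      have h8 : (y' : ℕ) - (y : ℕ) = 0 := Nat.eq_zero_of_dvd_of_lt h6 h7
      have h9 : (y : ℕ) = (y' : ℕ) := le_antisymm hle (Nat.sub_eq_zero_iff_le.mp h8)
      have h10 : y = y' := Fin.ext h9
      subst h10
      exact ⟨rfl, mul_left_cancel heq⟩
    rintro ⟨y, p⟩ hyp ⟨y', p'⟩ hyp' heq
    simp only [Finset.coe_product, Finset.coe_univ, Set.mem_prod, Set.mem_univ, true_and,
      Finset.mem_coe, hP, Finset.mem_filter, Finset.mem_univ] at hyp hyp'
    rcases le_total (y : ℕ) (y' : ℕ) with hle | hle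
    · obtain ⟨h1, h2⟩ := key y y' p p' hyp hyp' hle heq
      rw [h1, h2]
    · obtain ⟨h1, h2⟩ := key y' y p' p hyp' hyp hle heq.symm
      rw [h1, h2]
  have h1 := Finset.card_le_card_of_injOn _ (fun _ _ => Finset.mem_univ _) hinj
  rw [Finset.card_product, Finset.card_univ, Fintype.card_fin, Finset.card_univ] at h1
  exact h1

include htr in
/-- a set on which `tr` takes few values has few elements outside the zero set of `c` -/
theorem grpCore_card_nonzero_le (H : Finset Γ) (T : Finset k) (hT : ∀ h ∈ H, tr h ∈ T) :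
    ℓ * (H.filter fun g => c g ≠ 0).card ≤ T.card * Fintype.card Γ := by
  classical
  set H' := H.filter fun g => c g ≠ 0 with hH'
  have key : ∀ (h h' : Γ) (x x' : Fin ℓ), c h' ≠ 0 → (x : ℕ) ≤ (x' : ℕ) →
      h * u ^ (x : ℕ) = h' * u ^ (x' : ℕ) → tr h = tr h' → h = h' ∧ x = x' := by
    intro h h' x x' hc hle heq htreq
    have h2 : u ^ (x' : ℕ) = u ^ ((x' : ℕ) - (x : ℕ)) * u ^ (x : ℕ) := by
      rw [← pow_add, Nat.sub_add_cancel hle]
    rw [h2, ← mul_assoc] at heq
    have h3 : h = h' * u ^ ((x' : ℕ) - (x : ℕ)) := mul_right_cancel heq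
    have h4 : tr h = tr h' + (((x' : ℕ) - (x : ℕ) : ℕ) : k) * c h' := by
      rw [h3]
      exact htr h' _
    rw [htreq] at h4
    have h5 : (((x' : ℕ) - (x : ℕ) : ℕ) : k) = 0 := by
      have : (((x' : ℕ) - (x : ℕ) : ℕ) : k) * c h' = 0 := by
        have := h4
        linear_combination -this
      rcases mul_eq_zero.mp this with h | h
      · exact h
      · exact absurd h hc
    have h6 : ℓ ∣ (x' : ℕ) - (x : ℕ) := (CharP.cast_eq_zero_iff k ℓ _).mp h5
    have h7 : (x' : ℕ) - (x : ℕ) < ℓ := lt_of_le_of_lt (Nat.sub_le _ _) x'.2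
    have h8 : (x' : ℕ) - (x : ℕ) = 0 := Nat.eq_zero_of_dvd_of_lt h6 h7
    have h9 : (x : ℕ) = (x' : ℕ) := le_antisymm hle (Nat.sub_eq_zero_iff_le.mp h8)
    refine ⟨?_, Fin.ext h9⟩
    rw [h3, h8, pow_zero, mul_one]
  have hinj : Set.InjOn (fun hx : Γ × Fin ℓ => (hx.1 * u ^ (hx.2 : ℕ), tr hx.1))
      ((H' ×ˢ Finset.univ : Finset (Γ × Fin ℓ)) : Set (Γ × Fin ℓ)) := by
    rintro ⟨h, x⟩ hhx ⟨h', x'⟩ hhx' heq
    simp only [Finset.coe_product, Finset.coe_univ, Set.mem_prod, Set.mem_univ, and_true,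
      Finset.mem_coe, hH', Finset.mem_filter] at hhx hhx'
    simp only [Prod.mk.injEq] at heq
    rcases le_total (x : ℕ) (x' : ℕ) with hle | hle
    · obtain ⟨h1, h2⟩ := key h h' x x' hhx'.2 hle heq.1 heq.2
      rw [h1, h2]
    · obtain ⟨h1, h2⟩ := key h' h x' x hhx.2 hle heq.1.symm heq.2.symm
      rw [h1, h2]
  have hmaps : ∀ hx ∈ (H' ×ˢ Finset.univ : Finset (Γ × Fin ℓ)),
      (fun hx : Γ × Fin ℓ => (hx.1 * u ^ (hx.2 : ℕ), tr hx.1)) hx ∈
        (Finset.univ ×ˢ T : Finset (Γ × k)) := by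
    rintro ⟨h, x⟩ hhx
    simp only [Finset.mem_product, Finset.mem_univ, and_true, hH', Finset.mem_filter] at hhx
    simp only [Finset.mem_product, Finset.mem_univ, true_and]
    exact hT h hhx.1
  have h1 := Finset.card_le_card_of_injOn _ hmaps hinj
  rw [Finset.card_product, Finset.card_product, Finset.card_univ, Finset.card_univ,
    Fintype.card_fin] at h1
  rw [mul_comm ℓ, mul_comm T.card]
  exact h1

include htr hmul hinv hv in
/-- **the counting core of (GRP-1)** -/
theorem grpCore (H : Finset Γ) (T : Finset k) (hT : ∀ h ∈ H, tr h ∈ T) :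
    ℓ * H.card ≤ (T.card + 1) * Fintype.card Γ := by
  classical
  have h1 := grpCore_card_zero_le (ℓ := ℓ) v c hmul hinv hv
  have h2 := grpCore_card_nonzero_le (ℓ := ℓ) u tr c htr H T hT
  have h3 : (H.filter fun g => c g = 0).card + (H.filter fun g => ¬ c g = 0).card = H.card :=
    Finset.card_filter_add_card_filter_not _
  have h4 : (H.filter fun g => c g = 0).card ≤ (Finset.univ.filter fun g : Γ => c g = 0).card :=
    Finset.card_le_card (Finset.filter_subset_filter _ (Finset.subset_univ _))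
  calc ℓ * H.card = ℓ * (H.filter fun g => c g = 0).card +
        ℓ * (H.filter fun g => ¬ c g = 0).card := by rw [← h3, mul_add]
    _ ≤ ℓ * (Finset.univ.filter fun g : Γ => c g = 0).card + T.card * Fintype.card Γ :=
        Nat.add_le_add (Nat.mul_le_mul_left _ h4) h2
    _ ≤ Fintype.card Γ + T.card * Fintype.card Γ := Nat.add_le_add_right h1 _
    _ = (T.card + 1) * Fintype.card Γ := by ring

end core

end Fermat.Agent.DS48
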