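import Mathlib
import Fermat.Agent.DS48.GRP_helper8_Core

set_option autoImplicit false
set_option linter.unusedSectionVars false

/-!
# [GRP], part 2: (GRP-1) — irreducible subgroups of `GL₂` of order divisible by the characteristic

Let `k` be a field of characteristic `ℓ` and `G` a finite subgroup of `GL₂(k)` which has no common
eigenvector and whose order is divisible by `ℓ`.  If `H ⊆ G` and the elements of `H` have at most
`m` distinct characteristic polynomials, then `ℓ * |H| ≤ (m + 1) * |G|`.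
-/

namespace Fermat.Agent.DS48

open Matrix

section explicit

variable {k : Type*} [Field k]

/-- the standard unipotent matrix -/
def stdU (k : Type*) [Field k] : Matrix (Fin 2) (Fin 2) k := !![1, 1; 0, 1]

theorem stdU_pow (x : ℕ) : stdU k ^ x = !![1, (x : k); 0, 1] := by
  induction x with
  | zero =>
    rw [pow_zero, Nat.cast_zero]
    ext i j
    fin_cases i <;> fin_cases j <;> simp
  | succ x ih =>
    rw [pow_succ, ih, stdU]
    ext i j
    fin_cases i <;> fin_cases j <;> simp [Matrix.mul_apply, Fin.sum_univ_two, add_comm]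

theorem trace_mul_stdU_pow (A : Matrix (Fin 2) (Fin 2) k) (x : ℕ) :
    (A * stdU k ^ x).trace = A.trace + x * A 1 0 := by
  rw [stdU_pow, Matrix.trace_fin_two, Matrix.trace_fin_two]
  simp [Matrix.mul_apply, Fin.sum_univ_two]
  ring

theorem mul_apply_one_zero (A B : Matrix (Fin 2) (Fin 2) k) :
    (A * B) 1 0 = A 1 0 * B 0 0 + A 1 1 * B 1 0 := by
  simp [Matrix.mul_apply, Fin.sum_univ_two]

theorem inv_apply_one_zero (A : Matrix (Fin 2) (Fin 2) k) :
    A⁻¹ 1 0 = -(A.det)⁻¹ * A 1 0 := by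
  rw [Matrix.inv_def, Matrix.adjugate_fin_two, Ring.inverse_eq_inv']
  simp

theorem conj_stdU_pow_apply_one_zero (A : Matrix (Fin 2) (Fin 2) k) (y : ℕ) :
    (A * stdU k ^ y * A⁻¹) 1 0 = -(A.det)⁻¹ * (A 1 0) ^ 2 * y := by
  rw [stdU_pow, Matrix.inv_def, Matrix.adjugate_fin_two, Ring.inverse_eq_inv']
  simp [Matrix.mul_apply, Fin.sum_univ_two]
  ring

/-- Cayley–Hamilton for `2 × 2` matrices -/
theorem sq_eq_trace_smul_sub_det (N : Matrix (Fin 2) (Fin 2) k) :
    N * N = N.trace • N - N.det • (1 : Matrix (Fin 2) (Fin 2) k) := by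
  ext i j
  fin_cases i <;> fin_cases j <;>
    simp [Matrix.mul_apply, Fin.sum_univ_two, Matrix.trace_fin_two, Matrix.det_fin_two] <;> ring

/-- a nilpotent `2 × 2` matrix has square zero -/
theorem sq_eq_zero_of_pow_eq_zero (N : Matrix (Fin 2) (Fin 2) k) (n : ℕ) (h : N ^ n = 0) :
    N * N = 0 := by
  have hdet : N.det = 0 := by
    have := congrArg Matrix.det h
    rw [Matrix.det_pow, Matrix.det_zero] at this
    exact pow_eq_zero_iff (by
      rintro rfl
      rw [pow_zero] at h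
      exact one_ne_zero h) |>.mp this
  have h1 : N * N = N.trace • N := by
    rw [sq_eq_trace_smul_sub_det, hdet, zero_smul, sub_zero]
  have h2 : ∀ m : ℕ, N ^ (m + 1) = N.trace ^ m • N := by
    intro m
    induction m with
    | zero => rw [pow_zero, one_smul, pow_one]
    | succ m ih => rw [pow_succ, ih, smul_mul_assoc, h1, smul_smul, pow_succ]
  rcases Nat.eq_zero_or_pos n with rfl | hn
  · rw [pow_zero] at h
    exact absurd h one_ne_zero
  · obtain ⟨m, rfl⟩ : ∃ m, n = m + 1 := ⟨n - 1, by omega⟩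
    rw [h2 m] at h
    rcases smul_eq_zero.mp h with h3 | h3
    · rcases Nat.eq_zero_or_pos m with rfl | hm
      · rw [pow_zero] at h3
        exact absurd h3 one_ne_zero
      · rw [h1, pow_eq_zero_iff (by omega) |>.mp h3, zero_smul]
    · rw [h3, mul_zero]

/-- a non-trivial unipotent element of `GL₂` is conjugate to the standard one -/
theorem exists_conj_stdU (u : GL (Fin 2) k) (hu : (u : Matrix (Fin 2) (Fin 2) k) ≠ 1)
    (hN : ((u : Matrix (Fin 2) (Fin 2) k) - 1) * ((u : Matrix (Fin 2) (Fin 2) k) - 1) = 0) :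
    ∃ Q : GL (Fin 2) k, ((Q * u * Q⁻¹ : GL (Fin 2) k) : Matrix (Fin 2) (Fin 2) k) = stdU k := by
  set U : Matrix (Fin 2) (Fin 2) k := (u : Matrix (Fin 2) (Fin 2) k) with hU
  -- the entries of `N = U - 1`
  have e00 := congrFun (congrFun hN 0) 0
  have e01 := congrFun (congrFun hN 0) 1
  have e10 := congrFun (congrFun hN 1) 0
  have e11 := congrFun (congrFun hN 1) 1
  simp only [Matrix.mul_apply, Fin.sum_univ_two, Matrix.sub_apply, Matrix.one_apply_eq,
    Matrix.zero_apply, Matrix.one_apply_ne (show (0 : Fin 2) ≠ 1 by decide),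
    Matrix.one_apply_ne (show (1 : Fin 2) ≠ 0 by decide), sub_zero] at e00 e01 e10 e11
  -- it suffices to find an invertible `B` with `U * B = B * stdU`
  suffices h : ∃ B : Matrix (Fin 2) (Fin 2) k, B.det ≠ 0 ∧ U * B = B * stdU k by
    obtain ⟨B, hB, hUB⟩ := h
    obtain ⟨Bg, hBg⟩ : ∃ Bg : GL (Fin 2) k, (Bg : Matrix (Fin 2) (Fin 2) k) = B :=
      ⟨Matrix.GeneralLinearGroup.mkOfDetNeZero B hB, rfl⟩
    refine ⟨Bg⁻¹, ?_⟩
    rw [inv_inv, Units.val_mul, Units.val_mul, mul_assoc, ← hU, hBg, hUB, ← mul_assoc, ← hBg,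
      Units.inv_mul, one_mul]
  by_cases hc : U 1 0 = 0
  · -- then `N = [[0, b], [0, 0]]`
    have ha : U 0 0 - 1 = 0 := by
      have : (U 0 0 - 1) * (U 0 0 - 1) = 0 := by rw [hc] at e00; linear_combination e00
      exact mul_self_eq_zero.mp this
    have hd : U 1 1 - 1 = 0 := by
      have : (U 1 1 - 1) * (U 1 1 - 1) = 0 := by rw [hc] at e11; linear_combination e11
      exact mul_self_eq_zero.mp this
    have hb : U 0 1 ≠ 0 := by
      intro hb
      apply hu
      ext i j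
      fin_cases i <;> fin_cases j
      · exact sub_eq_zero.mp ha
      · exact hb
      · exact hc
      · exact sub_eq_zero.mp hd
    refine ⟨!![U 0 1, 0; 0, 1], ?_, ?_⟩
    · rw [Matrix.det_fin_two_of]
      simpa using hb
    · ext i j
      fin_cases i <;> fin_cases j <;>
        simp [Matrix.mul_apply, Fin.sum_univ_two, stdU, hc, sub_eq_zero.mp ha, sub_eq_zero.mp hd]
  · -- general case
    have htr : (U 0 0 - 1) + (U 1 1 - 1) = 0 := by
      have : U 1 0 * ((U 0 0 - 1) + (U 1 1 - 1)) = 0 := by linear_combination e10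
      rcases mul_eq_zero.mp this with h | h
      · exact absurd h hc
      · exact h
    refine ⟨!![U 0 0 - 1, 1; U 1 0, 0], ?_, ?_⟩
    · rw [Matrix.det_fin_two_of]
      simpa using hc
    · ext i j
      fin_cases i <;> fin_cases j <;>
        simp [Matrix.mul_apply, Fin.sum_univ_two, stdU]
      · linear_combination e00
      · linear_combination U 1 0 * htr

end explicit

section main

variable {k : Type*} [Field k] {ℓ : ℕ} [Fact ℓ.Prime] [CharP k ℓ]

/-- **(GRP-1), counting form.** -/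
theorem grp1_card (G : Subgroup (GL (Fin 2) k)) [Finite G]
    (hirr : ¬ ∃ v : Fin 2 → k, v ≠ 0 ∧
      ∀ g ∈ G, ∃ c : k, (g : Matrix (Fin 2) (Fin 2) k).mulVec v = c • v)
    (hℓ : ℓ ∣ Nat.card G) (H : Set (GL (Fin 2) k)) (hHG : H ⊆ G) (PS : Finset (Polynomial k))
    (hPS : ∀ h ∈ H, (h : Matrix (Fin 2) (Fin 2) k).charpoly ∈ PS) :
    ℓ * H.ncard ≤ (PS.card + 1) * Nat.card G := by
  classical
  have : Fintype G := Fintype.ofFinite G
  obtain ⟨u, hu⟩ := exists_prime_orderOf_dvd_card' ℓ hℓ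
  have hℓ1 : 1 < ℓ := (Fact.out : ℓ.Prime).one_lt
  have hu1 : u ≠ 1 := by
    intro h
    rw [h, orderOf_one] at hu
    omega
  have huℓ : u ^ ℓ = 1 := by rw [← hu]; exact pow_orderOf_eq_one u
  set U : Matrix (Fin 2) (Fin 2) k := ((u : GL (Fin 2) k) : Matrix (Fin 2) (Fin 2) k) with hU
  have hUℓ : U ^ ℓ = 1 := by
    have h1 := congrArg (fun g : G => ((g : GL (Fin 2) k) : Matrix (Fin 2) (Fin 2) k)) huℓ
    simpa using h1
  have hU1 : U ≠ 1 := by
    intro h
    apply hu1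
    apply Subtype.ext
    apply Units.ext
    exact h
  have hNℓ : (U - 1) ^ ℓ = 0 := by
    rw [sub_pow_char_of_commute ℓ (Commute.one_right U), hUℓ, one_pow, sub_self]
  have hN2 := sq_eq_zero_of_pow_eq_zero _ _ hNℓ
  obtain ⟨Q, hQ⟩ := exists_conj_stdU (u : GL (Fin 2) k) hU1 hN2
  -- conjugation by `Q`
  let cj : G → Matrix (Fin 2) (Fin 2) k := fun g =>
    ((Q * (g : GL (Fin 2) k) * Q⁻¹ : GL (Fin 2) k) : Matrix (Fin 2) (Fin 2) k)
  have cj_def : ∀ g : G, cj g = (Q : Matrix (Fin 2) (Fin 2) k) *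
      ((g : GL (Fin 2) k) : Matrix (Fin 2) (Fin 2) k) *
      ((Q⁻¹ : GL (Fin 2) k) : Matrix (Fin 2) (Fin 2) k) := fun g => by
    simp only [cj, Units.val_mul]
  have hQQ : ((Q⁻¹ : GL (Fin 2) k) : Matrix (Fin 2) (Fin 2) k) *
      (Q : Matrix (Fin 2) (Fin 2) k) = 1 := by
    rw [← Units.val_mul, inv_mul_cancel, Units.val_one]
  have cj_mul : ∀ g h : G, cj (g * h) = cj g * cj h := by
    intro g h
    rw [cj_def, cj_def, cj_def, Subgroup.coe_mul, Units.val_mul]
    calc (Q : Matrix (Fin 2) (Fin 2) k) * ((g : GL (Fin 2) k).val * (h : GL (Fin 2) k).val) *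
          (Q⁻¹ : GL (Fin 2) k).val
        = (Q : Matrix (Fin 2) (Fin 2) k) * (g : GL (Fin 2) k).val * 1 * (h : GL (Fin 2) k).val *
          (Q⁻¹ : GL (Fin 2) k).val := by rw [mul_one]; simp only [mul_assoc]
      _ = _ := by rw [← hQQ]; simp only [mul_assoc]
  have cj_pow : ∀ (g : G) (x : ℕ), cj (g ^ x) = cj g ^ x := by
    intro g x
    induction x with
    | zero =>
      simp only [pow_zero, cj, Subgroup.coe_one, mul_one, mul_inv_cancel, Units.val_one]
    | succ x ih => rw [pow_succ, cj_mul, ih, pow_succ]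
  have cj_inv : ∀ g : G, cj g⁻¹ = (cj g)⁻¹ := by
    intro g
    have : (Q * ((g⁻¹ : G) : GL (Fin 2) k) * Q⁻¹ : GL (Fin 2) k) =
        (Q * (g : GL (Fin 2) k) * Q⁻¹)⁻¹ := by
      rw [Subgroup.coe_inv]; group
    simp only [cj, this, Matrix.coe_units_inv]
  have cj_trace : ∀ g : G, (cj g).trace =
      ((g : GL (Fin 2) k) : Matrix (Fin 2) (Fin 2) k).trace := by
    intro g
    rw [cj_def, Matrix.trace_mul_cycle, ← Units.val_mul, inv_mul_cancel, Units.val_one, one_mul]
  have cj_det : ∀ g : G, (cj g).det ≠ 0 := by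
    intro g
    exact ((Matrix.isUnit_iff_isUnit_det _).mp (Units.isUnit _)).ne_zero
  -- irreducibility gives an element which is not upper triangular
  obtain ⟨g₀, hg₀⟩ : ∃ g₀ : G, cj g₀ 1 0 ≠ 0 := by
    by_contra hall
    push Not at hall
    apply hirr
    refine ⟨((Q⁻¹ : GL (Fin 2) k) : Matrix (Fin 2) (Fin 2) k).mulVec ![1, 0], ?_, ?_⟩
    · intro h0
      have h1 := congrArg ((Q : GL (Fin 2) k) : Matrix (Fin 2) (Fin 2) k).mulVec h0
      rw [Matrix.mulVec_mulVec, ← Units.val_mul, mul_inv_cancel, Units.val_one,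
        Matrix.one_mulVec, Matrix.mulVec_zero] at h1
      have := congrFun h1 0
      simp at this
    · intro g hg
      refine ⟨cj ⟨g, hg⟩ 0 0, ?_⟩
      have h1 : g.val * (Q⁻¹ : GL (Fin 2) k).val =
          (Q⁻¹ : GL (Fin 2) k).val * cj ⟨g, hg⟩ := by
        rw [cj_def, ← mul_assoc, ← mul_assoc, hQQ, one_mul]
      have h2 : (cj ⟨g, hg⟩).mulVec ![1, 0] = cj ⟨g, hg⟩ 0 0 • ![1, 0] := by
        funext i
        fin_cases i
        · simp [Matrix.mulVec, dotProduct, Fin.sum_univ_two]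
        · simp [Matrix.mulVec, dotProduct, Fin.sum_univ_two, hall ⟨g, hg⟩]
      rw [Matrix.mulVec_mulVec, h1, ← Matrix.mulVec_mulVec, h2, Matrix.mulVec_smul]
  -- apply the counting core
  let v : G := g₀ * u * g₀⁻¹
  let tr : G → k := fun g => ((g : GL (Fin 2) k) : Matrix (Fin 2) (Fin 2) k).trace
  let c : G → k := fun g => cj g 1 0
  have htr : ∀ (g : G) (x : ℕ), tr (g * u ^ x) = tr g + x * c g := by
    intro g x
    show ((((g * u ^ x : G) : GL (Fin 2) k)) : Matrix (Fin 2) (Fin 2) k).trace = _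
    rw [← cj_trace, cj_mul, cj_pow, show cj u = stdU k from hQ, trace_mul_stdU_pow, cj_trace]
  have hmul : ∀ g h : G, c g = 0 → c h = 0 → c (g * h) = 0 := by
    intro g h hg hh
    show cj (g * h) 1 0 = 0
    rw [cj_mul, mul_apply_one_zero, show cj g 1 0 = 0 from hg, show cj h 1 0 = 0 from hh,
      zero_mul, mul_zero, add_zero]
  have hinv : ∀ g : G, c g = 0 → c g⁻¹ = 0 := by
    intro g hg
    show cj g⁻¹ 1 0 = 0
    rw [cj_inv, inv_apply_one_zero, show cj g 1 0 = 0 from hg, mul_zero]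
  have hv : ∀ y : ℕ, c (v ^ y) = 0 → ℓ ∣ y := by
    intro y hy
    have h1 : v ^ y = g₀ * u ^ y * g₀⁻¹ := by
      show (g₀ * u * g₀⁻¹) ^ y = _
      exact conj_pow
    have h2 : cj (v ^ y) 1 0 = 0 := hy
    rw [h1, cj_mul, cj_mul, cj_pow, show cj u = stdU k from hQ, cj_inv,
      conj_stdU_pow_apply_one_zero] at h2
    have h3 : ((y : ℕ) : k) = 0 := by
      rcases mul_eq_zero.mp h2 with h | h
      · rcases mul_eq_zero.mp h with h' | h'
        · exact absurd (neg_eq_zero.mp h') (inv_ne_zero (cj_det g₀))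
        · exact absurd ((pow_eq_zero_iff two_ne_zero).mp h') hg₀
      · exact h
    exact (CharP.cast_eq_zero_iff k ℓ y).mp h3
  -- the subset and the trace set
  let H' : Finset G := Finset.univ.filter fun g : G => (g : GL (Fin 2) k) ∈ H
  let T : Finset k := PS.image fun p => -p.coeff 1
  have hT : ∀ h ∈ H', tr h ∈ T := by
    intro h hh
    have hh' : (h : GL (Fin 2) k) ∈ H := (Finset.mem_filter.mp hh).2
    refine Finset.mem_image.mpr ⟨_, hPS _ hh', ?_⟩
    show _ = ((h : GL (Fin 2) k) : Matrix (Fin 2) (Fin 2) k).trace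
    rw [Matrix.trace_eq_neg_charpoly_coeff]
    rfl
  have hcore := grpCore (ℓ := ℓ) u v tr c htr hmul hinv hv H' T hT
  have hH' : H.ncard = H'.card := by
    have h1 : H = (fun g : G => (g : GL (Fin 2) k)) '' (H' : Set G) := by
      ext x
      constructor
      · intro hx
        exact ⟨⟨x, hHG hx⟩, by simpa [H'] using hx, rfl⟩
      · rintro ⟨g, hg, rfl⟩
        simpa [H'] using hg
    rw [h1, Set.ncard_image_of_injective _ Subtype.val_injective, Set.ncard_coe_finset]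
  have hTcard : T.card ≤ PS.card := Finset.card_image_le
  rw [hH', Nat.card_eq_fintype_card]
  calc ℓ * H'.card ≤ (T.card + 1) * Fintype.card G := hcore
    _ ≤ (PS.card + 1) * Fintype.card G := Nat.mul_le_mul_right _ (Nat.succ_le_succ hTcard)

/-- **(GRP-1).**  If a finite subgroup `G` of `GL₂(k)`, `char k = ℓ`, has no common eigenvector
and `ℓ ∣ |G|`, and a proportion `≥ 1 - η` of its elements have at most `M` distinct characteristic
polynomials, then `(1 - η) ℓ ≤ M + 1`. -/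
theorem grp1 (G : Subgroup (GL (Fin 2) k)) [Finite G]
    (hirr : ¬ ∃ v : Fin 2 → k, v ≠ 0 ∧
      ∀ g ∈ G, ∃ c : k, (g : Matrix (Fin 2) (Fin 2) k).mulVec v = c • v)
    (hℓ : ℓ ∣ Nat.card G) (H : Set (GL (Fin 2) k)) (hHG : H ⊆ G) (PS : Finset (Polynomial k))
    (hPS : ∀ h ∈ H, (h : Matrix (Fin 2) (Fin 2) k).charpoly ∈ PS) (M : ℕ) (hM : PS.card ≤ M)
    (η : ℝ) (hη : (1 - η) * (Nat.card G : ℝ) ≤ (H.ncard : ℝ)) :
    (1 - η) * (ℓ : ℝ) ≤ (M : ℝ) + 1 := by
  have h1 := grp1_card G hirr hℓ H hHG PS hPS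
  have hG : (0 : ℝ) < (Nat.card G : ℝ) := by exact_mod_cast Nat.card_pos
  have h2 : ((ℓ : ℝ)) * (H.ncard : ℝ) ≤ ((PS.card : ℝ) + 1) * (Nat.card G : ℝ) := by
    exact_mod_cast h1
  have h3 : ((PS.card : ℝ) + 1) ≤ (M : ℝ) + 1 := by
    have : (PS.card : ℝ) ≤ (M : ℝ) := by exact_mod_cast hM
    linarith
  have hℓ0 : (0 : ℝ) ≤ (ℓ : ℝ) := Nat.cast_nonneg _
  have h4 : (1 - η) * (ℓ : ℝ) * (Nat.card G : ℝ) ≤ ((M : ℝ) + 1) * (Nat.card G : ℝ) := by
    calc (1 - η) * (ℓ : ℝ) * (Nat.card G : ℝ) = (ℓ : ℝ) * ((1 - η) * (Nat.card G : ℝ)) := by ring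
      _ ≤ (ℓ : ℝ) * (H.ncard : ℝ) := mul_le_mul_of_nonneg_left hη hℓ0
      _ ≤ ((PS.card : ℝ) + 1) * (Nat.card G : ℝ) := h2
      _ ≤ ((M : ℝ) + 1) * (Nat.card G : ℝ) := mul_le_mul_of_nonneg_right h3 hG.le
  exact le_of_mul_le_mul_right h4 hG

end main

end Fermat.Agent.DS48
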