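/-
[GRP-2] (DS48), helper4 — convenience forms of `grp2` in characteristic `ℓ`, and the combination
with helper8's `grp1`.
-/
import Fermat.Agent.DS48.GRP2_helper4_Main
import Fermat.Agent.DS48.GRP_helper8_Unip

set_option autoImplicit false

namespace Fermat.Agent.DS48.GRP2

open Matrix

variable {k : Type*} [Field k] {ℓ : ℕ} [CharP k ℓ]

/-- `grp2` with the hypothesis `ℓ ∤ |G|`, `ℓ = char k` -/
theorem grp2_of_not_dvd (G : Subgroup (GL (Fin 2) k)) [Finite G]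
    (hℓ : ¬ ℓ ∣ Nat.card G) (H : Set (GL (Fin 2) k)) (hHG : H ⊆ G)
    (PS : Finset (Polynomial k))
    (hPS : ∀ h ∈ H, (h : Matrix (Fin 2) (Fin 2) k).charpoly ∈ PS) (M : ℕ) (hM : PS.card ≤ M)
    (η : ℝ) (hη2 : η < 1 / 2) (hη : (1 - η) * (Nat.card G : ℝ) ≤ (H.ncard : ℝ)) :
    (Nat.card G : ℝ) ≤ grp2Bound η M := by
  refine grp2 G ?_ H hHG PS hPS M hM η hη2 hη
  intro h
  exact hℓ ((CharP.cast_eq_zero_iff k ℓ _).mp h)

/-- **(GRP-1) + (GRP-2).**  A finite subgroup `G` of `GL₂(k)`, `char k = ℓ`, without a common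
eigenvector, a proportion `≥ 1 - η` (`η < 1/2`) of whose elements have at most `M` distinct
characteristic polynomials: either `ℓ` is bounded or `|G|` is bounded. -/
theorem grp12 [Fact ℓ.Prime] (G : Subgroup (GL (Fin 2) k)) [Finite G]
    (hirr : ¬ ∃ v : Fin 2 → k, v ≠ 0 ∧
      ∀ g ∈ G, ∃ c : k, (g : Matrix (Fin 2) (Fin 2) k).mulVec v = c • v)
    (H : Set (GL (Fin 2) k)) (hHG : H ⊆ G) (PS : Finset (Polynomial k))
    (hPS : ∀ h ∈ H, (h : Matrix (Fin 2) (Fin 2) k).charpoly ∈ PS) (M : ℕ) (hM : PS.card ≤ M)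
    (η : ℝ) (hη2 : η < 1 / 2) (hη : (1 - η) * (Nat.card G : ℝ) ≤ (H.ncard : ℝ)) :
    (1 - η) * (ℓ : ℝ) ≤ (M : ℝ) + 1 ∨ (Nat.card G : ℝ) ≤ grp2Bound η M := by
  by_cases hℓ : ℓ ∣ Nat.card G
  · left
    exact Fermat.Agent.DS48.grp1 G hirr hℓ H hHG PS hPS M hM η hη
  · right
    exact grp2_of_not_dvd G hℓ H hHG PS hPS M hM η hη2 hη

end Fermat.Agent.DS48.GRP2
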