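import Fermat.Agent.DS48.ASM_lead_Lemmas
import Fermat.Agent.DS48.Defs_lead
import Fermat.Agent.DS48.GRP2_helper4_Combined
import Fermat.Agent.Density.CHEBD_helper4_Rho

set_option autoImplicit false
set_option linter.style.haveILetI false

/-!
# [ASM] stage B: the images of the residual representations have bounded order
-/

namespace Fermat.Agent.DS48

open Matrix Polynomial

local notation "Ω" => AlgebraicClosure ℚ
local notation "GQ" => (AlgebraicClosure ℚ ≃ₐ[ℚ] AlgebraicClosure ℚ)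

variable {N : ℕ} [NeZero N]

open Classical in
/-- **[ASM] stage B**: uniform bound for the order of the image of a semisimple mod `ℓ`
representation the traces of whose Frobenius elements take few values. -/
theorem card_range_le (ε : DirichletCharacter ℂ N) (a : ℕ → ℂ) {Y : Set ℂ} (hY : Y.Finite)
    {Xs : Set ℕ} {B₀ : ℝ}
    (hX : ∀ s : ℝ, 1 < s → s ≤ 2 →
      Density.mass (fun p => if p ∈ Xs then (1 : ℝ) else 0) s ≤
        (1 / 32) * Real.log (1 / (s - 1)) + B₀)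
    (hXY : ∀ p : ℕ, p.Prime → ¬ p ∣ N * 2 → p ∉ Xs → a p ∈ Y) :
    ∃ ℓ₀ m₀ : ℕ, ∀ (ℓ : ℕ) [Fact ℓ.Prime], ℓ₀ < ℓ → ∀ (A : ValuationSubring ℂ)
      (π : ↥A →+* AlgebraicClosure (ZMod ℓ)) (𝔽' : Type) [Field 𝔽'] [Finite 𝔽']
      (j : 𝔽' →+* AlgebraicClosure (ZMod ℓ)) (ρ : GQ →* GL (Fin 2) 𝔽'),
      GaloisFactorsThroughFiniteLevel ρ → IsSemisimpleRep ρ →
      (∀ p : ℕ, p.Prime → ¬ p ∣ ℓ * N → ∀ B : ValuationSubring Ω, B.LiesOverPrime p →
        ∀ σ : GQ, B.IsFrobeniusAt σ p →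
          (∃ h : a p ∈ A,
            j ((ρ σ : GL (Fin 2) 𝔽') : Matrix (Fin 2) (Fin 2) 𝔽').trace = π ⟨_, h⟩) ∧
          (∃ h : ε (p : ZMod N) ∈ A,
            j ((ρ σ : GL (Fin 2) 𝔽') : Matrix (Fin 2) (Fin 2) 𝔽').det = π ⟨_, h⟩)) →
      Nat.card ρ.range ≤ m₀ ∧ ¬ ℓ ∣ Nat.card ρ.range := by
  set Z : Set ℂ := Set.range (fun x : ZMod N => ε x) with hZ
  have hZfin : Z.Finite := Set.finite_range _
  set Yf := hY.toFinset with hYf
  set Zf := hZfin.toFinset with hZf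
  set M₀ := Yf.card * Zf.card with hM₀
  set m₀ := ⌊GRP2.grp2Bound (1 / 32) M₀⌋₊ with hm₀
  refine ⟨5 + 2 * (M₀ + 1) + m₀, m₀, ?_⟩
  intro ℓ _ hℓ A π 𝔽' _ _ j ρ hfl hss hFrob
  haveI : CharP 𝔽' ℓ := RingHom.charP j j.injective ℓ
  set πe : ℂ → AlgebraicClosure (ZMod ℓ) := fun y => if h : y ∈ A then π ⟨y, h⟩ else 0 with hπe
  set PSbar : Finset (Polynomial (AlgebraicClosure (ZMod ℓ))) :=
    (Yf ×ˢ Zf).image (fun yz => X ^ 2 - C (πe yz.1) * X + C (πe yz.2)) with hPSbar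
  have hPSbar_card : PSbar.card ≤ M₀ := by
    refine le_trans Finset.card_image_le ?_
    rw [Finset.card_product]
  set H : Set (GL (Fin 2) 𝔽') :=
    {g | ((g : Matrix (Fin 2) (Fin 2) 𝔽').charpoly).map j ∈ PSbar} with hH
  have hHconj : ∀ g ∈ H, ∀ τ : GQ, ρ τ * g * (ρ τ)⁻¹ ∈ H := by
    intro g hg τ
    show (((ρ τ * g * (ρ τ)⁻¹ : GL (Fin 2) 𝔽') : Matrix (Fin 2) (Fin 2) 𝔽').charpoly).map j ∈
      PSbar
    have h1 : ((ρ τ * g * (ρ τ)⁻¹ : GL (Fin 2) 𝔽') : Matrix (Fin 2) (Fin 2) 𝔽').charpoly =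
        (g : Matrix (Fin 2) (Fin 2) 𝔽').charpoly := by
      simp
    rw [h1]
    exact hg
  set T : Finset ℕ := (N * 2 * ℓ).primeFactors with hT
  have hℓpos : 0 < ℓ := (Fact.out : ℓ.Prime).pos
  have hne : N * 2 * ℓ ≠ 0 := by
    have := NeZero.pos N
    positivity
  have hU1 := Density.card_range_le_of_density ρ hfl H hHconj T
    (fun p => if p ∈ Xs then (1 : ℝ) else 0) (W := 1)
    (fun p => by split_ifs <;> norm_num) (fun p => by split_ifs <;> norm_num) hX (by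
      intro p hp hpT hx B φ hB hφ
      have hpX : p ∉ Xs := by
        intro h
        simp [h] at hx
      have hnd : ¬ p ∣ N * 2 * ℓ := fun h => hpT (Nat.mem_primeFactors.mpr ⟨hp, h, hne⟩)
      have h1 : ¬ p ∣ N * 2 := fun h => hnd (Dvd.dvd.mul_right h ℓ)
      have h2 : ¬ p ∣ ℓ * N := fun h => hnd (by
        have : N * 2 * ℓ = ℓ * N * 2 := by ring
        rw [this]
        exact Dvd.dvd.mul_right h 2)
      obtain ⟨⟨ha, hta⟩, ⟨he, hde⟩⟩ := hFrob p hp h2 B hB φ hφ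
      show (((ρ φ : GL (Fin 2) 𝔽') : Matrix (Fin 2) (Fin 2) 𝔽').charpoly).map j ∈ PSbar
      rw [Matrix.charpoly_fin_two]
      simp only [Polynomial.map_add, Polynomial.map_sub, Polynomial.map_mul, Polynomial.map_pow,
        Polynomial.map_X, Polynomial.map_C]
      rw [hta, hde]
      refine Finset.mem_image.mpr ⟨(a p, ε (p : ZMod N)), Finset.mem_product.mpr ⟨?_, ?_⟩, ?_⟩
      · exact hY.mem_toFinset.mpr (hXY p hp h1 hpX)
      · exact hZfin.mem_toFinset.mpr ⟨(p : ZMod N), rfl⟩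
      · simp only [hπe, dif_pos ha, dif_pos he])
  -- the group
  set G : Subgroup (GL (Fin 2) 𝔽') := ρ.range with hG
  haveI : Finite (GL (Fin 2) 𝔽') := inferInstance
  haveI : Finite G := inferInstance
  set H' : Set (GL (Fin 2) 𝔽') := H ∩ Set.range ρ with hH'
  have hHG : H' ⊆ G := fun g hg => hg.2
  have hH'fin : H'.Finite := Set.toFinite H'
  set PS : Finset (Polynomial 𝔽') :=
    (hH'fin.image (fun g : GL (Fin 2) 𝔽' => (g : Matrix (Fin 2) (Fin 2) 𝔽').charpoly)).toFinset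
    with hPS
  have hPSmem : ∀ h ∈ H', (h : Matrix (Fin 2) (Fin 2) 𝔽').charpoly ∈ PS := fun h hh =>
    (Set.Finite.mem_toFinset _).mpr ⟨h, hh, rfl⟩
  have hPScard : PS.card ≤ M₀ := by
    refine le_trans (Finset.card_le_card_of_injOn (fun P => P.map j) ?_ ?_) hPSbar_card
    · intro P hP
      obtain ⟨g, hg, rfl⟩ := (Set.Finite.mem_toFinset _).mp hP
      exact hg.1
    · intro P _ Q _ hPQ
      exact Polynomial.map_injective j j.injective hPQ
  have hη : (1 - 1 / 32) * (Nat.card G : ℝ) ≤ (H'.ncard : ℝ) := by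
    have e1 : Nat.card ↥(Set.range ρ) = Nat.card G := rfl
    have e2 : Nat.card ↥(H ∩ Set.range ρ) = H'.ncard := Nat.card_coe_set_eq _
    rw [e1, e2] at hU1
    exact hU1
  by_cases hline : ∃ v : Fin 2 → 𝔽', v ≠ 0 ∧
      ∀ g ∈ G, ∃ c : 𝔽', (g : Matrix (Fin 2) (Fin 2) 𝔽').mulVec v = c • v
  · obtain ⟨v₀, hv₀, hv₀'⟩ := hline
    obtain ⟨v, w, hvw, hv, hw⟩ := hss ⟨v₀, hv₀, fun σ => hv₀' (ρ σ) ⟨σ, rfl⟩⟩
    have hnd := not_dvd_card_of_diag (ℓ := ℓ) G v w hvw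
      (fun g hg => by obtain ⟨σ, rfl⟩ := hg; exact hv σ)
      (fun g hg => by obtain ⟨σ, rfl⟩ := hg; exact hw σ)
    have hb := GRP2.grp2_of_not_dvd G hnd H' hHG PS hPSmem M₀ hPScard (1 / 32) (by norm_num) hη
    exact ⟨Nat.le_floor hb, hnd⟩
  · rcases GRP2.grp12 G hline H' hHG PS hPSmem M₀ hPScard (1 / 32) (by norm_num) hη with h | h
    · exfalso
      have h1 : (2 * ((M₀ : ℝ) + 1)) < (ℓ : ℝ) := by
        have : 2 * (M₀ + 1) < ℓ := by omega
        exact_mod_cast this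
      nlinarith
    · have hle : Nat.card G ≤ m₀ := Nat.le_floor h
      refine ⟨hle, fun hd => ?_⟩
      have := Nat.le_of_dvd Nat.card_pos hd
      omega

end Fermat.Agent.DS48
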