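import Mathlib

set_option autoImplicit false
set_option linter.style.haveILetI false

/-!
# [ASM] a reducible two-dimensional complex representation of a finite group has
`∑ |tr|² ≥ 2 |G|`
-/

namespace Fermat.Agent.DS48

open Matrix

theorem charpoly_eval_eigen (M : Matrix (Fin 2) (Fin 2) ℂ) {v : Fin 2 → ℂ} (hv : v ≠ 0) {c : ℂ}
    (h : M.mulVec v = c • v) : c * c - M.trace * c + M.det = 0 := by
  have h1 : (M - c • (1 : Matrix (Fin 2) (Fin 2) ℂ)).mulVec v = 0 := by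
    rw [Matrix.sub_mulVec, h, Matrix.smul_mulVec, Matrix.one_mulVec, sub_self]
  have h2 : (M - c • (1 : Matrix (Fin 2) (Fin 2) ℂ)).det = 0 :=
    Matrix.exists_mulVec_eq_zero_iff.mp ⟨v, hv, h1⟩
  rw [Matrix.det_fin_two] at h2
  simp only [Matrix.sub_apply, Matrix.smul_apply, Matrix.one_apply_eq, smul_eq_mul, mul_one,
    Matrix.one_apply_ne (show (0 : Fin 2) ≠ 1 by decide),
    Matrix.one_apply_ne (show (1 : Fin 2) ≠ 0 by decide), mul_zero, sub_zero] at h2
  rw [Matrix.trace_fin_two, Matrix.det_fin_two]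
  linear_combination h2

theorem norm_sq_add_of_norm_one {z w : ℂ} (hz : ‖z‖ = 1) (hw : ‖w‖ = 1) :
    ‖z + w‖ ^ 2 = 2 + 2 * (z * w⁻¹).re := by
  have hw0 : w ≠ 0 := fun h => by simp [h] at hw
  have hwinv : w⁻¹ = (starRingEnd ℂ) w := by
    rw [Complex.inv_def, Complex.normSq_eq_norm_sq, hw]
    simp
  rw [hwinv, ← Complex.normSq_eq_norm_sq, Complex.normSq_add, Complex.normSq_eq_norm_sq,
    Complex.normSq_eq_norm_sq, hz, hw]
  ring

variable {G : Type*} [Group G] [Fintype G] (r : G →* GL (Fin 2) ℂ)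

theorem two_mul_card_le_sum_norm_trace_sq {v : Fin 2 → ℂ} (hv : v ≠ 0)
    (h : ∀ g, ∃ c : ℂ, ((r g : GL (Fin 2) ℂ) : Matrix (Fin 2) (Fin 2) ℂ).mulVec v = c • v) :
    2 * (Fintype.card G : ℝ) ≤
      ∑ g, ‖((r g : GL (Fin 2) ℂ) : Matrix (Fin 2) (Fin 2) ℂ).trace‖ ^ 2 := by
  classical
  choose c hc using h
  have hinj := smul_left_injective ℂ hv
  have hc1 : c 1 = 1 := hinj (by
    show c 1 • v = (1 : ℂ) • v
    rw [← hc 1, map_one, one_smul]
    simp)
  have hcmul : ∀ g h, c (g * h) = c g * c h := fun g h => hinj (by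
    show c (g * h) • v = (c g * c h) • v
    rw [← hc (g * h), map_mul, Units.val_mul, ← Matrix.mulVec_mulVec, hc h, Matrix.mulVec_smul,
      hc g, smul_smul, mul_comm])
  let χ : G →* ℂ := { toFun := c, map_one' := hc1, map_mul' := hcmul }
  let d : G →* ℂ := (Units.coeHom ℂ).comp (Matrix.GeneralLinearGroup.det.comp r)
  have hd : ∀ g, d g = ((r g : GL (Fin 2) ℂ) : Matrix (Fin 2) (Fin 2) ℂ).det := fun g => rfl
  let ψ : G →* ℂ :=
    (Units.coeHom ℂ).comp (χ.toHomUnits * χ.toHomUnits * (d.toHomUnits)⁻¹)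
  have hψ : ∀ g, ψ g = c g * c g * (d g)⁻¹ := fun g => by
    show ((χ.toHomUnits g * χ.toHomUnits g * (d.toHomUnits g)⁻¹ : ℂˣ) : ℂ) = _
    rw [Units.val_mul, Units.val_mul, Units.val_inv_eq_inv_val, MonoidHom.coe_toHomUnits,
      MonoidHom.coe_toHomUnits]
    rfl
  have hn : Fintype.card G ≠ 0 := Fintype.card_ne_zero
  have hpow : ∀ (φ : G →* ℂ) (g : G), ‖φ g‖ = 1 := fun φ g =>
    Complex.norm_eq_one_of_pow_eq_one (by rw [← map_pow, pow_card_eq_one, map_one]) hn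
  have hcn : ∀ g, ‖c g‖ = 1 := fun g => hpow χ g
  have hdn : ∀ g, ‖d g‖ = 1 := fun g => hpow d g
  have hc0 : ∀ g, c g ≠ 0 := fun g h0 => by
    have := hcn g
    rw [h0] at this
    simp at this
  have hd0 : ∀ g, d g ≠ 0 := fun g h0 => by
    have := hdn g
    rw [h0] at this
    simp at this
  have htr : ∀ g, ((r g : GL (Fin 2) ℂ) : Matrix (Fin 2) (Fin 2) ℂ).trace = c g + d g / c g :=
    fun g => by
      have h1 := charpoly_eval_eigen ((r g : GL (Fin 2) ℂ) : Matrix (Fin 2) (Fin 2) ℂ) hv (hc g)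
      rw [← hd g] at h1
      have h2 := hc0 g
      field_simp
      linear_combination (-1 : ℂ) * h1
  have key : ∀ g, ‖((r g : GL (Fin 2) ℂ) : Matrix (Fin 2) (Fin 2) ℂ).trace‖ ^ 2 =
      2 + 2 * (ψ g).re := fun g => by
    have h1 : ‖d g / c g‖ = 1 := by rw [norm_div, hcn g, hdn g, div_one]
    rw [htr g, norm_sq_add_of_norm_one (hcn g) h1, hψ]
    congr 3
    have h2 := hc0 g
    have h3 := hd0 g
    field_simp
  simp_rw [key]
  rw [Finset.sum_add_distrib, Finset.sum_const, ← Finset.mul_sum, ← Complex.re_sum,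
    sum_hom_units ψ]
  split_ifs
  · simp
  · simp
    linarith

end Fermat.Agent.DS48
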