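import Fermat.Agent.DS48.Defs_lead
import Fermat.Prelude.Def_GaloisRep_Residual

set_option autoImplicit false

/-!
# [ASM] definitions: the input from W1 = [GRΓ1] as a `Prop`

`ModRepGamma1` is the statement that every mod `ℓ` eigensystem of the weight-two Hecke algebra of
`Γ₁(M)` has an attached semisimple Galois representation over a finite field.
-/

namespace Fermat.Agent.DS48

open Matrix CongruenceSubgroup Polynomial
open scoped MatrixGroups

local notation "Ω" => AlgebraicClosure ℚ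
local notation "GQ" => (AlgebraicClosure ℚ ≃ₐ[ℚ] AlgebraicClosure ℚ)

/-- **The output of W1 = [GRΓ1]**: mod `ℓ` Galois representations attached to the eigensystems of
the weight two Hecke algebra of `Γ₁(M)`. -/
def ModRepGamma1 : Prop :=
  ∀ (M : ℕ) [NeZero M], 5 ≤ M → ∀ (ℓ : ℕ) [Fact ℓ.Prime] (𝔽 : Type) [Field 𝔽] [Finite 𝔽]
    [CharP 𝔽 ℓ] (θ : ↥(hecke1Alg M) →+* 𝔽),
    ∃ (𝔽' : Type) (_ : Field 𝔽') (_ : Finite 𝔽') (_ : Algebra 𝔽 𝔽')
      (ρ : GQ →* GL (Fin 2) 𝔽'),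
      GaloisFactorsThroughFiniteLevel ρ ∧ IsSemisimpleRep ρ ∧
      ∀ (p : ℕ) (hp : p.Prime) (hpM : ¬ p ∣ M), p ≠ ℓ →
        ∀ A : ValuationSubring Ω, A.LiesOverPrime p →
          (∀ σ ∈ A.inertiaSubgroupIn ℚ, ρ σ = 1) ∧
          ∀ σ : GQ, A.IsFrobeniusAt σ p →
            ((ρ σ : GL (Fin 2) 𝔽') : Matrix (Fin 2) (Fin 2) 𝔽').charpoly =
              X ^ 2 - C (algebraMap 𝔽 𝔽'
                (θ ⟨heckeT1 2 hp hpM, heckeT1_mem_hecke1Alg M hp hpM⟩)) * X +
              C ((p : 𝔽') * algebraMap 𝔽 𝔽'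
                (θ ⟨diamond 2 (primeUnit M hp hpM), diamond_mem_hecke1Alg M _⟩))

end Fermat.Agent.DS48
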