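/-
[GRP-2] (DS48), helper4 — `2 × 2` matrix lemmas: the commutant of a non-scalar matrix, and commuting
matrices of finite order prime to the characteristic with the same characteristic polynomial.
-/
import Mathlib

set_option autoImplicit false

namespace Fermat.Agent.DS48.GRP2

open Matrix

variable {k : Type*} [Field k]

/-- Cayley–Hamilton for `2 × 2` matrices -/
theorem sq_eq (N : Matrix (Fin 2) (Fin 2) k) :
    N * N = N.trace • N - N.det • (1 : Matrix (Fin 2) (Fin 2) k) := by
  ext i j
  fin_cases i <;> fin_cases j <;>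
    simp [Matrix.mul_apply, Fin.sum_univ_two, Matrix.trace_fin_two, Matrix.det_fin_two] <;> ring

theorem eq_add_smul_of_entries {a g : Matrix (Fin 2) (Fin 2) k} {x y : k}
    (h00 : a 0 0 = x + y * g 0 0) (h01 : a 0 1 = y * g 0 1) (h10 : a 1 0 = y * g 1 0)
    (h11 : a 1 1 = x + y * g 1 1) : a = x • (1 : Matrix (Fin 2) (Fin 2) k) + y • g := by
  ext i j
  fin_cases i <;> fin_cases j <;> simp [h00, h01, h10, h11]

/-- **the commutant of a non-scalar `2 × 2` matrix** `g` is `k[g]` -/
theorem exists_eq_add_smul_of_commute (g a : Matrix (Fin 2) (Fin 2) k)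
    (hg : ¬ ∃ c : k, g = c • (1 : Matrix (Fin 2) (Fin 2) k)) (h : a * g = g * a) :
    ∃ x y : k, a = x • (1 : Matrix (Fin 2) (Fin 2) k) + y • g := by
  have h00 := congrFun (congrFun h 0) 0
  have h01 := congrFun (congrFun h 0) 1
  have h10 := congrFun (congrFun h 1) 0
  simp only [Matrix.mul_apply, Fin.sum_univ_two] at h00 h01 h10
  by_cases hq : g 0 1 = 0
  · by_cases hr : g 1 0 = 0
    · -- `g` is diagonal with distinct entries
      have hps : g 0 0 ≠ g 1 1 := by
        intro hps
        apply hg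
        refine ⟨g 0 0, ?_⟩
        ext i j
        fin_cases i <;> fin_cases j <;> simp [hq, hr, hps]
      have hsub : g 0 0 - g 1 1 ≠ 0 := sub_ne_zero.mpr hps
      have ha01 : a 0 1 = 0 := by
        have : (g 0 0 - g 1 1) * a 0 1 = 0 := by
          linear_combination (-1) * h01 + (a 0 0 - a 1 1) * hq
        exact (mul_eq_zero.mp this).resolve_left hsub
      have ha10 : a 1 0 = 0 := by
        have : (g 0 0 - g 1 1) * a 1 0 = 0 := by
          linear_combination h10 + (a 0 0 - a 1 1) * hr
        exact (mul_eq_zero.mp this).resolve_left hsub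
      obtain ⟨y, hy⟩ : ∃ y : k, y * (g 0 0 - g 1 1) = a 0 0 - a 1 1 :=
        ⟨(a 0 0 - a 1 1) / (g 0 0 - g 1 1), div_mul_cancel₀ _ hsub⟩
      refine ⟨a 0 0 - y * g 0 0, y, eq_add_smul_of_entries (by ring) ?_ ?_ ?_⟩
      · rw [ha01, hq, mul_zero]
      · rw [ha10, hr, mul_zero]
      · linear_combination hy
    · -- `g 1 0 ≠ 0`
      obtain ⟨y, hy⟩ : ∃ y : k, y * g 1 0 = a 1 0 := ⟨a 1 0 / g 1 0, div_mul_cancel₀ _ hr⟩
      refine ⟨a 0 0 - y * g 0 0, y, eq_add_smul_of_entries (by ring) ?_ hy.symm ?_⟩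
      · apply mul_left_cancel₀ hr
        linear_combination h00 - g 0 1 * hy
      · apply mul_left_cancel₀ hr
        linear_combination h10 + (g 0 0 - g 1 1) * hy
  · -- `g 0 1 ≠ 0`
    obtain ⟨y, hy⟩ : ∃ y : k, y * g 0 1 = a 0 1 := ⟨a 0 1 / g 0 1, div_mul_cancel₀ _ hq⟩
    refine ⟨a 0 0 - y * g 0 0, y, eq_add_smul_of_entries (by ring) hy.symm ?_ ?_⟩
    · apply mul_left_cancel₀ hq
      linear_combination (-1) * h00 - g 1 0 * hy
    · apply mul_left_cancel₀ hq
      linear_combination (-1) * h01 + (g 0 0 - g 1 1) * hy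

theorem add_pow_of_sq_zero (b u : Matrix (Fin 2) (Fin 2) k) (hbu : u * b = b * u)
    (hu : u * u = 0) (n : ℕ) :
    (b + u) ^ (n + 1) = b ^ (n + 1) + ((n + 1 : ℕ) : k) • (b ^ n * u) := by
  induction n with
  | zero => simp
  | succ n ih =>
    have h1 : b ^ n * u * b = b ^ (n + 1) * u := by
      rw [mul_assoc, hbu, ← mul_assoc, ← pow_succ]
    have h2 : b ^ n * u * u = 0 := by rw [mul_assoc, hu, mul_zero]
    rw [pow_succ, ih, add_mul, mul_add, mul_add, smul_mul_assoc, smul_mul_assoc, h1, h2,
      smul_zero, add_zero, ← pow_succ]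
    push_cast
    rw [add_smul ((n : k) + 1) 1, one_smul]
    abel

theorem trace_eq_of_charpoly_eq {a b : Matrix (Fin 2) (Fin 2) k} (hc : a.charpoly = b.charpoly) :
    a.trace = b.trace := by
  have h := congrArg (fun p => Polynomial.coeff p 1) hc
  simp only [Matrix.charpoly_fin_two] at h
  simpa [Polynomial.coeff_X, Polynomial.coeff_X_pow] using h

theorem det_eq_of_charpoly_eq {a b : Matrix (Fin 2) (Fin 2) k} (hc : a.charpoly = b.charpoly) :
    a.det = b.det := by
  have h := congrArg (fun p => Polynomial.coeff p 0) hc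
  simp only [Matrix.charpoly_fin_two] at h
  simpa [Polynomial.coeff_X, Polynomial.coeff_X_pow] using h

/-- two commuting `2 × 2` matrices of finite order prime to the characteristic with the same
characteristic polynomial are equal or conjugate under the canonical involution -/
theorem eq_or_eq_of_charpoly_eq (a b : Matrix (Fin 2) (Fin 2) k) (hab : a * b = b * a) {n : ℕ}
    (hn : (n : k) ≠ 0) (ha : a ^ n = 1) (hb : b ^ n = 1) (hc : a.charpoly = b.charpoly) :
    b = a ∨ b = a.trace • (1 : Matrix (Fin 2) (Fin 2) k) - a := by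
  have ht := trace_eq_of_charpoly_eq hc
  have hd := det_eq_of_charpoly_eq hc
  set u := a - b with hu
  have hub : u * b = b * u := by rw [hu, sub_mul, mul_sub, hab]
  have htu : u.trace = 0 := by rw [hu, Matrix.trace_sub, ht, sub_self]
  have huv : u * (a + b - a.trace • (1 : Matrix (Fin 2) (Fin 2) k)) = 0 := by
    have e : u * (a + b - a.trace • (1 : Matrix (Fin 2) (Fin 2) k)) =
        a * a - b * b - a.trace • a + a.trace • b := by
      rw [hu]
      simp only [sub_mul, mul_sub, mul_add, Matrix.mul_smul, mul_one]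
      rw [hab]
      abel
    rw [e, sq_eq a, sq_eq b, ← ht, ← hd]
    abel
  by_cases hdet : u.det = 0
  · left
    have huu : u * u = 0 := by rw [sq_eq u, htu, hdet, zero_smul, zero_smul, sub_zero]
    obtain ⟨m, rfl⟩ : ∃ m, n = m + 1 := ⟨n - 1, by
      have : n ≠ 0 := by rintro rfl; exact hn (by simp)
      omega⟩
    have hab' : a = b + u := by rw [hu]; abel
    have h1 := add_pow_of_sq_zero b u hub huu m
    rw [← hab', ha, hb] at h1
    have h2 : (((m + 1 : ℕ) : k)) • (b ^ m * u) = 0 := by
      have := h1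
      rw [left_eq_add] at this
      exact this
    have h3 : b ^ m * u = 0 := (smul_eq_zero.mp h2).resolve_left hn
    have h4 : u = 0 := by
      have : b * (b ^ m * u) = u := by rw [← mul_assoc, ← pow_succ', hb, one_mul]
      rw [← this, h3, mul_zero]
    have : a - b = 0 := h4
    exact (sub_eq_zero.mp this).symm
  · right
    have hunit : IsUnit u.det := isUnit_iff_ne_zero.mpr hdet
    have h1 : a + b - a.trace • (1 : Matrix (Fin 2) (Fin 2) k) = 0 := by
      have := congrArg (fun w => u⁻¹ * w) huv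
      simpa [← mul_assoc, Matrix.nonsing_inv_mul _ hunit] using this
    have : b = a.trace • (1 : Matrix (Fin 2) (Fin 2) k) - a := by
      have h2 := h1
      rw [sub_eq_zero] at h2
      rw [← h2]
      abel
    exact this

/-- scalar multiples of an invertible matrix with the same characteristic polynomial -/
theorem eq_or_eq_neg_of_charpoly_smul_eq (y : Matrix (Fin 2) (Fin 2) k) (hy : y.det ≠ 0)
    (z₁ z₂ : k) (h : (z₁ • y).charpoly = (z₂ • y).charpoly) : z₁ = z₂ ∨ z₁ = -z₂ := by
  have hd := det_eq_of_charpoly_eq h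
  rw [Matrix.det_smul, Matrix.det_smul, Fintype.card_fin] at hd
  have : z₁ ^ 2 = z₂ ^ 2 := mul_right_cancel₀ hy hd
  exact sq_eq_sq_iff_eq_or_eq_neg.mp this

end Fermat.Agent.DS48.GRP2
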