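/-
[INDEP] (DS48), helper4 — eigenvalues of `2 × 2` complex matrices of finite order: the trace has
absolute value at most `2`, the trace of the inverse is the conjugate of the trace, trace `2` forces
the identity; the determinant in terms of traces.
-/
import Fermat.Agent.DS48.GRP2_helper4_Mat

set_option autoImplicit false

namespace Fermat.Agent.DS48.INDEP

open Matrix

/-- a root of the characteristic polynomial of a `2 × 2` matrix of finite order is a root of
unity -/
theorem pow_eq_one_of_root (M : Matrix (Fin 2) (Fin 2) ℂ) {n : ℕ} (hM : M ^ n = 1) (a : ℂ)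
    (ha : a * a - M.trace * a + M.det = 0) : a ^ n = 1 := by
  have hdet : (a • (1 : Matrix (Fin 2) (Fin 2) ℂ) - M).det = 0 := by
    rw [Matrix.det_fin_two]
    rw [Matrix.trace_fin_two, Matrix.det_fin_two] at ha
    simp only [Matrix.sub_apply, Matrix.smul_apply, Matrix.one_apply_eq, smul_eq_mul, mul_one,
      Matrix.one_apply_ne (show (0 : Fin 2) ≠ 1 by decide),
      Matrix.one_apply_ne (show (1 : Fin 2) ≠ 0 by decide), mul_zero, zero_sub]
    linear_combination ha
  obtain ⟨v, hv0, hv⟩ := Matrix.exists_mulVec_eq_zero_iff.mpr hdet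
  have hMv : M *ᵥ v = a • v := by
    rw [Matrix.sub_mulVec, Matrix.smul_mulVec, Matrix.one_mulVec, sub_eq_zero] at hv
    exact hv.symm
  have hpow : ∀ j : ℕ, (M ^ j) *ᵥ v = a ^ j • v := by
    intro j
    induction j with
    | zero => simp
    | succ j ih =>
      rw [pow_succ, ← Matrix.mulVec_mulVec, hMv, Matrix.mulVec_smul, ih, smul_smul, pow_succ,
        mul_comm]
  have h1 := hpow n
  rw [hM, Matrix.one_mulVec] at h1
  have h2 : (a ^ n - 1) • v = 0 := by
    rw [sub_smul, one_smul, ← h1, sub_self]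
  rcases smul_eq_zero.mp h2 with h3 | h3
  · exact sub_eq_zero.mp h3
  · exact absurd h3 hv0

/-- the eigenvalues of a `2 × 2` complex matrix of finite order -/
theorem exists_eigenvalues (M : Matrix (Fin 2) (Fin 2) ℂ) {n : ℕ} (hM : M ^ n = 1) :
    ∃ a b : ℂ, a ^ n = 1 ∧ b ^ n = 1 ∧ M.trace = a + b ∧ M.det = a * b := by
  have hdeg : M.charpoly.degree ≠ 0 := by
    rw [Matrix.charpoly_degree_eq_dim, Fintype.card_fin]
    norm_num
  obtain ⟨a, ha⟩ := IsAlgClosed.exists_root M.charpoly hdeg
  have ha' : a * a - M.trace * a + M.det = 0 := by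
    rw [Polynomial.IsRoot.def, Matrix.charpoly_fin_two] at ha
    simp only [Polynomial.eval_add, Polynomial.eval_sub, Polynomial.eval_pow, Polynomial.eval_X,
      Polynomial.eval_mul, Polynomial.eval_C] at ha
    linear_combination ha
  have hb' : (M.trace - a) * (M.trace - a) - M.trace * (M.trace - a) + M.det = 0 := by
    linear_combination ha'
  refine ⟨a, M.trace - a, pow_eq_one_of_root M hM a ha', pow_eq_one_of_root M hM _ hb', by ring,
    ?_⟩
  linear_combination ha'

theorem norm_trace_le_two (M : Matrix (Fin 2) (Fin 2) ℂ) {n : ℕ} (hn : n ≠ 0) (hM : M ^ n = 1) :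
    ‖M.trace‖ ≤ 2 := by
  obtain ⟨a, b, ha, hb, ht, _⟩ := exists_eigenvalues M hM
  rw [ht]
  calc ‖a + b‖ ≤ ‖a‖ + ‖b‖ := norm_add_le a b
    _ = 1 + 1 := by
        rw [Complex.norm_eq_one_of_pow_eq_one ha hn, Complex.norm_eq_one_of_pow_eq_one hb hn]
    _ = 2 := by norm_num

/-- for a matrix of finite order, the trace of the inverse is the conjugate of the trace -/
theorem trace_inv_eq_conj (M N : Matrix (Fin 2) (Fin 2) ℂ) {n : ℕ} (hn : n ≠ 0) (hM : M ^ n = 1)
    (hMN : M * N = 1) : N.trace = (starRingEnd ℂ) M.trace := by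
  obtain ⟨a, b, ha, hb, ht, hd⟩ := exists_eigenvalues M hM
  have ha1 := Complex.norm_eq_one_of_pow_eq_one ha hn
  have hb1 := Complex.norm_eq_one_of_pow_eq_one hb hn
  have ha0 : a ≠ 0 := by
    rintro rfl
    simp at ha1
  have hb0 : b ≠ 0 := by
    rintro rfl
    simp at hb1
  have hd0 : M.det ≠ 0 := by rw [hd]; exact mul_ne_zero ha0 hb0
  have hNM : N * M = 1 := mul_eq_one_comm.mp hMN
  have h1 : M * (M.trace • (1 : Matrix (Fin 2) (Fin 2) ℂ) - M) =
      M.det • (1 : Matrix (Fin 2) (Fin 2) ℂ) := by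
    rw [mul_sub, Matrix.mul_smul, mul_one, GRP2.sq_eq M]
    abel
  have h2 : M.det • N = M.trace • (1 : Matrix (Fin 2) (Fin 2) ℂ) - M := by
    have := congrArg (fun X => N * X) h1
    simp only [← mul_assoc, hNM, one_mul, Matrix.mul_smul, mul_one] at this
    exact this.symm
  have h3 : M.det * N.trace = M.trace := by
    have := congrArg Matrix.trace h2
    rw [Matrix.trace_smul, Matrix.trace_sub, Matrix.trace_smul, Matrix.trace_one, Fintype.card_fin,
      smul_eq_mul, smul_eq_mul] at this
    rw [this]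
    push_cast
    ring
  have h4 : N.trace = M.trace / M.det := by
    rw [eq_div_iff hd0, ← h3]
    ring
  rw [h4, ht, hd, map_add, ← Complex.inv_eq_conj ha1, ← Complex.inv_eq_conj hb1]
  field_simp
  ring

/-- a `2 × 2` complex matrix of finite order and trace `2` is the identity -/
theorem eq_one_of_pow_of_trace (M : Matrix (Fin 2) (Fin 2) ℂ) {n : ℕ} (hn : n ≠ 0) (hM : M ^ n = 1)
    (ht : M.trace = 2) : M = 1 := by
  obtain ⟨a, b, ha, hb, ht', hd⟩ := exists_eigenvalues M hM
  have ha1 := Complex.norm_eq_one_of_pow_eq_one ha hn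
  have hb1 := Complex.norm_eq_one_of_pow_eq_one hb hn
  have hre : a.re + b.re = 2 := by
    have := congrArg Complex.re (ht'.symm.trans ht)
    simpa using this
  have hare : a.re ≤ 1 := ha1 ▸ Complex.re_le_norm a
  have hbre : b.re ≤ 1 := hb1 ▸ Complex.re_le_norm b
  have key : ∀ c : ℂ, ‖c‖ = 1 → c.re = 1 → c = 1 := by
    intro c hc hcre
    have h1 : Complex.normSq c = 1 := by
      rw [Complex.normSq_eq_norm_sq, hc]; norm_num
    rw [Complex.normSq_apply, hcre] at h1
    have h2 : c.im = 0 := by nlinarith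
    exact Complex.ext (by simpa using hcre) (by simpa using h2)
  have ha' : a = 1 := key a ha1 (by linarith)
  have hb' : b = 1 := key b hb1 (by linarith)
  have hd' : M.det = 1 := by rw [hd, ha', hb', mul_one]
  have hc : (1 : Matrix (Fin 2) (Fin 2) ℂ).charpoly = M.charpoly := by
    rw [Matrix.charpoly_fin_two, Matrix.charpoly_fin_two, ht, hd']
    simp
  have hn' : ((n : ℕ) : ℂ) ≠ 0 := by exact_mod_cast hn
  rcases GRP2.eq_or_eq_of_charpoly_eq (1 : Matrix (Fin 2) (Fin 2) ℂ) M (by simp) hn' (one_pow n) hM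
    hc with h | h
  · exact h
  · rw [h, Matrix.trace_one, Fintype.card_fin]
    push_cast
    rw [ofNat_smul_eq_nsmul, two_nsmul]
    abel

/-- the determinant of a `2 × 2` matrix in terms of traces -/
theorem two_mul_det_eq (M : Matrix (Fin 2) (Fin 2) ℂ) :
    2 * M.det = M.trace ^ 2 - (M * M).trace := by
  rw [GRP2.sq_eq M, Matrix.trace_sub, Matrix.trace_smul, Matrix.trace_smul, Matrix.trace_one,
    Fintype.card_fin, smul_eq_mul, smul_eq_mul]
  push_cast
  ring

end Fermat.Agent.DS48.INDEP
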