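/-
[INDEP] (DS48), helper4 — the Deligne–Serre comparison lemma: two representations `G → GL₂(ℂ)` of a
finite group whose traces agree outside a set of fewer than `|G| / 16` elements have the same trace
(`trace_eq_of_large`); equal traces give equal determinants (`det_eq_of_trace_eq`); trace `2`
forces the identity (`eq_one_of_trace_eq_two`).

Proof of the first: `χ = tr ρ₁ - tr ρ₂`; `∑ |χ(g)|² = |G| · z` with `z` an integer (scalar products
of characters are dimensions of spaces of intertwining maps, Mathlib's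
`Representation.card_inv_mul_sum_char_mul_char_eq_finrank`; `tr ρ(g⁻¹) = conj (tr ρ(g))`), and
`∑ |χ(g)|² ≤ 16 |Tᶜ| < |G|`, so `z = 0`.
-/
import Fermat.Agent.DS48.INDEP_helper4_Eigen

set_option autoImplicit false

namespace Fermat.Agent.DS48.INDEP

open Matrix Representation

section

variable {G : Type*} [Group G]

/-- the representation on `ℂ²` attached to `ρ : G →* GL₂(ℂ)` -/
noncomputable def rep (ρ : G →* GL (Fin 2) ℂ) : Representation ℂ G (Fin 2 → ℂ) :=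
  ((Matrix.toLinAlgEquiv' : Matrix (Fin 2) (Fin 2) ℂ ≃ₐ[ℂ] ((Fin 2 → ℂ) →ₗ[ℂ] (Fin 2 → ℂ))) :
    Matrix (Fin 2) (Fin 2) ℂ →* ((Fin 2 → ℂ) →ₗ[ℂ] (Fin 2 → ℂ))).comp
      ((Units.coeHom (Matrix (Fin 2) (Fin 2) ℂ)).comp ρ)

theorem rep_apply (ρ : G →* GL (Fin 2) ℂ) (g : G) :
    rep ρ g = Matrix.toLin' ((ρ g : GL (Fin 2) ℂ) : Matrix (Fin 2) (Fin 2) ℂ) := rfl

theorem character_rep (ρ : G →* GL (Fin 2) ℂ) (g : G) :
    (rep ρ).character g = ((ρ g : GL (Fin 2) ℂ) : Matrix (Fin 2) (Fin 2) ℂ).trace := by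
  rw [Representation.character, rep_apply, Matrix.trace_toLin'_eq]

/-- the trace of `ρ g` -/
noncomputable def tr (ρ : G →* GL (Fin 2) ℂ) (g : G) : ℂ :=
  ((ρ g : GL (Fin 2) ℂ) : Matrix (Fin 2) (Fin 2) ℂ).trace

theorem val_pow_card [Finite G] (ρ : G →* GL (Fin 2) ℂ) (g : G) :
    ((ρ g : GL (Fin 2) ℂ) : Matrix (Fin 2) (Fin 2) ℂ) ^ Nat.card G = 1 := by
  have h : (ρ g) ^ Nat.card G = 1 := by rw [← map_pow, pow_card_eq_one', map_one]
  have := congrArg (fun u : GL (Fin 2) ℂ => (u : Matrix (Fin 2) (Fin 2) ℂ)) h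
  simpa using this

theorem norm_tr_le [Finite G] (ρ : G →* GL (Fin 2) ℂ) (g : G) : ‖tr ρ g‖ ≤ 2 :=
  norm_trace_le_two _ Nat.card_pos.ne' (val_pow_card ρ g)

theorem tr_inv [Finite G] (ρ : G →* GL (Fin 2) ℂ) (g : G) :
    tr ρ g⁻¹ = (starRingEnd ℂ) (tr ρ g) := by
  refine trace_inv_eq_conj _ _ Nat.card_pos.ne' (val_pow_card ρ g) ?_
  simp

/-- integrality of the scalar products of characters -/
theorem exists_nat_sum_tr [Fintype G] (ρ σ : G →* GL (Fin 2) ℂ) :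
    ∃ N : ℕ, ∑ g : G, tr σ g * tr ρ g⁻¹ = (Nat.card G : ℂ) * (N : ℂ) := by
  have hne : (Nat.card G : ℂ) ≠ 0 := by exact_mod_cast Nat.card_pos.ne'
  have : Invertible (Nat.card G : ℂ) := invertibleOfNonzero hne
  have h := Representation.card_inv_mul_sum_char_mul_char_eq_finrank (rep ρ) (rep σ)
  refine ⟨Module.finrank ℂ (IntertwiningMap (rep ρ) (rep σ)), ?_⟩
  rw [← h, ← mul_assoc, mul_inv_cancel₀ hne, one_mul]
  refine Finset.sum_congr rfl (fun g _ => ?_)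
  rw [character_rep, character_rep]
  rfl


/-- **Deligne–Serre comparison lemma.**  Two representations `G → GL₂(ℂ)` of a finite group whose
traces agree outside a set of fewer than `|G| / 16` elements have the same trace. -/
theorem trace_eq_of_large [Finite G] (ρ₁ ρ₂ : G →* GL (Fin 2) ℂ) (T : Set G)
    (hT : ∀ g ∈ T, (ρ₁ g).val.trace = (ρ₂ g).val.trace)
    (hcard : 16 * (Tᶜ).ncard < Nat.card G) : ∀ g, (ρ₁ g).val.trace = (ρ₂ g).val.trace := by
  classical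
  have : Fintype G := Fintype.ofFinite G
  obtain ⟨N₁₁, h₁₁⟩ := exists_nat_sum_tr ρ₁ ρ₁
  obtain ⟨N₁₂, h₁₂⟩ := exists_nat_sum_tr ρ₁ ρ₂
  obtain ⟨N₂₁, h₂₁⟩ := exists_nat_sum_tr ρ₂ ρ₁
  obtain ⟨N₂₂, h₂₂⟩ := exists_nat_sum_tr ρ₂ ρ₂
  set χ : G → ℂ := fun g => tr ρ₁ g - tr ρ₂ g with hχ
  have hnpos : (0 : ℝ) < (Nat.card G : ℝ) := by exact_mod_cast Nat.card_pos
  -- the sum of `|χ|²` is `|G|` times an integer
  have hsum : ((∑ g : G, Complex.normSq (χ g) : ℝ) : ℂ) =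
      (Nat.card G : ℂ) * (((N₁₁ : ℤ) - N₂₁ - N₁₂ + N₂₂ : ℤ) : ℂ) := by
    have e : ∀ g : G, ((Complex.normSq (χ g) : ℝ) : ℂ) =
        tr ρ₁ g * tr ρ₁ g⁻¹ - tr ρ₁ g * tr ρ₂ g⁻¹ - tr ρ₂ g * tr ρ₁ g⁻¹ + tr ρ₂ g * tr ρ₂ g⁻¹ := by
      intro g
      rw [Complex.normSq_eq_conj_mul_self, hχ]
      simp only [map_sub, tr_inv]
      ring
    rw [Complex.ofReal_sum, Finset.sum_congr rfl (fun g _ => e g)]
    rw [Finset.sum_add_distrib, Finset.sum_sub_distrib, Finset.sum_sub_distrib, h₁₁, h₂₁, h₁₂, h₂₂]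
    push_cast
    ring
  set z : ℤ := (N₁₁ : ℤ) - N₂₁ - N₁₂ + N₂₂ with hz
  have hsumR : (∑ g : G, Complex.normSq (χ g) : ℝ) = (Nat.card G : ℝ) * (z : ℝ) := by
    have : ((∑ g : G, Complex.normSq (χ g) : ℝ) : ℂ) = (((Nat.card G : ℝ) * (z : ℝ) : ℝ) : ℂ) := by
      rw [hsum]
      push_cast
      ring
    exact Complex.ofReal_injective this
  -- upper bound
  have hχT : ∀ g ∈ T, χ g = 0 := by
    intro g hg
    simp only [hχ, tr]
    rw [hT g hg, sub_self]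
  have hχle : ∀ g, Complex.normSq (χ g) ≤ 16 := by
    intro g
    rw [Complex.normSq_eq_norm_sq]
    have h1 : ‖χ g‖ ≤ 4 := by
      calc ‖χ g‖ ≤ ‖tr ρ₁ g‖ + ‖tr ρ₂ g‖ := norm_sub_le _ _
        _ ≤ 2 + 2 := add_le_add (norm_tr_le ρ₁ g) (norm_tr_le ρ₂ g)
        _ = 4 := by norm_num
    nlinarith [norm_nonneg (χ g)]
  have hupper : (∑ g : G, Complex.normSq (χ g) : ℝ) ≤ 16 * ((Tᶜ).ncard : ℝ) := by
    have h1 : ∀ g : G, Complex.normSq (χ g) ≤ if g ∈ Tᶜ then (16 : ℝ) else 0 := by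
      intro g
      by_cases hg : g ∈ T
      · rw [hχT g hg, if_neg (by simpa using hg)]
        simp
      · rw [if_pos (by simpa using hg)]
        exact hχle g
    calc (∑ g : G, Complex.normSq (χ g) : ℝ) ≤ ∑ g : G, (if g ∈ Tᶜ then (16 : ℝ) else 0) :=
          Finset.sum_le_sum (fun g _ => h1 g)
      _ = 16 * ((Tᶜ).ncard : ℝ) := by
          rw [Finset.sum_ite, Finset.sum_const_zero, add_zero, Finset.sum_const, nsmul_eq_mul,
            Set.ncard_eq_toFinset_card']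
          rw [mul_comm]
          congr 3
          ext g
          simp
  have hlt : (Nat.card G : ℝ) * (z : ℝ) < (Nat.card G : ℝ) * 1 := by
    rw [← hsumR, mul_one]
    refine lt_of_le_of_lt hupper ?_
    exact_mod_cast hcard
  have hz1 : (z : ℝ) < 1 := lt_of_mul_lt_mul_left hlt hnpos.le
  have hz0 : (0 : ℝ) ≤ (z : ℝ) := by
    have h1 : (0 : ℝ) ≤ (Nat.card G : ℝ) * (z : ℝ) := by
      rw [← hsumR]
      exact Finset.sum_nonneg (fun g _ => Complex.normSq_nonneg _)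
    exact nonneg_of_mul_nonneg_right h1 hnpos
  have hzz : z = 0 := by
    have h1 : z < 1 := by exact_mod_cast hz1
    have h2 : 0 ≤ z := by exact_mod_cast hz0
    omega
  rw [hzz] at hsumR
  simp only [Int.cast_zero, mul_zero] at hsumR
  intro g
  have h0 := (Finset.sum_eq_zero_iff_of_nonneg (fun g _ => Complex.normSq_nonneg (χ g))).mp hsumR
    g (Finset.mem_univ g)
  have h1 : χ g = 0 := Complex.normSq_eq_zero.mp h0
  exact sub_eq_zero.mp h1

/-- equal traces imply equal determinants -/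
theorem det_eq_of_trace_eq (ρ₁ ρ₂ : G →* GL (Fin 2) ℂ)
    (h : ∀ g, (ρ₁ g).val.trace = (ρ₂ g).val.trace) : ∀ g, (ρ₁ g).val.det = (ρ₂ g).val.det := by
  intro g
  have h1 := two_mul_det_eq (ρ₁ g).val
  have h2 := two_mul_det_eq (ρ₂ g).val
  have e1 : (ρ₁ g).val * (ρ₁ g).val = (ρ₁ (g * g)).val := by rw [map_mul]; rfl
  have e2 : (ρ₂ g).val * (ρ₂ g).val = (ρ₂ (g * g)).val := by rw [map_mul]; rfl
  rw [e1, h (g * g), h g] at h1
  rw [e2] at h2
  have : (2 : ℂ) * (ρ₁ g).val.det = 2 * (ρ₂ g).val.det := h1.trans h2.symm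
  exact mul_left_cancel₀ two_ne_zero this

/-- an element of trace `2` in a representation of a finite group acts trivially -/
theorem eq_one_of_trace_eq_two [Finite G] (ρ : G →* GL (Fin 2) ℂ) (g : G)
    (h : (ρ g).val.trace = 2) : ρ g = 1 := by
  apply Units.ext
  exact eq_one_of_pow_of_trace _ Nat.card_pos.ne' (val_pow_card ρ g) h

end

end Fermat.Agent.DS48.INDEP
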