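import Fermat.Agent.DS48.ASM_lead_Lift
import Fermat.Agent.DS48.INDEP_helper4_Main

set_option autoImplicit false
set_option linter.style.haveILetI false

/-!
# [ASM] stage D: for large `ℓ` the congruences at the primes outside `X` are equalities
-/

namespace Fermat.Agent.DS48

open Matrix CongruenceSubgroup Polynomial ModularFormClass
open scoped MatrixGroups

local notation "Ω" => AlgebraicClosure ℚ
local notation "GQ" => (AlgebraicClosure ℚ ≃ₐ[ℚ] AlgebraicClosure ℚ)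

variable {N : ℕ} [NeZero N]

/-- eigenvalues of the elements of a finite image -/
theorem exists_eigen_of_card_le {G : Type*} [Group G] (ρ : G →* GL (Fin 2) ℂ) {m₀ : ℕ}
    [Finite ρ.range] (h : Nat.card ρ.range ≤ m₀) (g : G) :
    ∃ a b : ℂ, a ^ m₀.factorial = 1 ∧ b ^ m₀.factorial = 1 ∧
      ((ρ g : GL (Fin 2) ℂ) : Matrix (Fin 2) (Fin 2) ℂ).trace = a + b ∧
      ((ρ g : GL (Fin 2) ℂ) : Matrix (Fin 2) (Fin 2) ℂ).det = a * b := by
  apply INDEP.exists_eigenvalues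
  set x : ρ.range := ⟨ρ g, g, rfl⟩ with hx
  have h1 : x ^ Nat.card ρ.range = 1 := pow_card_eq_one'
  have h2 : Nat.card ρ.range ∣ m₀.factorial := Nat.dvd_factorial Nat.card_pos h
  obtain ⟨c, hc⟩ := h2
  have h3 : x ^ m₀.factorial = 1 := by rw [hc, pow_mul, h1, one_pow]
  have h4 := congrArg (fun y : ρ.range => ((y : GL (Fin 2) ℂ) : Matrix (Fin 2) (Fin 2) ℂ)) h3
  simpa [hx] using h4

theorem isIntegral_of_pow_eq_one {a : ℂ} {n : ℕ} (hn : n ≠ 0) (h : a ^ n = 1) :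
    IsIntegral ℤ a :=
  IsIntegral.of_pow (Nat.pos_of_ne_zero hn) (h ▸ isIntegral_one)

/-- the finite set of `n`-th roots of unity -/
theorem finite_roots (n : ℕ) (hn : n ≠ 0) : {z : ℂ | z ^ n = 1}.Finite := by
  have : {z : ℂ | z ^ n = 1} = ↑(Polynomial.nthRootsFinset n (1 : ℂ)) := by
    ext z
    simp [Polynomial.mem_nthRootsFinset (Nat.pos_of_ne_zero hn)]
  rw [this]
  exact Finset.finite_toSet _

open Classical in
/-- **[ASM] stage D**. -/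
theorem exists_lifts_eq (hW : ModRepGamma1) (ε : DirichletCharacter ℂ N)
    (f : CuspForm (Gamma1 N) 1) (hf₁ : qCoeff f 1 = 1)
    (hT : ∀ p : ℕ, p.Prime → ¬ p ∣ N → ∀ n : ℕ,
        qCoeff f (p * n) + ε (p : ZMod N) * (if p ∣ n then qCoeff f (n / p) else 0) =
          qCoeff f p * qCoeff f n)
    {Y : Set ℂ} (hY : Y.Finite) {Xs : Set ℕ} {B₀ : ℝ}
    (hX : ∀ s : ℝ, 1 < s → s ≤ 2 →
      Density.mass (fun p => if p ∈ Xs then (1 : ℝ) else 0) s ≤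
        (1 / 32) * Real.log (1 / (s - 1)) + B₀)
    (hXY : ∀ p : ℕ, p.Prime → ¬ p ∣ N * 2 → p ∉ Xs → qCoeff f p ∈ Y) :
    ∃ ℓ₁ m₀ : ℕ, ∀ (ℓ : ℕ) [Fact ℓ.Prime], ℓ₁ < ℓ →
      ∃ (A : ValuationSubring ℂ) (ρ : GQ →* GL (Fin 2) ℂ), (ℓ : ℂ) ∈ A.nonunits ∧
        GaloisFactorsThroughFiniteLevel ρ ∧ Nat.card ρ.range ≤ m₀ ∧
        (∀ p : ℕ, p.Prime → ¬ p ∣ ℓ * N → ∀ B : ValuationSubring Ω, B.LiesOverPrime p →
          (∀ σ ∈ B.inertiaSubgroupIn ℚ, ρ σ = 1) ∧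
          ∀ σ : GQ, B.IsFrobeniusAt σ p →
            ((ρ σ : GL (Fin 2) ℂ) : Matrix (Fin 2) (Fin 2) ℂ).trace - qCoeff f p ∈ A.nonunits ∧
            ((ρ σ : GL (Fin 2) ℂ) : Matrix (Fin 2) (Fin 2) ℂ).det - ε (p : ZMod N) ∈
              A.nonunits) ∧
        (∀ p : ℕ, p.Prime → ¬ p ∣ ℓ * N → ¬ p ∣ N * 2 → p ∉ Xs →
          ∀ B : ValuationSubring Ω, B.LiesOverPrime p → ∀ σ : GQ, B.IsFrobeniusAt σ p →
            ((ρ σ : GL (Fin 2) ℂ) : Matrix (Fin 2) (Fin 2) ℂ).trace = qCoeff f p ∧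
            ((ρ σ : GL (Fin 2) ℂ) : Matrix (Fin 2) (Fin 2) ℂ).det = ε (p : ZMod N)) := by
  obtain ⟨ℓ₀, m₀, hL⟩ := exists_lifts hW ε f hf₁ hT hY hX hXY
  set n := m₀.factorial with hn
  have hn0 : n ≠ 0 := Nat.factorial_ne_zero m₀
  set R : Set ℂ := {z : ℂ | z ^ n = 1} with hR
  have hRfin : R.Finite := finite_roots n hn0
  set Z : Set ℂ := Set.range (fun x : ZMod N => ε x) with hZ
  have hZfin : Z.Finite := Set.finite_range _
  -- the differences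
  set E₁ : Set ℂ := Set.image2 (fun u y : ℂ => u - y) (Set.image2 (fun u v : ℂ => u + v) R R) Y
    with hE₁
  set E₂ : Set ℂ := Set.image2 (fun u y : ℂ => u - y) (Set.image2 (fun u v : ℂ => u * v) R R) Z
    with hE₂
  have hE₁fin : E₁.Finite := Set.Finite.image2 _ (Set.Finite.image2 _ hRfin hRfin) hY
  have hE₂fin : E₂.Finite := Set.Finite.image2 _ (Set.Finite.image2 _ hRfin hRfin) hZfin
  set D : Set ℂ := {d | d ∈ E₁ ∪ E₂ ∧ d ≠ 0 ∧ IsIntegral ℤ d} with hD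
  have hDfin : D.Finite := Set.Finite.subset (hE₁fin.union hE₂fin) fun d hd => hd.1
  obtain ⟨n₁, hn₁⟩ := exists_bound_of_finite hDfin (fun d hd => hd.2.2) (fun d hd => hd.2.1)
  have hRfg := exists_fg_heckeRing ε f hf₁ hT
  have ha : ∀ p : ℕ, p.Prime → ¬ p ∣ N → IsIntegral ℤ (qCoeff f p) := fun p hp hpN =>
    IsIntegral.of_mem_of_fg _ hRfg _
      (prime_coeff_mem_heckeRing (a := fun n => qCoeff f n) hp hpN)
  refine ⟨max ℓ₀ n₁, m₀, fun ℓ _ hℓ => ?_⟩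
  have hℓ0 : ℓ₀ < ℓ := lt_of_le_of_lt (le_max_left _ _) hℓ
  have hℓ1 : n₁ < ℓ := lt_of_le_of_lt (le_max_right _ _) hℓ
  obtain ⟨A, ρ, hℓA, hfl, hcard, hρ⟩ := hL ℓ hℓ0
  refine ⟨A, ρ, hℓA, hfl, hcard, hρ, fun p hp hpM hp2 hpX B hB σ hσ => ?_⟩
  haveI : Finite ρ.range := (Density.finite_range_of_factors ρ hfl).to_subtype
  obtain ⟨u, v, hu, hv, htr, hdet⟩ := exists_eigen_of_card_le ρ hcard σ
  obtain ⟨h1, h2⟩ := (hρ p hp hpM B hB).2 σ hσ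
  have hpN : ¬ p ∣ N := fun h => hp2 (Dvd.dvd.mul_right h 2)
  have hnot := hn₁ ℓ A hℓA hℓ1
  constructor
  · by_contra hne
    refine hnot _ ⟨Or.inl ⟨u + v, ⟨u, hu, v, hv, rfl⟩, qCoeff f p, hXY p hp hp2 hpX, rfl⟩,
      ?_, ?_⟩ (htr ▸ h1)
    · rw [← htr]
      exact sub_ne_zero.mpr hne
    · exact ((isIntegral_of_pow_eq_one hn0 hu).add (isIntegral_of_pow_eq_one hn0 hv)).sub
        (ha p hp hpN)
  · by_contra hne
    refine hnot _ ⟨Or.inr ⟨u * v, ⟨u, hu, v, hv, rfl⟩, ε (p : ZMod N), ⟨_, rfl⟩, rfl⟩,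
      ?_, ?_⟩ (hdet ▸ h2)
    · rw [← hdet]
      exact sub_ne_zero.mpr hne
    · exact ((isIntegral_of_pow_eq_one hn0 hu).mul (isIntegral_of_pow_eq_one hn0 hv)).sub
        (isIntegral_char ε _)

end Fermat.Agent.DS48
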