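import Fermat.Agent.DS48.INDEP_helper4_Main
import Fermat.Agent.Density.CHEBD_helper4_Rho

set_option autoImplicit false
set_option linter.style.haveILetI false

/-!
# [ASM] stage E: two complex representations of finite level whose Frobenius traces agree outside
a set of primes of density `≤ 1/32` have the same trace and determinant
-/

namespace Fermat.Agent.DS48

open Matrix

local notation "Ω" => AlgebraicClosure ℚ
local notation "GQ" => (AlgebraicClosure ℚ ≃ₐ[ℚ] AlgebraicClosure ℚ)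

theorem factors_prod {M₁ M₂ : Type} [Group M₁] [Group M₂] (ρ₁ : GQ →* M₁) (ρ₂ : GQ →* M₂)
    (h₁ : GaloisFactorsThroughFiniteLevel ρ₁) (h₂ : GaloisFactorsThroughFiniteLevel ρ₂) :
    GaloisFactorsThroughFiniteLevel (ρ₁.prod ρ₂) := by
  obtain ⟨L₁, hL₁, e₁⟩ := h₁
  obtain ⟨L₂, hL₂, e₂⟩ := h₂
  refine ⟨L₁ ⊔ L₂, inferInstance, fun σ hσ => ?_⟩
  have a₁ := e₁ σ fun x hx => hσ x ((le_sup_left : L₁ ≤ L₁ ⊔ L₂) hx)
  have a₂ := e₂ σ fun x hx => hσ x ((le_sup_right : L₂ ≤ L₁ ⊔ L₂) hx)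
  rw [MonoidHom.prod_apply, a₁, a₂]
  rfl

open Classical in
/-- **[ASM] stage E**. -/
theorem trace_eq_of_frob {Xs : Set ℕ} {B₀ : ℝ}
    (hX : ∀ s : ℝ, 1 < s → s ≤ 2 →
      Density.mass (fun p => if p ∈ Xs then (1 : ℝ) else 0) s ≤
        (1 / 32) * Real.log (1 / (s - 1)) + B₀)
    (T : Finset ℕ) (ρ₁ ρ₂ : GQ →* GL (Fin 2) ℂ)
    (h₁ : GaloisFactorsThroughFiniteLevel ρ₁) (h₂ : GaloisFactorsThroughFiniteLevel ρ₂)
    (hFrob : ∀ p : ℕ, p.Prime → p ∉ T → p ∉ Xs → ∀ (B : ValuationSubring Ω) (φ : GQ),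
      B.LiesOverPrime p → B.IsFrobeniusAt φ p →
        ((ρ₁ φ : GL (Fin 2) ℂ) : Matrix (Fin 2) (Fin 2) ℂ).trace =
          ((ρ₂ φ : GL (Fin 2) ℂ) : Matrix (Fin 2) (Fin 2) ℂ).trace) :
    ∀ σ : GQ, ((ρ₁ σ : GL (Fin 2) ℂ) : Matrix (Fin 2) (Fin 2) ℂ).trace =
      ((ρ₂ σ : GL (Fin 2) ℂ) : Matrix (Fin 2) (Fin 2) ℂ).trace := by
  set P : GQ →* GL (Fin 2) ℂ × GL (Fin 2) ℂ := ρ₁.prod ρ₂ with hP
  have hPfl := factors_prod ρ₁ ρ₂ h₁ h₂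
  set H : Set (GL (Fin 2) ℂ × GL (Fin 2) ℂ) :=
    {g | (g.1 : Matrix (Fin 2) (Fin 2) ℂ).trace = (g.2 : Matrix (Fin 2) (Fin 2) ℂ).trace} with hH
  have hHconj : ∀ g ∈ H, ∀ τ : GQ, P τ * g * (P τ)⁻¹ ∈ H := by
    intro g hg τ
    show ((ρ₁ τ * g.1 * (ρ₁ τ)⁻¹ : GL (Fin 2) ℂ) : Matrix (Fin 2) (Fin 2) ℂ).trace =
      ((ρ₂ τ * g.2 * (ρ₂ τ)⁻¹ : GL (Fin 2) ℂ) : Matrix (Fin 2) (Fin 2) ℂ).trace
    have e1 : ((ρ₁ τ * g.1 * (ρ₁ τ)⁻¹ : GL (Fin 2) ℂ) : Matrix (Fin 2) (Fin 2) ℂ).trace =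
        (g.1 : Matrix (Fin 2) (Fin 2) ℂ).trace := by
      simpa using Matrix.trace_units_conj (ρ₁ τ) (g.1 : Matrix (Fin 2) (Fin 2) ℂ)
    have e2 : ((ρ₂ τ * g.2 * (ρ₂ τ)⁻¹ : GL (Fin 2) ℂ) : Matrix (Fin 2) (Fin 2) ℂ).trace =
        (g.2 : Matrix (Fin 2) (Fin 2) ℂ).trace := by
      simpa using Matrix.trace_units_conj (ρ₂ τ) (g.2 : Matrix (Fin 2) (Fin 2) ℂ)
    rw [e1, e2]
    exact hg
  have hU1 := Density.card_range_le_of_density P hPfl H hHconj T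
    (fun p => if p ∈ Xs then (1 : ℝ) else 0) (W := 1)
    (fun p => by split_ifs <;> norm_num) (fun p => by split_ifs <;> norm_num) hX (by
      intro p hp hpT hx B φ hB hφ
      have hpX : p ∉ Xs := by
        intro h
        simp [h] at hx
      exact hFrob p hp hpT hpX B φ hB hφ)
  haveI : Finite P.range := (Density.finite_range_of_factors P hPfl).to_subtype
  set r₁ : P.range →* GL (Fin 2) ℂ := (MonoidHom.fst _ _).comp P.range.subtype with hr₁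
  set r₂ : P.range →* GL (Fin 2) ℂ := (MonoidHom.snd _ _).comp P.range.subtype with hr₂
  set T' : Set P.range := {g | (g : GL (Fin 2) ℂ × GL (Fin 2) ℂ) ∈ H} with hT'
  have himg : Subtype.val '' T' = H ∩ Set.range P := by
    ext g
    constructor
    · rintro ⟨x, hx, rfl⟩
      exact ⟨hx, x.2⟩
    · rintro ⟨hg, hgr⟩
      exact ⟨⟨g, hgr⟩, hg, rfl⟩
  have hcardT' : T'.ncard = Nat.card ↥(H ∩ Set.range P) := by
    rw [Nat.card_coe_set_eq, ← himg, Set.ncard_image_of_injective _ Subtype.val_injective]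
  have hGcard : Nat.card ↥(Set.range P) = Nat.card P.range := rfl
  have hsum := Set.ncard_add_ncard_compl T'
  have hpos : 0 < Nat.card P.range := Nat.card_pos
  have hlarge : 16 * (T'ᶜ).ncard < Nat.card P.range := by
    rw [← hcardT', hGcard] at hU1
    have h1 : ((T'.ncard : ℝ) + ((T'ᶜ).ncard : ℝ)) = (Nat.card P.range : ℝ) := by
      exact_mod_cast hsum
    have h2 : (0 : ℝ) < (Nat.card P.range : ℝ) := by exact_mod_cast hpos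
    have h3 : (16 : ℝ) * ((T'ᶜ).ncard : ℝ) < (Nat.card P.range : ℝ) := by nlinarith
    exact_mod_cast h3
  have key := INDEP.trace_eq_of_large r₁ r₂ T' (fun g hg => hg) hlarge
  intro σ
  exact key ⟨P σ, σ, rfl⟩

open Classical in
theorem det_eq_of_frob {Xs : Set ℕ} {B₀ : ℝ}
    (hX : ∀ s : ℝ, 1 < s → s ≤ 2 →
      Density.mass (fun p => if p ∈ Xs then (1 : ℝ) else 0) s ≤
        (1 / 32) * Real.log (1 / (s - 1)) + B₀)
    (T : Finset ℕ) (ρ₁ ρ₂ : GQ →* GL (Fin 2) ℂ)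
    (h₁ : GaloisFactorsThroughFiniteLevel ρ₁) (h₂ : GaloisFactorsThroughFiniteLevel ρ₂)
    (hFrob : ∀ p : ℕ, p.Prime → p ∉ T → p ∉ Xs → ∀ (B : ValuationSubring Ω) (φ : GQ),
      B.LiesOverPrime p → B.IsFrobeniusAt φ p →
        ((ρ₁ φ : GL (Fin 2) ℂ) : Matrix (Fin 2) (Fin 2) ℂ).trace =
          ((ρ₂ φ : GL (Fin 2) ℂ) : Matrix (Fin 2) (Fin 2) ℂ).trace) :
    ∀ σ : GQ, ((ρ₁ σ : GL (Fin 2) ℂ) : Matrix (Fin 2) (Fin 2) ℂ).det =
      ((ρ₂ σ : GL (Fin 2) ℂ) : Matrix (Fin 2) (Fin 2) ℂ).det :=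
  INDEP.det_eq_of_trace_eq ρ₁ ρ₂ (trace_eq_of_frob hX T ρ₁ ρ₂ h₁ h₂ hFrob)

end Fermat.Agent.DS48
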