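import Fermat.Agent.DS48.LIFT_lead_Teich
import Fermat.Prelude.Def_Deformations_MatrixRepresentation

set_option autoImplicit false
set_option linter.style.haveILetI false

/-!
# [ASM] auxiliary lemmas

* `not_dvd_card_of_diag`: a simultaneously diagonalisable finite subgroup of `GL₂(k)`, `char k = ℓ`,
  has order prime to `ℓ`;
* `dvd_coeff_zero_of_mem_nonunits`: an algebraic integer lying in the maximal ideal of a valuation
  subring of `ℂ` above `ℓ` has the constant term of its minimal polynomial divisible by `ℓ`;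
* `isIrreducible_of_no_line`: a two-dimensional representation without invariant line is
  irreducible.
-/

namespace Fermat.Agent.DS48

open Matrix Polynomial IsLocalRing

section Diag

variable {k : Type*} [Field k]

theorem mulVec_pow_eigen (M : Matrix (Fin 2) (Fin 2) k) (v : Fin 2 → k) (c : k)
    (h : M.mulVec v = c • v) (n : ℕ) : (M ^ n).mulVec v = c ^ n • v := by
  induction n with
  | zero => simp
  | succ n ih =>
    rw [pow_succ, ← Matrix.mulVec_mulVec, h, Matrix.mulVec_smul, ih, smul_smul, pow_succ, mul_comm]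

theorem eq_one_of_mulVec_eq (M : Matrix (Fin 2) (Fin 2) k) (v w : Fin 2 → k)
    (hvw : LinearIndependent k ![v, w]) (hv : M.mulVec v = v) (hw : M.mulVec w = w) : M = 1 := by
  have hspan : Submodule.span k (Set.range ![v, w]) = ⊤ :=
    hvw.span_eq_top_of_card_eq_finrank' (by simp)
  apply Matrix.toLin'.injective
  refine LinearMap.ext_on hspan ?_
  rintro x ⟨i, rfl⟩
  fin_cases i
  · simpa using hv
  · simpa using hw

theorem not_dvd_card_of_diag {ℓ : ℕ} [Fact ℓ.Prime] [CharP k ℓ] (G : Subgroup (GL (Fin 2) k))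
    [Finite G] (v w : Fin 2 → k) (hvw : LinearIndependent k ![v, w])
    (hv : ∀ g ∈ G, ∃ c : k, (g : Matrix (Fin 2) (Fin 2) k).mulVec v = c • v)
    (hw : ∀ g ∈ G, ∃ c : k, (g : Matrix (Fin 2) (Fin 2) k).mulVec w = c • w) :
    ¬ ℓ ∣ Nat.card G := by
  intro hdvd
  obtain ⟨g, hg⟩ := exists_prime_orderOf_dvd_card' ℓ hdvd
  have hgl : g ^ ℓ = 1 := hg ▸ pow_orderOf_eq_one g
  have hne : g ≠ 1 := by
    intro h
    rw [h, orderOf_one] at hg
    exact (Fact.out : ℓ.Prime).one_lt.ne hg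
  set M : Matrix (Fin 2) (Fin 2) k := ((g : GL (Fin 2) k) : Matrix (Fin 2) (Fin 2) k) with hM
  have hMl : M ^ ℓ = 1 := by
    have := congrArg (fun x : G => ((x : GL (Fin 2) k) : Matrix (Fin 2) (Fin 2) k)) hgl
    simpa using this
  have key : ∀ u : Fin 2 → k, u ≠ 0 → (∃ c : k, M.mulVec u = c • u) → M.mulVec u = u := by
    rintro u hu ⟨c, hc⟩
    have h1 := mulVec_pow_eigen M u c hc ℓ
    rw [hMl, Matrix.one_mulVec] at h1
    have h2 : (c ^ ℓ - 1) • u = 0 := by rw [sub_smul, one_smul, ← h1, sub_self]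
    have h3 : c ^ ℓ - 1 = 0 := by
      rcases smul_eq_zero.mp h2 with h | h
      · exact h
      · exact absurd h hu
    have h4 : (c - 1) ^ ℓ = 0 := by rw [sub_pow_char, one_pow, h3]
    have h5 : c = 1 := sub_eq_zero.mp (pow_eq_zero_iff (Fact.out : ℓ.Prime).ne_zero |>.mp h4)
    rw [hc, h5, one_smul]
  have hv0 : v ≠ 0 := by simpa using hvw.ne_zero 0
  have hw0 : w ≠ 0 := by simpa using hvw.ne_zero 1
  have h1 : M = 1 := eq_one_of_mulVec_eq M v w hvw (key v hv0 (hv g g.2)) (key w hw0 (hw g g.2))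
  apply hne
  apply Subtype.ext
  apply Units.ext
  exact h1

end Diag

section Nonunits

variable {ℓ : ℕ} [Fact ℓ.Prime]

theorem dvd_coeff_zero_of_mem_nonunits {d : ℂ} (A : ValuationSubring ℂ)
    (hℓ : (ℓ : ℂ) ∈ A.nonunits) (hdA : d ∈ A.nonunits) :
    (ℓ : ℤ) ∣ (minpoly ℤ d).coeff 0 := by
  have hdm : d ∈ A := A.nonunits_subset hdA
  set d' : A := ⟨d, hdm⟩ with hd'
  have h0 : aeval d' (minpoly ℤ d) = 0 := by
    have h1 : aeval d (minpoly ℤ d) = 0 := minpoly.aeval ℤ d
    have h2 := Polynomial.aeval_algHom_apply (A.subtype.toIntAlgHom) d' (minpoly ℤ d)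
    have h3 : (A.subtype.toIntAlgHom) d' = d := rfl
    rw [h3, h1] at h2
    apply Subtype.ext
    exact h2.symm
  have h1 := Polynomial.aeval_algHom_apply ((residue A).toIntAlgHom) d' (minpoly ℤ d)
  have h2 : ((residue A).toIntAlgHom) d' = 0 :=
    (residue_eq_zero_iff_nonunits A hdm).mpr hdA
  rw [h2, h0, map_zero, Polynomial.aeval_def, Polynomial.eval₂_at_zero, eq_intCast] at h1
  haveI : CharP (ResidueField A) ℓ := charP_residueField A hℓ
  exact (CharP.intCast_eq_zero_iff (ResidueField A) ℓ _).mp h1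

/-- a nonzero algebraic integer lies in the maximal ideal of valuation subrings of `ℂ` above only
finitely many primes -/
theorem exists_bound_of_mem_nonunits {d : ℂ} (hd : IsIntegral ℤ d) (hd0 : d ≠ 0) :
    ∃ n : ℕ, ∀ (ℓ : ℕ) [Fact ℓ.Prime] (A : ValuationSubring ℂ), (ℓ : ℂ) ∈ A.nonunits →
      d ∈ A.nonunits → ℓ ≤ n := by
  have hc : (minpoly ℤ d).coeff 0 ≠ 0 := by
    have h1 : (minpoly ℚ d).coeff 0 ≠ 0 := minpoly.coeff_zero_ne_zero hd.tower_top hd0
    rw [minpoly.isIntegrallyClosed_eq_field_fractions' ℚ hd, Polynomial.coeff_map] at h1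
    intro h2
    rw [h2, map_zero] at h1
    exact h1 rfl
  refine ⟨((minpoly ℤ d).coeff 0).natAbs, fun ℓ _ A hℓ hdA => ?_⟩
  have h := dvd_coeff_zero_of_mem_nonunits A hℓ hdA
  have h2 : ℓ ∣ ((minpoly ℤ d).coeff 0).natAbs := Int.natCast_dvd.mp h
  exact Nat.le_of_dvd (Int.natAbs_pos.mpr hc) h2

/-- the same for a finite set of nonzero algebraic integers -/
theorem exists_bound_of_finite {D : Set ℂ} (hD : D.Finite)
    (hint : ∀ d ∈ D, IsIntegral ℤ d) (h0 : ∀ d ∈ D, d ≠ 0) :
    ∃ n : ℕ, ∀ (ℓ : ℕ) [Fact ℓ.Prime] (A : ValuationSubring ℂ), (ℓ : ℂ) ∈ A.nonunits →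
      n < ℓ → ∀ d ∈ D, d ∉ A.nonunits := by
  induction D, hD using Set.Finite.induction_on with
  | empty => exact ⟨0, fun _ _ _ _ _ d hd => absurd hd (Set.notMem_empty d)⟩
  | @insert a s _ _ ih =>
    obtain ⟨n₁, hn₁⟩ := ih (fun d hd => hint d (Set.mem_insert_of_mem _ hd))
      (fun d hd => h0 d (Set.mem_insert_of_mem _ hd))
    obtain ⟨n₂, hn₂⟩ := exists_bound_of_mem_nonunits (hint a (Set.mem_insert _ _))
      (h0 a (Set.mem_insert _ _))
    refine ⟨max n₁ n₂, fun ℓ _ A hℓ hlt d hd => ?_⟩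
    rcases Set.mem_insert_iff.mp hd with rfl | hd
    · intro hmem
      have := hn₂ ℓ A hℓ hmem
      exact absurd (lt_of_le_of_lt (le_max_right n₁ n₂) hlt) (not_lt.mpr this)
    · exact hn₁ ℓ A hℓ (lt_of_le_of_lt (le_max_left n₁ n₂) hlt) d hd

end Nonunits

section Irr

theorem isIrreducible_of_no_line {G : Type} [Group G] (ρ : G →* GL (Fin 2) ℂ)
    (h : ¬ ∃ v : Fin 2 → ℂ, v ≠ 0 ∧
      ∀ g, ∃ c : ℂ, ((ρ g : GL (Fin 2) ℂ) : Matrix (Fin 2) (Fin 2) ℂ).mulVec v = c • v) :
    (Deformation.matrixRepresentation ρ).IsIrreducible := by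
  set r := Deformation.matrixRepresentation ρ with hr
  haveI : Nontrivial (Subrepresentation r) := by
    refine ⟨⊥, ⊤, fun hbt => ?_⟩
    have h1 : (⊥ : Submodule ℂ (Fin 2 → ℂ)) = ⊤ :=
      congrArg Subrepresentation.toSubmodule hbt
    exact bot_ne_top h1
  refine ⟨fun W => ?_⟩
  set S := W.toSubmodule with hS
  have hle : Module.finrank ℂ S ≤ 2 := by
    have := Submodule.finrank_le S
    simpa using this
  have hcases : Module.finrank ℂ S = 0 ∨ Module.finrank ℂ S = 1 ∨ Module.finrank ℂ S = 2 := by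
    omega
  rcases hcases with h0 | h1 | h2
  · left
    apply Subrepresentation.toSubmodule_injective
    exact Submodule.finrank_eq_zero.mp h0
  · exfalso
    apply h
    obtain ⟨⟨v, hvS⟩, hv0, hv⟩ := finrank_eq_one_iff'.mp h1
    refine ⟨v, fun hv0' => hv0 (Subtype.ext hv0'), fun g => ?_⟩
    have hmem : r g v ∈ S := W.apply_mem_toSubmodule g hvS
    obtain ⟨c, hc⟩ := hv ⟨r g v, hmem⟩
    refine ⟨c, ?_⟩
    have h3 : c • v = r g v := congrArg Subtype.val hc
    rw [h3, hr, Deformation.matrixRepresentation_apply]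
    rfl
  · right
    apply Subrepresentation.toSubmodule_injective
    apply Submodule.eq_top_of_finrank_eq
    rw [h2]
    simp

end Irr

end Fermat.Agent.DS48
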