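import Fermat.Agent.DS48.ASM_lead_Resid
import Fermat.Agent.DS48.ASM_lead_Bound

set_option autoImplicit false
set_option linter.style.haveILetI false

/-!
# [ASM] stage C: the characteristic zero lifts `ρ_ℓ`
-/

namespace Fermat.Agent.DS48

open Matrix CongruenceSubgroup Polynomial ModularFormClass
open scoped MatrixGroups

local notation "Ω" => AlgebraicClosure ℚ
local notation "GQ" => (AlgebraicClosure ℚ ≃ₐ[ℚ] AlgebraicClosure ℚ)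

variable {N : ℕ} [NeZero N]

theorem sub_mem_nonunits_of_map_eq {ℓ : ℕ} [Fact ℓ.Prime] {A : ValuationSubring ℂ}
    (π : ↥A →+* AlgebraicClosure (ZMod ℓ))
    (hπ : ∀ a : ↥A, π a = 0 ↔ (a : ℂ) ∈ A.nonunits) {x y : ℂ} (hx : x ∈ A) (hy : y ∈ A)
    (h : π ⟨x, hx⟩ = π ⟨y, hy⟩) : x - y ∈ A.nonunits := by
  have h1 : π (⟨x, hx⟩ - ⟨y, hy⟩) = 0 := by rw [map_sub, h, sub_self]
  exact (hπ _).mp h1

open Classical in
/-- **[ASM] stage C**: for every large prime `ℓ`, a complex representation `ρ_ℓ` with image of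
bounded order, unramified outside `ℓ N`, with `tr ρ_ℓ(Frob_p) ≡ a_p`, `det ρ_ℓ(Frob_p) ≡ ε(p)`
modulo a place above `ℓ`. -/
theorem exists_lifts (hW : ModRepGamma1) (ε : DirichletCharacter ℂ N)
    (f : CuspForm (Gamma1 N) 1) (hf₁ : qCoeff f 1 = 1)
    (hT : ∀ p : ℕ, p.Prime → ¬ p ∣ N → ∀ n : ℕ,
        qCoeff f (p * n) + ε (p : ZMod N) * (if p ∣ n then qCoeff f (n / p) else 0) =
          qCoeff f p * qCoeff f n)
    {Y : Set ℂ} (hY : Y.Finite) {Xs : Set ℕ} {B₀ : ℝ}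
    (hX : ∀ s : ℝ, 1 < s → s ≤ 2 →
      Density.mass (fun p => if p ∈ Xs then (1 : ℝ) else 0) s ≤
        (1 / 32) * Real.log (1 / (s - 1)) + B₀)
    (hXY : ∀ p : ℕ, p.Prime → ¬ p ∣ N * 2 → p ∉ Xs → qCoeff f p ∈ Y) :
    ∃ ℓ₀ m₀ : ℕ, ∀ (ℓ : ℕ) [Fact ℓ.Prime], ℓ₀ < ℓ →
      ∃ (A : ValuationSubring ℂ) (ρ : GQ →* GL (Fin 2) ℂ), (ℓ : ℂ) ∈ A.nonunits ∧
        GaloisFactorsThroughFiniteLevel ρ ∧ Nat.card ρ.range ≤ m₀ ∧
        ∀ p : ℕ, p.Prime → ¬ p ∣ ℓ * N → ∀ B : ValuationSubring Ω, B.LiesOverPrime p →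
          (∀ σ ∈ B.inertiaSubgroupIn ℚ, ρ σ = 1) ∧
          ∀ σ : GQ, B.IsFrobeniusAt σ p →
            ((ρ σ : GL (Fin 2) ℂ) : Matrix (Fin 2) (Fin 2) ℂ).trace - qCoeff f p ∈ A.nonunits ∧
            ((ρ σ : GL (Fin 2) ℂ) : Matrix (Fin 2) (Fin 2) ℂ).det - ε (p : ZMod N) ∈
              A.nonunits := by
  obtain ⟨ℓ₀, m₀, hB⟩ := card_range_le ε (fun n => qCoeff f n) hY hX hXY
  refine ⟨max ℓ₀ 5, m₀, fun ℓ _ hℓ => ?_⟩
  have hℓ0 : ℓ₀ < ℓ := lt_of_le_of_lt (le_max_left _ _) hℓ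
  have hℓ5 : 5 ≤ ℓ := le_of_lt (lt_of_le_of_lt (le_max_right _ _) hℓ)
  obtain ⟨A, π, hπ, hlift⟩ := g4_val ℓ
  obtain ⟨𝔽', i1, i2, j, ρbar, hfl, hss, hρ⟩ := exists_residual hW ε f hf₁ hT hℓ5 A π hπ
  letI := i1
  letI := i2
  obtain ⟨hcard, hnd⟩ := hB ℓ hℓ0 A π 𝔽' j ρbar hfl hss
    (fun p hp hpM B hB σ hσ => (hρ p hp hpM B hB).2 σ hσ)
  haveI : Finite (GL (Fin 2) 𝔽') := inferInstance
  haveI : Finite ρbar.range := inferInstance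
  obtain ⟨ρ₀, hρ₀⟩ := hlift ρbar.range hnd 𝔽' j ρbar.range.subtype
  set ρ : GQ →* GL (Fin 2) ℂ := ρ₀.comp ρbar.rangeRestrict with hρdef
  have hker : ∀ σ : GQ, ρbar σ = 1 → ρ σ = 1 := fun σ h => by
    have h1 : ρbar.rangeRestrict σ = 1 := Subtype.ext h
    show ρ₀ (ρbar.rangeRestrict σ) = 1
    rw [h1, map_one]
  refine ⟨A, ρ, natCast_mem_nonunits_of_ker A π hπ, ?_, ?_, fun p hp hpM B hB => ?_⟩
  · obtain ⟨L, hL, h1⟩ := hfl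
    exact ⟨L, hL, fun σ hσ => hker σ (h1 σ hσ)⟩
  · refine le_trans ?_ hcard
    let φ : ρbar.range → ρ.range := fun x => ⟨ρ₀ x, by
      obtain ⟨σ, hσ⟩ := x.2
      refine ⟨σ, ?_⟩
      show ρ₀ (ρbar.rangeRestrict σ) = ρ₀ x
      congr 1
      exact Subtype.ext hσ⟩
    have hφ : Function.Surjective φ := by
      rintro ⟨y, σ, rfl⟩
      exact ⟨ρbar.rangeRestrict σ, rfl⟩
    exact Nat.card_le_card_of_surjective φ hφ
  · refine ⟨fun σ hσ => hker σ ((hρ p hp hpM B hB).1 σ hσ), fun σ hσ => ?_⟩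
    obtain ⟨⟨ha, hta⟩, ⟨he, hde⟩⟩ := (hρ p hp hpM B hB).2 σ hσ
    have hent := hρ₀ (ρbar.rangeRestrict σ)
    obtain ⟨⟨h1, e1⟩, ⟨h2, e2⟩⟩ := trace_det_of_entries A.toSubring π j
      ((ρ σ : GL (Fin 2) ℂ) : Matrix (Fin 2) (Fin 2) ℂ)
      ((ρbar σ : GL (Fin 2) 𝔽') : Matrix (Fin 2) (Fin 2) 𝔽') hent
    refine ⟨sub_mem_nonunits_of_map_eq π hπ h1 ha ?_, sub_mem_nonunits_of_map_eq π hπ h2 he ?_⟩
    · rw [← hta]
      exact e1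
    · rw [← hde]
      exact e2

end Fermat.Agent.DS48
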