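import Fermat.Agent.DS48.ASM_lead_Eq
import Fermat.Agent.DS48.ASM_lead_Indep

set_option autoImplicit false
set_option linter.style.haveILetI false

/-!
# [ASM] stage F: the complex representation attached to a weight one eigenform (without the
irreducibility statement)
-/

namespace Fermat.Agent.DS48

open Matrix CongruenceSubgroup Polynomial ModularFormClass
open scoped MatrixGroups

local notation "Ω" => AlgebraicClosure ℚ
local notation "GQ" => (AlgebraicClosure ℚ ≃ₐ[ℚ] AlgebraicClosure ℚ)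

variable {N : ℕ} [NeZero N]

theorem not_dvd_mul_of_lt {p ℓ : ℕ} (hp : p.Prime) (hℓ : ℓ.Prime) (hlt : p < ℓ)
    (hpN : ¬ p ∣ N) : ¬ p ∣ ℓ * N := by
  intro h
  rcases (Nat.Prime.dvd_mul hp).mp h with h | h
  · have := (Nat.prime_dvd_prime_iff_eq hp hℓ).mp h
    omega
  · exact hpN h

open Classical in
/-- **[ASM] stage F**: existence of the representation with the right Frobenius traces and
determinants at all primes not dividing the level. -/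
theorem exists_rep (hW : ModRepGamma1) (ε : DirichletCharacter ℂ N)
    (f : CuspForm (Gamma1 N) 1) (hf₁ : qCoeff f 1 = 1)
    (hT : ∀ p : ℕ, p.Prime → ¬ p ∣ N → ∀ n : ℕ,
        qCoeff f (p * n) + ε (p : ZMod N) * (if p ∣ n then qCoeff f (n / p) else 0) =
          qCoeff f p * qCoeff f n) :
    ∃ ρ : GQ →* GL (Fin 2) ℂ, GaloisFactorsThroughFiniteLevel ρ ∧
      ∀ p : ℕ, p.Prime → ¬ p ∣ N → ∀ B : ValuationSubring Ω, B.LiesOverPrime p →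
        (∀ σ ∈ B.inertiaSubgroupIn ℚ, ρ σ = 1) ∧
        ∀ σ : GQ, B.IsFrobeniusAt σ p →
          ((ρ σ : GL (Fin 2) ℂ) : Matrix (Fin 2) (Fin 2) ℂ).trace = qCoeff f p ∧
          ((ρ σ : GL (Fin 2) ℂ) : Matrix (Fin 2) (Fin 2) ℂ).det = ε (p : ZMod N) := by
  obtain ⟨Y, Xs, B₀, hY, hXm, hXY⟩ :=
    exists_finite_values ε f hf₁ hT (eta := 1 / 32) (by norm_num)
  have hX : ∀ s : ℝ, 1 < s → s ≤ 2 →
      Density.mass (fun p => if p ∈ Xs then (1 : ℝ) else 0) s ≤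
        (1 / 32) * Real.log (1 / (s - 1)) + B₀ := fun s h1 h2 => (hXm s h1 h2).2
  obtain ⟨ℓ₁, m₀, hL⟩ := exists_lifts_eq hW ε f hf₁ hT hY hX hXY
  obtain ⟨ℓa, hℓa, hpa⟩ := Nat.exists_infinite_primes (ℓ₁ + 1)
  haveI : Fact ℓa.Prime := ⟨hpa⟩
  obtain ⟨Aa, ρ, hℓAa, hfl, hcard, hρ, hρeq⟩ := hL ℓa (by omega)
  haveI : Finite ρ.range := (Density.finite_range_of_factors ρ hfl).to_subtype
  have hNpos : 0 < N := NeZero.pos N
  -- comparison with the representation at another prime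
  have hcomp : ∀ (ℓ : ℕ) (ρ' : GQ →* GL (Fin 2) ℂ), 0 < ℓ → GaloisFactorsThroughFiniteLevel ρ' →
      (∀ p : ℕ, p.Prime → ¬ p ∣ ℓ * N → ¬ p ∣ N * 2 → p ∉ Xs →
        ∀ B : ValuationSubring Ω, B.LiesOverPrime p → ∀ σ : GQ, B.IsFrobeniusAt σ p →
          ((ρ' σ : GL (Fin 2) ℂ) : Matrix (Fin 2) (Fin 2) ℂ).trace = qCoeff f p ∧
          ((ρ' σ : GL (Fin 2) ℂ) : Matrix (Fin 2) (Fin 2) ℂ).det = ε (p : ZMod N)) →
      ∀ σ : GQ, ((ρ σ : GL (Fin 2) ℂ) : Matrix (Fin 2) (Fin 2) ℂ).trace =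
          ((ρ' σ : GL (Fin 2) ℂ) : Matrix (Fin 2) (Fin 2) ℂ).trace ∧
        ((ρ σ : GL (Fin 2) ℂ) : Matrix (Fin 2) (Fin 2) ℂ).det =
          ((ρ' σ : GL (Fin 2) ℂ) : Matrix (Fin 2) (Fin 2) ℂ).det := by
    intro ℓ ρ' hℓpos hfl' heq'
    set T : Finset ℕ := (ℓa * N * (ℓ * N) * (N * 2)).primeFactors with hTdef
    have hne : ℓa * N * (ℓ * N) * (N * 2) ≠ 0 := by
      have := hpa.pos
      positivity
    have hF : ∀ p : ℕ, p.Prime → p ∉ T → p ∉ Xs → ∀ (B : ValuationSubring Ω) (φ : GQ),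
        B.LiesOverPrime p → B.IsFrobeniusAt φ p →
          ((ρ φ : GL (Fin 2) ℂ) : Matrix (Fin 2) (Fin 2) ℂ).trace =
            ((ρ' φ : GL (Fin 2) ℂ) : Matrix (Fin 2) (Fin 2) ℂ).trace := by
      intro p hp hpT hpX B φ hB hφ
      have hnd : ¬ p ∣ ℓa * N * (ℓ * N) * (N * 2) := fun h =>
        hpT (Nat.mem_primeFactors.mpr ⟨hp, h, hne⟩)
      have n1 : ¬ p ∣ ℓa * N := fun h =>
        hnd (Dvd.dvd.mul_right (Dvd.dvd.mul_right h _) _)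
      have n2 : ¬ p ∣ ℓ * N := fun h =>
        hnd (Dvd.dvd.mul_right (Dvd.dvd.mul_left h _) _)
      have n3 : ¬ p ∣ N * 2 := fun h => hnd (Dvd.dvd.mul_left h _)
      rw [(hρeq p hp n1 n3 hpX B hB φ hφ).1, (heq' p hp n2 n3 hpX B hB φ hφ).1]
    exact fun σ => ⟨trace_eq_of_frob hX T ρ ρ' hfl hfl' hF σ,
      det_eq_of_frob hX T ρ ρ' hfl hfl' hF σ⟩
  have hRfg := exists_fg_heckeRing ε f hf₁ hT
  have ha : ∀ p : ℕ, p.Prime → ¬ p ∣ N → IsIntegral ℤ (qCoeff f p) := fun p hp hpN =>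
    IsIntegral.of_mem_of_fg _ hRfg _
      (prime_coeff_mem_heckeRing (a := fun n => qCoeff f n) hp hpN)
  have hn0 : m₀.factorial ≠ 0 := Nat.factorial_ne_zero m₀
  refine ⟨ρ, hfl, fun p hp hpN B hB => ⟨fun σ hσ => ?_, fun σ hσ => ?_⟩⟩
  · obtain ⟨ℓ, hℓ, hpℓ⟩ := Nat.exists_infinite_primes (ℓ₁ + p + 1)
    haveI : Fact ℓ.Prime := ⟨hpℓ⟩
    obtain ⟨A', ρ', hℓA', hfl', hcard', hρ', hρeq'⟩ := hL ℓ (by omega)
    have hpM : ¬ p ∣ ℓ * N := not_dvd_mul_of_lt hp hpℓ (by omega) hpN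
    have h1 : ρ' σ = 1 := (hρ' p hp hpM B hB).1 σ hσ
    have h2 := (hcomp ℓ ρ' hpℓ.pos hfl' hρeq' σ).1
    rw [h1] at h2
    have h3 : ((ρ σ : GL (Fin 2) ℂ) : Matrix (Fin 2) (Fin 2) ℂ).trace = 2 := by
      rw [h2]
      simp
    exact INDEP.eq_one_of_trace_eq_two ρ.range.subtype ⟨ρ σ, σ, rfl⟩ h3
  · obtain ⟨u, v, hu, hv, htr, hdet⟩ := exists_eigen_of_card_le ρ hcard σ
    have hui := isIntegral_of_pow_eq_one hn0 hu
    have hvi := isIntegral_of_pow_eq_one hn0 hv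
    constructor
    · by_contra hne
      have hd0 : ((ρ σ : GL (Fin 2) ℂ) : Matrix (Fin 2) (Fin 2) ℂ).trace - qCoeff f p ≠ 0 :=
        sub_ne_zero.mpr hne
      have hdint : IsIntegral ℤ
          (((ρ σ : GL (Fin 2) ℂ) : Matrix (Fin 2) (Fin 2) ℂ).trace - qCoeff f p) := by
        rw [htr]
        exact (hui.add hvi).sub (ha p hp hpN)
      obtain ⟨n, hn⟩ := exists_bound_of_mem_nonunits hdint hd0
      obtain ⟨ℓ, hℓ, hpℓ⟩ := Nat.exists_infinite_primes (ℓ₁ + p + n + 1)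
      haveI : Fact ℓ.Prime := ⟨hpℓ⟩
      obtain ⟨A', ρ', hℓA', hfl', hcard', hρ', hρeq'⟩ := hL ℓ (by omega)
      have hpM : ¬ p ∣ ℓ * N := not_dvd_mul_of_lt hp hpℓ (by omega) hpN
      have h1 := ((hρ' p hp hpM B hB).2 σ hσ).1
      rw [← (hcomp ℓ ρ' hpℓ.pos hfl' hρeq' σ).1] at h1
      have := hn ℓ A' hℓA' h1
      omega
    · by_contra hne
      have hd0 : ((ρ σ : GL (Fin 2) ℂ) : Matrix (Fin 2) (Fin 2) ℂ).det - ε (p : ZMod N) ≠ 0 :=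
        sub_ne_zero.mpr hne
      have hdint : IsIntegral ℤ
          (((ρ σ : GL (Fin 2) ℂ) : Matrix (Fin 2) (Fin 2) ℂ).det - ε (p : ZMod N)) := by
        rw [hdet]
        exact (hui.mul hvi).sub (isIntegral_char ε _)
      obtain ⟨n, hn⟩ := exists_bound_of_mem_nonunits hdint hd0
      obtain ⟨ℓ, hℓ, hpℓ⟩ := Nat.exists_infinite_primes (ℓ₁ + p + n + 1)
      haveI : Fact ℓ.Prime := ⟨hpℓ⟩
      obtain ⟨A', ρ', hℓA', hfl', hcard', hρ', hρeq'⟩ := hL ℓ (by omega)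
      have hpM : ¬ p ∣ ℓ * N := not_dvd_mul_of_lt hp hpℓ (by omega) hpN
      have h1 := ((hρ' p hp hpM B hB).2 σ hσ).2
      rw [← (hcomp ℓ ρ' hpℓ.pos hfl' hρeq' σ).2] at h1
      have := hn ℓ A' hℓA' h1
      omega

end Fermat.Agent.DS48
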