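import Fermat.Agent.DS48.G4_helper3_Main

/-!
# [G4], valuation-subring form

`g4_val ℓ` : there are a VALUATION SUBRING `A ⊆ ℂ` and a ring hom
`π : A →+* AlgebraicClosure (ZMod ℓ)` whose kernel is the maximal ideal of `A`
(`π a = 0 ↔ (a : ℂ) ∈ A.nonunits`) such that for every finite group `G` with `ℓ ∤ |G|`, every
finite field `𝔽` with `j : 𝔽 →+* AlgebraicClosure (ZMod ℓ)` and every `ρbar : G →* GL₂(𝔽)` there
is `ρ : G →* GL₂(ℂ)` with all entries in `A` and `π (ρ g)_{ab} = j (ρbar g)_{ab}`.

Construction: `W = 𝕎(𝔽̄_ℓ)` is a valuation ring; embed it into `ℂ` (`ℂ ≃ AlgebraicClosure (Frac W)`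
abstractly), dominate its image by a valuation subring `A` of `ℂ`
(`IsLocalRing.exists_factor_valuationRing`); the residue field of `A` is algebraic over
`W/ℓ = 𝔽̄_ℓ`, hence equal to it.
-/

set_option autoImplicit false

namespace Fermat.Agent.DS48

open Cardinal Polynomial Matrix

/-- in a valuation ring, a nonzero polynomial is a nonzero constant times a polynomial with a
coefficient equal to `1` -/
theorem exists_eq_C_mul_of_valuationRing {V : Type*} [CommRing V] [IsDomain V] [ValuationRing V]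
    (p : V[X]) (hp : p ≠ 0) :
    ∃ (d : V) (p₁ : V[X]) (i : ℕ), d ≠ 0 ∧ p = C d * p₁ ∧ p₁.coeff i = 1 := by
  classical
  -- a coefficient dividing all coefficients in the support
  have key : ∀ s : Finset ℕ, s.Nonempty → ∃ i ∈ s, ∀ j ∈ s, p.coeff i ∣ p.coeff j := by
    intro s hs
    induction hs using Finset.Nonempty.cons_induction with
    | singleton a => exact ⟨a, Finset.mem_singleton_self a, fun j hj => by
        rw [Finset.mem_singleton.mp hj]⟩
    | cons a s ha hs ih =>
      obtain ⟨i, his, hi⟩ := ih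
      rcases ValuationRing.dvd_total (p.coeff a) (p.coeff i) with h | h
      · refine ⟨a, Finset.mem_cons_self a s, fun j hj => ?_⟩
        rcases Finset.mem_cons.mp hj with rfl | hj
        · exact dvd_rfl
        · exact h.trans (hi j hj)
      · refine ⟨i, Finset.mem_cons.mpr (Or.inr his), fun j hj => ?_⟩
        rcases Finset.mem_cons.mp hj with rfl | hj
        · exact h
        · exact hi j hj
  have hsupp : p.support.Nonempty := Polynomial.support_nonempty.mpr hp
  obtain ⟨i, his, hi⟩ := key p.support hsupp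
  have hd0 : p.coeff i ≠ 0 := Polynomial.mem_support_iff.mp his
  have hdvd : C (p.coeff i) ∣ p := by
    rw [Polynomial.C_dvd_iff_dvd_coeff]
    intro j
    by_cases hj : j ∈ p.support
    · exact hi j hj
    · rw [Polynomial.notMem_support_iff.mp hj]
      exact dvd_zero _
  obtain ⟨p₁, hp₁⟩ := hdvd
  refine ⟨p.coeff i, p₁, i, hd0, hp₁, ?_⟩
  have h1 : p.coeff i = p.coeff i * p₁.coeff i := by
    conv_lhs => rw [hp₁, Polynomial.coeff_C_mul]
  exact (mul_left_cancel₀ hd0 (by rw [mul_one]; exact h1)).symm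

/-- **Embedding lemma, valuation ring form.** A characteristic-zero valuation ring `W` of
cardinality `𝔠` with a surjection `c` onto an algebraically closed field `κ` embeds into `ℂ` in
such a way that `c` extends to a ring hom `π : A → κ` on a valuation subring `A` of `ℂ`
containing (the image of) `W`, with kernel the maximal ideal of `A`. -/
theorem exists_embed_complex_val (W : Type) [CommRing W] [IsDomain W] [CharZero W]
    [ValuationRing W] (hW : #W = 𝔠)
    (κ : Type) [Field κ] [IsAlgClosed κ] (c : W →+* κ) (hc : Function.Surjective c) :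
    ∃ (β : W →+* ℂ) (A : ValuationSubring ℂ) (π : ↥A →+* κ),
      (∀ a : ↥A, π a = 0 ↔ (a : ℂ) ∈ A.nonunits) ∧ ∀ w : W, ∃ h : β w ∈ A, π ⟨β w, h⟩ = c w := by
  classical
  obtain ⟨e⟩ := exists_ringEquiv_algClosure_complex W hW
  set Ω₀ := AlgebraicClosure (FractionRing W) with hΩ₀
  have hinjWΩ : Function.Injective (algebraMap W Ω₀) := by
    rw [IsScalarTower.algebraMap_eq W (FractionRing W) Ω₀]
    exact (algebraMap (FractionRing W) Ω₀).injective.comp (IsFractionRing.injective W _)
  set β : W →+* ℂ := (e : Ω₀ →+* ℂ).comp (algebraMap W Ω₀) with hβ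
  obtain ⟨A, hmem, hloc⟩ := IsLocalRing.exists_factor_valuationRing β
  set βA : W →+* ↥A := β.codRestrict A (fun w => hmem w) with hβA
  have hlocA : ∀ w : W, IsUnit (βA w) → IsUnit w := fun w hw => hloc.map_nonunit w hw
  -- the residue map
  set q : W →+* IsLocalRing.ResidueField ↥A := (IsLocalRing.residue ↥A).comp βA with hq
  have hkerq : RingHom.ker c ≤ RingHom.ker q := by
    intro w hw
    rw [RingHom.mem_ker] at hw ⊢
    rw [hq, RingHom.comp_apply, IsLocalRing.residue_eq_zero_iff, IsLocalRing.mem_maximalIdeal,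
      mem_nonunits_iff]
    intro hu
    have := (hlocA w hu).map c
    rw [hw] at this
    exact not_isUnit_zero this
  set ι : κ →+* IsLocalRing.ResidueField ↥A := RingHom.liftOfSurjective c hc ⟨q, hkerq⟩ with hι
  have hιc : ∀ w, ι (c w) = q w := fun w =>
    RingHom.liftOfRightInverse_comp_apply _ _ _ _ _
  have hιint : ι.IsIntegral := by
    intro y
    obtain ⟨a, rfl⟩ := IsLocalRing.residue_surjective y
    -- `a` is algebraic over `W`
    set x : Ω₀ := e.symm (a : ℂ) with hx
    have halg : IsAlgebraic W x := by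
      have h1 : IsAlgebraic (FractionRing W) x := Algebra.IsAlgebraic.isAlgebraic x
      exact (IsFractionRing.isAlgebraic_iff W (FractionRing W) Ω₀).mpr h1
    obtain ⟨p, hp0, hpx⟩ := halg
    obtain ⟨d, p₁, i, hd0, hpd, hi⟩ := exists_eq_C_mul_of_valuationRing p hp0
    have hp₁x : Polynomial.eval₂ (algebraMap W Ω₀) x p₁ = 0 := by
      rw [hpd, Polynomial.aeval_def, Polynomial.eval₂_mul, Polynomial.eval₂_C] at hpx
      rcases mul_eq_zero.mp hpx with h | h
      · exact absurd ((injective_iff_map_eq_zero _).mp hinjWΩ d h) hd0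
      · exact h
    have hp₁a : Polynomial.eval₂ βA a p₁ = 0 := by
      apply Subtype.ext
      have h1 := Polynomial.hom_eval₂ p₁ βA (A.subtype : ↥A →+* ℂ) a
      have h2 : (A.subtype : ↥A →+* ℂ).comp βA = β := RingHom.ext fun w => rfl
      rw [h2] at h1
      show (A.subtype : ↥A →+* ℂ) (Polynomial.eval₂ βA a p₁) = 0
      have h3 : (A.subtype : ↥A →+* ℂ) a = (e : Ω₀ →+* ℂ) x := by
        rw [hx]
        exact (e.apply_symm_apply _).symm
      rw [h1, hβ, h3, ← Polynomial.hom_eval₂, hp₁x, map_zero]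
    have hq1 : Polynomial.eval₂ ι (IsLocalRing.residue ↥A a) (p₁.map c) = 0 := by
      rw [Polynomial.eval₂_map]
      have h1 : ι.comp c = q := RingHom.ext hιc
      rw [h1, hq, ← Polynomial.hom_eval₂, hp₁a, map_zero]
    have hne : p₁.map c ≠ 0 := by
      intro h0
      have := congrArg (fun r => r.coeff i) h0
      simp only [Polynomial.coeff_map, hi, map_one, Polynomial.coeff_zero] at this
      exact one_ne_zero this
    let _ : Algebra κ (IsLocalRing.ResidueField ↥A) := ι.toAlgebra
    have halg' : IsAlgebraic κ (IsLocalRing.residue ↥A a) := ⟨p₁.map c, hne, hq1⟩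
    exact halg'.isIntegral
  have hιbij : Function.Bijective ι := IsAlgClosed.ringHom_bijective_of_isIntegral ι hιint
  set ιe : κ ≃+* IsLocalRing.ResidueField ↥A := RingEquiv.ofBijective ι hιbij with hιe
  set π : ↥A →+* κ := (ιe.symm : IsLocalRing.ResidueField ↥A →+* κ).comp (IsLocalRing.residue ↥A)
    with hπ
  refine ⟨β, A, π, ?_, ?_⟩
  · intro a
    rw [hπ, RingHom.comp_apply]
    have h1 : (ιe.symm : IsLocalRing.ResidueField ↥A →+* κ) (IsLocalRing.residue ↥A a) = 0 ↔
        IsLocalRing.residue ↥A a = 0 := by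
      constructor
      · intro h
        have := congrArg ιe h
        rw [map_zero] at this
        rw [← this]
        exact (ιe.apply_symm_apply _).symm
      · intro h
        rw [h, map_zero]
    rw [h1, IsLocalRing.residue_eq_zero_iff]
    exact ValuationSubring.coe_mem_nonunits_iff.symm
  · intro w
    refine ⟨hmem w, ?_⟩
    have h1 : (⟨β w, hmem w⟩ : ↥A) = βA w := rfl
    rw [h1, hπ, RingHom.comp_apply]
    have h2 : IsLocalRing.residue ↥A (βA w) = ιe (c w) := (hιc w).symm
    rw [h2]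
    exact ιe.symm_apply_apply _

/-- **[G4], valuation-subring form.** -/
theorem g4_val (ℓ : ℕ) [Fact ℓ.Prime] :
    ∃ (A : ValuationSubring ℂ) (π : ↥A →+* AlgebraicClosure (ZMod ℓ)),
      (∀ a : ↥A, π a = 0 ↔ (a : ℂ) ∈ A.nonunits) ∧
      ∀ (G : Type) [Group G] [Finite G], ¬ ℓ ∣ Nat.card G →
        ∀ (𝔽 : Type) [Field 𝔽] [Finite 𝔽] (j : 𝔽 →+* AlgebraicClosure (ZMod ℓ))
          (ρbar : G →* GL (Fin 2) 𝔽),
          ∃ ρ : G →* GL (Fin 2) ℂ, ∀ g a b,
            ∃ h : (ρ g).val a b ∈ A, π ⟨_, h⟩ = j ((ρbar g).val a b) := by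
  classical
  set κ := AlgebraicClosure (ZMod ℓ) with hκ
  have : CharZero (WittVector ℓ κ) := witt_charZero ℓ κ
  obtain ⟨β, A, π, hker, hβ⟩ := exists_embed_complex_val (WittVector ℓ κ)
    (witt_cardinalMk ℓ κ (algClosure_zmod_cardinalMk_le ℓ)) κ
    (WittVector.constantCoeff (p := ℓ) (R := κ)) (WittVector.constantCoeff_surjective ℓ)
  refine ⟨A, π, hker, ?_⟩
  intro G _ _ hG 𝔽 _ _ j ρbar
  have : CharP 𝔽 ℓ := RingHom.charP j j.injective ℓ
  obtain ⟨ρW, hρW⟩ := exists_witt_lift ℓ 𝔽 hG ρbar
  refine ⟨(Matrix.GeneralLinearGroup.map (β.comp (WittVector.map j))).comp ρW, ?_⟩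
  intro g a b
  obtain ⟨h, hh⟩ := hβ (WittVector.map j ((ρW g).val a b))
  refine ⟨h, ?_⟩
  rw [← hρW g a b]
  exact hh

/-- `ℓ` lies in the maximal ideal of the valuation ring of `g4_val`. -/
theorem natCast_mem_nonunits_of_ker {ℓ : ℕ} [Fact ℓ.Prime] (A : ValuationSubring ℂ)
    (π : ↥A →+* AlgebraicClosure (ZMod ℓ))
    (hker : ∀ a : ↥A, π a = 0 ↔ (a : ℂ) ∈ A.nonunits) : (ℓ : ℂ) ∈ A.nonunits := by
  have h1 : π (ℓ : ↥A) = 0 := by
    rw [map_natCast]
    exact CharP.cast_eq_zero _ ℓ
  have h2 := (hker (ℓ : ↥A)).mp h1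
  simpa using h2

end Fermat.Agent.DS48
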