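import Fermat.Agent.DS48.INT1_lead_Main

set_option autoImplicit false

/-!
# [INT1] the Hecke ring `ℤ[ε, a_p : p ∤ N]` of a weight one eigenform is a finitely generated
`ℤ`-module
-/

namespace Fermat.Agent.DS48

open Matrix CongruenceSubgroup ModularForm UpperHalfPlane ModularFormClass
open Fermat.Agent.RatStr
open scoped MatrixGroups ModularForm Manifold

noncomputable section

variable {N : ℕ}

/-- coefficient form of the Hecke relations in weight one (the shape of S48) -/
def CoeffEigen (N : ℕ) (ε : DirichletCharacter ℂ N) (a : ℕ → ℂ) : Prop :=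
  ∀ p : ℕ, p.Prime → ¬ p ∣ N → ∀ n : ℕ,
    a (p * n) + ε (p : ZMod N) * (if p ∣ n then a (n / p) else 0) = a p * a n

/-- the Hecke ring `ℤ[ε, a_p : p ∤ N]` -/
def heckeRing (N : ℕ) (ε : DirichletCharacter ℂ N) (a : ℕ → ℂ) : Subalgebra ℤ ℂ :=
  Algebra.adjoin ℤ ((Set.range fun x : ZMod N => ε x) ∪ {x | ∃ p : ℕ, p.Prime ∧ ¬ p ∣ N ∧ x = a p})

variable [NeZero N] {ε : DirichletCharacter ℂ N} {a : ℕ → ℂ}

theorem char_mem_heckeRing (x : ZMod N) : ε x ∈ heckeRing N ε a :=
  Algebra.subset_adjoin (Or.inl ⟨x, rfl⟩)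

theorem prime_coeff_mem_heckeRing {p : ℕ} (hp : p.Prime) (hpN : ¬ p ∣ N) :
    a p ∈ heckeRing N ε a :=
  Algebra.subset_adjoin (Or.inr ⟨p, hp, hpN, rfl⟩)

/-- all coefficients at indices prime to the level lie in the Hecke ring -/
theorem coeff_mem_heckeRing (h1 : a 1 = 1) (hT : CoeffEigen N ε a) :
    ∀ n : ℕ, n ≠ 0 → n.Coprime N → a n ∈ heckeRing N ε a := by
  intro n
  induction n using Nat.strong_induction_on with
  | _ n ih =>
    intro hn0 hn
    rcases Nat.lt_or_ge n 2 with h2 | h2
    · have : n = 1 := by omega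
      subst this
      rw [h1]; exact Subalgebra.one_mem _
    · obtain ⟨p, hp, hpn⟩ := Nat.exists_prime_and_dvd (show n ≠ 1 by omega)
      obtain ⟨m, rfl⟩ := hpn
      have hpN : ¬ p ∣ N := by
        intro hdvd
        have := Nat.Coprime.eq_one_of_dvd (Nat.Coprime.coprime_mul_right hn) hdvd
        exact hp.one_lt.ne' this
      have hm0 : m ≠ 0 := by rintro rfl; simp at h2
      have hmlt : m < p * m := by
        have := hp.one_lt
        nlinarith [Nat.pos_of_ne_zero hm0]
      have hmc : m.Coprime N := Nat.Coprime.coprime_mul_left hn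
      have h := hT p hp hpN m
      have h3 : a (p * m) = a p * a m - ε (p : ZMod N) * (if p ∣ m then a (m / p) else 0) := by
        rw [← h]; ring
      rw [h3]
      refine Subalgebra.sub_mem _ (Subalgebra.mul_mem _ (prime_coeff_mem_heckeRing hp hpN)
        (ih m hmlt hm0 hmc)) (Subalgebra.mul_mem _ (char_mem_heckeRing _) ?_)
      split_ifs with hpm
      · have hlt : m / p < p * m := lt_of_le_of_lt (Nat.div_le_self m p) hmlt
        have hne : m / p ≠ 0 := by
          obtain ⟨r, rfl⟩ := hpm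
          rw [Nat.mul_div_cancel_left _ hp.pos]
          rintro rfl; simp at hm0
        refine ih (m / p) hlt hne ?_
        exact Nat.Coprime.coprime_dvd_left (Nat.div_dvd_of_dvd hpm) hmc
      · exact Subalgebra.zero_mem _

/-- the module `ℤ[ε] · ⟨a_n⟩` is stable under the Hecke ring -/
theorem heckeRing_mul_mem (hT : CoeffEigen N ε a) :
    ∀ x ∈ heckeRing N ε a, ∀ y ∈ (charRing ε).toSubmodule * Submodule.span ℤ (Set.range a),
      x * y ∈ (charRing ε).toSubmodule * Submodule.span ℤ (Set.range a) := by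
  set Z := charRing ε with hZ
  set S := Z.toSubmodule * Submodule.span ℤ (Set.range a) with hS
  have hZS : ∀ z ∈ Z, ∀ y ∈ S, z * y ∈ S := by
    intro z hz y hy
    have h1 := Submodule.mul_mem_mul (M := Z.toSubmodule) (N := S) hz hy
    rwa [hS, ← mul_assoc, (Subalgebra.isIdempotentElem_toSubmodule Z).eq] at h1
  have hle : ∀ n, a n ∈ S := fun n => by
    have := Submodule.mul_mem_mul (M := Z.toSubmodule) (N := Submodule.span ℤ (Set.range a))
      (Subalgebra.one_mem Z) (Submodule.subset_span ⟨n, rfl⟩)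
    rwa [one_mul] at this
  have hpS : ∀ p : ℕ, p.Prime → ¬ p ∣ N → ∀ y ∈ S, a p * y ∈ S := by
    intro p hp hpN y hy
    rw [hS] at hy
    refine Submodule.mul_induction_on hy (fun z hz w hw => ?_) (fun u v hu hv => ?_)
    · have hw' : a p * w ∈ S := by
        induction hw using Submodule.span_induction with
        | mem w hw =>
          obtain ⟨n, rfl⟩ := hw
          rw [← hT p hp hpN n]
          refine Submodule.add_mem _ (hle _) (hZS _ (char_mem_charRing ε _) _ ?_)
          split_ifs
          · exact hle _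
          · exact Submodule.zero_mem _
        | zero => rw [mul_zero]; exact Submodule.zero_mem _
        | add u v _ _ hu hv => rw [mul_add]; exact Submodule.add_mem _ hu hv
        | smul c u _ hu => rw [mul_smul_comm]; exact Submodule.smul_mem _ _ hu
      have : a p * (z * w) = z * (a p * w) := by ring
      rw [this]
      exact hZS z hz _ hw'
    · rw [mul_add]; exact Submodule.add_mem _ hu hv
  intro x hx
  induction hx using Algebra.adjoin_induction with
  | mem x hx =>
    rcases hx with ⟨b, rfl⟩ | ⟨p, hp, hpN, rfl⟩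
    · exact hZS _ (char_mem_charRing ε b)
    · exact hpS p hp hpN
  | algebraMap r =>
    intro y hy
    rw [← Algebra.smul_def]
    exact Submodule.smul_mem _ _ hy
  | add u v _ _ hu hv =>
    intro y hy
    rw [add_mul]
    exact Submodule.add_mem _ (hu y hy) (hv y hy)
  | mul u v _ _ hu hv =>
    intro y hy
    rw [mul_assoc]
    exact hu _ (hv y hy)

/-- **the Hecke ring is contained in a finitely generated `ℤ`-module** -/
theorem heckeRing_le (h1 : a 1 = 1) (hT : CoeffEigen N ε a) {Λ : Submodule ℤ ℂ}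
    (hΛ : ∀ n, a n ∈ Λ) :
    (heckeRing N ε a).toSubmodule ≤ (charRing ε).toSubmodule * Λ := by
  intro x hx
  have h1' : (1 : ℂ) ∈ (charRing ε).toSubmodule * Submodule.span ℤ (Set.range a) := by
    have := Submodule.mul_mem_mul (M := (charRing ε).toSubmodule)
      (N := Submodule.span ℤ (Set.range a))
      (Subalgebra.one_mem _) (Submodule.subset_span ⟨1, rfl⟩)
    rwa [one_mul, h1] at this
  have h2 := heckeRing_mul_mem hT x hx 1 h1'
  rw [mul_one] at h2
  have hspan : Submodule.span ℤ (Set.range a) ≤ Λ := by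
    refine Submodule.span_le.mpr ?_
    rintro _ ⟨n, rfl⟩
    exact hΛ n
  exact (Submodule.mul_le.mpr fun z hz w hw => Submodule.mul_mem_mul hz (hspan hw)) h2

theorem heckeRing_fg (h1 : a 1 = 1) (hT : CoeffEigen N ε a) {Λ : Submodule ℤ ℂ}
    (hfg : Λ.FG) (hΛ : ∀ n, a n ∈ Λ) : (heckeRing N ε a).toSubmodule.FG :=
  Submodule.FG.of_le ((charRing_fg ε).mul hfg) (heckeRing_le h1 hT hΛ)

theorem isIntegral_of_mem_heckeRing (h1 : a 1 = 1) (hT : CoeffEigen N ε a)
    {Λ : Submodule ℤ ℂ} (hfg : Λ.FG) (hΛ : ∀ n, a n ∈ Λ) {x : ℂ} (hx : x ∈ heckeRing N ε a) :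
    IsIntegral ℤ x :=
  IsIntegral.of_mem_of_fg _ (heckeRing_fg h1 hT hfg hΛ) x hx

end

end Fermat.Agent.DS48
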