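import Fermat.Agent.DS48.RAT1_lead_Conj
import Fermat.Agent.DS48.RANKIN_helper3_Main

set_option autoImplicit false

/-!
# [RAT1'] Rankin's bound for all conjugates of a weight one eigenform
-/

namespace Fermat.Agent.DS48

open Matrix CongruenceSubgroup ModularForm UpperHalfPlane ModularFormClass
open Fermat.Agent.RatStr
open scoped MatrixGroups ModularForm Manifold

noncomputable section

variable {N : ℕ} [NeZero N]

theorem ne_zero_of_qCoeff_one {f : CuspForm (Gamma1 N) 1} (hf₁ : qCoeff f 1 = 1) :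
    (f : ℍ → ℂ) ≠ 0 := by
  intro h
  unfold qCoeff at hf₁
  rw [h, qExpansion_zero] at hf₁
  simp at hf₁

/-- the conjugate form -/
theorem exists_conj_cuspForm_weightOne (ε : DirichletCharacter ℂ N) (f : CuspForm (Gamma1 N) 1)
    (hf₁ : qCoeff f 1 = 1)
    (hT : ∀ p : ℕ, p.Prime → ¬ p ∣ N → ∀ n : ℕ,
        qCoeff f (p * n) + ε (p : ZMod N) * (if p ∣ n then qCoeff f (n / p) else 0) =
          qCoeff f p * qCoeff f n) (σ : ℂ →+* ℂ) :
    ∃ g : CuspForm (Gamma1 (N * 2)) 1, ∀ n, qCoeff g n = σ (qCoeff f n) := by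
  have hneb := hasNeben_of_nebenAt (neben_of_S48 ε f hT).1
  obtain ⟨g, hg, hq⟩ := exists_conj_weightOne σ (IsCF.of_cuspForm f) hneb
    (ne_zero_of_qCoeff_one hf₁)
  refine ⟨hg.toCuspForm, fun n => ?_⟩
  unfold qCoeff
  rw [IsCF.coe_toCuspForm, hq, PowerSeries.coeff_map]

/-- **Rankin's bound for the conjugates** -/
theorem rankin_bound_conj (ε : DirichletCharacter ℂ N) (f : CuspForm (Gamma1 N) 1)
    (hf₁ : qCoeff f 1 = 1)
    (hT : ∀ p : ℕ, p.Prime → ¬ p ∣ N → ∀ n : ℕ,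
        qCoeff f (p * n) + ε (p : ZMod N) * (if p ∣ n then qCoeff f (n / p) else 0) =
          qCoeff f p * qCoeff f n) (σ : ℂ →+* ℂ) :
    ∃ B : ℝ, ∀ s : ℝ, 1 < s → s ≤ 2 →
      Summable (fun q : Nat.Primes =>
        (if ¬ (q : ℕ) ∣ N * 2 then ‖σ (qCoeff f q)‖ ^ 2 else 0) * (((q : ℕ) : ℝ) ^ s)⁻¹) ∧
      Density.mass (fun q => if ¬ q ∣ N * 2 then ‖σ (qCoeff f q)‖ ^ 2 else 0) s ≤
        Real.log (1 / (s - 1)) + B := by
  obtain ⟨g, hg⟩ := exists_conj_cuspForm_weightOne ε f hf₁ hT σ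
  have hdvd : N ∣ N * 2 := Dvd.intro 2 rfl
  set ε' : DirichletCharacter ℂ (N * 2) :=
    DirichletCharacter.changeLevel hdvd (ε.ringHomComp σ) with hε'
  have hg₁ : qCoeff g 1 = 1 := by rw [hg, hf₁, map_one]
  have hT' : ∀ p : ℕ, p.Prime → ¬ p ∣ N * 2 → ∀ n : ℕ,
      qCoeff g (p * n) + ε' (p : ZMod (N * 2)) * (if p ∣ n then qCoeff g (n / p) else 0) =
        qCoeff g p * qCoeff g n := by
    intro p hp hpN2 n
    have hpN : ¬ p ∣ N := fun h => hpN2 (dvd_trans h hdvd)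
    have hcop : IsCoprime (p : ℤ) ((N * 2 : ℕ) : ℤ) := by
      rw [Nat.isCoprime_iff_coprime]
      exact (Nat.Prime.coprime_iff_not_dvd hp).mpr hpN2
    have hε : ε' (p : ZMod (N * 2)) = σ (ε (p : ZMod N)) := by
      have := DirichletCharacter.changeLevel_eq_cast_of_dvd' (ε.ringHomComp σ) hdvd hcop
      rw [hε']
      simpa using this
    simp only [hg, hε]
    have h := congrArg σ (hT p hp hpN n)
    rw [map_add, map_mul, map_mul, apply_ite σ, map_zero] at h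
    exact h
  obtain ⟨B, hB⟩ := rankin_bound (N * 2) ε' g hg₁ hT'
  refine ⟨B, fun s hs1 hs2 => ?_⟩
  have := hB s hs1 hs2
  simp only [hg] at this
  exact this

end

end Fermat.Agent.DS48
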