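import Fermat.Agent.DS48.NF_lead_Ext
import Fermat.Agent.DS48.INT1_lead_Ring
import Fermat.Agent.DS48.RAT1_lead_Rankin

set_option autoImplicit false

/-!
# [NF] finiteness of the values `a_p` outside a set of primes of small density
-/

namespace Fermat.Agent.DS48

open Matrix CongruenceSubgroup ModularForm UpperHalfPlane ModularFormClass IntermediateField
open Fermat.Agent.RatStr
open scoped MatrixGroups ModularForm Manifold

noncomputable section

variable {N : ℕ} [NeZero N]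

/-- the coefficient sequence of an S48 form: basic integrality package -/
theorem exists_fg_heckeRing (ε : DirichletCharacter ℂ N) (f : CuspForm (Gamma1 N) 1)
    (hf₁ : qCoeff f 1 = 1)
    (hT : ∀ p : ℕ, p.Prime → ¬ p ∣ N → ∀ n : ℕ,
        qCoeff f (p * n) + ε (p : ZMod N) * (if p ∣ n then qCoeff f (n / p) else 0) =
          qCoeff f p * qCoeff f n) :
    (heckeRing N ε (fun n => qCoeff f n)).toSubmodule.FG := by
  have hneb := hasNeben_of_nebenAt (neben_of_S48 ε f hT).1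
  obtain ⟨Λ, hΛ, hΛ'⟩ := exists_fg_qCoeff_weightOne (IsCF.of_cuspForm f) hneb
    (ne_zero_of_qCoeff_one hf₁)
  exact heckeRing_fg (a := fun n => qCoeff f n) hf₁ hT hΛ hΛ'

open Classical in
/-- **finiteness of the set of values `a_p` outside a set of primes of density `≤ η`** -/
theorem exists_finite_values (ε : DirichletCharacter ℂ N) (f : CuspForm (Gamma1 N) 1)
    (hf₁ : qCoeff f 1 = 1)
    (hT : ∀ p : ℕ, p.Prime → ¬ p ∣ N → ∀ n : ℕ,
        qCoeff f (p * n) + ε (p : ZMod N) * (if p ∣ n then qCoeff f (n / p) else 0) =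
          qCoeff f p * qCoeff f n) {eta : ℝ} (heta : 0 < eta) :
    ∃ (Y : Set ℂ) (X : Set ℕ) (B : ℝ), Y.Finite ∧
      (∀ s : ℝ, 1 < s → s ≤ 2 →
        Summable (fun q : Nat.Primes =>
          (if (q : ℕ) ∈ X then (1 : ℝ) else 0) * (((q : ℕ) : ℝ) ^ s)⁻¹) ∧
        Density.mass (fun p => if p ∈ X then (1 : ℝ) else 0) s ≤
          eta * Real.log (1 / (s - 1)) + B) ∧
      ∀ p : ℕ, p.Prime → ¬ p ∣ N * 2 → p ∉ X → qCoeff f p ∈ Y := by
  set a : ℕ → ℂ := fun n => qCoeff f n with ha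
  have hRfg := exists_fg_heckeRing ε f hf₁ hT
  set R := heckeRing N ε a with hR
  have hTa : CoeffEigen N ε a := hT
  obtain ⟨G, hGfin, hGspan⟩ := Submodule.fg_def.mp hRfg
  have hGR : ∀ g ∈ G, g ∈ R := fun g hg => by
    have : g ∈ Submodule.span ℤ G := Submodule.subset_span hg
    rw [hGspan] at this
    exact this
  have hRint : ∀ x ∈ R, IsIntegral ℤ x := fun x hx => IsIntegral.of_mem_of_fg R hRfg x hx
  set K : IntermediateField ℚ ℂ := IntermediateField.adjoin ℚ G with hK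
  haveI : Finite G := hGfin.to_subtype
  haveI : FiniteDimensional ℚ K :=
    finiteDimensional_adjoin fun x hx => (hRint x (hGR x hx)).tower_top
  haveI : NumberField K := ⟨⟩
  have hRK : ∀ x ∈ R, x ∈ K := by
    intro x hx
    have hx' : x ∈ Submodule.span ℤ G := by rw [hGspan]; exact hx
    clear hx
    induction hx' using Submodule.span_induction with
    | mem y hy => exact IntermediateField.subset_adjoin ℚ G hy
    | zero => exact zero_mem K
    | add u v _ _ hu hv => exact add_mem hu hv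
    | smul c u _ hu => exact zsmul_mem hu c
  have hprime : ∀ p : ℕ, p.Prime → ¬ p ∣ N → a p ∈ K := fun p hp hpN =>
    hRK _ (prime_coeff_mem_heckeRing hp hpN)
  set aK : ℕ → K := fun n => if h : a n ∈ K then ⟨a n, h⟩ else 0 with haK
  have haKp : ∀ p : ℕ, p.Prime → ¬ p ∣ N → ((aK p : K) : ℂ) = a p := by
    intro p hp hpN
    simp only [haK, dif_pos (hprime p hp hpN)]
  have hdvd : N ∣ N * 2 := Dvd.intro 2 rfl
  have hint : ∀ p : ℕ, p.Prime → ¬ p ∣ N * 2 → IsIntegral ℤ (aK p) := by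
    intro p hp hpN2
    have hpN : ¬ p ∣ N := fun h => hpN2 (dvd_trans h hdvd)
    have h1 : IsIntegral ℤ (a p) := hRint _ (prime_coeff_mem_heckeRing hp hpN)
    rw [← haKp p hp hpN] at h1
    exact (isIntegral_algebraMap_iff (algebraMap K ℂ).injective).mp h1
  have hL : ∀ φ : K →+* ℂ, ∃ B : ℝ, ∀ s : ℝ, 1 < s → s ≤ 2 →
      Summable (fun q : Nat.Primes =>
        (if ¬ (q : ℕ) ∣ N * 2 then ‖φ (aK q)‖ ^ 2 else 0) * (((q : ℕ) : ℝ) ^ s)⁻¹) ∧
      Density.mass (fun q => if ¬ q ∣ N * 2 then ‖φ (aK q)‖ ^ 2 else 0) s ≤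
        Real.log (1 / (s - 1)) + B := by
    intro φ
    obtain ⟨σ, hσ⟩ := exists_ringEquiv_extends K (algebraMap K ℂ) φ
    obtain ⟨B, hB⟩ := rankin_bound_conj ε f hf₁ hT (σ : ℂ →+* ℂ)
    refine ⟨B, fun s hs1 hs2 => ?_⟩
    have heq : ∀ q : Nat.Primes,
        (if ¬ (q : ℕ) ∣ N * 2 then ‖φ (aK q)‖ ^ 2 else 0) =
        (if ¬ (q : ℕ) ∣ N * 2 then ‖(σ : ℂ →+* ℂ) (qCoeff f q)‖ ^ 2 else 0) := by
      intro q
      by_cases hq : (q : ℕ) ∣ N * 2
      · simp [hq]
      · have hqN : ¬ (q : ℕ) ∣ N := fun h => hq (dvd_trans h hdvd)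
        rw [if_pos hq, if_pos hq, ← hσ (aK q)]
        have : algebraMap K ℂ (aK q) = a q := haKp q q.2 hqN
        rw [this]
        rfl
    obtain ⟨h1, h2⟩ := hB s hs1 hs2
    refine ⟨?_, ?_⟩
    · refine h1.congr fun q => ?_
      rw [heq q]
    · unfold Density.mass at h2 ⊢
      have hc : ∀ q : Nat.Primes,
          (fun q : ℕ => if ¬ q ∣ N * 2 then ‖φ (aK q)‖ ^ 2 else 0) q * (((q : ℕ) : ℝ) ^ s)⁻¹ =
          (fun q : ℕ => if ¬ q ∣ N * 2 then ‖(σ : ℂ →+* ℂ) (qCoeff f q)‖ ^ 2 else 0) q *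
            (((q : ℕ) : ℝ) ^ s)⁻¹ := fun q => by
        show (if ¬ (q : ℕ) ∣ N * 2 then ‖φ (aK q)‖ ^ 2 else 0) * _ = _
        rw [heq q]
      rw [tsum_congr hc]
      exact h2
  obtain ⟨Y, X, B, hYfin, hX, hY⟩ := rankin_finite_values K (N * 2) aK hint hL heta
  refine ⟨(algebraMap K ℂ) '' Y, X, B, hYfin.image _, hX, fun p hp hpN2 hpX => ?_⟩
  have hpN : ¬ p ∣ N := fun h => hpN2 (dvd_trans h hdvd)
  exact ⟨aK p, hY p hp hpN2 hpX, haKp p hp hpN⟩

end

end Fermat.Agent.DS48
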