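import Fermat.Agent.DS48.LIFT_lead_Form
import Fermat.Agent.DS48.NF_lead_Main

set_option autoImplicit false

/-!
# [LIFT] main theorem: the mod `𝔪_A` Hecke eigensystem of weight two and level `ℓ N` attached to a
weight one eigenform of level `N`
-/

namespace Fermat.Agent.DS48

open Matrix CongruenceSubgroup ModularForm UpperHalfPlane ModularFormClass IsLocalRing
open Fermat.Agent.RatStr
open scoped MatrixGroups ModularForm Manifold

noncomputable section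

variable {N : ℕ} [NeZero N] {ℓ : ℕ} [Fact ℓ.Prime] {A : ValuationSubring ℂ}
  {ω : DirichletCharacter ℂ ℓ}

theorem coprime_of_dvd_sub {n i : ℕ} (hi : i ≤ n) (hn : n.Coprime N) (h : N ∣ n - i) :
    i.Coprime N := by
  apply Nat.Coprime.symm
  rw [Nat.coprime_iff_gcd_eq_one]
  apply Nat.dvd_one.mp
  have h1 : Nat.gcd N i ∣ n := by
    have : n = (n - i) + i := by omega
    rw [this]
    exact Nat.dvd_add ((Nat.gcd_dvd_left N i).trans h) (Nat.gcd_dvd_right N i)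
  have h2 : Nat.gcd N i ∣ Nat.gcd n N := Nat.dvd_gcd h1 (Nat.gcd_dvd_left N i)
  rwa [Nat.coprime_iff_gcd_eq_one.mp hn] at h2

theorem liftHyp_gPrime (ε : DirichletCharacter ℂ N) (f : CuspForm (Gamma1 N) 1)
    (hf₁ : qCoeff f 1 = 1)
    (hT : ∀ p : ℕ, p.Prime → ¬ p ∣ N → ∀ n : ℕ,
        qCoeff f (p * n) + ε (p : ZMod N) * (if p ∣ n then qCoeff f (n / p) else 0) =
          qCoeff f p * qCoeff f n)
    (hℓ2 : ℓ ≠ 2) (hℓ : (ℓ : ℂ) ∈ A.nonunits) (hω : IsTeich A ω) :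
    LiftHyp N A (psiChar ε ω) (gPrime f ω) ε (fun n => qCoeff f n) (teichConst ω) := by
  have hodd := hω.inv_neg_one hℓ hℓ2
  have hRfg := exists_fg_heckeRing ε f hf₁ hT
  have ha : ∀ n : ℕ, n ≠ 0 → n.Coprime N → qCoeff f n ∈ A := fun n hn hc =>
    mem_of_isIntegral_int A (IsIntegral.of_mem_of_fg _ hRfg _
      (coeff_mem_heckeRing (a := fun n => qCoeff f n) hf₁ hT n hn hc))
  refine ⟨Dvd.intro_left ℓ rfl, ha, hf₁, hT, teichConst_mem,
    hω.teichConst_not_mem_nonunits hℓ, fun n hn hc => ?_,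
    nebenAt_gPrime (neben_of_S48 ε f hT).1, fun x => char_mem _ x, fun p hp hpM => ?_⟩
  · rw [qCoeff_gPrime, Finset.sum_range_succ, Nat.sub_self, qCoeff_vEis_zero hodd]
    have : ∑ i ∈ Finset.range n, qCoeff f i * qCoeff (vEis N ω) (n - i) +
        qCoeff f n * teichConst ω - teichConst ω * qCoeff f n =
        ∑ i ∈ Finset.range n, qCoeff f i * qCoeff (vEis N ω) (n - i) := by ring
    rw [this]
    refine sum_mem fun i hi => ?_
    rw [Finset.mem_range] at hi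
    have hni : n - i ≠ 0 := by omega
    by_cases hdvd : N ∣ n - i
    · by_cases hi0 : i = 0
      · subst hi0
        rw [qCoeff_zero_cuspForm, zero_mul]
        exact zero_mem _
      · exact mul_mem_nonunits A (ha i hi0 (coprime_of_dvd_sub hi.le hc hdvd))
          (qCoeff_vEis_mem_nonunits hodd hℓ hni)
    · rw [qCoeff_vEis, if_neg hdvd, mul_zero]
      exact zero_mem _
  · have hpℓ : ¬ ℓ ∣ p := by
      intro h
      exact hpM (dvd_trans ((Nat.prime_dvd_prime_iff_eq Fact.out hp).mp h ▸ dvd_refl p)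
        (Dvd.intro N rfl))
    have hcop : IsCoprime ((p : ℕ) : ℤ) ((ℓ * N : ℕ) : ℤ) := by
      rw [Nat.isCoprime_iff_coprime]
      exact (Nat.Prime.coprime_iff_not_dvd hp).mpr hpM
    have h1 := psiChar_intCast (ω := ω) ε hcop
    simp only [Int.cast_natCast] at h1
    rw [h1]
    have h2 : (p : ℂ) * (ε (p : ZMod N) * ω⁻¹ (p : ZMod ℓ)) - ε (p : ZMod N) =
        ε (p : ZMod N) * ((p : ℂ) * ω⁻¹ (p : ZMod ℓ) - 1) := by ring
    rw [h2]
    refine mul_mem_nonunits A (char_mem _ _) ?_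
    have h3 := hω.residue_natCast_mul_inv hℓ hpℓ
    have hmem : (p : ℂ) * ω⁻¹ (p : ZMod ℓ) - 1 ∈ A :=
      sub_mem (mul_mem (natCast_mem A p) (char_mem ω⁻¹ _)) A.one_mem
    rw [← residue_eq_zero_iff_nonunits A hmem]
    have h4 : (⟨(p : ℂ) * ω⁻¹ (p : ZMod ℓ) - 1, hmem⟩ : A) =
        ⟨(p : ℂ) * ω⁻¹ (p : ZMod ℓ), mul_mem (natCast_mem A p) (char_mem ω⁻¹ _)⟩ - 1 := rfl
    rw [h4, map_sub, h3, map_one, sub_self]

/-- **[LIFT]** the mod `𝔪_A` eigensystem of level `ℓ N` -/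
theorem exists_theta (ε : DirichletCharacter ℂ N) (f : CuspForm (Gamma1 N) 1)
    (hf₁ : qCoeff f 1 = 1)
    (hT : ∀ p : ℕ, p.Prime → ¬ p ∣ N → ∀ n : ℕ,
        qCoeff f (p * n) + ε (p : ZMod N) * (if p ∣ n then qCoeff f (n / p) else 0) =
          qCoeff f p * qCoeff f n)
    (hℓ2 : ℓ ≠ 2) (A : ValuationSubring ℂ) (hℓ : (ℓ : ℂ) ∈ A.nonunits) :
    ∃ θ : hecke1Alg (ℓ * N) →+* ResidueField A, (Set.range θ).Finite ∧
      (∀ (p : ℕ) (hp : p.Prime) (hpM : ¬ p ∣ ℓ * N), ∃ h : qCoeff f p ∈ A,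
        θ ⟨heckeT1 2 hp hpM, heckeT1_mem_hecke1Alg (ℓ * N) hp hpM⟩ =
          residue A ⟨qCoeff f p, h⟩) ∧
      (∀ (p : ℕ) (hp : p.Prime) (hpM : ¬ p ∣ ℓ * N), ∃ h : ε (p : ZMod N) ∈ A,
        (p : ResidueField A) * θ ⟨diamond 2 (primeUnit (ℓ * N) hp hpM),
          diamond_mem_hecke1Alg (ℓ * N) _⟩ = residue A ⟨ε (p : ZMod N), h⟩) := by
  obtain ⟨ω, hω⟩ := exists_teichmuller (ℓ := ℓ) (A := A) hℓ
  have hω' : IsTeich A ω := hω
  have H := liftHyp_gPrime ε f hf₁ hT hℓ2 hℓ hω'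
  -- the finitely generated ring containing all scalars
  have hRfg := exists_fg_heckeRing ε f hf₁ hT
  obtain ⟨G, hG⟩ := hRfg
  have hGR : ∀ g ∈ G, g ∈ heckeRing N ε (fun n => qCoeff f n) := fun g hg => by
    have : g ∈ Submodule.span ℤ (G : Set ℂ) := Submodule.subset_span hg
    rw [hG] at this
    exact this
  have hGint : ∀ g ∈ G, IsIntegral ℤ g := fun g hg =>
    IsIntegral.of_mem_of_fg _ ⟨G, hG⟩ g (hGR g hg)
  set gens : Set ℂ := (G : Set ℂ) ∪ Set.range (fun x : ZMod (ℓ * N) => psiChar ε ω x) with hgens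
  have hgfin : gens.Finite := (Finset.finite_toSet G).union (Set.finite_range _)
  have hgint : ∀ x ∈ gens, IsIntegral ℤ x := by
    rintro x (hx | ⟨y, rfl⟩)
    · exact hGint x hx
    · exact isIntegral_char _ y
  set R' : Subalgebra ℤ ℂ := Algebra.adjoin ℤ gens with hR'
  have hR'fg : R'.toSubmodule.FG := fg_adjoin_of_finite hgfin hgint
  have hR'A : ∀ x ∈ R', x ∈ A := fun x hx =>
    mem_of_isIntegral_int A (IsIntegral.of_mem_of_fg R' hR'fg x hx)
  have hle : ∀ x ∈ heckeRing N ε (fun n => qCoeff f n), x ∈ R' := by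
    intro x hx
    have hx' : x ∈ Submodule.span ℤ (G : Set ℂ) := by rw [hG]; exact hx
    have hsp : Submodule.span ℤ (G : Set ℂ) ≤ R'.toSubmodule :=
      Submodule.span_le.mpr fun g hg => Algebra.subset_adjoin (Or.inl hg)
    exact hsp hx'
  have haR : ∀ p : ℕ, p.Prime → ¬ p ∣ ℓ * N → qCoeff f p ∈ R' := fun p hp hpM =>
    hle _ (prime_coeff_mem_heckeRing hp (H.not_dvd hpM))
  have hψR : ∀ x, psiChar ε ω x ∈ R' := fun x => Algebra.subset_adjoin (Or.inr ⟨x, rfl⟩)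
  refine ⟨theta H, finite_range_theta H hℓ R' hR'fg hR'A haR hψR, fun p hp hpM => ?_,
    fun p hp hpM => ?_⟩
  · exact ⟨_, theta_heckeT1 H hp hpM⟩
  · refine ⟨char_mem ε _, ?_⟩
    rw [theta_diamond H, coe_primeUnit]
    have hpℓ : ¬ ℓ ∣ p := by
      intro h
      exact hpM (dvd_trans ((Nat.prime_dvd_prime_iff_eq Fact.out hp).mp h ▸ dvd_refl p)
        (Dvd.intro N rfl))
    have hcop : IsCoprime ((p : ℕ) : ℤ) ((ℓ * N : ℕ) : ℤ) := by
      rw [Nat.isCoprime_iff_coprime]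
      exact (Nat.Prime.coprime_iff_not_dvd hp).mpr hpM
    have h1 := psiChar_intCast (ω := ω) ε hcop
    simp only [Int.cast_natCast] at h1
    have h3 := hω'.residue_natCast_mul_inv hℓ hpℓ
    have h4 : (⟨psiChar ε ω (p : ZMod (ℓ * N)), H.psi_mem _⟩ : A) =
        ⟨ε (p : ZMod N), char_mem ε _⟩ * ⟨ω⁻¹ (p : ZMod ℓ), char_mem ω⁻¹ _⟩ := by
      apply Subtype.ext
      exact h1
    have h5 : (⟨(p : ℂ) * ω⁻¹ (p : ZMod ℓ),
        mul_mem (natCast_mem A p) (char_mem ω⁻¹ _)⟩ : A) =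
        (p : A) * ⟨ω⁻¹ (p : ZMod ℓ), char_mem ω⁻¹ _⟩ := by
      apply Subtype.ext; simp
    rw [h5, map_mul, map_natCast] at h3
    rw [h4, map_mul, mul_left_comm, h3, mul_one]

end

end Fermat.Agent.DS48
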