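import Fermat.Agent.DS48.ASM_lead_Defs
import Fermat.Agent.DS48.LIFT_lead_Main
import Fermat.Agent.DS48.G4_helper3_Val

set_option autoImplicit false
set_option linter.style.haveILetI false

/-!
# [ASM] stage A: the residual representation attached to a weight one eigenform and a place
`(A, π)` of `ℂ` above `ℓ`
-/

namespace Fermat.Agent.DS48

open Matrix CongruenceSubgroup Polynomial ModularFormClass IsLocalRing
open scoped MatrixGroups

local notation "Ω" => AlgebraicClosure ℚ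
local notation "GQ" => (AlgebraicClosure ℚ ≃ₐ[ℚ] AlgebraicClosure ℚ)

/-- a ring homomorphism with finite range into a field has a subfield as its range -/
theorem exists_subfield_of_finite_range {R k : Type*} [Ring R] [Field k] (θ : R →+* k)
    (h : (Set.range θ).Finite) : ∃ S : Subfield k, (S : Set k) = Set.range θ := by
  refine ⟨{ toSubring := θ.range, inv_mem' := ?_ }, ?_⟩
  · intro x hx
    by_cases hx0 : x = 0
    · rw [hx0, _root_.inv_zero]
      exact θ.range.zero_mem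
    · haveI : Finite θ.range := by
        have : (θ.range : Set k) = Set.range θ := RingHom.coe_range θ
        exact (this ▸ h).to_subtype
      let m : θ.range → θ.range := fun y => ⟨x, hx⟩ * y
      have hm : Function.Injective m := by
        intro y z hyz
        have h1 : x * (y : k) = x * (z : k) := congrArg Subtype.val hyz
        exact Subtype.ext (mul_left_cancel₀ hx0 h1)
      obtain ⟨y, hy⟩ := (Finite.injective_iff_surjective.mp hm) 1
      have h1 : x * (y : k) = 1 := congrArg Subtype.val hy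
      have h2 : x⁻¹ = (y : k) := (eq_inv_of_mul_eq_one_right h1).symm
      rw [h2]
      exact y.2
  · exact RingHom.coe_range θ

variable {N : ℕ} [NeZero N] {ℓ : ℕ} [Fact ℓ.Prime]

theorem isLocalHom_of_ker {A : ValuationSubring ℂ} (π : ↥A →+* AlgebraicClosure (ZMod ℓ))
    (hπ : ∀ a : ↥A, π a = 0 ↔ (a : ℂ) ∈ A.nonunits) : IsLocalHom π := by
  refine ⟨fun a ha => ?_⟩
  by_contra hna
  have h1 : (a : ℂ) ∈ A.nonunits := by
    rw [ValuationSubring.mem_nonunits_iff_exists_mem_maximalIdeal]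
    exact ⟨a.2, (IsLocalRing.mem_maximalIdeal _).mpr hna⟩
  have h2 := (hπ a).mpr h1
  rw [h2] at ha
  exact not_isUnit_zero ha

/-- **[ASM] stage A**: the residual representation. -/
theorem exists_residual (hW : ModRepGamma1) (ε : DirichletCharacter ℂ N)
    (f : CuspForm (Gamma1 N) 1) (hf₁ : qCoeff f 1 = 1)
    (hT : ∀ p : ℕ, p.Prime → ¬ p ∣ N → ∀ n : ℕ,
        qCoeff f (p * n) + ε (p : ZMod N) * (if p ∣ n then qCoeff f (n / p) else 0) =
          qCoeff f p * qCoeff f n)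
    (hℓ5 : 5 ≤ ℓ) (A : ValuationSubring ℂ) (π : ↥A →+* AlgebraicClosure (ZMod ℓ))
    (hπ : ∀ a : ↥A, π a = 0 ↔ (a : ℂ) ∈ A.nonunits) :
    ∃ (𝔽' : Type) (_ : Field 𝔽') (_ : Finite 𝔽') (j : 𝔽' →+* AlgebraicClosure (ZMod ℓ))
      (ρ : GQ →* GL (Fin 2) 𝔽'),
      GaloisFactorsThroughFiniteLevel ρ ∧ IsSemisimpleRep ρ ∧
      ∀ p : ℕ, p.Prime → ¬ p ∣ ℓ * N → ∀ B : ValuationSubring Ω, B.LiesOverPrime p →
        (∀ σ ∈ B.inertiaSubgroupIn ℚ, ρ σ = 1) ∧
        ∀ σ : GQ, B.IsFrobeniusAt σ p →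
          (∃ h : qCoeff f p ∈ A,
            j ((ρ σ : GL (Fin 2) 𝔽') : Matrix (Fin 2) (Fin 2) 𝔽').trace = π ⟨_, h⟩) ∧
          (∃ h : ε (p : ZMod N) ∈ A,
            j ((ρ σ : GL (Fin 2) 𝔽') : Matrix (Fin 2) (Fin 2) 𝔽').det = π ⟨_, h⟩) := by
  have hℓA : (ℓ : ℂ) ∈ A.nonunits := natCast_mem_nonunits_of_ker A π hπ
  have hℓ2 : ℓ ≠ 2 := by omega
  obtain ⟨θ, hfin, hTp, hdia⟩ := exists_theta ε f hf₁ hT hℓ2 A hℓA
  haveI : IsLocalHom π := isLocalHom_of_ker π hπ
  set πbar : ResidueField A →+* AlgebraicClosure (ZMod ℓ) := IsLocalRing.ResidueField.lift π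
    with hπbar
  obtain ⟨S, hS⟩ := exists_subfield_of_finite_range θ hfin
  haveI : Finite S := by
    have : (S : Set (ResidueField A)).Finite := hS ▸ hfin
    exact this.to_subtype
  haveI : CharP (ResidueField A) ℓ := charP_residueField A hℓA
  haveI : CharP S ℓ := RingHom.charP S.subtype Subtype.val_injective ℓ
  have hθS : ∀ x, θ x ∈ S.toSubring := fun x => by
    show θ x ∈ (S : Set (ResidueField A))
    rw [hS]
    exact ⟨x, rfl⟩
  set θ' : ↥(hecke1Alg (ℓ * N)) →+* S := θ.codRestrict S.toSubring hθS with hθ'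
  have h5 : 5 ≤ ℓ * N := le_trans hℓ5 (Nat.le_mul_of_pos_right ℓ (NeZero.pos N))
  obtain ⟨𝔽', i1, i2, i3, ρ, hfl, hss, hρ⟩ := hW (ℓ * N) h5 ℓ S θ'
  letI := i1
  letI := i2
  letI := i3
  letI : Algebra S (AlgebraicClosure (ZMod ℓ)) := (πbar.comp S.subtype).toAlgebra
  haveI : Module.Finite S 𝔽' := Module.Finite.of_finite
  haveI : Module.IsTorsionFree S (AlgebraicClosure (ZMod ℓ)) :=
    DivisionSemiring.to_moduleIsTorsionFree
  haveI : Module.IsTorsionFree S 𝔽' := DivisionSemiring.to_moduleIsTorsionFree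
  haveI : Algebra.IsAlgebraic S 𝔽' := Algebra.IsAlgebraic.of_finite S 𝔽'
  set j : 𝔽' →ₐ[S] AlgebraicClosure (ZMod ℓ) := IsAlgClosed.lift with hj
  have hjalg : ∀ x : S, j (algebraMap S 𝔽' x) = πbar (x : ResidueField A) := fun x => by
    rw [AlgHom.commutes]
    rfl
  refine ⟨𝔽', i1, i2, j.toRingHom, ρ, hfl, hss, fun p hp hpM B hB => ?_⟩
  have hpℓ : p ≠ ℓ := fun h => hpM (h ▸ Dvd.intro N rfl)
  refine ⟨(hρ p hp hpM hpℓ B hB).1, fun σ hσ => ?_⟩
  have hcp := (hρ p hp hpM hpℓ B hB).2 σ hσ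
  rw [Matrix.charpoly_fin_two] at hcp
  have htr : ((ρ σ : GL (Fin 2) 𝔽') : Matrix (Fin 2) (Fin 2) 𝔽').trace =
      algebraMap S 𝔽' (θ' ⟨heckeT1 2 hp hpM, heckeT1_mem_hecke1Alg (ℓ * N) hp hpM⟩) := by
    have := congrArg (fun P : Polynomial 𝔽' => P.coeff 1) hcp
    simpa [Polynomial.coeff_X, Polynomial.coeff_C] using this
  have hdet : ((ρ σ : GL (Fin 2) 𝔽') : Matrix (Fin 2) (Fin 2) 𝔽').det =
      (p : 𝔽') * algebraMap S 𝔽'
        (θ' ⟨diamond 2 (primeUnit (ℓ * N) hp hpM), diamond_mem_hecke1Alg (ℓ * N) _⟩) := by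
    have := congrArg (fun P : Polynomial 𝔽' => P.coeff 0) hcp
    simpa [Polynomial.coeff_X, Polynomial.coeff_C] using this
  obtain ⟨h1, e1⟩ := hTp p hp hpM
  obtain ⟨h2, e2⟩ := hdia p hp hpM
  refine ⟨⟨h1, ?_⟩, ⟨h2, ?_⟩⟩
  · show j _ = _
    rw [htr, hjalg]
    show πbar (θ _) = _
    rw [e1, hπbar, IsLocalRing.ResidueField.lift_residue_apply]
  · show j _ = _
    rw [hdet, map_mul, map_natCast, hjalg]
    show _ * πbar (θ _) = _
    rw [← map_natCast πbar, ← map_mul, e2, hπbar, IsLocalRing.ResidueField.lift_residue_apply]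

end Fermat.Agent.DS48
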