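import Fermat.Agent.DS48.A_lead_VLemma

set_option autoImplicit false

/-!
# [A] nebentypus from the coefficient relations

A weight-`k` cusp form on `Γ₁(N)` whose `q`-coefficients satisfy
`a_{pn} + ε(p) p^{k-1} [p ∣ n] a_{n/p} = a_p a_n` (all primes `p ∤ N`, all `n`) has nebentypus `ε`.
-/

namespace Fermat.Agent.DS48

open Matrix CongruenceSubgroup ModularForm UpperHalfPlane ModularFormClass
open scoped MatrixGroups ModularForm Manifold

variable {N : ℕ} [NeZero N] {k : ℤ}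

/-- `f` has nebentypus `ε`: `⟨d⟩ f = ε(d) f` for all `d ∈ (ℤ/N)ˣ`. -/
def NebenAt (f : CuspForm (Gamma1 N) k) (ε : DirichletCharacter ℂ N) : Prop :=
  ∀ d : (ZMod N)ˣ, diamond k d f = ε (d : ZMod N) • f

/-- one prime -/
theorem diamond_prime_eq_of_coeffEigen (ε : DirichletCharacter ℂ N) (f : CuspForm (Gamma1 N) k)
    {p : ℕ} (hp : p.Prime) (hpN : ¬ p ∣ N) (ap : ℂ)
    (hT : ∀ n : ℕ, qCoeff f (p * n) +
      ε (p : ZMod N) * (p : ℂ) ^ (k - 1) * (if p ∣ n then qCoeff f (n / p) else 0) =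
        ap * qCoeff f n) :
    diamond k (primeUnit N hp hpN) f = ε (p : ZMod N) • f := by
  have hp0 : p ≠ 0 := hp.ne_zero
  set h : CuspForm (Gamma1 N) k := diamond k (primeUnit N hp hpN) f - ε (p : ZMod N) • f with hh
  set g : CuspForm (Gamma1 N) k := heckeT1 k hp hpN f - ap • f with hg
  have key : (g : ℍ → ℂ) = (h : ℍ → ℂ) ∣[k] heckeDiagMatrix p := by
    apply IsNice.ext (IsNice.of_cuspForm g) ((IsNice.of_cuspForm h).slash_diag k p)
    intro n
    rw [qCoeff_slash_diag (IsNice.of_cuspForm h) k hp0]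
    have e1 : qCoeff (g : ℍ → ℂ) n = qCoeff (heckeT1 k hp hpN f) n - ap * qCoeff f n := by
      rw [hg]
      show qCoeff (⇑(heckeT1 k hp hpN f) - ⇑(ap • f)) n = _
      rw [qCoeff_sub (IsNice.of_cuspForm _) (IsNice.of_cuspForm _), FunLike.coe_smul,
        qCoeff_smul (IsNice.of_cuspForm f)]
    have e2 : ∀ m, qCoeff (h : ℍ → ℂ) m =
        qCoeff (diamond k (primeUnit N hp hpN) f) m - ε (p : ZMod N) * qCoeff f m := by
      intro m
      rw [hh]
      show qCoeff (⇑(diamond k (primeUnit N hp hpN) f) - ⇑(ε (p : ZMod N) • f)) m = _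
      rw [qCoeff_sub (IsNice.of_cuspForm _) (IsNice.of_cuspForm _), FunLike.coe_smul,
        qCoeff_smul (IsNice.of_cuspForm f)]
    rw [e1, qCoeff_heckeT1, e2]
    have hTn := hT n
    rw [mul_comm p n] at hTn
    split_ifs with hpn
    · rw [if_pos hpn] at hTn
      linear_combination hTn
    · rw [if_neg hpn] at hTn
      linear_combination hTn
  have hz := eq_zero_of_slash_diag_mem hp hpN h g key
  rw [hh] at hz
  exact sub_eq_zero.mp hz

/-- **[A]** nebentypus from the coefficient form of the Hecke relations. -/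
theorem neben_of_coeffEigen (ε : DirichletCharacter ℂ N) (f : CuspForm (Gamma1 N) k)
    (ap : ℕ → ℂ)
    (hT : ∀ p : ℕ, p.Prime → ¬ p ∣ N → ∀ n : ℕ, qCoeff f (p * n) +
      ε (p : ZMod N) * (p : ℂ) ^ (k - 1) * (if p ∣ n then qCoeff f (n / p) else 0) =
        ap p * qCoeff f n) :
    NebenAt f ε := by
  intro d
  have hd : IsUnit (d : ZMod N) := d.isUnit
  obtain ⟨p, hp, hpd⟩ := (Nat.infinite_setOfPred_prime_and_eq_mod hd).nonempty
  have hpN : ¬ p ∣ N := by
    intro hdvd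
    have hcop : Nat.Coprime p N := by
      rw [← ZMod.isUnit_iff_coprime, hpd]; exact hd
    have := Nat.Coprime.eq_one_of_dvd hcop hdvd
    exact hp.one_lt.ne' this
  have e : primeUnit N hp hpN = d := Units.ext (by rw [coe_primeUnit, hpd])
  have := diamond_prime_eq_of_coeffEigen ε f hp hpN (ap p) (hT p hp hpN)
  rw [e, hpd] at this
  exact this

/-- under nebentypus `ε`, `T_p` acts on `q`-coefficients by the classical formula -/
theorem qCoeff_heckeT1_of_neben {ε : DirichletCharacter ℂ N} {f : CuspForm (Gamma1 N) k}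
    (hf : NebenAt f ε) {p : ℕ} (hp : p.Prime) (hpN : ¬ p ∣ N) (n : ℕ) :
    qCoeff (heckeT1 k hp hpN f) n = qCoeff f (n * p) +
      (if p ∣ n then (p : ℂ) ^ (k - 1) * (ε (p : ZMod N) * qCoeff f (n / p)) else 0) := by
  rw [qCoeff_heckeT1, hf (primeUnit N hp hpN), coe_primeUnit]
  congr 1
  split_ifs
  · show _ * qCoeff (⇑(ε (p : ZMod N) • f)) (n / p) = _
    rw [FunLike.coe_smul, qCoeff_smul (IsNice.of_cuspForm f)]
  · rfl

/-- the S48 hypotheses give an honest `T_p`-eigenform -/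
theorem heckeT1_eq_smul_of_coeffEigen (ε : DirichletCharacter ℂ N) (f : CuspForm (Gamma1 N) k)
    (ap : ℕ → ℂ)
    (hT : ∀ p : ℕ, p.Prime → ¬ p ∣ N → ∀ n : ℕ, qCoeff f (p * n) +
      ε (p : ZMod N) * (p : ℂ) ^ (k - 1) * (if p ∣ n then qCoeff f (n / p) else 0) =
        ap p * qCoeff f n)
    {p : ℕ} (hp : p.Prime) (hpN : ¬ p ∣ N) :
    heckeT1 k hp hpN f = ap p • f := by
  apply cuspForm_ext_qCoeff
  intro n
  rw [qCoeff_heckeT1_of_neben (neben_of_coeffEigen ε f ap hT) hp hpN]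
  show _ = qCoeff (⇑(ap p • f)) n
  rw [FunLike.coe_smul, qCoeff_smul (IsNice.of_cuspForm f)]
  have hTn := hT p hp hpN n
  rw [mul_comm p n] at hTn
  split_ifs with hpn
  · rw [if_pos hpn] at hTn
    linear_combination hTn
  · rw [if_neg hpn] at hTn
    linear_combination hTn

/-- **[A] in the literal shape of S48**: weight 1, relations with `a_p = qCoeff f p`. -/
theorem neben_of_S48 (ε : DirichletCharacter ℂ N) (f : CuspForm (Gamma1 N) 1)
    (hT : ∀ p : ℕ, p.Prime → ¬ p ∣ N → ∀ n : ℕ,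
        ModularFormClass.qCoeff f (p * n) +
            ε (p : ZMod N) * (if p ∣ n then ModularFormClass.qCoeff f (n / p) else 0) =
          ModularFormClass.qCoeff f p * ModularFormClass.qCoeff f n) :
    NebenAt f ε ∧ ∀ {p : ℕ} (hp : p.Prime) (hpN : ¬ p ∣ N),
      heckeT1 1 hp hpN f = ModularFormClass.qCoeff f p • f := by
  have hT' : ∀ p : ℕ, p.Prime → ¬ p ∣ N → ∀ n : ℕ, qCoeff f (p * n) +
      ε (p : ZMod N) * (p : ℂ) ^ ((1 : ℤ) - 1) * (if p ∣ n then qCoeff f (n / p) else 0) =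
        qCoeff f p * qCoeff f n := by
    intro p hp hpN n
    rw [sub_self, zpow_zero, mul_one]
    exact hT p hp hpN n
  exact ⟨neben_of_coeffEigen ε f (fun p => qCoeff f p) hT',
    fun hp hpN => heckeT1_eq_smul_of_coeffEigen ε f (fun p => qCoeff f p) hT' hp hpN⟩

end Fermat.Agent.DS48
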