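import Fermat.Agent.DS48.HECKE1_lead_Comm

set_option autoImplicit false

/-!
# [A] nice functions, `q`-coefficients of `F ∣ diag(p,1)`, `U_p V_p = p^{k-1}`
-/

namespace Fermat.Agent.DS48

open Matrix CongruenceSubgroup ModularForm UpperHalfPlane ModularFormClass
open scoped MatrixGroups ModularForm Manifold

/-- a "nice" function: 1-periodic, holomorphic, bounded at `i∞` -/
structure IsNice (F : ℍ → ℂ) : Prop where
  per : Function.Periodic (F ∘ UpperHalfPlane.ofComplex) 1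
  hol : MDiff F
  bdd : IsBoundedAtImInfty F

theorem IsNice.analytic {F : ℍ → ℂ} (h : IsNice F) : AnalyticAt ℂ (cuspFunction 1 F) 0 :=
  analyticAt_cuspFunction_zero one_pos h.per h.hol h.bdd

theorem IsNice.heckeU {F : ℍ → ℂ} (h : IsNice F) (k : ℤ) (p : ℕ) : IsNice (heckeU k p F) :=
  ⟨periodic_heckeU_comp_ofComplex h.per k p, mdifferentiable_heckeU h.hol k p,
    isBoundedAtImInfty_heckeU h.bdd k p⟩

theorem IsNice.heckeT {F : ℍ → ℂ} (h : IsNice F) (k : ℤ) (p : ℕ) : IsNice (heckeT k p F) :=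
  ⟨periodic_heckeT_comp_ofComplex h.per k p, mdifferentiable_heckeT h.hol k p,
    isBoundedAtImInfty_heckeT h.bdd k p⟩

theorem IsNice.sub {F G : ℍ → ℂ} (hF : IsNice F) (hG : IsNice G) : IsNice (F - G) :=
  ⟨fun z => by
      simp only [Function.comp_apply, Pi.sub_apply]
      have h1 := hF.per z
      have h2 := hG.per z
      simp only [Function.comp_apply] at h1 h2
      rw [h1, h2], hF.hol.sub hG.hol, hF.bdd.sub hG.bdd⟩

theorem IsNice.smul {F : ℍ → ℂ} (hF : IsNice F) (c : ℂ) : IsNice (c • F) :=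
  ⟨fun z => by
      simp only [Function.comp_apply, Pi.smul_apply]
      have h1 := hF.per z
      simp only [Function.comp_apply] at h1
      rw [h1], hF.hol.const_smul c, hF.bdd.const_smul_left c⟩

theorem IsNice.of_cuspForm {N : ℕ} [NeZero N] {k : ℤ} (f : CuspForm (Gamma1 N) k) : IsNice (f : ℍ → ℂ) :=
  ⟨periodic_cuspForm f, CuspFormClass.holo f, isBoundedAtImInfty_cuspForm f⟩

theorem slash_diag_eq (k : ℤ) (p : ℕ) (F : ℍ → ℂ) :
    F ∣[k] heckeDiagMatrix p = ModularForm.heckeT k p F - ModularForm.heckeU k p F := by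
  rw [heckeT_eq_heckeU_add, add_sub_cancel_left]

theorem IsNice.slash_diag {F : ℍ → ℂ} (h : IsNice F) (k : ℤ) (p : ℕ) :
    IsNice (F ∣[k] heckeDiagMatrix p) := by
  rw [slash_diag_eq]
  exact (h.heckeT k p).sub (h.heckeU k p)

theorem qCoeff_slash_diag {F : ℍ → ℂ} (h : IsNice F) (k : ℤ) {p : ℕ} (hp0 : p ≠ 0) (n : ℕ) :
    qCoeff (F ∣[k] heckeDiagMatrix p) n =
      if p ∣ n then (p : ℂ) ^ (k - 1) * qCoeff F (n / p) else 0 := by
  rw [slash_diag_eq]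
  unfold qCoeff
  rw [qExpansion_sub (h.heckeT k p).analytic (h.heckeU k p).analytic, map_sub]
  have h2 := UpperHalfPlane.qCoeff_heckeT h.per h.hol h.bdd k hp0 n
  have h3 := UpperHalfPlane.qCoeff_heckeU h.per h.hol h.bdd k hp0 n
  unfold qCoeff at h2 h3
  rw [h2, h3, coeffHeckeT_apply, coeffHeckeU_apply]
  ring

theorem qCoeff_smul {F : ℍ → ℂ} (h : IsNice F) (c : ℂ) (n : ℕ) :
    qCoeff (c • F) n = c * qCoeff F n := by
  unfold qCoeff
  rw [qExpansion_smul h.analytic]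
  simp

theorem qCoeff_sub {F G : ℍ → ℂ} (hF : IsNice F) (hG : IsNice G) (n : ℕ) :
    qCoeff (F - G) n = qCoeff F n - qCoeff G n := by
  unfold qCoeff
  rw [qExpansion_sub hF.analytic hG.analytic, map_sub]

theorem IsNice.ext {F G : ℍ → ℂ} (hF : IsNice F) (hG : IsNice G)
    (h : ∀ n, qCoeff F n = qCoeff G n) : F = G :=
  UpperHalfPlane.eq_of_forall_qCoeff_eq hF.per hF.hol hF.bdd hG.per hG.hol hG.bdd h

/-- `U_p (F ∣ diag(p,1)) = p^{k-1} F` -/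
theorem heckeU_slash_diag {F : ℍ → ℂ} (h : IsNice F) (k : ℤ) {p : ℕ} (hp0 : p ≠ 0) :
    ModularForm.heckeU k p (F ∣[k] heckeDiagMatrix p) = ((p : ℂ) ^ (k - 1)) • F := by
  apply IsNice.ext ((h.slash_diag k p).heckeU k p) (h.smul _)
  intro n
  have h1 := UpperHalfPlane.qCoeff_heckeU (h.slash_diag k p).per (h.slash_diag k p).hol
    (h.slash_diag k p).bdd k hp0 n
  rw [h1, coeffHeckeU_apply, qCoeff_slash_diag h k hp0, qCoeff_smul h,
    if_pos (Dvd.intro_left n rfl), Nat.mul_div_cancel _ (Nat.pos_of_ne_zero hp0)]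

/-- a representative `σ ∈ Γ₀(N)` of `⟨u⟩` that commutes past `diag(p,1)`:
`σ · diag(p,1) = diag(p,1) · σ'` with `σ' ∈ Γ₀(N)`, `σ'₁₁ ≡ u`. -/
theorem exists_Gamma0_commuting_diag (N : ℕ) [NeZero N] {p : ℕ} (hp : p.Prime) (hpN : ¬ p ∣ N)
    (u : (ZMod N)ˣ) :
    ∃ σ σ' : SL(2, ℤ), σ ∈ Gamma0 N ∧ ((σ 1 1 : ℤ) : ZMod N) = (u : ZMod N) ∧
      σ' ∈ Gamma0 N ∧ ((σ' 1 1 : ℤ) : ZMod N) = (u : ZMod N) ∧
      (Matrix.SpecialLinearGroup.mapGL ℝ σ : GL (Fin 2) ℝ) * heckeDiagMatrix p =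
        heckeDiagMatrix p * Matrix.SpecialLinearGroup.mapGL ℝ σ' := by
  have hp0 : p ≠ 0 := hp.ne_zero
  have hcop : Nat.Coprime N p := ((Nat.Prime.coprime_iff_not_dvd hp).mpr hpN).symm
  obtain ⟨d₀, hd₀N, hd₀p⟩ := Nat.chineseRemainder hcop (u : ZMod N).val 1
  have hdN : ((d₀ : ℕ) : ZMod N) = (u : ZMod N) := by
    have := (ZMod.natCast_eq_natCast_iff d₀ (u : ZMod N).val N).mpr hd₀N
    rw [this, ZMod.natCast_zmod_val]
  have hcopN : Nat.Coprime d₀ N := by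
    have h1 : Nat.Coprime (u : ZMod N).val N := ZMod.val_coe_unit_coprime u
    unfold Nat.Coprime at h1 ⊢
    rw [Nat.ModEq.gcd_eq hd₀N]; exact h1
  have hcopp : Nat.Coprime d₀ p := by
    unfold Nat.Coprime
    rw [Nat.ModEq.gcd_eq hd₀p]; simp
  have hcopNp : Nat.Coprime d₀ (p * N) := Nat.Coprime.mul_right hcopp hcopN
  have hbez := Int.gcd_eq_gcd_ab (d₀ : ℤ) ((p * N : ℕ) : ℤ)
  have hg : Int.gcd (d₀ : ℤ) ((p * N : ℕ) : ℤ) = 1 := by
    rw [Int.gcd_natCast_natCast]; exact hcopNp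
  rw [hg] at hbez
  set a := Int.gcdA (d₀ : ℤ) ((p * N : ℕ) : ℤ)
  set b := Int.gcdB (d₀ : ℤ) ((p * N : ℕ) : ℤ)
  push_cast at hbez
  obtain ⟨σ, hσ⟩ : ∃ σ : SL(2, ℤ), σ.1 = !![a, -(p * b); (N : ℤ), (d₀ : ℤ)] :=
    ⟨⟨!![a, -(p * b); (N : ℤ), (d₀ : ℤ)], by rw [Matrix.det_fin_two_of]; linarith⟩, rfl⟩
  obtain ⟨σ', hσ'⟩ : ∃ σ' : SL(2, ℤ), σ'.1 = !![a, -b; (p * N : ℤ), (d₀ : ℤ)] :=
    ⟨⟨!![a, -b; (p * N : ℤ), (d₀ : ℤ)], by rw [Matrix.det_fin_two_of]; linarith⟩, rfl⟩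
  refine ⟨σ, σ', ?_, ?_, ?_, ?_, ?_⟩
  · refine Gamma0_mem.mpr ?_
    show (((σ.1 1 0 : ℤ)) : ZMod N) = 0
    rw [hσ]; simp
  · show (((σ.1 1 1 : ℤ)) : ZMod N) = _
    rw [hσ]; simpa using hdN
  · refine Gamma0_mem.mpr ?_
    show (((σ'.1 1 0 : ℤ)) : ZMod N) = 0
    rw [hσ']; simp
  · show (((σ'.1 1 1 : ℤ)) : ZMod N) = _
    rw [hσ']; simpa using hdN
  · apply Units.ext
    rw [Units.val_mul, Units.val_mul, mapGL_val, mapGL_val, val_heckeDiagMatrix hp0, hσ, hσ']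
    ext i j
    fin_cases i <;> fin_cases j <;>
      simp [Matrix.mul_apply, Fin.sum_univ_two, mul_comm]


end Fermat.Agent.DS48
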