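import Fermat.Agent.DS48.A_lead_Nice
import Fermat.Prelude.Thm_ModularForm_sturm_bound_of_isArithmetic

set_option autoImplicit false

/-!
# [A] the `V_p`-lemma: `h, h(p·) ∈ S_k(Γ₁(N))`, `p ∤ N` ⟹ `h = 0`
-/

namespace Fermat.Agent.DS48

open Matrix CongruenceSubgroup ModularForm UpperHalfPlane ModularFormClass
open scoped MatrixGroups ModularForm Manifold

variable {N : ℕ} [NeZero N] {k : ℤ} {p : ℕ}

/-- step of the `V_p`-lemma -/
theorem exists_cuspForm_slash_diag_succ (hp : p.Prime) (hpN : ¬ p ∣ N)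
    (g₀ g₁ : CuspForm (Gamma1 N) k) (h : (g₁ : ℍ → ℂ) = (g₀ : ℍ → ℂ) ∣[k] heckeDiagMatrix p) :
    ∃ g₂ : CuspForm (Gamma1 N) k, (g₂ : ℍ → ℂ) = (g₁ : ℍ → ℂ) ∣[k] heckeDiagMatrix p := by
  have hp0 : p ≠ 0 := hp.ne_zero
  obtain ⟨σ, σ', hσ, hσu, hσ', hσ'u, hcomm⟩ :=
    exists_Gamma0_commuting_diag N hp hpN (primeUnit N hp hpN)
  set c : ℂ := (p : ℂ) ^ (k - 1) with hc
  set G' : CuspForm (Gamma1 N) k := heckeT1 k hp hpN g₁ - c • g₀ with hG'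
  have hσ'inv : σ'⁻¹ ∈ Gamma0 N := (Gamma0 N).inv_mem hσ'
  refine ⟨slashGamma0 σ'⁻¹ hσ'inv G', ?_⟩
  rw [coe_slashGamma0]
  -- the function of G'
  have h1 : (G' : ℍ → ℂ) = ((g₁ : ℍ → ℂ) ∣[k] σ) ∣[k] heckeDiagMatrix p := by
    rw [hG']
    show ⇑(heckeT1 k hp hpN g₁) - ⇑(c • g₀) = _
    rw [coe_heckeT1, coe_diamond_eq_slash k (primeUnit N hp hpN) hσ hσu, FunLike.coe_smul]
    have h2 : ModularForm.heckeU k p ⇑g₁ = c • ⇑g₀ := by
      rw [h]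
      exact heckeU_slash_diag (IsNice.of_cuspForm g₀) k hp0
    rw [h2, add_sub_cancel_left]
  have h3 : ((g₁ : ℍ → ℂ) ∣[k] σ) ∣[k] heckeDiagMatrix p =
      ((g₁ : ℍ → ℂ) ∣[k] heckeDiagMatrix p) ∣[k] σ' := by
    have e1 : ∀ F : ℍ → ℂ, F ∣[k] σ = F ∣[k] (Matrix.SpecialLinearGroup.mapGL ℝ σ : GL (Fin 2) ℝ) :=
      fun F => rfl
    have e2 : ∀ F : ℍ → ℂ, F ∣[k] σ' = F ∣[k] (Matrix.SpecialLinearGroup.mapGL ℝ σ' : GL (Fin 2) ℝ) :=
      fun F => rfl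
    rw [e1, e2, ← SlashAction.slash_mul, ← SlashAction.slash_mul, hcomm]
  rw [h1, h3, ← SlashAction.slash_mul, mul_inv_cancel, SlashAction.slash_one]

/-- iterating: all `h ∣ δ^m` are cusp forms on `Γ₁(N)` -/
theorem exists_cuspForm_slash_diag_pow (hp : p.Prime) (hpN : ¬ p ∣ N)
    (g₀ g₁ : CuspForm (Gamma1 N) k) (h : (g₁ : ℍ → ℂ) = (g₀ : ℍ → ℂ) ∣[k] heckeDiagMatrix p)
    (m : ℕ) :
    ∃ g g' : CuspForm (Gamma1 N) k, (g : ℍ → ℂ) = (g₀ : ℍ → ℂ) ∣[k] ((heckeDiagMatrix p) ^ m : GL (Fin 2) ℝ) ∧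
      (g' : ℍ → ℂ) = (g : ℍ → ℂ) ∣[k] heckeDiagMatrix p := by
  induction m with
  | zero => exact ⟨g₀, g₁, by rw [pow_zero, SlashAction.slash_one], h⟩
  | succ m ih =>
    obtain ⟨g, g', hg, hg'⟩ := ih
    obtain ⟨g'', hg''⟩ := exists_cuspForm_slash_diag_succ hp hpN g g' hg'
    refine ⟨g', g'', ?_, hg''⟩
    rw [hg', hg, ← SlashAction.slash_mul, pow_succ]



/-- the `q`-coefficients of `F ∣ δ^m` vanish below `p^m` (for cusp forms at each stage) -/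
theorem qCoeff_eq_zero_of_lt_pow (hp0 : p ≠ 0) (g₀ : CuspForm (Gamma1 N) k) (m : ℕ)
    (g : CuspForm (Gamma1 N) k)
    (hg : (g : ℍ → ℂ) = (g₀ : ℍ → ℂ) ∣[k] ((heckeDiagMatrix p) ^ m : GL (Fin 2) ℝ))
    (hall : ∀ j ≤ m, ∃ g' : CuspForm (Gamma1 N) k,
      (g' : ℍ → ℂ) = (g₀ : ℍ → ℂ) ∣[k] ((heckeDiagMatrix p) ^ j : GL (Fin 2) ℝ)) :
    ∀ n < p ^ m, qCoeff g n = 0 := by
  induction m generalizing g with
  | zero =>
    intro n hn
    have hn0 : n = 0 := by simpa using hn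
    subst hn0
    exact CuspFormClass.qExpansion_coeff_zero g one_pos (one_mem_strictPeriods_Gamma1 N)
  | succ m ih =>
    intro n hn
    obtain ⟨g', hg'⟩ := hall m (Nat.le_succ m)
    have e : (g : ℍ → ℂ) = (g' : ℍ → ℂ) ∣[k] heckeDiagMatrix p := by
      rw [hg, hg', ← SlashAction.slash_mul, pow_succ]
    show qCoeff (g : ℍ → ℂ) n = 0
    rw [e, qCoeff_slash_diag (IsNice.of_cuspForm g') k hp0]
    split_ifs with hpn
    · have : qCoeff g' (n / p) = 0 := by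
        apply ih g' hg' (fun j hj => hall j (Nat.le_succ_of_le hj))
        rw [pow_succ] at hn
        exact Nat.div_lt_of_lt_mul (by rwa [mul_comm] at hn)
      rw [this, mul_zero]
    · rfl

/-- **the `V_p`-lemma**: if `h` and `h ∣ diag(p,1)` are both cusp forms on `Γ₁(N)`, `p ∤ N`,
then `h = 0`. -/
theorem eq_zero_of_slash_diag_mem (hp : p.Prime) (hpN : ¬ p ∣ N)
    (g₀ g₁ : CuspForm (Gamma1 N) k) (h : (g₁ : ℍ → ℂ) = (g₀ : ℍ → ℂ) ∣[k] heckeDiagMatrix p) :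
    g₀ = 0 := by
  have hp0 : p ≠ 0 := hp.ne_zero
  set B : ℕ := (k * (Gamma1 N : Subgroup (GL (Fin 2) ℝ)).relIndex 𝒮ℒ).toNat / 12 with hB
  have hall : ∀ j, ∃ g' : CuspForm (Gamma1 N) k,
      (g' : ℍ → ℂ) = (g₀ : ℍ → ℂ) ∣[k] ((heckeDiagMatrix p) ^ j : GL (Fin 2) ℝ) := fun j => by
    obtain ⟨g, -, hg, -⟩ := exists_cuspForm_slash_diag_pow hp hpN g₀ g₁ h j
    exact ⟨g, hg⟩
  obtain ⟨g, hg⟩ := hall (B + 1)
  have hvan := qCoeff_eq_zero_of_lt_pow hp0 g₀ (B + 1) g hg (fun j _ => hall j)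
  have hlt : B < p ^ (B + 1) :=
    lt_of_lt_of_le (Nat.lt_succ_self B) (le_of_lt (Nat.lt_pow_self hp.one_lt))
  have hg0 : (ModularFormClass.modularForm g : ModularForm (Gamma1 N) k) = 0 := by
    apply ModularForm.sturm_bound_of_isArithmetic (one_mem_strictPeriods_Gamma1 N)
    have h1 : ((B + 1 : ℕ) : ℕ∞) ≤ (qExpansion 1 (ModularFormClass.modularForm g :
        ModularForm (Gamma1 N) k)).order := by
      apply PowerSeries.nat_le_order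
      intro i hi
      exact hvan i (lt_of_lt_of_le hi (Nat.succ_le_of_lt hlt))
    refine lt_of_lt_of_le ?_ h1
    exact_mod_cast Nat.lt_succ_self B
  have hgz : (g : ℍ → ℂ) = 0 := by
    have := congrArg (fun F : ModularForm (Gamma1 N) k => (F : ℍ → ℂ)) hg0
    simpa using this
  apply DFunLike.coe_injective
  have : (g₀ : ℍ → ℂ) = (g : ℍ → ℂ) ∣[k] (((heckeDiagMatrix p) ^ (B + 1) : GL (Fin 2) ℝ))⁻¹ := by
    rw [hg, ← SlashAction.slash_mul, mul_inv_cancel, SlashAction.slash_one]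
  rw [this, hgz, SlashAction.zero_slash]
  rfl

end Fermat.Agent.DS48
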