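import Fermat.Agent.DS48.EIS1_lead_Form

set_option autoImplicit false

/-!
# [EIS1] the weight-one Eisenstein series `E₁^{1,χ}` of an odd Dirichlet character `χ mod N`:
definition as a `χ`-weighted combination of the `g^{(0,a)}`, modularity on `Γ₁(N)` and nebentypus.
-/

namespace Fermat.Agent.DS48

open UpperHalfPlane hiding I
open Complex Filter Asymptotics Matrix EisensteinSeries Finset ModularForm CongruenceSubgroup
open Fermat.Agent.RatStr ZMod
open scoped MatrixGroups Topology Real ModularForm Manifold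

noncomputable section

variable {N : ℕ} [NeZero N] (χ : DirichletCharacter ℂ N)

/-- the (normalised) finite Fourier transform of `χ` -/
def wHat (a : ZMod N) : ℂ := (N : ℂ)⁻¹ * 𝓕 (fun j : ZMod N => χ j) a

/-- Fourier inversion -/
theorem sum_wHat_mul_stdAddChar (m : ZMod N) :
    ∑ a : ZMod N, wHat χ a * stdAddChar (a * m) = χ m := by
  have h := LinearEquiv.symm_apply_apply (ZMod.dft (N := N) (E := ℂ)) (fun j : ZMod N => χ j)
  have h2 := congrFun h m
  rw [invDFT_apply] at h2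
  rw [← h2, smul_eq_mul, Finset.mul_sum]
  refine Finset.sum_congr rfl fun a _ => ?_
  unfold wHat
  rw [smul_eq_mul]
  ring

theorem wHat_mul_unit (u : (ZMod N)ˣ) (a : ZMod N) :
    wHat χ ((u⁻¹ : (ZMod N)ˣ) * a) = χ u * wHat χ a := by
  unfold wHat
  have h := dft_comp_unitMul (fun j : ZMod N => χ j) u a
  have h2 : (fun j : ZMod N => χ ((u : ZMod N) * j)) = (χ u) • (fun j : ZMod N => χ j) := by
    funext j; simp [map_mul]
  rw [h2, _root_.map_smul] at h
  rw [← h]
  simp only [Pi.smul_apply, smul_eq_mul]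
  ring

theorem wHat_zero (hχ : χ ≠ 1) : wHat χ 0 = 0 := by
  unfold wHat
  rw [dft_apply_zero, MulChar.sum_eq_zero_of_ne_one hχ, mul_zero]

/-- the term of index `a` in the Eisenstein series -/
def eisTerm (a : ZMod N) : ℍ → ℂ :=
  if a = 0 then 0 else wHat χ a • gE N ![0, (a.val : ℤ)]

/-- the unnormalised weight-one Eisenstein series of `χ` -/
def eisRaw : ℍ → ℂ := ∑ a : ZMod N, eisTerm χ a

omit [NeZero N] in
theorem not_dvd_val {a : ZMod N} [NeZero N] (ha : a ≠ 0) : ¬ (N : ℤ) ∣ (a.val : ℤ) := by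
  intro h
  apply ha
  have := (ZMod.intCast_zmod_eq_zero_iff_dvd (a.val : ℤ) N).mpr h
  simpa using this

theorem isMF_eisRaw : IsMF (Gamma1 N) 1 (eisRaw χ) := by
  unfold eisRaw
  apply IsMF.sum
  intro a _
  unfold eisTerm
  by_cases ha : a = 0
  · rw [if_pos ha]; exact IsMF.zero
  · rw [if_neg ha]
    exact (isMF_gE_zero_left (not_dvd_val ha)).smul _

theorem unit_of_Gamma0 {γ : SL(2, ℤ)} (hγ : γ ∈ Gamma0 N) :
    IsUnit ((γ 1 1 : ℤ) : ZMod N) := by
  rw [Gamma0_mem] at hγ
  have hdet := SL2_det_eq γ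
  have : ((γ 0 0 : ℤ) : ZMod N) * ((γ 1 1 : ℤ) : ZMod N) = 1 := by
    have h := congrArg (Int.cast : ℤ → ZMod N) hdet
    push_cast at h
    rw [hγ, mul_zero, sub_zero] at h
    exact h
  exact IsUnit.of_mul_eq_one_right _ this

/-- **nebentypus**: `E ∣ γ = χ(d) E` for `γ ∈ Γ₀(N)` with lower right entry `d` -/
theorem eisRaw_slash {γ : SL(2, ℤ)} (hγ : γ ∈ Gamma0 N) :
    (eisRaw χ) ∣[(1 : ℤ)] γ = χ ((γ 1 1 : ℤ) : ZMod N) • eisRaw χ := by
  obtain ⟨u, hu⟩ := unit_of_Gamma0 hγ
  unfold eisRaw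
  rw [SlashAction.sum_slash, Finset.smul_sum]
  -- reindex by `a ↦ u⁻¹ a` on the left
  rw [← Equiv.sum_comp (Units.mulLeft u⁻¹)
    (fun a : ZMod N => (eisTerm χ a) ∣[(1 : ℤ)] γ)]
  refine Finset.sum_congr rfl fun a _ => ?_
  simp only [Units.mulLeft_apply]
  unfold eisTerm
  by_cases ha : a = 0
  · subst ha
    simp
  · have ha' : (u⁻¹ : (ZMod N)ˣ) * a ≠ 0 := by
      intro h
      apply ha
      have := congrArg (fun x => (u : ZMod N) * x) h
      simpa using this
    rw [if_neg ha, if_neg ha', ModularForm.SL_smul_slash, gE_zero_left_slash (not_dvd_val ha') hγ,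
      wHat_mul_unit, ← hu, smul_smul]
    congr 1
    have hb : NZ N ![0, (a.val : ℤ)] := fun h => (not_dvd_val ha) (by simpa using h.2)
    apply gE_eq_of_modEq hb
    · simp
    · simp only [Fin.isValue, cons_val_one, cons_val_fin_one]
      rw [← ZMod.intCast_zmod_eq_zero_iff_dvd]
      push_cast
      rw [ZMod.natCast_zmod_val, ZMod.natCast_zmod_val, ← hu]
      have h1 : ((u⁻¹ : (ZMod N)ˣ) : ZMod N) * (u : ZMod N) = 1 := by
        rw [← Units.val_mul, inv_mul_cancel, Units.val_one]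
      linear_combination a * h1

end

end Fermat.Agent.DS48
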