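import Fermat.Agent.DS48.EIS1_lead_Chi

set_option autoImplicit false

/-!
# [EIS1] the `q`-expansion of `E₁^{1,χ}`.
-/

namespace Fermat.Agent.DS48

open UpperHalfPlane hiding I
open Complex Filter Asymptotics Matrix EisensteinSeries Finset ModularForm CongruenceSubgroup
open Fermat.Agent.RatStr ZMod
open scoped MatrixGroups Topology Real ModularForm Manifold

noncomputable section

/-- geometric series for the Lambert kernel -/
theorem hasSum_lam {x : ℂ} (hx : ‖x‖ < 1) : HasSum (fun m : ℕ+ => x ^ (m : ℕ)) (lam x) := by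
  have h := hasSum_geometric_of_norm_lt_one hx
  rw [hasSum_pnat_iff (f := fun n : ℕ => x ^ n)]
  have h1 : (1 : ℂ) - x ≠ 0 := by
    intro h0
    have : x = 1 := by linear_combination -h0
    rw [this] at hx; simp at hx
  have : lam x + x ^ 0 = (1 - x)⁻¹ := by
    unfold lam; field_simp; ring
  rw [this]; exact h

variable {N : ℕ} [NeZero N] (χ : DirichletCharacter ℂ N)

theorem norm_stdAddChar (a : ZMod N) : ‖(stdAddChar a : ℂ)‖ = 1 := by
  rw [stdAddChar_apply]; exact Circle.norm_coe _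

theorem hasSum_lam_stdAddChar (a : ZMod N) {x : ℂ} (hx : ‖x‖ < 1) :
    HasSum (fun m : ℕ+ => stdAddChar (a * ((m : ℕ) : ZMod N)) * x ^ (m : ℕ))
      (lam (stdAddChar a * x)) := by
  have hx' : ‖stdAddChar a * x‖ < 1 := by rw [norm_mul, norm_stdAddChar, one_mul]; exact hx
  refine (hasSum_lam hx').congr_fun ?_
  intro m
  rw [mul_pow, ← AddChar.map_nsmul_eq_pow, nsmul_eq_mul, mul_comm ((m : ℕ) : ZMod N) a]

/-- the Lambert series `Σ_{m ≥ 1} χ(m) x^m` -/
def lamChi (x : ℂ) : ℂ := ∑' m : ℕ+, χ ((m : ℕ) : ZMod N) * x ^ (m : ℕ)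

theorem hasSum_sum_wHat_lam {x : ℂ} (hx : ‖x‖ < 1) :
    HasSum (fun m : ℕ+ => χ ((m : ℕ) : ZMod N) * x ^ (m : ℕ))
      (∑ a : ZMod N, wHat χ a * lam (stdAddChar a * x)) := by
  have h : HasSum (fun m : ℕ+ => ∑ a : ZMod N,
      wHat χ a * (stdAddChar (a * ((m : ℕ) : ZMod N)) * x ^ (m : ℕ)))
      (∑ a : ZMod N, wHat χ a * lam (stdAddChar a * x)) :=
    hasSum_sum (fun a _ => (hasSum_lam_stdAddChar a hx).mul_left (wHat χ a))
  refine h.congr_fun ?_
  intro m
  rw [← sum_wHat_mul_stdAddChar χ ((m : ℕ) : ZMod N), Finset.sum_mul]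
  refine Finset.sum_congr rfl fun a _ => ?_
  ring

theorem summable_lamChi {x : ℂ} (hx : ‖x‖ < 1) :
    Summable (fun m : ℕ+ => χ ((m : ℕ) : ZMod N) * x ^ (m : ℕ)) :=
  (hasSum_sum_wHat_lam χ hx).summable

theorem sum_wHat_lam {x : ℂ} (hx : ‖x‖ < 1) :
    ∑ a : ZMod N, wHat χ a * lam (stdAddChar a * x) = lamChi χ x :=
  ((hasSum_sum_wHat_lam χ hx).tsum_eq).symm

theorem sum_wHat_lam_neg (hodd : χ (-1) = -1) {x : ℂ} (hx : ‖x‖ < 1) :
    ∑ a : ZMod N, wHat χ a * lam (stdAddChar (-a) * x) = - lamChi χ x := by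
  have h : HasSum (fun m : ℕ+ => ∑ a : ZMod N,
      wHat χ a * (stdAddChar (-a * ((m : ℕ) : ZMod N)) * x ^ (m : ℕ)))
      (∑ a : ZMod N, wHat χ a * lam (stdAddChar (-a) * x)) :=
    hasSum_sum (fun a _ => (hasSum_lam_stdAddChar (-a) hx).mul_left (wHat χ a))
  have h2 : HasSum (fun m : ℕ+ => -(χ ((m : ℕ) : ZMod N) * x ^ (m : ℕ)))
      (∑ a : ZMod N, wHat χ a * lam (stdAddChar (-a) * x)) := by
    refine h.congr_fun ?_
    intro m
    have e : χ (-((m : ℕ) : ZMod N)) = - χ ((m : ℕ) : ZMod N) := by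
      rw [← neg_one_mul, map_mul, hodd]; ring
    rw [← neg_mul, ← e, ← sum_wHat_mul_stdAddChar χ (-((m : ℕ) : ZMod N)), Finset.sum_mul]
    refine Finset.sum_congr rfl fun a _ => ?_
    rw [mul_neg, neg_mul]
    ring
  rw [h2.tsum_eq.symm, tsum_neg]
  rfl

theorem sum_wHat_lam_sub (hodd : χ (-1) = -1) {x : ℂ} (hx : ‖x‖ < 1) :
    ∑ a : ZMod N, wHat χ a * (lam (stdAddChar (-a) * x) - lam (stdAddChar a * x)) =
      -2 * lamChi χ x := by
  simp_rw [mul_sub, Finset.sum_sub_distrib]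
  rw [sum_wHat_lam_neg χ hodd hx, sum_wHat_lam χ hx]
  ring

omit [NeZero N] in
theorem ne_one_of_odd (hodd : χ (-1) = -1) : χ ≠ 1 := by
  intro h
  rw [h, MulChar.one_apply (isUnit_one.neg)] at hodd
  norm_num at hodd

theorem norm_qq_pow_lt_one (τ : ℍ) (n : ℕ) : ‖qq τ ^ (n + 1)‖ < 1 := by
  rw [norm_pow]
  exact pow_lt_one₀ (norm_nonneg _) (norm_qq_lt_one τ) (Nat.succ_ne_zero n)

/-- the Lambert expansion of `g^{(0,a)}` in terms of the standard additive character -/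
theorem gE_zero_left_eq {a : ZMod N} (ha : a ≠ 0) (τ : ℍ) :
    gE N ![0, (a.val : ℤ)] τ = π * cot (π * ((a.val : ℂ) / N)) +
      ∑' n : ℕ, 2 * π * I * (lam (stdAddChar (-a) * qq τ ^ (n + 1)) -
        lam (stdAddChar a * qq τ ^ (n + 1))) := by
  have hN : (0 : ℤ) < N := by exact_mod_cast Nat.pos_of_ne_zero (NeZero.ne N)
  have hb : NZ N ![0, (a.val : ℤ)] := fun h => (not_dvd_val ha) (by simpa using h.2)
  rw [gE_eq_gEC (by simp) (by simpa using hN) hb]
  unfold gEC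
  have hz : ∀ t : ℂ, zb N ![0, (a.val : ℤ)] t = (a.val : ℂ) / N := by
    intro t; unfold zb latPt; simp
  have he : cexp (2 * π * I * ((a.val : ℂ) / N)) = stdAddChar a := by
    have := stdAddChar_coe (N := N) (a.val : ℤ)
    rw [show ((a.val : ℤ) : ZMod N) = a by simp] at this
    rw [this]
    congr 1
    push_cast
    ring
  have he' : cexp (-(2 * π * I * ((a.val : ℂ) / N))) = stdAddChar (-a) := by
    rw [Complex.exp_neg, he, AddChar.map_neg_eq_inv]
  rw [hz]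
  simp only [Fin.isValue, cons_val_zero, Int.cast_zero, mul_zero, zero_div, add_zero]
  congr 1
  refine tsum_congr fun n => ?_
  unfold phiTermC
  rw [hz, he, he']
  rfl

theorem summable_lamTerm (a : ZMod N) (τ : ℍ) :
    Summable (fun n : ℕ => 2 * π * I * (lam (stdAddChar (-a) * qq τ ^ (n + 1)) -
        lam (stdAddChar a * qq τ ^ (n + 1)))) := by
  set ρ := ‖qq τ‖ with hρdef
  have hρ : ρ < 1 := norm_qq_lt_one τ
  have hρ0 : 0 ≤ ρ := norm_nonneg _
  have key : ∀ (c : ZMod N) (n : ℕ), ‖lam (stdAddChar c * qq τ ^ (n + 1))‖ ≤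
      ρ ^ (n + 1) / (1 - ρ) := by
    intro c n
    have h1 : ‖stdAddChar c * qq τ ^ (n + 1)‖ = ρ ^ (n + 1) := by
      rw [norm_mul, norm_stdAddChar, one_mul, norm_pow]
    have h2 : ρ ^ (n + 1) ≤ ρ := by
      calc ρ ^ (n + 1) = ρ ^ n * ρ := pow_succ _ _
        _ ≤ 1 * ρ := by gcongr; exact pow_le_one₀ hρ0 hρ.le
        _ = ρ := one_mul _
    have h3 : ‖stdAddChar c * qq τ ^ (n + 1)‖ < 1 := by rw [h1]; linarith
    refine (norm_lam_le h3).trans ?_
    rw [h1]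
    apply div_le_div_of_nonneg_left (by positivity) (by linarith) (by linarith)
  refine Summable.of_norm_bounded (g := fun n : ℕ => 4 * π / (1 - ρ) * ρ ^ (n + 1))
    (summable_bound _ hρ0 hρ) (fun n => ?_)
  rw [norm_mul]
  have hc : ‖(2 * π * I : ℂ)‖ = 2 * π := by simp [abs_of_pos Real.pi_pos]
  rw [hc]
  have := (norm_sub_le _ _).trans (add_le_add (key (-a) n) (key a n))
  calc 2 * π * ‖lam (stdAddChar (-a) * qq τ ^ (n + 1)) - lam (stdAddChar a * qq τ ^ (n + 1))‖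
      ≤ 2 * π * (ρ ^ (n + 1) / (1 - ρ) + ρ ^ (n + 1) / (1 - ρ)) := by
        have := Real.pi_pos
        gcongr
    _ = 4 * π / (1 - ρ) * ρ ^ (n + 1) := by ring

/-- the constant term of `eisRaw χ` -/
def eisConst : ℂ :=
  ∑ a : ZMod N, if a = 0 then 0 else wHat χ a * (π * cot (π * ((a.val : ℂ) / N)))

/-- **Lambert form of the Eisenstein series** -/
theorem eisRaw_eq (hodd : χ (-1) = -1) (τ : ℍ) :
    eisRaw χ τ = eisConst χ + ∑' n : ℕ, (-(4 * π * I)) * lamChi χ (qq τ ^ (n + 1)) := by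
  have hχ1 := ne_one_of_odd χ hodd
  have hw0 := wHat_zero χ hχ1
  unfold eisRaw eisConst
  rw [Finset.sum_apply]
  have hterm : ∀ a : ZMod N, eisTerm χ a τ =
      (if a = 0 then 0 else wHat χ a * (π * cot (π * ((a.val : ℂ) / N)))) +
      ∑' n : ℕ, wHat χ a * (2 * π * I * (lam (stdAddChar (-a) * qq τ ^ (n + 1)) -
        lam (stdAddChar a * qq τ ^ (n + 1)))) := by
    intro a
    unfold eisTerm
    by_cases ha : a = 0
    · subst ha
      simp [hw0]
    · rw [if_neg ha, if_neg ha, Pi.smul_apply, smul_eq_mul, gE_zero_left_eq ha, mul_add,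
        ← tsum_mul_left]
  simp_rw [hterm, Finset.sum_add_distrib]
  congr 1
  rw [← Summable.tsum_finsetSum (fun a _ => (summable_lamTerm a τ).mul_left _)]
  refine tsum_congr fun n => ?_
  have h := sum_wHat_lam_sub χ hodd (norm_qq_pow_lt_one τ n)
  have e : ∑ a : ZMod N, wHat χ a * (2 * π * I * (lam (stdAddChar (-a) * qq τ ^ (n + 1)) -
        lam (stdAddChar a * qq τ ^ (n + 1)))) = 2 * π * I *
      ∑ a : ZMod N, wHat χ a * (lam (stdAddChar (-a) * qq τ ^ (n + 1)) -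
        lam (stdAddChar a * qq τ ^ (n + 1))) := by
    rw [Finset.mul_sum]
    refine Finset.sum_congr rfl fun a _ => ?_
    ring
  rw [e, h]
  ring

end

end Fermat.Agent.DS48
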