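import Fermat.Agent.DS48.EIS1_lead_Lambert

set_option autoImplicit false

/-!
# [EIS1] the constant term of `E₁^{1,χ}`: `eisConst χ = 2πi·B₁(χ)`, `B₁(χ) = (1/N) Σ_{j<N} j χ(j)`.
-/

namespace Fermat.Agent.DS48

open UpperHalfPlane hiding I
open Complex Filter Finset ZMod
open scoped Topology Real

noncomputable section

/-- `(x - 1) Σ_{j<n} j x^j = n x^n - x Σ_{j<n} x^j` -/
theorem sub_one_mul_sum_id_mul_pow (x : ℂ) (n : ℕ) :
    (x - 1) * ∑ j ∈ range n, (j : ℂ) * x ^ j = n * x ^ n - x * ∑ j ∈ range n, x ^ j := by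
  induction n with
  | zero => simp
  | succ n ih =>
    rw [Finset.sum_range_succ, Finset.sum_range_succ, mul_add, ih]
    push_cast
    ring

theorem sum_id_mul_pow_of_root {x : ℂ} {n : ℕ} (hx : x ^ n = 1) (hx1 : x ≠ 1) :
    (x - 1) * ∑ j ∈ range n, (j : ℂ) * x ^ j = n := by
  rw [sub_one_mul_sum_id_mul_pow]
  have hg : ∑ j ∈ range n, x ^ j = 0 := by
    have h2 : (∑ j ∈ range n, x ^ j) * (x - 1) = 0 := by
      have := geom_sum_mul x n
      rw [this, hx, sub_self]
    rcases mul_eq_zero.mp h2 with h3 | h3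
    · exact h3
    · exact absurd (by linear_combination h3) hx1
  rw [hg, hx]; ring

theorem lam_of_root {x : ℂ} {n : ℕ} (hn : n ≠ 0) (hx : x ^ n = 1) (hx1 : x ≠ 1) :
    lam x = -1 - (∑ j ∈ range n, (j : ℂ) * x ^ j) / n := by
  have h := sum_id_mul_pow_of_root hx hx1
  have hn' : (n : ℂ) ≠ 0 := Nat.cast_ne_zero.mpr hn
  have h1 : (1 : ℂ) - x ≠ 0 := fun h0 => hx1 (by linear_combination -h0)
  unfold lam
  rw [div_eq_iff h1]
  field_simp
  linear_combination (-1 : ℂ) * h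

variable {N : ℕ} [NeZero N] (χ : DirichletCharacter ℂ N)

/-- the generalised Bernoulli number `B₁(χ) = (1/N) Σ_{j<N} j χ(j)` -/
def bernoulliOne : ℂ := (N : ℂ)⁻¹ * ∑ j ∈ range N, (j : ℂ) * χ (j : ZMod N)

theorem stdAddChar_pow_N (a : ZMod N) : (stdAddChar a : ℂ) ^ N = 1 := by
  rw [← AddChar.map_nsmul_eq_pow]
  have : N • a = 0 := by
    rw [nsmul_eq_mul]; simp
  rw [this, AddChar.map_zero_eq_one]

theorem stdAddChar_ne_one {a : ZMod N} (ha : a ≠ 0) : (stdAddChar a : ℂ) ≠ 1 := by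
  intro h
  apply ha
  have := injective_stdAddChar (N := N)
  apply this
  rw [h, AddChar.map_zero_eq_one]

theorem pi_cot_val {a : ZMod N} (ha : a ≠ 0) :
    π * cot (π * ((a.val : ℂ) / N)) =
      π * I + 2 * π * I * (N : ℂ)⁻¹ *
        ∑ j ∈ range N, (j : ℂ) * stdAddChar (a * (j : ZMod N)) := by
  have he : cexp (2 * π * I * ((a.val : ℂ) / N)) = stdAddChar a := by
    have := stdAddChar_coe (N := N) (a.val : ℤ)
    rw [show ((a.val : ℤ) : ZMod N) = a by simp] at this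
    rw [this]
    congr 1
    push_cast
    ring
  rw [pi_cot_eq _ (by rw [he]; exact stdAddChar_ne_one ha), he,
    lam_of_root (NeZero.ne N) (stdAddChar_pow_N a) (stdAddChar_ne_one ha)]
  have e : ∀ j : ℕ, (stdAddChar a : ℂ) ^ j = stdAddChar (a * (j : ZMod N)) := by
    intro j
    rw [← AddChar.map_nsmul_eq_pow, nsmul_eq_mul, mul_comm]
  simp_rw [e]
  ring

/-- **the constant term** -/
theorem eisConst_eq (hodd : χ (-1) = -1) : eisConst χ = 2 * π * I * bernoulliOne χ := by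
  have hχ1 := ne_one_of_odd χ hodd
  have hw0 := wHat_zero χ hχ1
  have hN1 : N ≠ 1 := by
    rintro rfl
    apply hχ1
    ext a
    have : (a : ZMod 1) = 1 := Subsingleton.elim _ _
    rw [this, map_one]
    simp
  have hχ0 : χ (0 : ZMod N) = 0 := by
    have : Nontrivial (ZMod N) := ZMod.nontrivial_iff.mpr hN1
    exact MulChar.map_zero χ
  unfold eisConst
  have h1 : ∀ a : ZMod N, (if a = 0 then 0 else wHat χ a * (π * cot (π * ((a.val : ℂ) / N)))) =
      wHat χ a * (π * I + 2 * π * I * (N : ℂ)⁻¹ *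
        ∑ j ∈ range N, (j : ℂ) * stdAddChar (a * (j : ZMod N))) := by
    intro a
    by_cases ha : a = 0
    · subst ha; simp [hw0]
    · rw [if_neg ha, pi_cot_val ha]
  simp_rw [h1, mul_add, Finset.sum_add_distrib]
  have h2 : ∑ a : ZMod N, wHat χ a * (π * I) = 0 := by
    rw [← Finset.sum_mul]
    have := sum_wHat_mul_stdAddChar χ 0
    simp only [mul_zero, AddChar.map_zero_eq_one, mul_one] at this
    rw [this, hχ0, zero_mul]
  rw [h2, zero_add]
  unfold bernoulliOne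
  have h3 : ∀ a : ZMod N, wHat χ a * (2 * π * I * (N : ℂ)⁻¹ *
      ∑ j ∈ range N, (j : ℂ) * stdAddChar (a * (j : ZMod N))) =
      2 * π * I * (N : ℂ)⁻¹ * ∑ j ∈ range N, (j : ℂ) * (wHat χ a * stdAddChar (a * (j : ZMod N))) := by
    intro a
    rw [Finset.mul_sum, Finset.mul_sum, Finset.mul_sum]
    refine Finset.sum_congr rfl fun j _ => ?_
    ring
  simp_rw [h3]
  rw [← Finset.mul_sum, Finset.sum_comm]
  simp_rw [← Finset.mul_sum, sum_wHat_mul_stdAddChar]
  ring

end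

end Fermat.Agent.DS48
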