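import Fermat.Agent.DS48.EIS1_lead_Hol

set_option autoImplicit false

/-!
# [EIS1] `g^b` is a modular form of weight one on `Γ(N)`; the family `g^{(0,a)}` on `Γ₁(N)`.
-/

namespace Fermat.Agent.DS48

open UpperHalfPlane hiding I
open Complex Filter Asymptotics Matrix EisensteinSeries Finset ModularForm CongruenceSubgroup
open Fermat.Agent.RatStr
open scoped MatrixGroups Topology Real ModularForm Manifold

noncomputable section

variable {N : ℕ} [NeZero N]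

theorem gE_eq_of_modEq {b b' : Fin 2 → ℤ} (hb : NZ N b) (h0 : (N : ℤ) ∣ b' 0 - b 0)
    (h1 : (N : ℤ) ∣ b' 1 - b 1) : gE N b' = gE N b := by
  obtain ⟨w0, hw0⟩ := h0
  obtain ⟨w1, hw1⟩ := h1
  have e : b' = b + (N : ℤ) • ![w0, w1] := by
    ext i; fin_cases i
    · simp only [Fin.zero_eta, Fin.isValue, Pi.add_apply, Pi.smul_apply, cons_val_zero,
        smul_eq_mul]
      linarith
    · simp only [Fin.mk_one, Fin.isValue, Pi.add_apply, Pi.smul_apply, cons_val_one,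
        cons_val_fin_one, smul_eq_mul]
      linarith
  funext τ
  rw [e, gE_add_smul τ hb]

omit [NeZero N] in
theorem NZ_of_modEq {b b' : Fin 2 → ℤ} (hb : NZ N b) (h0 : (N : ℤ) ∣ b' 0 - b 0)
    (h1 : (N : ℤ) ∣ b' 1 - b 1) : NZ N b' := by
  intro ⟨k0, k1⟩
  apply hb
  constructor
  · have := dvd_sub k0 h0
    simpa using this
  · have := dvd_sub k1 h1
    simpa using this

theorem exists_reduced {b : Fin 2 → ℤ} (hb : NZ N b) :
    ∃ b' : Fin 2 → ℤ, 0 ≤ b' 0 ∧ b' 0 < N ∧ NZ N b' ∧ gE N b' = gE N b := by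
  have hN : (0 : ℤ) < N := by exact_mod_cast Nat.pos_of_ne_zero (NeZero.ne N)
  refine ⟨![b 0 % N, b 1], ?_, ?_, ?_, ?_⟩
  · simpa using Int.emod_nonneg _ hN.ne'
  · simpa using Int.emod_lt_of_pos _ hN
  · apply NZ_of_modEq hb
    · simp only [Fin.isValue, cons_val_zero]
      exact ⟨-(b 0 / N), by rw [Int.emod_def]; ring⟩
    · simp
  · apply gE_eq_of_modEq hb
    · simp only [Fin.isValue, cons_val_zero]
      exact ⟨-(b 0 / N), by rw [Int.emod_def]; ring⟩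
    · simp

theorem mdifferentiable_gE {b : Fin 2 → ℤ} (hb : NZ N b) : MDiff (gE N b) := by
  obtain ⟨b', h0, h1, hb', e⟩ := exists_reduced hb
  rw [← e]
  exact mdifferentiable_gE_aux h0 h1 hb'

theorem isBoundedAtImInfty_gE {b : Fin 2 → ℤ} (hb : NZ N b) : IsBoundedAtImInfty (gE N b) := by
  obtain ⟨b', h0, h1, hb', e⟩ := exists_reduced hb
  rw [← e]
  exact isBoundedAtImInfty_gE_aux h0 h1 hb'

/-- `g^b` is invariant under `γ` as soon as `bγ ≡ b mod N` -/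
theorem gE_slash_of_modEq {b : Fin 2 → ℤ} (hb : NZ N b) (γ : SL(2, ℤ))
    (h0 : (N : ℤ) ∣ (vecMulEquiv γ b) 0 - b 0) (h1 : (N : ℤ) ∣ (vecMulEquiv γ b) 1 - b 1) :
    (gE N b) ∣[(1 : ℤ)] γ = gE N b := by
  rw [gE_slash, gE_eq_of_modEq hb h0 h1]

theorem isMF_gE_of_inv {b : Fin 2 → ℤ} (hb : NZ N b) (H : Subgroup SL(2, ℤ))
    (hH : ∀ γ ∈ H, (N : ℤ) ∣ (vecMulEquiv γ b) 0 - b 0 ∧ (N : ℤ) ∣ (vecMulEquiv γ b) 1 - b 1) :
    IsMF H 1 (gE N b) where
  holo := mdifferentiable_gE hb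
  inv γ hγ := gE_slash_of_modEq hb γ (hH γ hγ).1 (hH γ hγ).2
  bdd γ := by
    rw [gE_slash]
    exact isBoundedAtImInfty_gE (NZ_vecMulEquiv hb γ)

/-- the family `g^{(0,a)}`, `N ∤ a`, lives on `Γ₁(N)` -/
theorem isMF_gE_zero_left {a : ℤ} (ha : ¬ (N : ℤ) ∣ a) : IsMF (Gamma1 N) 1 (gE N ![0, a]) := by
  have hb : NZ N ![0, a] := fun h => ha (by simpa using h.2)
  refine isMF_gE_of_inv hb _ (fun γ hγ => ?_)
  rw [Gamma1_mem] at hγ
  obtain ⟨-, h11, h10⟩ := hγ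
  have d10 : (N : ℤ) ∣ γ 1 0 := (ZMod.intCast_zmod_eq_zero_iff_dvd _ _).mp h10
  have d11 : (N : ℤ) ∣ γ 1 1 - 1 := by
    have : ((γ 1 1 - 1 : ℤ) : ZMod N) = 0 := by push_cast; rw [h11]; ring
    exact (ZMod.intCast_zmod_eq_zero_iff_dvd _ _).mp this
  simp only [vecMulEquiv, Equiv.coe_fn_mk, Fin.isValue, cons_val_zero, cons_val_one, zero_mul,
    zero_add, sub_zero]
  refine ⟨Dvd.dvd.mul_left d10 a, ?_⟩
  have : a * γ 1 1 - a = a * (γ 1 1 - 1) := by ring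
  rw [this]
  exact Dvd.dvd.mul_left d11 a

/-- the action of `Γ₀(N)` on the family `g^{(0,a)}` -/
theorem gE_zero_left_slash {a : ℤ} (ha : ¬ (N : ℤ) ∣ a) {γ : SL(2, ℤ)} (hγ : γ ∈ Gamma0 N) :
    (gE N ![0, a]) ∣[(1 : ℤ)] γ = gE N ![0, a * γ 1 1] := by
  have hb : NZ N ![0, a] := fun h => ha (by simpa using h.2)
  rw [gE_slash]
  rw [Gamma0_mem] at hγ
  have d10 : (N : ℤ) ∣ γ 1 0 := (ZMod.intCast_zmod_eq_zero_iff_dvd _ _).mp hγ
  have hb' := NZ_vecMulEquiv hb γ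
  symm
  apply gE_eq_of_modEq hb'
  · simp only [vecMulEquiv, Equiv.coe_fn_mk, Fin.isValue, cons_val_zero, cons_val_one, zero_mul,
      zero_add, zero_sub]
    exact (Dvd.dvd.mul_left d10 a).neg_right
  · simp [vecMulEquiv]

end

end Fermat.Agent.DS48
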