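import Fermat.Agent.DS48.EIS1_lead_QExp
import Fermat.Agent.RatStr.Basic

set_option autoImplicit false

/-!
# [EIS1] the weight-one Eisenstein series `g^b(τ) = Φ((b₀τ+b₁)/N; τ) + 2πi b₀/N` of level `Γ(N)`:
well-definedness modulo `N` and the transformation law under `SL₂(ℤ)`.
-/

namespace Fermat.Agent.DS48

open UpperHalfPlane hiding I
open Complex Filter Asymptotics Matrix EisensteinSeries Finset ModularForm
open scoped MatrixGroups Topology Real ModularForm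

noncomputable section

theorem latPt_add (t : ℂ) (v w : Fin 2 → ℤ) : latPt t (v + w) = latPt t v + latPt t w := by
  unfold latPt; simp; ring

theorem latPt_sub (t : ℂ) (v w : Fin 2 → ℤ) : latPt t (v - w) = latPt t v - latPt t w := by
  unfold latPt; simp; ring

theorem latPt_smul_int (t : ℂ) (n : ℤ) (v : Fin 2 → ℤ) : latPt t (n • v) = n * latPt t v := by
  unfold latPt; simp; ring

theorem latPt_injective (τ : ℍ) {v w : Fin 2 → ℤ} (h : latPt τ v = latPt τ w) : v = w := by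
  by_contra hne
  have h1 : v - w ≠ 0 := sub_ne_zero.mpr hne
  have := latPt_ne_zero τ h1
  rw [latPt_sub, h, sub_self] at this
  exact this rfl

variable (τ : ℍ)

theorem phiE_add_int {z : ℂ} (hz : ∀ v : Fin 2 → ℤ, z ≠ latPt τ v) (n : ℤ) :
    phiE τ (z + n) = phiE τ z := by
  have key : ∀ n : ℤ, ∀ z : ℂ, (∀ v : Fin 2 → ℤ, z ≠ latPt τ v) → phiE τ (z + n) = phiE τ z := by
    intro n
    induction n using Int.induction_on with
    | zero => intro z _; simp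
    | succ n ih =>
      intro z hz
      have h1 : ∀ v : Fin 2 → ℤ, z + (((n : ℕ) : ℤ) : ℂ) ≠ latPt τ v := by
        have := not_lat_add τ hz ![0, (n : ℤ)]
        simpa [latPt] using this
      have e : z + ((((n : ℕ) : ℤ) + 1 : ℤ) : ℂ) = z + (((n : ℕ) : ℤ) : ℂ) + 1 := by
        push_cast; ring
      rw [e, phiE_add_one τ _ h1, ih z hz]
    | pred n ih =>
      intro z hz
      have h1 : ∀ v : Fin 2 → ℤ, z + ((-(n : ℤ) - 1 : ℤ) : ℂ) ≠ latPt τ v := by
        have := not_lat_add τ hz ![0, (-(n : ℤ) - 1 : ℤ)]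
        simpa [latPt] using this
      have := phiE_add_one τ _ h1
      rw [← this, ← ih z hz]
      congr 1; push_cast; ring
  exact key n z hz

theorem phiE_add_int_mul_tau {z : ℂ} (hz : ∀ v : Fin 2 → ℤ, z ≠ latPt τ v) (m : ℤ) :
    phiE τ (z + m * τ) = phiE τ z - 2 * π * I * m := by
  have key : ∀ m : ℤ, ∀ z : ℂ, (∀ v : Fin 2 → ℤ, z ≠ latPt τ v) →
      phiE τ (z + m * τ) = phiE τ z - 2 * π * I * m := by
    intro m
    induction m using Int.induction_on with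
    | zero => intro z _; simp
    | succ m ih =>
      intro z hz
      have h1 : ∀ v : Fin 2 → ℤ, z + (((m : ℕ) : ℤ) : ℂ) * τ ≠ latPt τ v := by
        have := not_lat_add τ hz ![(m : ℤ), 0]
        simpa [latPt] using this
      have e : z + ((((m : ℕ) : ℤ) + 1 : ℤ) : ℂ) * (τ : ℂ) = z + (((m : ℕ) : ℤ) : ℂ) * τ + τ := by
        push_cast; ring
      rw [e, phiE_add_tau τ _ h1, ih z hz]
      push_cast; ring
    | pred m ih =>
      intro z hz
      have h1 : ∀ v : Fin 2 → ℤ, z + ((-(m : ℤ) - 1 : ℤ) : ℂ) * τ ≠ latPt τ v := by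
        have := not_lat_add τ hz ![(-(m : ℤ) - 1 : ℤ), 0]
        simpa [latPt] using this
      have := phiE_add_tau τ _ h1
      have e : z + ((-(m : ℤ) - 1 : ℤ) : ℂ) * (τ : ℂ) + τ = z + ((-(m : ℤ) : ℤ) : ℂ) * τ := by
        push_cast; ring
      rw [e, ih z hz] at this
      rw [eq_sub_iff_add_eq] at this ⊢
      rw [← this]
      push_cast; ring
  exact key m z hz

theorem phiE_add_latPt {z : ℂ} (hz : ∀ v : Fin 2 → ℤ, z ≠ latPt τ v) (w : Fin 2 → ℤ) :
    phiE τ (z + latPt τ w) = phiE τ z - 2 * π * I * w 0 := by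
  unfold latPt
  have h1 : ∀ v : Fin 2 → ℤ, z + (w 0 : ℂ) * τ ≠ latPt τ v := by
    have := not_lat_add τ hz ![w 0, 0]
    simpa [latPt] using this
  rw [← add_assoc, phiE_add_int τ h1, phiE_add_int_mul_tau τ hz]

theorem G2_smul (γ : SL(2, ℤ)) :
    G2 (γ • τ) = denom γ τ ^ 2 * G2 τ - 2 * π * I * (γ 1 0 : ℤ) * denom γ τ := by
  have h := congrFun (G2_slash_action γ) τ
  rw [SL_slash_apply] at h
  simp only [Pi.sub_apply, D2] at h
  have hd : denom γ τ ≠ 0 := denom_ne_zero γ τ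
  rw [show (-(2 : ℤ)) = -2 by rfl, _root_.zpow_neg, zpow_ofNat] at h
  field_simp at h
  linear_combination h

theorem phiE_smul (γ : SL(2, ℤ)) (z : ℂ) :
    phiE (γ • τ) (z / denom γ τ) = denom γ τ * phiE τ z + 2 * π * I * (γ 1 0 : ℤ) * z := by
  unfold phiE
  have hd : denom γ τ ≠ 0 := denom_ne_zero γ τ
  rw [weierZ_smul, G2_smul]
  field_simp
  ring

variable (N : ℕ) [NeZero N]

/-- the `N`-torsion point `(b₀ t + b₁)/N` -/
def zb (b : Fin 2 → ℤ) (t : ℂ) : ℂ := latPt t b / N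

/-- `b ≢ 0 mod N` -/
def NZ (b : Fin 2 → ℤ) : Prop := ¬ ((N : ℤ) ∣ b 0 ∧ (N : ℤ) ∣ b 1)

/-- the weight one Eisenstein series attached to `b ∈ (ℤ/N)² ∖ 0` -/
def gE (b : Fin 2 → ℤ) (τ : ℍ) : ℂ := phiE τ (zb N b τ) + 2 * π * I * b 0 / N

variable {N}

theorem zb_ne_latPt {b : Fin 2 → ℤ} (hb : NZ N b) (v : Fin 2 → ℤ) : zb N b τ ≠ latPt τ v := by
  intro h
  apply hb
  have hN : (N : ℂ) ≠ 0 := Nat.cast_ne_zero.mpr (NeZero.ne N)
  unfold zb at h
  rw [div_eq_iff hN] at h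
  have h2 : latPt τ b = latPt τ ((N : ℤ) • v) := by
    rw [latPt_smul_int, h]; push_cast; ring
  have := latPt_injective τ h2
  rw [this]
  exact ⟨⟨v 0, by simp⟩, ⟨v 1, by simp⟩⟩

omit [NeZero N] in
theorem NZ_add_smul {b : Fin 2 → ℤ} (hb : NZ N b) (w : Fin 2 → ℤ) : NZ N (b + (N : ℤ) • w) := by
  intro ⟨h0, h1⟩
  apply hb
  constructor
  · have : (N : ℤ) ∣ (N : ℤ) * w 0 := dvd_mul_right _ _
    simpa using (Int.dvd_add_left this).mp (by simpa using h0)
  · have : (N : ℤ) ∣ (N : ℤ) * w 1 := dvd_mul_right _ _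
    simpa using (Int.dvd_add_left this).mp (by simpa using h1)

/-- `g^b` only depends on `b mod N` -/
theorem gE_add_smul {b : Fin 2 → ℤ} (hb : NZ N b) (w : Fin 2 → ℤ) :
    gE N (b + (N : ℤ) • w) τ = gE N b τ := by
  have hN : (N : ℂ) ≠ 0 := Nat.cast_ne_zero.mpr (NeZero.ne N)
  unfold gE
  have e : zb N (b + (N : ℤ) • w) τ = zb N b τ + latPt τ w := by
    unfold zb
    rw [latPt_add, latPt_smul_int]
    push_cast
    field_simp
  rw [e, phiE_add_latPt τ (zb_ne_latPt τ hb)]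
  simp only [Pi.add_apply, Pi.smul_apply, smul_eq_mul]
  push_cast
  field_simp
  ring

omit [NeZero N] in
theorem NZ_vecMulEquiv {b : Fin 2 → ℤ} (hb : NZ N b) (γ : SL(2, ℤ)) : NZ N (vecMulEquiv γ b) := by
  intro ⟨h0, h1⟩
  apply hb
  have hdet := SL2_det_eq γ
  simp only [vecMulEquiv, Equiv.coe_fn_mk, Fin.isValue, cons_val_zero, cons_val_one] at h0 h1
  constructor
  · have : b 0 = (b 0 * γ 0 0 + b 1 * γ 1 0) * γ 1 1 - (b 0 * γ 0 1 + b 1 * γ 1 1) * γ 1 0 := by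
      linear_combination (-(b 0)) * hdet
    rw [this]
    exact dvd_sub (Dvd.dvd.mul_right h0 _) (Dvd.dvd.mul_right h1 _)
  · have : b 1 = (b 0 * γ 0 1 + b 1 * γ 1 1) * γ 0 0 - (b 0 * γ 0 0 + b 1 * γ 1 0) * γ 0 1 := by
      linear_combination (-(b 1)) * hdet
    rw [this]
    exact dvd_sub (Dvd.dvd.mul_right h1 _) (Dvd.dvd.mul_right h0 _)

/-- **the transformation law**: `g^b(γτ) = (cτ+d) g^{bγ}(τ)` -/
theorem gE_smul (b : Fin 2 → ℤ) (γ : SL(2, ℤ)) :
    gE N b (γ • τ) = denom γ τ * gE N (vecMulEquiv γ b) τ := by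
  have hN : (N : ℂ) ≠ 0 := Nat.cast_ne_zero.mpr (NeZero.ne N)
  have hd : denom γ τ ≠ 0 := denom_ne_zero γ τ
  unfold gE
  have e : zb N b ((γ • τ : ℍ) : ℂ) = zb N (vecMulEquiv γ b) τ / denom γ τ := by
    unfold zb
    rw [latPt_smul]
    field_simp
  rw [e, phiE_smul]
  have hdet := SL2_det_eq γ
  have hden : denom γ τ = (γ 1 0 : ℤ) * (τ : ℂ) + (γ 1 1 : ℤ) := by
    simp [denom]
  simp only [zb, latPt, vecMulEquiv, Equiv.coe_fn_mk, Fin.isValue, cons_val_zero, cons_val_one]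
  rw [hden]
  push_cast
  field_simp
  have hdet' : ((γ 0 0 : ℤ) : ℂ) * (γ 1 1 : ℤ) - (γ 0 1 : ℤ) * (γ 1 0 : ℤ) = 1 := by
    exact_mod_cast hdet
  linear_combination (-(2 * (π : ℂ) * I * (b 0 : ℂ))) * hdet'

theorem gE_slash (b : Fin 2 → ℤ) (γ : SL(2, ℤ)) :
    (gE N b) ∣[(1 : ℤ)] γ = gE N (vecMulEquiv γ b) := by
  funext τ
  rw [SL_slash_apply, gE_smul]
  have hd : denom γ τ ≠ 0 := denom_ne_zero γ τ
  rw [show (-(1 : ℤ)) = -1 by rfl, _root_.zpow_neg, zpow_one]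
  field_simp

end

end Fermat.Agent.DS48
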