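import Fermat.Agent.DS48.EIS1_lead_GE

set_option autoImplicit false

/-!
# [EIS1] holomorphy and boundedness at `i∞` of the Eisenstein series `g^b`; `g^b` is a modular
form of weight one on `Γ(N)`.
-/

namespace Fermat.Agent.DS48

open UpperHalfPlane hiding I
open Complex Filter Asymptotics Matrix EisensteinSeries Finset ModularForm
open scoped MatrixGroups Topology Real ModularForm Manifold

noncomputable section

theorem differentiableAt_lam {x : ℂ} (hx : x ≠ 1) : DifferentiableAt ℂ lam x := by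
  unfold lam
  apply DifferentiableAt.div differentiableAt_id (differentiableAt_const _ |>.sub differentiableAt_id)
  intro h
  exact hx (by linear_combination -h)

variable (N : ℕ) [NeZero N] (b : Fin 2 → ℤ)

/-- complex-variable version of the Lambert term of `g^b` -/
def phiTermC (n : ℕ) (t : ℂ) : ℂ :=
  2 * π * I * (lam (cexp (-(2 * π * I * zb N b t)) * cexp (2 * π * I * t) ^ (n + 1)) -
    lam (cexp (2 * π * I * zb N b t) * cexp (2 * π * I * t) ^ (n + 1)))

omit [NeZero N] in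
theorem phiTerm_eq_phiTermC (τ : ℍ) (n : ℕ) : phiTerm τ (zb N b τ) n = phiTermC N b n τ := rfl

/-- complex-variable version of `g^b` -/
def gEC (t : ℂ) : ℂ :=
  π * cot (π * zb N b t) + 2 * π * I * b 0 / N + ∑' n, phiTermC N b n t

omit [NeZero N] in
theorem im_zb (t : ℂ) : (zb N b t).im = (b 0 : ℝ) * t.im / N := by
  unfold zb latPt
  have : ((N : ℂ)) = ((N : ℝ) : ℂ) := by push_cast; rfl
  rw [this, Complex.div_ofReal_im]
  simp

variable {N} {b}

omit [NeZero N] in
theorem zb_im_nonneg (h0 : 0 ≤ b 0) {t : ℂ} (ht : 0 < t.im) : 0 ≤ (zb N b t).im := by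
  rw [im_zb N b]
  have : (0 : ℝ) ≤ (b 0 : ℝ) := by exact_mod_cast h0
  positivity

theorem sub_zb_im_ge (h1 : b 0 < N) {t : ℂ} (ht : 0 < t.im) :
    t.im / N ≤ t.im - (zb N b t).im := by
  rw [im_zb N b]
  have hN : (0 : ℝ) < N := by exact_mod_cast Nat.pos_of_ne_zero (NeZero.ne N)
  have hb : (b 0 : ℝ) ≤ (N : ℝ) - 1 := by
    have : b 0 ≤ (N : ℤ) - 1 := by omega
    exact_mod_cast this
  rw [div_le_iff₀ hN]
  have : (b 0 : ℝ) * t.im / N * N = (b 0 : ℝ) * t.im := by field_simp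
  nlinarith

theorem zb_im_lt (h1 : b 0 < N) {t : ℂ} (ht : 0 < t.im) : (zb N b t).im < t.im := by
  have := sub_zb_im_ge (N := N) h1 ht
  have hN : (0 : ℝ) < N := by exact_mod_cast Nat.pos_of_ne_zero (NeZero.ne N)
  have : 0 < t.im / N := by positivity
  linarith

theorem zb_mem_integerComplement (hb : NZ N b) {t : ℂ} (ht : 0 < t.im) :
    zb N b t ∈ integerComplement := by
  rw [mem_integerComplement_iff]
  rintro ⟨n, hn⟩
  apply zb_ne_latPt ⟨t, ht⟩ hb ![0, n]
  simp [latPt, hn]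

/-- the uniform bound on the Lambert terms on `Im t ≥ δ` -/
theorem norm_phiTermC_le (h0 : 0 ≤ b 0) (h1 : b 0 < N) {δ : ℝ} (hδ : 0 < δ) {t : ℂ}
    (ht : δ ≤ t.im) (n : ℕ) :
    ‖phiTermC N b n t‖ ≤ 4 * π / (1 - Real.exp (-(2 * π * δ / N))) *
      Real.exp (-(2 * π * δ / N)) ^ (n + 1) := by
  have htpos : 0 < t.im := lt_of_lt_of_le hδ ht
  set τ : ℍ := ⟨t, htpos⟩
  have hN : (0 : ℝ) < N := by exact_mod_cast Nat.pos_of_ne_zero (NeZero.ne N)
  have hN1 : (1 : ℝ) ≤ N := by exact_mod_cast Nat.pos_of_ne_zero (NeZero.ne N)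
  have hπ := Real.pi_pos
  have hρ : Real.exp (-(2 * π * δ / N)) < 1 := by
    rw [Real.exp_lt_one_iff]
    have : 0 < 2 * π * δ / N := by positivity
    linarith
  have hz0 := zb_im_nonneg (N := N) h0 htpos
  have hge := sub_zb_im_ge (N := N) h1 htpos
  have hδN : δ / N ≤ t.im / N := by gcongr
  have hX : ∀ n : ℕ, ‖cexp (-(2 * π * I * zb N b t)) * qq τ ^ (n + 1)‖ ≤
      Real.exp (-(2 * π * δ / N)) ^ (n + 1) := by
    intro n
    refine (X_le_rho τ (zb N b t) hz0 n).trans ?_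
    apply pow_le_pow_left₀ (Real.exp_pos _).le
    rw [Real.exp_le_exp]
    have : δ / N ≤ τ.im - (zb N b t).im := hδN.trans hge
    have e : 2 * π * δ / N = 2 * π * (δ / N) := by ring
    rw [e]
    nlinarith
  have hY : ∀ n : ℕ, ‖cexp (2 * π * I * zb N b t) * qq τ ^ (n + 1)‖ ≤
      Real.exp (-(2 * π * δ / N)) ^ (n + 1) := by
    intro n
    refine (Y_le_rho τ (zb N b t) hz0 n).trans ?_
    apply pow_le_pow_left₀ (Real.exp_pos _).le
    rw [Real.exp_le_exp]
    have h3 : δ / N ≤ δ := div_le_self hδ.le hN1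
    have h4 : δ ≤ τ.im := ht
    have e : 2 * π * δ / N = 2 * π * (δ / N) := by ring
    rw [e]
    nlinarith
  exact norm_phiTerm_le τ (zb N b t) hρ hX hY n

theorem summable_bound {ρ : ℝ} (C : ℝ) (hρ0 : 0 ≤ ρ) (hρ : ρ < 1) :
    Summable (fun n : ℕ => C * ρ ^ (n + 1)) :=
  ((summable_nat_add_iff 1).mpr (summable_geometric_of_lt_one hρ0 hρ)).mul_left C

theorem gE_eq_gEC (h0 : 0 ≤ b 0) (h1 : b 0 < N) (hb : NZ N b) (τ : ℍ) :
    gE N b τ = gEC N b τ := by
  have hs := hasSum_phiTerm τ (zb N b τ) (zb_im_nonneg (N := N) h0 τ.im_pos)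
    (zb_im_lt (N := N) h1 τ.im_pos) (zb_mem_integerComplement hb τ.im_pos)
  unfold gE gEC
  have := hs.tsum_eq
  simp_rw [phiTerm_eq_phiTermC] at this
  rw [this]
  ring

theorem differentiableAt_phiTermC (h0 : 0 ≤ b 0) (h1 : b 0 < N) (n : ℕ) {t : ℂ} (ht : 0 < t.im) :
    DifferentiableAt ℂ (phiTermC N b n) t := by
  set τ : ℍ := ⟨t, ht⟩
  have hz0 := zb_im_nonneg (N := N) h0 ht
  have hz1 := zb_im_lt (N := N) h1 ht
  have hX := norm_X_lt_one τ (zb N b t) hz1 n
  have hY := norm_Y_lt_one τ (zb N b t) hz0 n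
  have hzd : DifferentiableAt ℂ (fun t : ℂ => zb N b t) t := by
    unfold zb latPt
    fun_prop
  unfold phiTermC
  apply DifferentiableAt.const_mul
  apply DifferentiableAt.sub
  · have hf : DifferentiableAt ℂ
        (fun t : ℂ => cexp (-(2 * π * I * zb N b t)) * cexp (2 * π * I * t) ^ (n + 1)) t := by
      fun_prop
    refine (differentiableAt_lam ?_).comp t hf
    intro h
    have : ‖cexp (-(2 * π * I * zb N b t)) * qq τ ^ (n + 1)‖ = 1 := by
      show ‖cexp (-(2 * π * I * zb N b t)) * cexp (2 * π * I * t) ^ (n + 1)‖ = 1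
      rw [h, norm_one]
    linarith
  · have hf : DifferentiableAt ℂ
        (fun t : ℂ => cexp (2 * π * I * zb N b t) * cexp (2 * π * I * t) ^ (n + 1)) t := by
      fun_prop
    refine (differentiableAt_lam ?_).comp t hf
    intro h
    have : ‖cexp (2 * π * I * zb N b t) * qq τ ^ (n + 1)‖ = 1 := by
      show ‖cexp (2 * π * I * zb N b t) * cexp (2 * π * I * t) ^ (n + 1)‖ = 1
      rw [h, norm_one]
    linarith

theorem differentiableOn_gEC (h0 : 0 ≤ b 0) (h1 : b 0 < N) (hb : NZ N b) :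
    DifferentiableOn ℂ (gEC N b) {t : ℂ | 0 < t.im} := by
  intro t₀ ht₀
  apply DifferentiableAt.differentiableWithinAt
  have ht₀' : 0 < t₀.im := ht₀
  unfold gEC
  apply DifferentiableAt.add
  · apply DifferentiableAt.add
    · have hzd : DifferentiableAt ℂ (fun t : ℂ => (π : ℂ) * zb N b t) t₀ := by
        unfold zb latPt
        fun_prop
      have hsin : Complex.sin (π * zb N b t₀) ≠ 0 :=
        sin_pi_mul_ne_zero (zb_mem_integerComplement hb ht₀')
      have : (fun t : ℂ => (π : ℂ) * cot (π * zb N b t)) =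
          fun t : ℂ => (π : ℂ) * (Complex.cos (π * zb N b t) / Complex.sin (π * zb N b t)) := by
        funext t; rw [Complex.cot_eq_cos_div_sin]
      rw [this]
      apply DifferentiableAt.const_mul
      exact (Complex.differentiableAt_cos.comp t₀ hzd).div
        (Complex.differentiableAt_sin.comp t₀ hzd) hsin
    · exact differentiableAt_const _
  · -- the Lambert series, on the neighbourhood `Im t > Im t₀ / 2`
    set δ := t₀.im / 2 with hδdef
    have hδ : 0 < δ := by positivity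
    have hN : (0 : ℝ) < N := by exact_mod_cast Nat.pos_of_ne_zero (NeZero.ne N)
    have hπ := Real.pi_pos
    set ρ := Real.exp (-(2 * π * δ / N)) with hρdef
    have hρ : ρ < 1 := by
      rw [hρdef, Real.exp_lt_one_iff]
      have : 0 < 2 * π * δ / N := by positivity
      linarith
    have hU : IsOpen {t : ℂ | δ < t.im} := isOpen_lt continuous_const Complex.continuous_im
    have hdiff := differentiableOn_tsum_of_summable_norm
      (u := fun n : ℕ => 4 * π / (1 - ρ) * ρ ^ (n + 1)) (F := fun n t => phiTermC N b n t)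
      (summable_bound _ (Real.exp_pos _).le hρ)
      (fun n t ht => (differentiableAt_phiTermC (N := N) h0 h1 n
        (lt_trans hδ ht)).differentiableWithinAt) hU
      (fun n t ht => norm_phiTermC_le (N := N) h0 h1 hδ (le_of_lt ht) n)
    have hmem : t₀ ∈ {t : ℂ | δ < t.im} := by
      show δ < t₀.im
      rw [hδdef]; linarith
    exact hdiff.differentiableAt (hU.mem_nhds hmem)

theorem mdifferentiable_gE_aux (h0 : 0 ≤ b 0) (h1 : b 0 < N) (hb : NZ N b) : MDiff (gE N b) := by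
  rw [UpperHalfPlane.mdifferentiable_iff]
  refine (differentiableOn_gEC (N := N) h0 h1 hb).congr ?_
  intro t ht
  have ht' : 0 < t.im := ht
  simp only [Function.comp_apply, ofComplex_apply_of_im_pos ht']
  exact gE_eq_gEC h0 h1 hb _

theorem isBoundedAtImInfty_gE_aux (h0 : 0 ≤ b 0) (h1 : b 0 < N) (hb : NZ N b) :
    IsBoundedAtImInfty (gE N b) := by
  have hN : (0 : ℝ) < N := by exact_mod_cast Nat.pos_of_ne_zero (NeZero.ne N)
  have hπ := Real.pi_pos
  set ρ := Real.exp (-(2 * π * 1 / N)) with hρdef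
  have hρ0 : 0 ≤ ρ := (Real.exp_pos _).le
  have hρ : ρ < 1 := by
    rw [hρdef, Real.exp_lt_one_iff]
    have : 0 < 2 * π * 1 / N := by positivity
    linarith
  rw [isBoundedAtImInfty_iff]
  refine ⟨(‖(π : ℂ) * cot (π * ((b 1 : ℂ) / N))‖ + (π + 2 * π * (ρ / (1 - ρ)))) +
    ‖2 * π * I * b 0 / N‖ + ∑' n : ℕ, 4 * π / (1 - ρ) * ρ ^ (n + 1), 1, fun τ hτ => ?_⟩
  rw [gE_eq_gEC h0 h1 hb]
  unfold gEC
  have hsum : ‖∑' n, phiTermC N b n (τ : ℂ)‖ ≤ ∑' n : ℕ, 4 * π / (1 - ρ) * ρ ^ (n + 1) :=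
    tsum_of_norm_bounded (summable_bound _ hρ0 hρ).hasSum
      (fun n => norm_phiTermC_le (N := N) h0 h1 one_pos hτ n)
  have hcot : ‖(π : ℂ) * cot (π * zb N b τ)‖ ≤
      ‖(π : ℂ) * cot (π * ((b 1 : ℂ) / N))‖ + (π + 2 * π * (ρ / (1 - ρ))) := by
    by_cases hb0 : b 0 = 0
    · have : zb N b (τ : ℂ) = (b 1 : ℂ) / N := by
        unfold zb latPt; rw [hb0]; simp
      rw [this]
      have : 0 ≤ π + 2 * π * (ρ / (1 - ρ)) := by
        have : 0 ≤ ρ / (1 - ρ) := div_nonneg hρ0 (by linarith)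
        positivity
      linarith
    · have hb1 : 1 ≤ b 0 := by omega
      have hb1' : (1 : ℝ) ≤ (b 0 : ℝ) := by exact_mod_cast hb1
      have him : 1 / (N : ℝ) ≤ (zb N b (τ : ℂ)).im := by
        rw [im_zb N b]
        have : (1 : ℝ) ≤ (b 0 : ℝ) * (τ : ℂ).im := by
          have : (1 : ℝ) ≤ (τ : ℂ).im := hτ
          nlinarith
        gcongr
      have hnorm : ‖cexp (2 * π * I * zb N b τ)‖ ≤ ρ := by
        rw [norm_exp_two_pi_I_mul, hρdef, Real.exp_le_exp]
        have e : 2 * π * 1 / N = 2 * π * (1 / N) := by ring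
        rw [e]
        nlinarith
      have hne : cexp (2 * π * I * zb N b τ) ≠ 1 := by
        intro h
        rw [h, norm_one] at hnorm
        linarith
      rw [pi_cot_eq _ hne]
      have hl : ‖lam (cexp (2 * π * I * zb N b τ))‖ ≤ ρ / (1 - ρ) := by
        refine (norm_lam_le (lt_of_le_of_lt hnorm hρ)).trans ?_
        have : 1 - ρ ≤ 1 - ‖cexp (2 * π * I * zb N b τ)‖ := by linarith
        calc _ ≤ ‖cexp (2 * π * I * zb N b τ)‖ / (1 - ρ) :=
              div_le_div_of_nonneg_left (norm_nonneg _) (by linarith) this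
          _ ≤ ρ / (1 - ρ) := by gcongr
      have h2 : ‖-(π * I : ℂ) - 2 * π * I * lam (cexp (2 * π * I * zb N b τ))‖ ≤
          π + 2 * π * (ρ / (1 - ρ)) := by
        refine (norm_sub_le _ _).trans ?_
        have e1 : ‖-(π * I : ℂ)‖ = π := by simp [abs_of_pos hπ]
        have e2 : ‖(2 * π * I : ℂ)‖ = 2 * π := by simp [abs_of_pos hπ]
        rw [e1, norm_mul, e2]
        gcongr
      have : 0 ≤ ‖(π : ℂ) * cot (π * ((b 1 : ℂ) / N))‖ := norm_nonneg _
      linarith
  calc ‖π * cot (π * zb N b τ) + 2 * π * I * b 0 / N + ∑' n, phiTermC N b n (τ : ℂ)‖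
      ≤ ‖π * cot (π * zb N b τ) + 2 * π * I * b 0 / N‖ + ‖∑' n, phiTermC N b n (τ : ℂ)‖ :=
        norm_add_le _ _
    _ ≤ (‖(π : ℂ) * cot (π * zb N b τ)‖ + ‖2 * π * I * b 0 / N‖) + ‖∑' n, phiTermC N b n (τ : ℂ)‖ := by
        gcongr; exact norm_add_le _ _
    _ ≤ _ := by linarith

end

end Fermat.Agent.DS48
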