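import Fermat.Agent.DS48.EIS1_lead_ChiQ

set_option autoImplicit false

/-!
# [EIS1] from the Lambert series `Σ_n Σ_m χ(m) q^{nm}` to the power series
`Σ_k (Σ_{d ∣ k} χ(d)) q^k`.
-/

namespace Fermat.Agent.DS48

open Complex Filter Finset
open scoped Topology

noncomputable section

variable {N : ℕ} (χ : DirichletCharacter ℂ N)

/-- the divisor sum `Σ_{d ∣ k} χ(d)` -/
def sigmaChi (k : ℕ) : ℂ := ∑ d ∈ k.divisors, χ (d : ZMod N)

@[simp] theorem sigmaChi_zero : sigmaChi χ 0 = 0 := by simp [sigmaChi]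

@[simp] theorem sigmaChi_one : sigmaChi χ 1 = 1 := by simp [sigmaChi]

theorem norm_chi_le_one (a : ZMod N) : ‖χ a‖ ≤ 1 := DirichletCharacter.norm_le_one χ a

theorem summable_chi_mul_pow {q : ℂ} (hq : ‖q‖ < 1) :
    Summable (fun c : ℕ+ × ℕ+ => χ ((c.2 : ℕ) : ZMod N) * q ^ ((c.1 : ℕ) * (c.2 : ℕ))) := by
  have hr : ‖(‖q‖ : ℝ)‖ < 1 := by simpa using hq
  have h := summable_prod_mul_pow (𝕜 := ℝ) 0 hr
  refine Summable.of_norm_bounded (g := fun c : ℕ+ × ℕ+ => ‖q‖ ^ ((c.1 : ℕ) * (c.2 : ℕ))) ?_ ?_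
  · simpa using h
  · intro c
    rw [norm_mul, norm_pow]
    calc ‖χ ((c.2 : ℕ) : ZMod N)‖ * ‖q‖ ^ ((c.1 : ℕ) * (c.2 : ℕ))
        ≤ 1 * ‖q‖ ^ ((c.1 : ℕ) * (c.2 : ℕ)) := by
          gcongr; exact norm_chi_le_one χ _
      _ = _ := one_mul _

/-- **Lambert series to power series** -/
theorem hasSum_sigmaChi {q : ℂ} (hq : ‖q‖ < 1) :
    HasSum (fun k : ℕ => sigmaChi χ k * q ^ k) (∑' n : ℕ, lamChi χ (q ^ (n + 1))) := by
  have hs := summable_chi_mul_pow χ hq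
  -- the double sum, summed by rows
  have hrows : ∑' c : ℕ+ × ℕ+, χ ((c.2 : ℕ) : ZMod N) * q ^ ((c.1 : ℕ) * (c.2 : ℕ)) =
      ∑' n : ℕ, lamChi χ (q ^ (n + 1)) := by
    rw [hs.tsum_prod]
    rw [← tsum_pnat_eq_tsum_succ (f := fun n : ℕ => lamChi χ (q ^ n))]
    refine tsum_congr fun n => ?_
    unfold lamChi
    refine tsum_congr fun m => ?_
    rw [pow_mul]
  -- the double sum, summed along the fibres of the product
  have h1 : HasSum (fun x : (Σ n : ℕ+, Nat.divisorsAntidiagonal n) =>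
      χ (((sigmaAntidiagonalEquivProd x).2 : ℕ) : ZMod N) *
        q ^ (((sigmaAntidiagonalEquivProd x).1 : ℕ) * ((sigmaAntidiagonalEquivProd x).2 : ℕ)))
      (∑' n : ℕ, lamChi χ (q ^ (n + 1))) := by
    rw [← hrows]
    exact (sigmaAntidiagonalEquivProd.hasSum_iff (f := fun c : ℕ+ × ℕ+ =>
      χ ((c.2 : ℕ) : ZMod N) * q ^ ((c.1 : ℕ) * (c.2 : ℕ)))).mpr hs.hasSum
  have h2 : HasSum (fun n : ℕ+ => sigmaChi χ n * q ^ (n : ℕ))
      (∑' n : ℕ, lamChi χ (q ^ (n + 1))) := by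
    refine h1.sigma (fun n => ?_)
    have hfin : sigmaChi χ n * q ^ (n : ℕ) = ∑ x : Nat.divisorsAntidiagonal n,
        χ (((sigmaAntidiagonalEquivProd ⟨n, x⟩).2 : ℕ) : ZMod N) *
        q ^ (((sigmaAntidiagonalEquivProd ⟨n, x⟩).1 : ℕ) *
          ((sigmaAntidiagonalEquivProd ⟨n, x⟩).2 : ℕ)) := by
      have e : ∀ x : Nat.divisorsAntidiagonal n,
          χ (((sigmaAntidiagonalEquivProd ⟨n, x⟩).2 : ℕ) : ZMod N) *
          q ^ (((sigmaAntidiagonalEquivProd ⟨n, x⟩).1 : ℕ) *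
            ((sigmaAntidiagonalEquivProd ⟨n, x⟩).2 : ℕ)) =
          χ ((x.1.2 : ℕ) : ZMod N) * q ^ (n : ℕ) := by
        intro x
        have hx := (Nat.mem_divisorsAntidiagonal.mp x.2).1
        simp only [sigmaAntidiagonalEquivProd, divisorsAntidiagonalFactors, Equiv.coe_fn_mk,
          PNat.mk_coe]
        rw [hx]
      simp_rw [e]
      rw [← Finset.sum_mul, Finset.univ_eq_attach,
        Finset.sum_attach (Nat.divisorsAntidiagonal n) (fun x => χ ((x.2 : ℕ) : ZMod N)),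
        Nat.sum_divisorsAntidiagonal' (f := fun _ d => χ ((d : ℕ) : ZMod N))]
      rfl
    rw [hfin]
    exact hasSum_fintype _
  have h3 := (hasSum_pnat_iff (f := fun k : ℕ => sigmaChi χ k * q ^ k)).mp h2
  simpa using h3

end

end Fermat.Agent.DS48
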