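import Fermat.Agent.DS48.EIS1_lead_Const
import Fermat.Agent.RatStr.Nice
import Fermat.Prelude.Def_FLTPrelim_Modularity

set_option autoImplicit false

/-!
# [EIS1] main results: the weight-one Eisenstein series `E₁^{1,χ}` of an odd Dirichlet
character `χ mod N`:

* `isMF_eisChi : IsMF (Gamma1 N) 1 (eisChi χ)`;
* `eisChi_slash : eisChi χ ∣[1] γ = χ(γ₁₁) • eisChi χ` for `γ ∈ Γ₀(N)`;
* `qCoeff_eisChi_zero : qCoeff (eisChi χ) 0 = -B₁(χ)/2`,
  `qCoeff_eisChi : qCoeff (eisChi χ) n = Σ_{d ∣ n} χ(d)` for `n ≠ 0`.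
-/

namespace Fermat.Agent.DS48

open UpperHalfPlane hiding I
open Complex Filter Finset ZMod ModularForm CongruenceSubgroup ModularFormClass
open Fermat.Agent.RatStr
open scoped Topology Real MatrixGroups ModularForm

noncomputable section

variable {N : ℕ} [NeZero N] (χ : DirichletCharacter ℂ N)

/-- **the weight-one Eisenstein series `E₁^{1,χ}`**, normalised so that `a₁ = 1` -/
def eisChi : ℍ → ℂ := (-(4 * π * I))⁻¹ • eisRaw χ

theorem isMF_eisChi : IsMF (Gamma1 N) 1 (eisChi χ) := (isMF_eisRaw χ).smul _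

theorem eisChi_slash {γ : SL(2, ℤ)} (hγ : γ ∈ Gamma0 N) :
    (eisChi χ) ∣[(1 : ℤ)] γ = χ ((γ 1 1 : ℤ) : ZMod N) • eisChi χ := by
  unfold eisChi
  rw [ModularForm.SL_smul_slash, eisRaw_slash χ hγ, smul_comm]

/-- the `q`-expansion coefficients of `eisChi χ` -/
def eisCoeff (k : ℕ) : ℂ := if k = 0 then -(bernoulliOne χ) / 2 else sigmaChi χ k

theorem four_pi_I_ne_zero : (-(4 * π * I) : ℂ) ≠ 0 := by
  simp [Real.pi_ne_zero, I_ne_zero]

theorem hasSum_eisChi (hodd : χ (-1) = -1) (τ : ℍ) :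
    HasSum (fun k : ℕ => eisCoeff χ k • Function.Periodic.qParam 1 τ ^ k) (eisChi χ τ) := by
  have hq : Function.Periodic.qParam 1 τ = qq τ := by
    unfold qq Function.Periodic.qParam; simp
  rw [hq]
  have h1 := hasSum_sigmaChi χ (norm_qq_lt_one τ)
  have h2 : HasSum (fun k : ℕ => if k = 0 then -(bernoulliOne χ) / 2 else 0)
      (-(bernoulliOne χ) / 2) := hasSum_ite_eq 0 _
  have h3 := h2.add h1
  have hval : eisChi χ τ = -(bernoulliOne χ) / 2 + ∑' n : ℕ, lamChi χ (qq τ ^ (n + 1)) := by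
    unfold eisChi
    rw [Pi.smul_apply, smul_eq_mul, eisRaw_eq χ hodd, eisConst_eq χ hodd, tsum_mul_left]
    have := four_pi_I_ne_zero
    field_simp
    ring
  rw [hval]
  refine h3.congr_fun ?_
  intro k
  unfold eisCoeff
  by_cases hk : k = 0
  · subst hk; simp
  · simp [hk]

omit [NeZero N] in
theorem T_mem_Gamma1 : ModularGroup.T ∈ Gamma1 N := by
  rw [Gamma1_mem]
  simp [ModularGroup.T]

theorem isNice_eisChi : RatStr.IsNice (eisChi χ) := (isMF_eisChi χ).isNice T_mem_Gamma1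

theorem qExpansion_coeff_eisChi (hodd : χ (-1) = -1) (k : ℕ) :
    (qExpansion 1 (eisChi χ)).coeff k = eisCoeff χ k :=
  ((isNice_eisChi χ).coeff_unique (hasSum_eisChi χ hodd) k).symm

theorem qCoeff_eisChi_zero (hodd : χ (-1) = -1) :
    qCoeff (eisChi χ) 0 = -(bernoulliOne χ) / 2 := by
  unfold qCoeff
  rw [qExpansion_coeff_eisChi χ hodd]
  simp [eisCoeff]

theorem qCoeff_eisChi (hodd : χ (-1) = -1) {n : ℕ} (hn : n ≠ 0) :
    qCoeff (eisChi χ) n = ∑ d ∈ n.divisors, χ (d : ZMod N) := by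
  unfold qCoeff
  rw [qExpansion_coeff_eisChi χ hodd]
  simp [eisCoeff, hn, sigmaChi]

theorem qCoeff_eisChi_one (hodd : χ (-1) = -1) : qCoeff (eisChi χ) 1 = 1 := by
  rw [qCoeff_eisChi χ hodd one_ne_zero]; simp

end

end Fermat.Agent.DS48
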