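import Fermat.Agent.DS48.EIS1_lead_Rows

set_option autoImplicit false

/-!
# [EIS1] quasi-periodicity and `q`-expansion of `Φ(z;τ) = ζ(z;τ) - z G₂(τ)`.
-/

namespace Fermat.Agent.DS48

open UpperHalfPlane hiding I
open Complex Filter Asymptotics Matrix EisensteinSeries Finset
open scoped MatrixGroups Topology Real

noncomputable section

/-- the Lambert kernel `x/(1-x)` -/
def lam (x : ℂ) : ℂ := x / (1 - x)

theorem norm_lam_le {x : ℂ} (hx : ‖x‖ < 1) : ‖lam x‖ ≤ ‖x‖ / (1 - ‖x‖) := by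
  unfold lam
  rw [norm_div]
  have h1 : 1 - ‖x‖ ≤ ‖1 - x‖ := by
    have := norm_sub_norm_le (1 : ℂ) x
    simpa using this
  exact div_le_div_of_nonneg_left (norm_nonneg x) (by linarith) h1

theorem tendsto_lam_zero : Tendsto lam (𝓝 0) (𝓝 0) := by
  have : ContinuousAt lam 0 := by
    unfold lam
    apply ContinuousAt.div continuousAt_id (continuousAt_const.sub continuousAt_id)
    simp
  simpa [lam] using this.tendsto

theorem pi_cot_aux (E : ℂ) (h1 : 1 - E ≠ 0) :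
    (π : ℂ) * ((E + 1) / (I * (1 - E))) = -(π * I) - 2 * π * I * lam E := by
  unfold lam
  have hI : I ≠ 0 := I_ne_zero
  field_simp
  linear_combination ((E : ℂ) + 1) * I_sq

theorem pi_cot_aux' (E : ℂ) (h0 : E ≠ 0) (h1 : 1 - E ≠ 0) :
    -(π * I) - 2 * π * I * lam E = π * I + 2 * π * I * lam (E⁻¹) := by
  unfold lam
  have h2 : E - 1 ≠ 0 := fun h => h1 (by linear_combination -h)
  have h3 : (1 : ℂ) - E⁻¹ ≠ 0 := by
    intro h
    apply h2
    field_simp at h
    linear_combination h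
  field_simp
  ring

theorem pi_cot_eq (x : ℂ) (hE : cexp (2 * π * I * x) ≠ 1) :
    π * cot (π * x) = -(π * I) - 2 * π * I * lam (cexp (2 * π * I * x)) := by
  rw [cot_pi_eq_exp_ratio]
  exact pi_cot_aux _ (fun h => hE (by linear_combination -h))

theorem pi_cot_eq' (x : ℂ) (hE : cexp (2 * π * I * x) ≠ 1) :
    π * cot (π * x) = π * I + 2 * π * I * lam (cexp (-(2 * π * I * x))) := by
  rw [pi_cot_eq x hE, Complex.exp_neg]
  exact pi_cot_aux' _ (Complex.exp_ne_zero _) (fun h => hE (by linear_combination -h))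

variable (τ : ℍ) (z : ℂ)

/-- `𝕢 = e^{2πiτ}` -/
def qq : ℂ := cexp (2 * π * I * τ)

theorem norm_qq_lt_one : ‖qq τ‖ < 1 := UpperHalfPlane.norm_exp_two_pi_I_lt_one τ

theorem exp_add_nat_mul (n : ℕ) :
    cexp (2 * π * I * (z + n * τ)) = cexp (2 * π * I * z) * qq τ ^ n := by
  unfold qq
  rw [← Complex.exp_nat_mul, ← Complex.exp_add]
  congr 1; ring

theorem exp_neg_sub_nat_mul (n : ℕ) :
    cexp (-(2 * π * I * (z - n * τ))) = cexp (-(2 * π * I * z)) * qq τ ^ n := by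
  unfold qq
  rw [← Complex.exp_nat_mul, ← Complex.exp_add]
  congr 1; ring

theorem tendsto_const_mul_qq_pow (u : ℂ) : Tendsto (fun n : ℕ => u * qq τ ^ n) atTop (𝓝 0) := by
  have := (tendsto_pow_atTop_nhds_zero_of_norm_lt_one (norm_qq_lt_one τ)).const_mul u
  simpa using this

theorem tendsto_pi_cot_add : Tendsto (fun n : ℕ => π * cot (π * (z + n * τ))) atTop
    (𝓝 (-(π * I))) := by
  have h0 := tendsto_const_mul_qq_pow τ (cexp (2 * π * I * z))
  have h1 : ∀ᶠ n : ℕ in atTop, cexp (2 * π * I * z) * qq τ ^ n ≠ 1 := by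
    have := h0.eventually_ne (zero_ne_one)
    exact this
  have h2 : Tendsto (fun n : ℕ => -(π * I) - 2 * π * I * lam (cexp (2 * π * I * z) * qq τ ^ n))
      atTop (𝓝 (-(π * I) - 2 * π * I * 0)) :=
    tendsto_const_nhds.sub ((tendsto_lam_zero.comp h0).const_mul _)
  rw [mul_zero, sub_zero] at h2
  refine h2.congr' ?_
  filter_upwards [h1] with n hn
  rw [pi_cot_eq _ (by rwa [exp_add_nat_mul]), exp_add_nat_mul]

theorem tendsto_pi_cot_sub : Tendsto (fun n : ℕ => π * cot (π * (z - n * τ))) atTop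
    (𝓝 (π * I)) := by
  have h0 := tendsto_const_mul_qq_pow τ (cexp (-(2 * π * I * z)))
  have h1 : ∀ᶠ n : ℕ in atTop, cexp (-(2 * π * I * z)) * qq τ ^ n ≠ 1 :=
    h0.eventually_ne (zero_ne_one)
  have h2 : Tendsto (fun n : ℕ => π * I + 2 * π * I * lam (cexp (-(2 * π * I * z)) * qq τ ^ n))
      atTop (𝓝 (π * I + 2 * π * I * 0)) :=
    tendsto_const_nhds.add ((tendsto_lam_zero.comp h0).const_mul _)
  rw [mul_zero, add_zero] at h2
  refine h2.congr' ?_
  filter_upwards [h1] with n hn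
  have hE : cexp (2 * π * I * (z - n * τ)) ≠ 1 := by
    intro h
    apply hn
    rw [← exp_neg_sub_nat_mul, Complex.exp_neg, h, inv_one]
  rw [pi_cot_eq' _ hE, exp_neg_sub_nat_mul]

theorem Icc_succ_eq (C : ℕ) : Icc (-((C + 1 : ℕ) : ℤ)) ((C + 1 : ℕ) : ℤ) =
    insert (-((C + 1 : ℕ) : ℤ)) (insert (((C + 1 : ℕ) : ℤ)) (Icc (-(C : ℤ)) C)) := by
  ext x
  simp only [mem_Icc, mem_insert]
  push_cast
  omega

theorem sum_Icc_telescope (g : ℤ → ℂ) (C : ℕ) :
    ∑ c ∈ Icc (-(C : ℤ)) C, (g (c - 1) - g c) = g (-(C : ℤ) - 1) - g C := by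
  induction C with
  | zero => simp
  | succ C ih =>
    rw [Icc_succ_eq, Finset.sum_insert, Finset.sum_insert, ih]
    · push_cast
      have e1 : (-((C : ℤ) + 1) - 1) = -((C : ℤ) + 1) - 1 := rfl
      have e2 : ((C : ℤ) + 1 - 1) = (C : ℤ) := by ring
      have e3 : (-((C : ℤ) + 1)) = -(C : ℤ) - 1 := by ring
      rw [e2, e3]
      ring
    · simp only [mem_Icc]; push_cast; omega
    · simp only [mem_insert, mem_Icc]; push_cast; omega

theorem cotSum_add_tau (C : ℕ) :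
    cotSum τ (z + τ) C = cotSum τ z C + π * cot (π * (z + ((C + 1 : ℕ) : ℂ) * τ)) -
      π * cot (π * (z - (C : ℂ) * τ)) := by
  have h := sum_Icc_telescope (fun c : ℤ => π * cot (π * (z - c * τ))) C
  simp only [Finset.sum_sub_distrib] at h
  unfold cotSum
  have e : ∀ c : ℤ, π * cot (π * (z + τ - c * τ)) = π * cot (π * (z - ((c - 1 : ℤ) : ℂ) * τ)) := by
    intro c; push_cast; congr 2; ring
  simp_rw [e]
  have e2 : (z - ((-(C : ℤ) - 1 : ℤ) : ℂ) * τ) = z + ((C + 1 : ℕ) : ℂ) * τ := by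
    push_cast; ring
  rw [e2] at h
  have e3 : (z - (((C : ℕ) : ℤ) : ℂ) * τ) = z - (C : ℂ) * τ := by push_cast; ring
  rw [e3] at h
  linear_combination h

theorem cotSum_add_one (C : ℕ) : cotSum τ (z + 1) C = cotSum τ z C := by
  unfold cotSum
  refine Finset.sum_congr rfl fun c _ => ?_
  have : (π : ℂ) * (z + 1 - c * τ) = π * (z - c * τ) + π := by ring
  rw [this, Complex.cot_eq_cos_div_sin, Complex.cot_eq_cos_div_sin, Complex.cos_add_pi,
    Complex.sin_add_pi, neg_div_neg_eq]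

theorem latPt_shift (v w : Fin 2 → ℤ) : latPt τ v + latPt τ w = latPt τ (v + w) := by
  unfold latPt; simp; ring

theorem not_lat_add {z : ℂ} (hz : ∀ v : Fin 2 → ℤ, z ≠ latPt τ v) (w : Fin 2 → ℤ) :
    ∀ v : Fin 2 → ℤ, z + latPt τ w ≠ latPt τ v := by
  intro v h
  apply hz (v - w)
  have := latPt_shift τ (v - w) w
  rw [sub_add_cancel] at this
  rw [← this] at h
  exact add_right_cancel h

theorem phiE_add_one (hz : ∀ v : Fin 2 → ℤ, z ≠ latPt τ v) : phiE τ (z + 1) = phiE τ z := by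
  have hz' : ∀ v : Fin 2 → ℤ, z + 1 ≠ latPt τ v := by
    have := not_lat_add τ hz ![0, 1]
    simpa [latPt] using this
  have h1 := tendsto_cotSum τ (z + 1) hz'
  have h2 := tendsto_cotSum τ z hz
  simp_rw [cotSum_add_one] at h1
  exact tendsto_nhds_unique h1 h2

theorem phiE_add_tau (hz : ∀ v : Fin 2 → ℤ, z ≠ latPt τ v) :
    phiE τ (z + τ) = phiE τ z - 2 * π * I := by
  have hz' : ∀ v : Fin 2 → ℤ, z + τ ≠ latPt τ v := by
    have := not_lat_add τ hz ![1, 0]
    simpa [latPt] using this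
  have h1 := tendsto_cotSum τ (z + τ) hz'
  have h2 := tendsto_cotSum τ z hz
  simp_rw [cotSum_add_tau] at h1
  have h3 : Tendsto (fun C : ℕ => π * cot (π * (z + ((C + 1 : ℕ) : ℂ) * τ))) atTop
      (𝓝 (-(π * I))) := (tendsto_pi_cot_add τ z).comp (tendsto_add_atTop_nat 1)
  have h4 := (h2.add h3).sub (tendsto_pi_cot_sub τ z)
  have := tendsto_nhds_unique h1 h4
  unfold phiE at this ⊢
  rw [this]; ring

end

end Fermat.Agent.DS48
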