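import Fermat.Agent.DS48.EIS1_lead_Phi

set_option autoImplicit false

/-!
# [EIS1] the Lambert-series expansion of `Φ(z;τ)` in the strip `0 ≤ Im z < Im τ`.
-/

namespace Fermat.Agent.DS48

open UpperHalfPlane hiding I
open Complex Filter Asymptotics Matrix EisensteinSeries Finset
open scoped MatrixGroups Topology Real

noncomputable section

theorem sum_Icc_eq_add_sum_range (f : ℤ → ℂ) (C : ℕ) :
    ∑ c ∈ Icc (-(C : ℤ)) C, f c =
      f 0 + ∑ n ∈ range C, (f ((n : ℤ) + 1) + f (-((n : ℤ) + 1))) := by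
  induction C with
  | zero => simp
  | succ C ih =>
    rw [Icc_succ_eq, Finset.sum_insert, Finset.sum_insert, ih, Finset.sum_range_succ]
    · push_cast; ring
    · simp only [mem_Icc]; push_cast; omega
    · simp only [mem_insert, mem_Icc]; push_cast; omega

variable (τ : ℍ) (z : ℂ)

theorem norm_exp_two_pi_I_mul (w : ℂ) : ‖cexp (2 * π * I * w)‖ = Real.exp (-(2 * π * w.im)) := by
  rw [Complex.norm_exp]
  congr 1
  simp [Complex.mul_re, Complex.mul_im]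

theorem norm_exp_neg_two_pi_I_mul (w : ℂ) :
    ‖cexp (-(2 * π * I * w))‖ = Real.exp (2 * π * w.im) := by
  rw [Complex.norm_exp]
  congr 1
  simp [Complex.mul_re, Complex.mul_im]

theorem norm_qq : ‖qq τ‖ = Real.exp (-(2 * π * τ.im)) := by
  unfold qq; rw [norm_exp_two_pi_I_mul]; rfl

/-- the general term of the Lambert expansion of `Φ` -/
def phiTerm (n : ℕ) : ℂ :=
  2 * π * I * (lam (cexp (-(2 * π * I * z)) * qq τ ^ (n + 1)) -
    lam (cexp (2 * π * I * z) * qq τ ^ (n + 1)))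

theorem norm_X_lt_one (h1 : z.im < τ.im) (n : ℕ) :
    ‖cexp (-(2 * π * I * z)) * qq τ ^ (n + 1)‖ < 1 := by
  rw [norm_mul, norm_pow, norm_exp_neg_two_pi_I_mul, norm_qq, ← Real.exp_nat_mul, ← Real.exp_add,
    Real.exp_lt_one_iff]
  have hπ := Real.pi_pos
  have hτ := τ.im_pos
  have : (n : ℝ) * τ.im ≥ 0 := by positivity
  push_cast
  nlinarith

theorem norm_Y_lt_one (h0 : 0 ≤ z.im) (n : ℕ) :
    ‖cexp (2 * π * I * z) * qq τ ^ (n + 1)‖ < 1 := by
  rw [norm_mul, norm_pow, norm_exp_two_pi_I_mul, norm_qq, ← Real.exp_nat_mul, ← Real.exp_add,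
    Real.exp_lt_one_iff]
  have hπ := Real.pi_pos
  have hτ := τ.im_pos
  have : (n : ℝ) * τ.im ≥ 0 := by positivity
  push_cast
  nlinarith

theorem pair_eq_phiTerm (h0 : 0 ≤ z.im) (h1 : z.im < τ.im) (n : ℕ) :
    π * cot (π * (z - (((n : ℤ) + 1 : ℤ) : ℂ) * τ)) +
      π * cot (π * (z - ((-((n : ℤ) + 1) : ℤ) : ℂ) * τ)) = phiTerm τ z n := by
  have hX := norm_X_lt_one τ z h1 n
  have hY := norm_Y_lt_one τ z h0 n
  have e1 : (z - (((n : ℤ) + 1 : ℤ) : ℂ) * τ) = z - ((n + 1 : ℕ) : ℂ) * τ := by push_cast; ring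
  have e2 : (z - ((-((n : ℤ) + 1) : ℤ) : ℂ) * τ) = z + ((n + 1 : ℕ) : ℂ) * τ := by
    push_cast; ring
  rw [e1, e2]
  have hE1 : cexp (2 * π * I * (z - ((n + 1 : ℕ) : ℂ) * τ)) ≠ 1 := by
    intro h
    have := exp_neg_sub_nat_mul τ z (n + 1)
    rw [Complex.exp_neg, h, inv_one] at this
    rw [← this] at hX
    simp at hX
  have hE2 : cexp (2 * π * I * (z + ((n + 1 : ℕ) : ℂ) * τ)) ≠ 1 := by
    intro h
    rw [exp_add_nat_mul] at h
    rw [h] at hY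
    simp at hY
  rw [pi_cot_eq' _ hE1, pi_cot_eq _ hE2, exp_neg_sub_nat_mul, exp_add_nat_mul]
  unfold phiTerm
  ring

theorem cotSum_eq_sum_phiTerm (h0 : 0 ≤ z.im) (h1 : z.im < τ.im) (C : ℕ) :
    cotSum τ z C = π * cot (π * z) + ∑ n ∈ range C, phiTerm τ z n := by
  unfold cotSum
  rw [sum_Icc_eq_add_sum_range]
  congr 1
  · simp
  · exact Finset.sum_congr rfl fun n _ => pair_eq_phiTerm τ z h0 h1 n

theorem norm_phiTerm_le {ρ : ℝ} (hρ : ρ < 1)
    (hX : ∀ n : ℕ, ‖cexp (-(2 * π * I * z)) * qq τ ^ (n + 1)‖ ≤ ρ ^ (n + 1))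
    (hY : ∀ n : ℕ, ‖cexp (2 * π * I * z) * qq τ ^ (n + 1)‖ ≤ ρ ^ (n + 1)) (n : ℕ) :
    ‖phiTerm τ z n‖ ≤ 4 * π / (1 - ρ) * ρ ^ (n + 1) := by
  have hρ0 : 0 ≤ ρ := by
    have := (norm_nonneg _).trans (hX 0)
    simpa using this
  have hpow : ρ ^ (n + 1) ≤ ρ := by
    calc ρ ^ (n + 1) = ρ ^ n * ρ := pow_succ _ _
      _ ≤ 1 * ρ := by gcongr; exact pow_le_one₀ hρ0 hρ.le
      _ = ρ := one_mul _
  have key : ∀ x : ℂ, ‖x‖ ≤ ρ ^ (n + 1) → ‖lam x‖ ≤ ρ ^ (n + 1) / (1 - ρ) := by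
    intro x hx
    have hx1 : ‖x‖ < 1 := lt_of_le_of_lt (hx.trans hpow) hρ
    refine (norm_lam_le hx1).trans ?_
    have : 1 - ρ ≤ 1 - ‖x‖ := by linarith [hx.trans hpow]
    calc ‖x‖ / (1 - ‖x‖) ≤ ‖x‖ / (1 - ρ) :=
          div_le_div_of_nonneg_left (norm_nonneg _) (by linarith) this
      _ ≤ ρ ^ (n + 1) / (1 - ρ) := by gcongr
  unfold phiTerm
  rw [norm_mul]
  have hc : ‖(2 * π * I : ℂ)‖ = 2 * π := by
    simp [abs_of_pos Real.pi_pos]
  rw [hc]
  have := (norm_sub_le _ _).trans (add_le_add (key _ (hX n)) (key _ (hY n)))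
  calc 2 * π * ‖lam (cexp (-(2 * π * I * z)) * qq τ ^ (n + 1)) -
        lam (cexp (2 * π * I * z) * qq τ ^ (n + 1))‖
      ≤ 2 * π * (ρ ^ (n + 1) / (1 - ρ) + ρ ^ (n + 1) / (1 - ρ)) := by
        gcongr
    _ = 4 * π / (1 - ρ) * ρ ^ (n + 1) := by ring

theorem X_le_rho (h0 : 0 ≤ z.im) (n : ℕ) :
    ‖cexp (-(2 * π * I * z)) * qq τ ^ (n + 1)‖ ≤
      (Real.exp (-(2 * π * (τ.im - z.im)))) ^ (n + 1) := by
  rw [norm_mul, norm_pow, norm_exp_neg_two_pi_I_mul, norm_qq, ← Real.exp_nat_mul,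
    ← Real.exp_nat_mul, ← Real.exp_add, Real.exp_le_exp]
  have hπ := Real.pi_pos
  have hτ := τ.im_pos
  push_cast
  have : 0 ≤ (n : ℝ) * (2 * π * z.im) := by positivity
  nlinarith

theorem Y_le_rho (h0 : 0 ≤ z.im) (n : ℕ) :
    ‖cexp (2 * π * I * z) * qq τ ^ (n + 1)‖ ≤ (Real.exp (-(2 * π * τ.im))) ^ (n + 1) := by
  rw [norm_mul, norm_pow, norm_exp_two_pi_I_mul, norm_qq]
  have : Real.exp (-(2 * π * z.im)) ≤ 1 := by
    rw [Real.exp_le_one_iff]
    have hπ := Real.pi_pos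
    nlinarith
  calc Real.exp (-(2 * π * z.im)) * Real.exp (-(2 * π * τ.im)) ^ (n + 1)
      ≤ 1 * Real.exp (-(2 * π * τ.im)) ^ (n + 1) := by gcongr
    _ = _ := one_mul _

theorem summable_phiTerm (h0 : 0 ≤ z.im) (h1 : z.im < τ.im) : Summable (phiTerm τ z) := by
  set ρ := Real.exp (-(2 * π * (τ.im - z.im))) with hρdef
  have hπ := Real.pi_pos
  have hρ : ρ < 1 := by
    rw [hρdef, Real.exp_lt_one_iff]; nlinarith
  have hρ0 : 0 ≤ ρ := (Real.exp_pos _).le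
  have hY : ∀ n : ℕ, ‖cexp (2 * π * I * z) * qq τ ^ (n + 1)‖ ≤ ρ ^ (n + 1) := by
    intro n
    refine (Y_le_rho τ z h0 n).trans ?_
    apply pow_le_pow_left₀ (Real.exp_pos _).le
    rw [hρdef, Real.exp_le_exp]
    nlinarith
  have hb := norm_phiTerm_le τ z hρ (X_le_rho τ z h0) hY
  refine Summable.of_norm_bounded (g := fun n : ℕ => 4 * π / (1 - ρ) * ρ ^ (n + 1)) ?_ hb
  apply Summable.mul_left
  have := summable_geometric_of_lt_one hρ0 hρ
  exact (summable_nat_add_iff 1).mpr this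

/-- **Lambert expansion of `Φ`** in the strip `0 ≤ Im z < Im τ` -/
theorem hasSum_phiTerm (h0 : 0 ≤ z.im) (h1 : z.im < τ.im) (hz : z ∈ integerComplement) :
    HasSum (phiTerm τ z) (phiE τ z - π * cot (π * z)) := by
  have hlat : ∀ v : Fin 2 → ℤ, z ≠ latPt τ v := by
    intro v hv
    have him := congrArg Complex.im hv
    simp only [latPt, Complex.add_im, Complex.mul_im, Complex.intCast_re, Complex.intCast_im,
      zero_mul, add_zero, UpperHalfPlane.coe_im] at him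
    have hτ := τ.im_pos
    have hv0 : v 0 = 0 := by
      by_contra hne
      rcases lt_or_gt_of_ne hne with hlt | hgt
      · have : ((v 0 : ℤ) : ℝ) ≤ -1 := by exact_mod_cast Int.le_sub_one_of_lt hlt
        nlinarith
      · have : (1 : ℝ) ≤ ((v 0 : ℤ) : ℝ) := by exact_mod_cast hgt
        nlinarith
    apply hz
    refine ⟨v 1, ?_⟩
    rw [hv]
    simp [latPt, hv0]
  have hs := summable_phiTerm τ z h0 h1
  have ht := tendsto_cotSum τ z hlat
  simp_rw [cotSum_eq_sum_phiTerm τ z h0 h1] at ht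
  have ht2 : Tendsto (fun C : ℕ => ∑ n ∈ range C, phiTerm τ z n) atTop
      (𝓝 (phiE τ z - π * cot (π * z))) := by
    have := ht.sub (tendsto_const_nhds (x := π * cot (π * z)))
    simpa [phiE] using this
  have := tendsto_nhds_unique hs.hasSum.tendsto_sum_nat ht2
  rw [← this]
  exact hs.hasSum

end

end Fermat.Agent.DS48
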