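import Fermat.Agent.DS48.EIS1_lead_Zeta

set_option autoImplicit false

/-!
# [EIS1] row summation of the zeta function: `ζ(z;τ) - z·G₂(τ)` is the Eisenstein sum
`lim_C Σ_{|c| ≤ C} π cot π(z - cτ)`.
-/

namespace Fermat.Agent.DS48

open UpperHalfPlane Complex Filter Asymptotics Matrix EisensteinSeries Finset
open scoped MatrixGroups Topology Real

noncomputable section

theorem tsum_int_eq_zero_add (f : ℤ → ℂ) (hf : Summable f) :
    ∑' d, f d = f 0 + ∑' n : ℕ, (f ((n : ℤ) + 1) + f (-((n : ℤ) + 1))) := by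
  have hf₁ : Summable (fun n : ℕ => f ((n : ℤ) + 1)) :=
    hf.comp_injective (fun a b h => by simpa using h)
  have hf₂ : Summable (fun n : ℕ => f (-((n : ℤ) + 1))) :=
    hf.comp_injective (fun a b h => by simpa using h)
  rw [tsum_of_add_one_of_neg_add_one hf₁ hf₂, hf₁.tsum_add hf₂]
  ring

/-- the basic two-sided sum: `Σ_d [1/(w - d) + 1/(v + d)] = π cot πw + π cot πv` -/
theorem tsum_inv_sub_add_inv_add {w v : ℂ} (hw : w ∈ integerComplement)
    (hv : v ∈ integerComplement)
    (hs : Summable (fun d : ℤ => 1 / (w - d) + 1 / (v + d))) :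
    ∑' d : ℤ, (1 / (w - d) + 1 / (v + d)) = π * cot (π * w) + π * cot (π * v) := by
  rw [tsum_int_eq_zero_add _ hs]
  have h1 : ∀ n : ℕ, (1 / (w - (((n : ℤ) + 1 : ℤ) : ℂ)) + 1 / (v + (((n : ℤ) + 1 : ℤ) : ℂ))) +
      (1 / (w - ((-((n : ℤ) + 1) : ℤ) : ℂ)) + 1 / (v + ((-((n : ℤ) + 1) : ℤ) : ℂ))) =
      cotTerm w n + cotTerm v n := by
    intro n
    simp only [cotTerm]
    push_cast
    ring
  simp_rw [h1]
  rw [(summable_cotTerm hw).tsum_add (summable_cotTerm hv)]
  have e1 := cot_series_rep' hw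
  have e2 := cot_series_rep' hv
  simp only [cotTerm] at *
  rw [← e1, ← e2]
  push_cast
  ring

theorem tsum_ite_inv_sub_add_inv {z : ℂ} (hz : z ∈ integerComplement)
    (hs : Summable (fun d : ℤ => if d = 0 then 1 / z else 1 / (z - d) + 1 / (d : ℂ))) :
    ∑' d : ℤ, (if d = 0 then 1 / z else 1 / (z - d) + 1 / (d : ℂ)) = π * cot (π * z) := by
  rw [tsum_int_eq_zero_add _ hs]
  have h1 : ∀ n : ℕ, ((if ((n : ℤ) + 1) = 0 then 1 / z else
      1 / (z - (((n : ℤ) + 1 : ℤ) : ℂ)) + 1 / ((((n : ℤ) + 1 : ℤ)) : ℂ)) +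
      (if (-((n : ℤ) + 1)) = 0 then 1 / z else
      1 / (z - ((-((n : ℤ) + 1) : ℤ) : ℂ)) + 1 / (((-((n : ℤ) + 1) : ℤ)) : ℂ))) =
      cotTerm z n := by
    intro n
    have h2 : ((n : ℤ) + 1) ≠ 0 := by omega
    have h3 : (-((n : ℤ) + 1)) ≠ 0 := by omega
    rw [if_neg h2, if_neg h3]
    simp only [cotTerm]
    have h4 : ((n : ℂ) + 1) ≠ 0 := by exact_mod_cast h2
    push_cast
    field_simp
    ring
  simp_rw [h1]
  have e1 := cot_series_rep' hz
  simp only [cotTerm] at *
  simp only [if_true]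
  rw [← e1]
  ring

variable (τ : ℍ) (z : ℂ)

/-- the `c`-th row term of the Eisenstein summation -/
def rowK (c : ℤ) : ℂ :=
  if c = 0 then π * cot (π * z) else π * cot (π * (z - c * τ)) + π * cot (π * (c * τ))

theorem vec_ne_zero_of_left {c d : ℤ} (hc : c ≠ 0) : (![c, d] : Fin 2 → ℤ) ≠ 0 := by
  intro h
  have := congrFun h 0
  simp at this
  exact hc this

theorem int_mul_mem_integerComplement {c : ℤ} (hc : c ≠ 0) :
    ((c : ℂ) * (τ : ℂ)) ∈ integerComplement := by
  rw [mem_integerComplement_iff]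
  rintro ⟨n, hn⟩
  have := congrArg Complex.im hn
  simp at this
  rcases this with h | h
  · exact hc h
  · exact τ.im_ne_zero h

theorem sub_mem_integerComplement (hz : ∀ v : Fin 2 → ℤ, z ≠ latPt τ v) (c : ℤ) :
    (z - c * τ) ∈ integerComplement := by
  rw [mem_integerComplement_iff]
  rintro ⟨n, hn⟩
  apply hz ![c, n]
  simp only [latPt, Fin.isValue, cons_val_zero, cons_val_one]
  rw [hn]; ring

theorem summable_row (c : ℤ) : Summable (fun d : ℤ => zetaSummand τ z ![c, d]) := by
  have h := summable_zetaSummand τ z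
  have h2 : Summable (fun p : ℤ × ℤ => zetaSummand τ z ![p.1, p.2]) := by
    have := (finTwoArrowEquiv ℤ).symm.summable_iff.mpr h
    exact this
  exact h2.prod_factor c

theorem hasSum_row (hz : ∀ v : Fin 2 → ℤ, z ≠ latPt τ v) (c : ℤ) :
    HasSum (fun d : ℤ => zetaSummand τ z ![c, d]) (rowK τ z c + z * e2Summand c τ) := by
  have hrow := summable_row τ z c
  have he2 := e2Summand_summable c τ
  have hsum : Summable (fun d : ℤ => zetaSummand τ z ![c, d] - z * eisSummand 2 ![c, d] τ) :=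
    hrow.sub (he2.mul_left z)
  have key : ∑' d : ℤ, (zetaSummand τ z ![c, d] - z * eisSummand 2 ![c, d] τ) = rowK τ z c := by
    unfold rowK
    by_cases hc : c = 0
    · subst hc
      rw [if_pos rfl]
      have hzc : z ∈ integerComplement := by
        have := sub_mem_integerComplement τ z hz 0
        simpa using this
      have hfun : (fun d : ℤ => zetaSummand τ z ![0, d] - z * eisSummand 2 ![0, d] τ) =
          fun d : ℤ => if d = 0 then 1 / z else 1 / (z - d) + 1 / (d : ℂ) := by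
        funext d
        by_cases hd : d = 0
        · subst hd
          have : (![0, 0] : Fin 2 → ℤ) = 0 := by ext i; fin_cases i <;> rfl
          simp [zetaSummand, this, eisSummand]
        · have : (![0, d] : Fin 2 → ℤ) ≠ 0 := by
            intro h
            have := congrFun h 1
            simp at this
            exact hd this
          rw [if_neg hd]
          simp only [zetaSummand, if_neg this, zetaTerm, latPt, eisSummand, Fin.isValue,
            cons_val_zero, cons_val_one, Int.cast_zero, zero_mul, zero_add]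
          have hd' : (d : ℂ) ≠ 0 := by exact_mod_cast hd
          rw [show (-2 : ℤ) = -(2 : ℤ) by rfl, _root_.zpow_neg]
          field_simp
          ring
      rw [hfun] at hsum ⊢
      exact tsum_ite_inv_sub_add_inv hzc hsum
    · rw [if_neg hc]
      have hw := sub_mem_integerComplement τ z hz c
      have hv := int_mul_mem_integerComplement τ hc
      have hfun : (fun d : ℤ => zetaSummand τ z ![c, d] - z * eisSummand 2 ![c, d] τ) =
          fun d : ℤ => 1 / ((z - c * τ) - d) + 1 / ((c * τ : ℂ) + d) := by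
        funext d
        have hne := vec_ne_zero_of_left (d := d) hc
        have hω := latPt_ne_zero τ hne
        simp only [zetaSummand, if_neg hne, zetaTerm, eisSummand]
        simp only [latPt, Fin.isValue, cons_val_zero, cons_val_one] at hω ⊢
        rw [show (-2 : ℤ) = -(2 : ℤ) by rfl, _root_.zpow_neg]
        field_simp
        ring
      rw [hfun] at hsum ⊢
      exact tsum_inv_sub_add_inv_add hw hv hsum
  have h1 : HasSum (fun d : ℤ => zetaSummand τ z ![c, d] - z * eisSummand 2 ![c, d] τ)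
      (rowK τ z c) := key ▸ hsum.hasSum
  have h2 : HasSum (fun d : ℤ => z * eisSummand 2 ![c, d] τ) (z * e2Summand c τ) :=
    he2.hasSum.mul_left z
  have := h1.add h2
  simpa using this

/-- the row sums add up to `ζ` -/
theorem hasSum_rows (hz : ∀ v : Fin 2 → ℤ, z ≠ latPt τ v) :
    HasSum (fun c : ℤ => rowK τ z c + z * e2Summand c τ) (weierZ τ z) := by
  have h : HasSum (zetaSummand τ z) (weierZ τ z) := (summable_zetaSummand τ z).hasSum
  have h2 : HasSum ((zetaSummand τ z) ∘ (finTwoArrowEquiv ℤ).symm) (weierZ τ z) :=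
    (Equiv.hasSum_iff (finTwoArrowEquiv ℤ).symm).mpr h
  have h3 : HasSum (fun p : ℤ × ℤ => zetaSummand τ z ![p.1, p.2]) (weierZ τ z) := h2
  exact HasSum.prod_fiberwise (f := fun p : ℤ × ℤ => zetaSummand τ z ![p.1, p.2])
    (g := fun c : ℤ => rowK τ z c + z * e2Summand c τ) h3 (fun c => hasSum_row τ z hz c)

theorem tendsto_sum_Icc_of_hasSum {f : ℤ → ℂ} {a : ℂ} (h : HasSum f a) :
    Tendsto (fun N : ℕ => ∑ c ∈ Icc (-(N : ℤ)) N, f c) atTop (𝓝 a) := by
  rw [← SummationFilter.hasSum_symmetricIcc_iff]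
  exact h.mono_left (SummationFilter.LeAtTop.le_atTop (L := SummationFilter.symmetricIcc ℤ))

theorem tendsto_sum_Icc_e2Summand :
    Tendsto (fun N : ℕ => ∑ c ∈ Icc (-(N : ℤ)) N, e2Summand c τ) atTop (𝓝 (G2 τ)) := by
  rw [← SummationFilter.hasSum_symmetricIcc_iff, G2_eq_tsum_cexp]
  exact hasSum_e2Summand_symmetricIcc τ

theorem cot_neg' (x : ℂ) : cot (-x) = - cot x := by
  rw [Complex.cot_eq_cos_div_sin, Complex.cot_eq_cos_div_sin, Complex.cos_neg, Complex.sin_neg,
    div_neg]

theorem sum_Icc_odd_eq_zero {g : ℤ → ℂ} (hg : ∀ c, g (-c) = - g c) (N : ℕ) :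
    ∑ c ∈ Icc (-(N : ℤ)) N, g c = 0 := by
  have h : ∑ c ∈ Icc (-(N : ℤ)) N, g c = ∑ c ∈ Icc (-(N : ℤ)) N, g (-c) := by
    apply Finset.sum_nbij' (fun c => -c) (fun c => -c)
    · intro c hc; simp only [mem_Icc] at hc ⊢; omega
    · intro c hc; simp only [mem_Icc] at hc ⊢; omega
    · intro c _; simp
    · intro c _; simp
    · intro c _; simp
  simp_rw [hg, Finset.sum_neg_distrib] at h
  have : (2 : ℂ) * ∑ c ∈ Icc (-(N : ℤ)) N, g c = 0 := by linear_combination h
  simpa using this

/-- the Eisenstein partial sums `Σ_{|c| ≤ C} π cot π(z - cτ)` -/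
def cotSum (C : ℕ) : ℂ := ∑ c ∈ Icc (-(C : ℤ)) C, π * cot (π * (z - c * τ))

theorem sum_rowK_eq (C : ℕ) : ∑ c ∈ Icc (-(C : ℤ)) C, rowK τ z c = cotSum τ z C := by
  unfold cotSum
  have h : ∀ c : ℤ, rowK τ z c = π * cot (π * (z - c * τ)) +
      (if c = 0 then 0 else π * cot (π * (c * τ))) := by
    intro c
    unfold rowK
    by_cases hc : c = 0
    · subst hc; simp
    · simp [hc]
  simp_rw [h, Finset.sum_add_distrib]
  rw [sum_Icc_odd_eq_zero (g := fun c : ℤ => if c = 0 then 0 else π * cot (π * (c * τ))),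
    add_zero]
  intro c
  by_cases hc : c = 0
  · subst hc; simp
  · have : -c ≠ 0 := by omega
    rw [if_neg hc, if_neg this]
    push_cast
    rw [show (π : ℂ) * (-(c : ℂ) * τ) = -(π * (c * τ)) by ring, cot_neg']
    ring

/-- **Eisenstein summation**: `lim_C Σ_{|c| ≤ C} π cot π(z - cτ) = ζ(z;τ) - z·G₂(τ)` -/
theorem tendsto_cotSum (hz : ∀ v : Fin 2 → ℤ, z ≠ latPt τ v) :
    Tendsto (fun C : ℕ => cotSum τ z C) atTop (𝓝 (weierZ τ z - z * G2 τ)) := by
  have h1 := tendsto_sum_Icc_of_hasSum (hasSum_rows τ z hz)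
  have h2 := (tendsto_sum_Icc_e2Summand τ).const_mul z
  have h3 := h1.sub h2
  refine h3.congr (fun C => ?_)
  rw [← sum_rowK_eq, Finset.sum_add_distrib, ← Finset.mul_sum]
  ring

/-- `Φ(z;τ) = ζ(z;τ) - z·G₂(τ)` -/
def phiE : ℂ := weierZ τ z - z * G2 τ

end

end Fermat.Agent.DS48
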