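import Mathlib

set_option autoImplicit false

/-!
# [EIS1] the Weierstrass zeta function of the lattice `ℤτ + ℤ` (as an absolutely convergent
double series) and its behaviour under `SL₂(ℤ)`.
-/

namespace Fermat.Agent.DS48

open UpperHalfPlane Complex Filter Asymptotics Matrix EisensteinSeries
open scoped MatrixGroups Topology

noncomputable section

/-- the lattice point `v₀ τ + v₁` -/
def latPt (τ : ℂ) (v : Fin 2 → ℤ) : ℂ := v 0 * τ + v 1

/-- the summand `1/(z - ω) + 1/ω + z/ω²` of the Weierstrass zeta function -/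
def zetaTerm (z ω : ℂ) : ℂ := 1 / (z - ω) + 1 / ω + z / ω ^ 2

theorem zetaTerm_eq {z ω : ℂ} (hω : ω ≠ 0) (hz : z - ω ≠ 0) :
    zetaTerm z ω = z ^ 2 / (ω ^ 2 * (z - ω)) := by
  unfold zetaTerm
  field_simp
  ring

theorem zetaTerm_div {z ω j : ℂ} (hj : j ≠ 0) : zetaTerm (z / j) (ω / j) = j * zetaTerm z ω := by
  unfold zetaTerm
  by_cases hω : ω = 0
  · subst hω; simp; field_simp
  by_cases hz : z - ω = 0
  · have : z / j - ω / j = 0 := by rw [← sub_div, hz, zero_div]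
    rw [this, hz]; simp; field_simp
  have h1 : z / j - ω / j = (z - ω) / j := by ring
  rw [h1]
  field_simp

/-- the summands of the zeta function, indexed by `ℤ²` -/
def zetaSummand (τ z : ℂ) (v : Fin 2 → ℤ) : ℂ :=
  if v = 0 then 1 / z else zetaTerm z (latPt τ v)

/-- the Weierstrass zeta function of `ℤτ + ℤ` -/
def weierZ (τ z : ℂ) : ℂ := ∑' v : Fin 2 → ℤ, zetaSummand τ z v

theorem latPt_ne_zero (τ : ℍ) {v : Fin 2 → ℤ} (hv : v ≠ 0) : latPt τ v ≠ 0 := by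
  unfold latPt
  have := EisensteinSeries.r_mul_max_le τ hv
  intro h
  rw [h, norm_zero] at this
  have h2 : 0 < r τ * ‖v‖ := mul_pos (r_pos τ) (norm_pos_iff.mpr hv)
  linarith

theorem norm_zetaTerm_le {z ω : ℂ} (hω : 2 * ‖z‖ ≤ ‖ω‖) (hω0 : ω ≠ 0) :
    ‖zetaTerm z ω‖ ≤ 2 * ‖z‖ ^ 2 * (‖ω‖ ^ 3)⁻¹ := by
  have hωpos : 0 < ‖ω‖ := norm_pos_iff.mpr hω0
  have h1 : ‖ω‖ / 2 ≤ ‖z - ω‖ := by
    have := norm_sub_norm_le ω z
    rw [norm_sub_rev] at this
    linarith [norm_nonneg z]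
  have hz : z - ω ≠ 0 := by
    intro h; rw [h, norm_zero] at h1; linarith
  rw [zetaTerm_eq hω0 hz, norm_div, norm_mul, norm_pow, norm_pow]
  rw [div_le_iff₀ (by positivity)]
  have h3 : 0 < ‖z - ω‖ := norm_pos_iff.mpr hz
  calc ‖z‖ ^ 2 = 2 * ‖z‖ ^ 2 * (‖ω‖ ^ 3)⁻¹ * (‖ω‖ ^ 2 * (‖ω‖ / 2)) := by
        field_simp
    _ ≤ 2 * ‖z‖ ^ 2 * (‖ω‖ ^ 3)⁻¹ * (‖ω‖ ^ 2 * ‖z - ω‖) := by
        gcongr

theorem summable_zetaSummand (τ : ℍ) (z : ℂ) : Summable (zetaSummand τ z) := by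
  apply summable_of_isBigO_rpow_norm (a := 3) (by norm_num)
  have hr := r_pos τ
  -- cofinitely many `v` have `2‖z‖ ≤ r τ * ‖v‖`
  have hfin : ∀ᶠ v : Fin 2 → ℤ in cofinite, 2 * ‖z‖ < r τ * ‖v‖ := by
    have h1 : Tendsto (fun v : Fin 2 → ℤ => ‖v‖) cofinite atTop := by
      rw [← Filter.cocompact_eq_cofinite (Fin 2 → ℤ)]
      exact tendsto_norm_cocompact_atTop
    have h2 : Tendsto (fun v : Fin 2 → ℤ => r τ * ‖v‖) cofinite atTop :=
      h1.const_mul_atTop hr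
    exact h2.eventually_gt_atTop _
  refine IsBigO.of_bound (2 * ‖z‖ ^ 2 * (r τ ^ 3)⁻¹) ?_
  filter_upwards [hfin] with v hv
  have hv0 : v ≠ 0 := by
    rintro rfl
    simp at hv
    linarith [norm_nonneg z]
  have hlow := r_mul_max_le τ hv0
  have hω0 := latPt_ne_zero τ hv0
  have hvpos : 0 < ‖v‖ := norm_pos_iff.mpr hv0
  unfold zetaSummand
  rw [if_neg hv0]
  have hb := norm_zetaTerm_le (z := z) (ω := latPt τ v) (by unfold latPt; linarith) hω0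
  refine hb.trans ?_
  rw [Real.norm_of_nonneg (by positivity)]
  have h3 : (r τ * ‖v‖) ^ 3 ≤ ‖latPt τ v‖ ^ 3 := by
    unfold latPt; gcongr
  have h4 : (‖latPt τ v‖ ^ 3)⁻¹ ≤ ((r τ * ‖v‖) ^ 3)⁻¹ := by
    apply inv_anti₀ (by positivity) h3
  calc 2 * ‖z‖ ^ 2 * (‖latPt τ v‖ ^ 3)⁻¹ ≤ 2 * ‖z‖ ^ 2 * ((r τ * ‖v‖) ^ 3)⁻¹ := by gcongr
    _ = 2 * ‖z‖ ^ 2 * (r τ ^ 3)⁻¹ * (‖v‖ ^ (3 : ℝ))⁻¹ := by
        rw [mul_pow, mul_inv]
        norm_cast
        ring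

theorem SL2_det_eq (γ : SL(2, ℤ)) : γ 0 0 * γ 1 1 - γ 0 1 * γ 1 0 = 1 := by
  have := γ.det_coe
  rwa [Matrix.det_fin_two] at this

/-- right multiplication by `γ ∈ SL₂(ℤ)` on row vectors, as a permutation of `ℤ²` -/
def vecMulEquiv (γ : SL(2, ℤ)) : (Fin 2 → ℤ) ≃ (Fin 2 → ℤ) where
  toFun v := ![v 0 * γ 0 0 + v 1 * γ 1 0, v 0 * γ 0 1 + v 1 * γ 1 1]
  invFun v := ![v 0 * γ 1 1 - v 1 * γ 1 0, - (v 0 * γ 0 1) + v 1 * γ 0 0]
  left_inv v := by
    have h := SL2_det_eq γ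
    ext i; fin_cases i
    · simp only [Fin.zero_eta, Fin.isValue, cons_val_zero, cons_val_one]
      linear_combination (v 0) * h
    · simp only [Fin.mk_one, Fin.isValue, cons_val_one, cons_val_zero]
      linear_combination (v 1) * h
  right_inv v := by
    have h := SL2_det_eq γ
    ext i; fin_cases i
    · simp only [Fin.zero_eta, Fin.isValue, cons_val_zero, cons_val_one]
      linear_combination (v 0) * h
    · simp only [Fin.mk_one, Fin.isValue, cons_val_one, cons_val_zero]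
      linear_combination (v 1) * h

theorem vecMulEquiv_apply (γ : SL(2, ℤ)) (v : Fin 2 → ℤ) : vecMulEquiv γ v = v ᵥ* γ := by
  ext i; fin_cases i <;> simp [vecMulEquiv, vecMul, vec2_dotProduct]

theorem latPt_smul (γ : SL(2, ℤ)) (τ : ℍ) (v : Fin 2 → ℤ) :
    latPt ((γ • τ : ℍ) : ℂ) v = latPt τ (vecMulEquiv γ v) / denom γ τ := by
  have h := eisSummand_SL2_apply (-1) v γ τ
  simp only [eisSummand, neg_neg, zpow_one, _root_.zpow_neg] at h
  rw [vecMulEquiv_apply]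
  unfold latPt
  rw [h, div_eq_inv_mul]

theorem vecMulEquiv_eq_zero_iff (γ : SL(2, ℤ)) (v : Fin 2 → ℤ) : vecMulEquiv γ v = 0 ↔ v = 0 := by
  constructor
  · intro h
    have := (vecMulEquiv γ).symm_apply_apply v
    rw [h] at this
    rw [← this]
    ext i; fin_cases i <;> simp [vecMulEquiv]
  · rintro rfl
    ext i; fin_cases i <;> simp [vecMulEquiv]

/-- **homogeneity of `ζ` under `SL₂(ℤ)`** -/
theorem weierZ_smul (γ : SL(2, ℤ)) (τ : ℍ) (z : ℂ) :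
    weierZ ((γ • τ : ℍ) : ℂ) (z / denom γ τ) = denom γ τ * weierZ τ z := by
  have hd : denom γ τ ≠ 0 := denom_ne_zero γ τ
  unfold weierZ
  rw [← tsum_mul_left, ← (vecMulEquiv γ).tsum_eq (fun v => denom γ τ * zetaSummand τ z v)]
  refine tsum_congr fun v => ?_
  unfold zetaSummand
  by_cases hv : v = 0
  · rw [if_pos hv, if_pos ((vecMulEquiv_eq_zero_iff γ v).mpr hv)]
    field_simp
  · rw [if_neg hv, if_neg (fun h => hv ((vecMulEquiv_eq_zero_iff γ v).mp h)), latPt_smul,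
      zetaTerm_div hd]

end

end Fermat.Agent.DS48
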