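/-
PROJECT DS (S48), helper3 — the input `FixHyp M` of `DS48.s48_of_inputs` from the interface class
`W1Api M` (`W1/FIX_helper3.jzero_fix`: every point of `J₁ M` is fixed by the Galois group of a
finite extension of `ℚ`).
-/
import Fermat.Agent.DS48.FINAL_lead_Glue
import Fermat.Agent.W1.FIX_helper3

set_option autoImplicit false

namespace Fermat.Agent.DS48

/-- **(fix) for `J₁ M`** from the interface class. -/
theorem fixHyp_of_w1Api (M : ℕ) [NeZero M] [W1.W1Api M] : FixHyp M :=
  fun x => W1.jzero_fix M x

/-- the `hfix` input of `s48_of_inputs` from instances of the interface class. -/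
theorem hfix_of_w1Api (h : ∀ (M : ℕ) [NeZero M], 5 ≤ M → W1.W1Api M) :
    ∀ (M : ℕ) [NeZero M], 5 ≤ M → FixHyp M := fun M _ hM =>
  haveI := h M hM
  fixHyp_of_w1Api M

end Fermat.Agent.DS48
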