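import Mathlib

/-!
# [G4] step 3: embedding Witt vectors of `𝔽̄_ℓ` into `ℂ`

* `exists_embed_complex` : a characteristic-zero domain `W` of cardinality `𝔠` with a surjection
  `c` onto an algebraically closed field `κ` embeds into `ℂ` so that `c` extends to a ring hom
  `π : R → κ` on a subring `R ⊆ ℂ` containing `W` and all algebraic integers.
* `witt_charZero`, `witt_cardinalMk`, `algClosure_zmod_cardinalMk_le` : the hypotheses for
  `W = 𝕎(𝔽̄_ℓ)`.
-/

set_option autoImplicit false

namespace Fermat.Agent.DS48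

open Cardinal

/-- an integral domain of characteristic zero and cardinality `𝔠` embeds into `ℂ`; moreover the
algebraic closure of its fraction field is isomorphic to `ℂ` -/
theorem exists_ringEquiv_algClosure_complex (W : Type) [CommRing W] [IsDomain W] [CharZero W]
    (hW : #W = 𝔠) : Nonempty (AlgebraicClosure (FractionRing W) ≃+* ℂ) := by
  have hK : #(FractionRing W) = 𝔠 := by rw [IsFractionRing.cardinalMk (R := W)]; exact hW
  have hΩ : #(AlgebraicClosure (FractionRing W)) = 𝔠 := by
    apply le_antisymm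
    · have := Algebra.IsAlgebraic.cardinalMk_le_max (FractionRing W)
        (AlgebraicClosure (FractionRing W))
      rw [hK] at this
      exact this.trans (max_le le_rfl aleph0_le_continuum)
    · rw [← hK]
      exact Cardinal.mk_le_of_injective
        (algebraMap (FractionRing W) (AlgebraicClosure (FractionRing W))).injective
  have : CharZero (FractionRing W) :=
    charZero_of_injective_algebraMap (IsFractionRing.injective W (FractionRing W))
  have : CharZero (AlgebraicClosure (FractionRing W)) :=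
    charZero_of_injective_algebraMap
      (algebraMap (FractionRing W) (AlgebraicClosure (FractionRing W))).injective
  apply IsAlgClosed.ringEquiv_of_equiv_of_charZero
  · rw [hΩ]; exact aleph0_lt_continuum
  · rw [← Cardinal.eq, hΩ, Cardinal.mk_complex]

theorem isIntegral_of_isIntegral_int_map {A B W : Type*} [CommRing W] [CommRing A] [CommRing B]
    [Algebra W B] (f : A →+* B) {z : A} (hz : IsIntegral ℤ z) : IsIntegral W (f z) := by
  obtain ⟨p, hp, hpz⟩ := hz
  refine ⟨p.map (Int.castRingHom W), hp.map _, ?_⟩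
  rw [Polynomial.eval₂_map]
  have : (algebraMap W B).comp (Int.castRingHom W) = f.comp (algebraMap ℤ A) :=
    RingHom.ext_int _ _
  rw [this, ← Polynomial.hom_eval₂, hpz, map_zero]

/-- **Embedding lemma.** A characteristic-zero domain `W` of cardinality `𝔠` with a surjection
`c` onto an algebraically closed field `κ` embeds into `ℂ` in such a way that `c` extends to a
ring hom `π : R → κ` on a subring `R` of `ℂ` containing (the image of) `W` and all algebraic
integers. -/
theorem exists_embed_complex (W : Type) [CommRing W] [IsDomain W] [CharZero W] (hW : #W = 𝔠)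
    (κ : Type) [Field κ] [IsAlgClosed κ] (c : W →+* κ) (hc : Function.Surjective c) :
    ∃ (β : W →+* ℂ) (R : Subring ℂ) (π : R →+* κ),
      (∀ z : ℂ, IsIntegral ℤ z → z ∈ R) ∧ ∀ w : W, ∃ h : β w ∈ R, π ⟨β w, h⟩ = c w := by
  classical
  obtain ⟨e⟩ := exists_ringEquiv_algClosure_complex W hW
  set Ω₀ := AlgebraicClosure (FractionRing W) with hΩ₀
  set O : Subalgebra W Ω₀ := integralClosure W Ω₀ with hO
  have hinjWΩ : Function.Injective (algebraMap W Ω₀) := by
    rw [IsScalarTower.algebraMap_eq W (FractionRing W) Ω₀]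
    exact (algebraMap (FractionRing W) Ω₀).injective.comp (IsFractionRing.injective W _)
  have hinjWO : Function.Injective (algebraMap W O) := by
    intro x y hxy
    apply hinjWΩ
    have := congrArg (algebraMap O Ω₀) hxy
    simpa [← IsScalarTower.algebraMap_apply] using this
  have hPmax : (RingHom.ker c).IsMaximal := RingHom.ker_isMaximal_of_surjective c hc
  obtain ⟨M, hMmax, hMP⟩ := Ideal.exists_ideal_over_maximal_of_isIntegral (S := O)
    (RingHom.ker c) (by
      rw [(RingHom.injective_iff_ker_eq_bot _).mp hinjWO]; exact bot_le)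
  have := hMmax
  -- the residue map
  set q : W →+* (O ⧸ M) := (Ideal.Quotient.mk M).comp (algebraMap W O) with hq
  have hkerq : RingHom.ker c ≤ RingHom.ker q := by
    intro w hw
    rw [RingHom.mem_ker, hq, RingHom.comp_apply, Ideal.Quotient.eq_zero_iff_mem]
    rw [← hMP] at hw
    exact hw
  set ι : κ →+* (O ⧸ M) := RingHom.liftOfSurjective c hc ⟨q, hkerq⟩ with hι
  have hιc : ∀ w, ι (c w) = q w := fun w =>
    RingHom.liftOfRightInverse_comp_apply _ _ _ _ _
  have hιint : ι.IsIntegral := by
    intro y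
    obtain ⟨x, rfl⟩ := Ideal.Quotient.mk_surjective y
    obtain ⟨p, hpmonic, h2⟩ := Algebra.IsIntegral.isIntegral (R := W) x
    refine ⟨p.map c, hpmonic.map c, ?_⟩
    rw [Polynomial.eval₂_map]
    have h1 : ι.comp c = q := RingHom.ext hιc
    rw [h1, hq]
    rw [← Polynomial.hom_eval₂, h2, map_zero]
  have hιbij : Function.Bijective ι := IsAlgClosed.ringHom_bijective_of_isIntegral ι hιint
  set ιe : κ ≃+* (O ⧸ M) := RingEquiv.ofBijective ι hιbij with hιe
  set R : Subring ℂ := Subring.comap (e.symm : ℂ →+* Ω₀) O.toSubring with hR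
  set ψ : R →+* O := ((e.symm : ℂ →+* Ω₀).comp R.subtype).codRestrict O (fun z => z.2) with hψ
  set π : R →+* κ := (ιe.symm : (O ⧸ M) →+* κ).comp ((Ideal.Quotient.mk M).comp ψ) with hπ
  set β : W →+* ℂ := (e : Ω₀ →+* ℂ).comp (algebraMap W Ω₀) with hβ
  refine ⟨β, R, π, ?_, ?_⟩
  · intro z hz
    rw [hR, Subring.mem_comap]
    exact isIntegral_of_isIntegral_int_map (e.symm : ℂ →+* Ω₀) hz
  · intro w
    have hmem : β w ∈ R := by
      rw [hR, Subring.mem_comap, hβ, RingHom.comp_apply]
      simp only [RingEquiv.coe_toRingHom, RingEquiv.symm_apply_apply]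
      exact O.algebraMap_mem w
    refine ⟨hmem, ?_⟩
    have hψw : ψ ⟨β w, hmem⟩ = algebraMap W O w := by
      apply Subtype.ext
      show (e.symm : ℂ →+* Ω₀) (β w) = algebraMap W Ω₀ w
      rw [hβ, RingHom.comp_apply]
      exact e.symm_apply_apply _
    rw [hπ, RingHom.comp_apply, RingHom.comp_apply, hψw]
    have : (Ideal.Quotient.mk M) (algebraMap W O w) = ιe (c w) := (hιc w).symm
    rw [this]
    exact ιe.symm_apply_apply _

section WittFacts

variable (ℓ : ℕ) [hℓ : Fact ℓ.Prime] (κ : Type) [Field κ] [CharP κ ℓ]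

local notation "𝕎" => WittVector ℓ

/-- Witt vectors of a field of characteristic `ℓ` have characteristic zero -/
theorem witt_charZero : CharZero (𝕎 κ) := by
  obtain ⟨q, hq⟩ := CharP.exists (𝕎 κ)
  rcases CharP.char_is_prime_or_zero (𝕎 κ) q with hqp | hq0
  · exfalso
    have h1 : ((q : ℕ) : 𝕎 κ) = 0 := CharP.cast_eq_zero _ q
    have h2 : ((q : ℕ) : κ) = 0 := by
      have := congrArg (WittVector.constantCoeff (p := ℓ) (R := κ)) h1
      rw [map_natCast, map_zero] at this
      exact this
    have h3 : ℓ ∣ q := (CharP.cast_eq_zero_iff κ ℓ q).mp h2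
    have h4 : ℓ = q := (Nat.prime_dvd_prime_iff_eq hℓ.out hqp).mp h3
    apply WittVector.p_nonzero ℓ κ
    rw [← h4] at h1
    exact h1
  · subst hq0
    exact CharP.charP_to_charZero _

omit hℓ [CharP κ ℓ] in
/-- cardinality of the ring of Witt vectors of a countable (or at most continuum) field -/
theorem witt_cardinalMk (hκ : #κ ≤ 𝔠) : #(𝕎 κ) = 𝔠 := by
  have e : 𝕎 κ ≃ (ℕ → κ) :=
    ⟨fun x => x.coeff, fun f => WittVector.mk ℓ f, fun x => by ext n; rfl, fun f => rfl⟩
  rw [Cardinal.mk_congr e]
  have h2 : (2 : Cardinal) ≤ #κ := by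
    rw [Cardinal.two_le_iff]
    exact ⟨0, 1, zero_ne_one⟩
  have : #(ℕ → κ) = #κ ^ ℵ₀ := by
    rw [← Cardinal.mk_nat]
    simp
  rw [this]
  exact Cardinal.power_aleph0_of_le_continuum h2 hκ

end WittFacts

theorem algClosure_zmod_cardinalMk_le (ℓ : ℕ) [Fact ℓ.Prime] :
    #(AlgebraicClosure (ZMod ℓ)) ≤ 𝔠 := by
  have h1 := Algebra.IsAlgebraic.cardinalMk_le_max (ZMod ℓ) (AlgebraicClosure (ZMod ℓ))
  refine h1.trans (max_le ?_ aleph0_le_continuum)
  exact (Cardinal.lt_aleph0_of_finite _).le.trans aleph0_le_continuum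

end Fermat.Agent.DS48
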