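import Mathlib

/-!
# [G4] step 1: lifting finite-group representations through square-zero extensions

* `exists_lift_hom_of_pgroup_ker` : Schur–Zassenhaus lifting through a surjection with
  `ℓ`-group kernel, for groups of order prime to `ℓ`.
* `exists_lift_GL_of_sqZero` : lifting `G → GL_n(S)` along a surjection `R → S` of finite rings
  whose kernel is square-zero and killed by `ℓ`.
-/

set_option autoImplicit false

namespace Fermat.Agent.DS48

open Matrix


/-- **Lifting through a surjection with `ℓ`-group kernel (Schur–Zassenhaus).** -/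
theorem exists_lift_hom_of_pgroup_ker {H K G : Type*} [Group H] [Finite H] [Group K] [Group G]
    [Finite G] {ℓ : ℕ} [Fact ℓ.Prime] (Φ : H →* K) (hker : IsPGroup ℓ Φ.ker)
    (hG : ¬ ℓ ∣ Nat.card G) (ρbar : G →* K) (hrange : ∀ g, ρbar g ∈ Φ.range) :
    ∃ ρ : G →* H, ∀ g, Φ (ρ g) = ρbar g := by
  classical
  set H' : Subgroup H := ρbar.range.comap Φ with hH'
  set ψ : ↥H' →* K := Φ.comp H'.subtype with hψ
  have hψrange : ψ.range = ρbar.range := by
    ext y
    constructor
    · rintro ⟨x, rfl⟩
      exact x.2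
    · rintro ⟨g, rfl⟩
      obtain ⟨h, hh⟩ := hrange g
      exact ⟨⟨h, by rw [hH', Subgroup.mem_comap, hh]; exact ⟨g, rfl⟩⟩, hh⟩
  have hkerp : IsPGroup ℓ ψ.ker := by
    intro x
    have hx : (x : ↥H').1 ∈ Φ.ker := by
      have := x.2
      rw [MonoidHom.mem_ker] at this ⊢
      exact this
    obtain ⟨k, hk⟩ := hker ⟨(x : ↥H').1, hx⟩
    refine ⟨k, ?_⟩
    have hk' : ((x : ↥H').1) ^ ℓ ^ k = 1 := by
      have := congrArg Subtype.val hk
      simpa using this
    apply Subtype.ext
    apply Subtype.ext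
    simpa using hk'
  obtain ⟨n, hn⟩ := (IsPGroup.iff_card (p := ℓ)).mp hkerp
  have hidx : ψ.ker.index = Nat.card ρbar.range := by
    rw [Subgroup.index_ker, hψrange]
  have hcop : Nat.Coprime (Nat.card ψ.ker) ψ.ker.index := by
    rw [hn, hidx]
    apply Nat.Coprime.pow_left
    rw [Nat.Prime.coprime_iff_not_dvd Fact.out]
    exact fun hd => hG (dvd_trans hd (Subgroup.card_range_dvd ρbar))
  obtain ⟨C, hC⟩ := Subgroup.exists_right_complement'_of_coprime hcop
  have hinj : ∀ c ∈ C, ∀ c' ∈ C, ψ c = ψ c' → c = c' := by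
    intro c hc c' hc' hcc
    have h1 : c⁻¹ * c' ∈ ψ.ker := by
      rw [MonoidHom.mem_ker, map_mul, map_inv, hcc, inv_mul_cancel]
    have h2 : c⁻¹ * c' ∈ C := C.mul_mem (C.inv_mem hc) hc'
    have := hC.disjoint.le_bot ⟨h1, h2⟩
    rw [Subgroup.mem_bot] at this
    exact inv_mul_eq_one.mp this
  have hsurj : ∀ g : G, ∃ c ∈ C, ψ c = ρbar g := by
    intro g
    have hg : ρbar g ∈ ψ.range := by rw [hψrange]; exact ⟨g, rfl⟩
    obtain ⟨h, hh⟩ := hg
    obtain ⟨⟨a, c⟩, hac, _⟩ := (Subgroup.isComplement'_def.mp hC).existsUnique h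
    refine ⟨c.1, c.2, ?_⟩
    have ha : ψ a.1 = 1 := (MonoidHom.mem_ker).mp a.2
    simp only at hac
    rw [← hh, ← hac, map_mul, ha, one_mul]
  choose s hsC hsψ using hsurj
  refine ⟨MonoidHom.mk' (fun g => ((s g : ↥H') : H)) ?_, ?_⟩
  · intro g g'
    have : s (g * g') = s g * s g' := by
      apply hinj _ (hsC _) _ (C.mul_mem (hsC g) (hsC g'))
      rw [hsψ, map_mul, map_mul, hsψ, hsψ]
    rw [this]
    rfl
  · intro g
    exact hsψ g




section

variable {n : Type*} [Fintype n] {R : Type*} [CommRing R]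

theorem one_add_pow_of_sq_zero [DecidableEq n] (X : Matrix n n R) (hX : X * X = 0) (m : ℕ) :
    (1 + X) ^ m = 1 + m • X := by
  induction m with
  | zero => simp
  | succ m ih =>
    rw [pow_succ, ih, mul_add, mul_one, add_mul, one_mul, smul_mul_assoc, hX, smul_zero,
      add_zero, succ_nsmul]
    abel

/-- a matrix congruent to `1` modulo a square-zero ideal has square-zero difference from `1` -/
theorem mul_self_eq_zero_of_entries {X : Matrix n n R} {P : R → Prop}
    (hsq : ∀ a b : R, P a → P b → a * b = 0) (hX : ∀ i j, P (X i j)) : X * X = 0 := by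
  ext i j
  rw [Matrix.mul_apply]
  simp only [Matrix.zero_apply]
  exact Finset.sum_eq_zero fun k _ => hsq _ _ (hX i k) (hX k j)

end

/-- **Lifting step**: a surjective ring hom `φ : R → S` of a finite ring with square-zero kernel
killed by `ℓ`; every `ρbar : G → GL_n(S)` with `ℓ ∤ |G|` lifts to `GL_n(R)`. -/
theorem exists_lift_GL_of_sqZero {n : Type*} [Fintype n] [DecidableEq n]
    {R S : Type*} [CommRing R] [Finite R] [CommRing S] {ℓ : ℕ} [Fact ℓ.Prime]
    (φ : R →+* S) (hφ : Function.Surjective φ)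
    (hsq : ∀ a b : R, φ a = 0 → φ b = 0 → a * b = 0)
    (hℓ : ∀ a : R, φ a = 0 → (ℓ : R) * a = 0)
    {G : Type*} [Group G] [Finite G] (hG : ¬ ℓ ∣ Nat.card G) (ρbar : G →* GL n S) :
    ∃ ρ : G →* GL n R, ∀ g, Matrix.GeneralLinearGroup.map φ (ρ g) = ρbar g := by
  classical
  have : Finite (GL n R) := by
    unfold Matrix.GeneralLinearGroup
    infer_instance
  refine exists_lift_hom_of_pgroup_ker (ℓ := ℓ) (Matrix.GeneralLinearGroup.map φ) ?_ hG ρbar ?_
  · -- the kernel has exponent ℓ
    intro x
    refine ⟨1, ?_⟩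
    have hx : Matrix.GeneralLinearGroup.map φ x.1 = 1 := (MonoidHom.mem_ker).mp x.2
    set X : Matrix n n R := (x.1 : Matrix n n R) - 1 with hXdef
    have hXφ : ∀ i j, φ (X i j) = 0 := by
      intro i j
      have h1 : φ ((x.1 : Matrix n n R) i j) = (1 : Matrix n n S) i j := by
        have := congrArg (fun y : GL n S => (y : Matrix n n S) i j) hx
        simpa using this
      rw [hXdef, Matrix.sub_apply, map_sub, h1]
      by_cases hij : i = j
      · subst hij; simp
      · simp [Matrix.one_apply_ne hij]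
    have hXX : X * X = 0 := mul_self_eq_zero_of_entries (P := fun a => φ a = 0) hsq hXφ
    have hℓX : (ℓ : ℕ) • X = 0 := by
      ext i j
      rw [Matrix.smul_apply, Matrix.zero_apply, nsmul_eq_mul]
      exact hℓ _ (hXφ i j)
    have hxval : (x.1 : Matrix n n R) = 1 + X := by rw [hXdef]; abel
    apply Subtype.ext
    apply Units.ext
    simp only [pow_one, Subgroup.coe_pow, Units.val_pow_eq_pow_val, Subgroup.coe_one, Units.val_one]
    rw [hxval, one_add_pow_of_sq_zero X hXX, hℓX, add_zero]
  · -- surjectivity onto the range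
    intro g
    set y := ρbar g with hy
    choose a ha using fun i j => hφ ((y : Matrix n n S) i j)
    choose b hb using fun i j => hφ ((y⁻¹ : GL n S).val i j)
    set A : Matrix n n R := Matrix.of a with hA
    set B : Matrix n n R := Matrix.of b with hB
    have hAφ : A.map φ = (y : Matrix n n S) := by
      ext i j; simp [hA, ha]
    have hBφ : B.map φ = ((y⁻¹ : GL n S) : Matrix n n S) := by
      ext i j; simp [hB, hb]
    set Z : Matrix n n R := A * B - 1 with hZ
    have hZφ : ∀ i j, φ (Z i j) = 0 := by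
      intro i j
      have h1 : (A * B).map φ = 1 := by
        rw [Matrix.map_mul, hAφ, hBφ, ← Matrix.GeneralLinearGroup.coe_mul, mul_inv_cancel]
        rfl
      have h2 := congrFun (congrFun h1 i) j
      rw [Matrix.map_apply] at h2
      rw [hZ, Matrix.sub_apply, map_sub, h2]
      by_cases hij : i = j
      · subst hij; simp
      · simp [Matrix.one_apply_ne hij]
    have hZZ : Z * Z = 0 := mul_self_eq_zero_of_entries (P := fun a => φ a = 0) hsq hZφ
    have hAB : A * (B * (1 - Z)) = 1 := by
      have h1 : A * B = 1 + Z := by rw [hZ]; abel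
      calc A * (B * (1 - Z)) = (A * B) * (1 - Z) := by rw [mul_assoc]
        _ = (1 + Z) * (1 - Z) := by rw [h1]
        _ = 1 - Z * Z := by noncomm_ring
        _ = 1 := by rw [hZZ, sub_zero]
    have hBA : (B * (1 - Z)) * A = 1 := mul_eq_one_comm.mp hAB
    refine ⟨⟨A, B * (1 - Z), hAB, hBA⟩, ?_⟩
    apply Units.ext
    ext i j
    simp [hA, ha]

end Fermat.Agent.DS48
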