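import Fermat.Agent.DS48.G4_helper3_Witt
import Fermat.Agent.DS48.G4_helper3_Embed

/-!
# [G4] lifting mod-`ℓ` representations of groups of order prime to `ℓ` to `ℂ`

`g4 ℓ` : there are a subring `R ⊆ ℂ` containing all algebraic integers and a ring hom
`π : R →+* AlgebraicClosure (ZMod ℓ)` such that for every finite group `G` with `ℓ ∤ |G|`, every
finite field `𝔽` with `j : 𝔽 →+* AlgebraicClosure (ZMod ℓ)` and every `ρbar : G →* GL₂(𝔽)` there
is `ρ : G →* GL₂(ℂ)` with all entries in `R` and `π (ρ g)_{ab} = j (ρbar g)_{ab}`.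
`trace_det_of_entries` converts the entrywise statement into trace / determinant statements.
-/

set_option autoImplicit false

namespace Fermat.Agent.DS48

open Cardinal Matrix

/-- **[G4]** For every prime `ℓ` there is a subring `R ⊆ ℂ` containing all algebraic integers
and a ring hom `π : R → 𝔽̄_ℓ` ('reduction modulo a prime above `ℓ`') such that every
representation `ρbar : G → GL₂(𝔽)` of a finite group of order prime to `ℓ` over a finite subfield
`j : 𝔽 → 𝔽̄_ℓ` lifts to `ρ : G → GL₂(ℂ)` with entries in `R` reducing to those of `ρbar`. -/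
theorem g4 (ℓ : ℕ) [Fact ℓ.Prime] :
    ∃ (R : Subring ℂ) (π : R →+* AlgebraicClosure (ZMod ℓ)),
      (∀ z : ℂ, IsIntegral ℤ z → z ∈ R) ∧
      ∀ (G : Type) [Group G] [Finite G], ¬ ℓ ∣ Nat.card G →
        ∀ (𝔽 : Type) [Field 𝔽] [Finite 𝔽] (j : 𝔽 →+* AlgebraicClosure (ZMod ℓ))
          (ρbar : G →* GL (Fin 2) 𝔽),
          ∃ ρ : G →* GL (Fin 2) ℂ, ∀ g a b,
            ∃ h : (ρ g).val a b ∈ R, π ⟨_, h⟩ = j ((ρbar g).val a b) := by
  classical
  set κ := AlgebraicClosure (ZMod ℓ) with hκ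
  have : CharZero (WittVector ℓ κ) := witt_charZero ℓ κ
  obtain ⟨β, R, π, hint, hβ⟩ := exists_embed_complex (WittVector ℓ κ)
    (witt_cardinalMk ℓ κ (algClosure_zmod_cardinalMk_le ℓ)) κ
    (WittVector.constantCoeff (p := ℓ) (R := κ)) (WittVector.constantCoeff_surjective ℓ)
  refine ⟨R, π, hint, ?_⟩
  intro G _ _ hG 𝔽 _ _ j ρbar
  have : CharP 𝔽 ℓ := RingHom.charP j j.injective ℓ
  obtain ⟨ρW, hρW⟩ := exists_witt_lift ℓ 𝔽 hG ρbar
  refine ⟨(Matrix.GeneralLinearGroup.map (β.comp (WittVector.map j))).comp ρW, ?_⟩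
  intro g a b
  obtain ⟨h, hh⟩ := hβ (WittVector.map j ((ρW g).val a b))
  refine ⟨h, ?_⟩
  rw [← hρW g a b]
  exact hh

/-- entrywise reduction of a `2 × 2` matrix implies reduction of trace and determinant -/
theorem trace_det_of_entries {S κ 𝔽 : Type*} [CommRing S] [CommRing κ] [CommRing 𝔽]
    (R : Subring S) (π : R →+* κ) (j : 𝔽 →+* κ)
    (A : Matrix (Fin 2) (Fin 2) S) (Abar : Matrix (Fin 2) (Fin 2) 𝔽)
    (hA : ∀ a b, ∃ h : A a b ∈ R, π ⟨_, h⟩ = j (Abar a b)) :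
    (∃ h : A.trace ∈ R, π ⟨_, h⟩ = j Abar.trace) ∧
      (∃ h : A.det ∈ R, π ⟨_, h⟩ = j Abar.det) := by
  obtain ⟨h00, e00⟩ := hA 0 0
  obtain ⟨h01, e01⟩ := hA 0 1
  obtain ⟨h10, e10⟩ := hA 1 0
  obtain ⟨h11, e11⟩ := hA 1 1
  constructor
  · have hmem : A.trace ∈ R := by
      rw [Matrix.trace_fin_two]; exact R.add_mem h00 h11
    refine ⟨hmem, ?_⟩
    have : (⟨A.trace, hmem⟩ : R) = ⟨_, h00⟩ + ⟨_, h11⟩ := by
      apply Subtype.ext
      simp [Matrix.trace_fin_two]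
    rw [this, map_add, e00, e11, Matrix.trace_fin_two, map_add]
  · have hmem : A.det ∈ R := by
      rw [Matrix.det_fin_two]; exact R.sub_mem (R.mul_mem h00 h11) (R.mul_mem h01 h10)
    refine ⟨hmem, ?_⟩
    have : (⟨A.det, hmem⟩ : R) = ⟨_, h00⟩ * ⟨_, h11⟩ - ⟨_, h01⟩ * ⟨_, h10⟩ := by
      apply Subtype.ext
      simp [Matrix.det_fin_two]
    rw [this, map_sub, map_mul, map_mul, e00, e11, e01, e10, Matrix.det_fin_two, map_sub,
      map_mul, map_mul]

end Fermat.Agent.DS48
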