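import Fermat.Agent.DS48.G4_helper3_Lift

/-!
# [G4] step 2: lifting to Witt vectors

For a finite field `𝔽` of characteristic `ℓ` and a finite group `G` of order prime to `ℓ`, every
`ρbar : G →* GL₂(𝔽)` lifts to `G →* GL₂(𝕎(𝔽))` (`exists_witt_lift`): the kernel of
`W_{n+2}(𝔽) → W_{n+1}(𝔽)` is square-zero and killed by `ℓ`, so `exists_lift_GL_of_sqZero`
gives a compatible tower, and `𝕎(𝔽)` is the inverse limit.
-/

set_option autoImplicit false

namespace Fermat.Agent.DS48

open Matrix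

section Witt

variable (ℓ : ℕ) [hℓ : Fact ℓ.Prime] (𝔽 : Type*) [Field 𝔽] [Finite 𝔽] [CharP 𝔽 ℓ]

local notation "𝕎" => WittVector ℓ

/-- elements of `𝕎 𝔽` killed by `truncate m` are multiples of `ℓ^m` -/
theorem witt_mem_span_of_truncate_eq_zero (m : ℕ) (x : 𝕎 𝔽)
    (hx : WittVector.truncate m x = 0) : x ∈ Ideal.span {((ℓ : 𝕎 𝔽)) ^ m} := by
  rw [WittVector.mem_span_p_pow_iff_le_coeff_eq_zero]
  exact (WittVector.mem_ker_truncate m x).mp hx

theorem witt_truncate_eq_zero_of_mem_span (m : ℕ) (x : 𝕎 𝔽)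
    (hx : x ∈ Ideal.span {((ℓ : 𝕎 𝔽)) ^ m}) : WittVector.truncate m x = 0 := by
  rw [WittVector.mem_span_p_pow_iff_le_coeff_eq_zero] at hx
  exact (WittVector.mem_ker_truncate m x).mpr hx

/-- the kernel of `W_{n+2} → W_{n+1}` is square-zero -/
theorem truncWitt_ker_sq (n : ℕ) (a b : TruncatedWittVector ℓ (n + 2) 𝔽)
    (ha : TruncatedWittVector.truncate (Nat.le_succ (n + 1)) a = 0)
    (hb : TruncatedWittVector.truncate (Nat.le_succ (n + 1)) b = 0) : a * b = 0 := by
  obtain ⟨x, rfl⟩ := WittVector.truncate_surjective ℓ (n + 2) 𝔽 a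
  obtain ⟨y, rfl⟩ := WittVector.truncate_surjective ℓ (n + 2) 𝔽 b
  rw [TruncatedWittVector.truncate_wittVector_truncate] at ha hb
  have hx := witt_mem_span_of_truncate_eq_zero ℓ 𝔽 (n + 1) x ha
  have hy := witt_mem_span_of_truncate_eq_zero ℓ 𝔽 (n + 1) y hb
  rw [Ideal.mem_span_singleton] at hx hy
  obtain ⟨u, rfl⟩ := hx
  obtain ⟨v, rfl⟩ := hy
  rw [← map_mul]
  apply witt_truncate_eq_zero_of_mem_span
  rw [Ideal.mem_span_singleton]
  refine ⟨(ℓ : 𝕎 𝔽) ^ n * u * v, ?_⟩
  ring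

/-- the kernel of `W_{n+2} → W_{n+1}` is killed by `ℓ` -/
theorem truncWitt_ker_mul_prime (n : ℕ) (a : TruncatedWittVector ℓ (n + 2) 𝔽)
    (ha : TruncatedWittVector.truncate (Nat.le_succ (n + 1)) a = 0) :
    (ℓ : TruncatedWittVector ℓ (n + 2) 𝔽) * a = 0 := by
  obtain ⟨x, rfl⟩ := WittVector.truncate_surjective ℓ (n + 2) 𝔽 a
  rw [TruncatedWittVector.truncate_wittVector_truncate] at ha
  have hx := witt_mem_span_of_truncate_eq_zero ℓ 𝔽 (n + 1) x ha
  rw [Ideal.mem_span_singleton] at hx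
  obtain ⟨u, rfl⟩ := hx
  have : (ℓ : TruncatedWittVector ℓ (n + 2) 𝔽) = WittVector.truncate (n + 2) (ℓ : 𝕎 𝔽) := by
    rw [map_natCast]
  rw [this, ← map_mul]
  apply witt_truncate_eq_zero_of_mem_span
  rw [Ideal.mem_span_singleton]
  refine ⟨u, ?_⟩
  ring

/-- `W_1(𝔽) → 𝔽`, the zeroth coefficient -/
noncomputable def truncWittOneHom : TruncatedWittVector ℓ 1 𝔽 →+* 𝔽 :=
  RingHom.liftOfRightInverse (WittVector.truncate 1) TruncatedWittVector.out
    TruncatedWittVector.truncateFun_out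
    ⟨WittVector.constantCoeff, by
      intro x hx
      rw [WittVector.mem_ker_truncate] at hx
      rw [RingHom.mem_ker]
      exact hx 0 one_pos⟩

omit [Finite 𝔽] [CharP 𝔽 ℓ] in
theorem truncWittOneHom_truncate (x : 𝕎 𝔽) :
    truncWittOneHom ℓ 𝔽 (WittVector.truncate 1 x) = x.coeff 0 :=
  RingHom.liftOfRightInverse_comp_apply _ _ _ _ _

omit [Finite 𝔽] [CharP 𝔽 ℓ] in
theorem truncWittOneHom_bijective : Function.Bijective (truncWittOneHom ℓ 𝔽) := by
  constructor
  · rw [injective_iff_map_eq_zero]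
    intro a ha
    obtain ⟨x, rfl⟩ := WittVector.truncate_surjective ℓ 1 𝔽 a
    rw [truncWittOneHom_truncate] at ha
    rw [← RingHom.mem_ker, WittVector.mem_ker_truncate]
    intro i hi
    obtain rfl : i = 0 := by omega
    exact ha
  · intro c
    obtain ⟨x, hx⟩ := WittVector.constantCoeff_surjective (p := ℓ) c
    exact ⟨WittVector.truncate 1 x, by rw [truncWittOneHom_truncate]; exact hx⟩

variable {G : Type*} [Group G] [Finite G]

/-- a compatible tower of lifts -/
theorem exists_truncWitt_tower (hG : ¬ ℓ ∣ Nat.card G) (ρbar : G →* GL (Fin 2) 𝔽) :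
    ∃ r : ∀ n : ℕ, G →* GL (Fin 2) (TruncatedWittVector ℓ (n + 1) 𝔽),
      (∀ g, Matrix.GeneralLinearGroup.map (truncWittOneHom ℓ 𝔽) (r 0 g) = ρbar g) ∧
      ∀ n g, Matrix.GeneralLinearGroup.map
        (TruncatedWittVector.truncate (Nat.le_succ (n + 1))) (r (n + 1) g) = r n g := by
  classical
  -- base
  let e1 : TruncatedWittVector ℓ 1 𝔽 ≃+* 𝔽 :=
    RingEquiv.ofBijective (truncWittOneHom ℓ 𝔽) (truncWittOneHom_bijective ℓ 𝔽)
  let r0 : G →* GL (Fin 2) (TruncatedWittVector ℓ 1 𝔽) :=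
    (Matrix.GeneralLinearGroup.map (e1.symm : 𝔽 →+* TruncatedWittVector ℓ 1 𝔽)).comp ρbar
  have hr0 : ∀ g, Matrix.GeneralLinearGroup.map (truncWittOneHom ℓ 𝔽) (r0 g) = ρbar g := by
    intro g
    apply Units.ext
    ext i j
    simp only [r0, MonoidHom.comp_apply, Matrix.GeneralLinearGroup.map_apply]
    exact e1.apply_symm_apply _
  -- step
  have hstep : ∀ (n : ℕ) (r : G →* GL (Fin 2) (TruncatedWittVector ℓ (n + 1) 𝔽)),
      ∃ r' : G →* GL (Fin 2) (TruncatedWittVector ℓ (n + 2) 𝔽),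
        ∀ g, Matrix.GeneralLinearGroup.map
          (TruncatedWittVector.truncate (Nat.le_succ (n + 1))) (r' g) = r g := by
    intro n r
    have : Finite (TruncatedWittVector ℓ (n + 2) 𝔽) := by
      have := Fintype.ofFinite 𝔽
      exact Finite.of_fintype _
    exact exists_lift_GL_of_sqZero (ℓ := ℓ)
      (TruncatedWittVector.truncate (p := ℓ) (R := 𝔽) (Nat.le_succ (n + 1)))
      (TruncatedWittVector.truncate_surjective _)
      (truncWitt_ker_sq ℓ 𝔽 n) (truncWitt_ker_mul_prime ℓ 𝔽 n) hG r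
  choose next hnext using hstep
  let r : ∀ n : ℕ, G →* GL (Fin 2) (TruncatedWittVector ℓ (n + 1) 𝔽) :=
    fun n => Nat.rec r0 (fun n rn => next n rn) n
  exact ⟨r, hr0, fun n g => hnext n (r n) g⟩

omit [Finite 𝔽] [CharP 𝔽 ℓ] in
/-- matrices over `𝕎 𝔽` are determined by their truncations -/
theorem witt_matrix_ext {m : Type*} (A B : Matrix m m (𝕎 𝔽))
    (h : ∀ n : ℕ, A.map (WittVector.truncate (n + 1)) = B.map (WittVector.truncate (n + 1))) :
    A = B := by
  ext i j k
  have := congrFun (congrFun (h k) i) j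
  simp only [Matrix.map_apply] at this
  have h2 := congrArg (fun x => TruncatedWittVector.coeff ⟨k, Nat.lt_succ_self k⟩ x) this
  simpa using h2

/-- **Lifting to Witt vectors.** -/
theorem exists_witt_lift (hG : ¬ ℓ ∣ Nat.card G) (ρbar : G →* GL (Fin 2) 𝔽) :
    ∃ ρ : G →* GL (Fin 2) (𝕎 𝔽),
      ∀ g i j, ((ρ g : Matrix (Fin 2) (Fin 2) (𝕎 𝔽)) i j).coeff 0
        = (ρbar g : Matrix (Fin 2) (Fin 2) 𝔽) i j := by
  classical
  obtain ⟨r, hr0, hr⟩ := exists_truncWitt_tower ℓ 𝔽 hG ρbar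
  -- coefficientwise compatibility
  have hcompat : ∀ (k n : ℕ) (hkn : k ≤ n) (g : G) (i j : Fin 2),
      TruncatedWittVector.coeff ⟨k, Nat.lt_succ_of_le hkn⟩ ((r n g).val i j)
        = TruncatedWittVector.coeff ⟨k, Nat.lt_succ_self k⟩ ((r k g).val i j) := by
    intro k n hkn
    induction n, hkn using Nat.le_induction with
    | base => intro g i j; rfl
    | succ n hkn ih =>
      intro g i j
      rw [← ih g i j]
      have h1 := congrArg (fun y : GL (Fin 2) (TruncatedWittVector ℓ (n + 1) 𝔽) =>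
        y.val i j) (hr n g)
      simp only [Matrix.GeneralLinearGroup.map_apply] at h1
      rw [← h1, TruncatedWittVector.coeff_truncate]
      rfl
  set X : G → Matrix (Fin 2) (Fin 2) (𝕎 𝔽) := fun g => Matrix.of fun i j =>
    WittVector.mk ℓ (fun k => TruncatedWittVector.coeff ⟨k, Nat.lt_succ_self k⟩
      ((r k g).val i j)) with hX
  have hXtr : ∀ (n : ℕ) (g : G),
      (X g).map (WittVector.truncate (n + 1)) = (r n g).val := by
    intro n g
    ext i j k
    simp only [Matrix.map_apply, hX, Matrix.of_apply, WittVector.coeff_truncate,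
      WittVector.coeff_mk]
    exact (hcompat k n (Nat.lt_succ_iff.mp k.2) g i j).symm
  have hXmul : ∀ g h, X (g * h) = X g * X h := by
    intro g h
    apply witt_matrix_ext
    intro n
    rw [Matrix.map_mul, hXtr, hXtr, hXtr, map_mul]
    rfl
  have hXone : X 1 = 1 := by
    apply witt_matrix_ext
    intro n
    rw [hXtr, map_one, Matrix.map_one _ (map_zero _) (map_one _)]
    rfl
  refine ⟨MonoidHom.mk' (fun g => ⟨X g, X g⁻¹, by rw [← hXmul, mul_inv_cancel, hXone],
    by rw [← hXmul, inv_mul_cancel, hXone]⟩) ?_, ?_⟩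
  · intro g h
    apply Units.ext
    exact hXmul g h
  · intro g i j
    simp only [MonoidHom.mk'_apply]
    have h0 := congrArg (fun y : GL (Fin 2) 𝔽 => y.val i j) (hr0 g)
    simp only [Matrix.GeneralLinearGroup.map_apply] at h0
    rw [← h0]
    have h1 := congrFun (congrFun (hXtr 0 g) i) j
    simp only [Matrix.map_apply] at h1
    rw [← h1, truncWittOneHom_truncate]

end Witt

end Fermat.Agent.DS48
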