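import Mathlib.NumberTheory.ModularForms.SlashActions
import Mathlib.NumberTheory.ModularForms.CongruenceSubgroups

set_option autoImplicit false

/-!
# [HECKE1] abstract coset lemma

If `Δ ⊆ GL₂(ℝ)` is stable under right multiplication by `Γ` and `r : ι → Δ` is a system of
representatives of `Γ \ Δ`, then `∑ i, f ∣[k] r i` is `Γ`-invariant whenever `f` is.
-/

namespace Fermat.Agent.DS48

open scoped MatrixGroups ModularForm
open UpperHalfPlane

theorem sum_slash_invariant_of_reps {ι : Type*} [Fintype ι] {k : ℤ}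
    (Γ : Subgroup (GL (Fin 2) ℝ)) (Δ : Set (GL (Fin 2) ℝ)) (r : ι → GL (Fin 2) ℝ)
    (hr : ∀ i, r i ∈ Δ) (hΔ : ∀ α ∈ Δ, ∀ γ ∈ Γ, α * γ ∈ Δ)
    (hE : ∀ α ∈ Δ, ∃ i, α * (r i)⁻¹ ∈ Γ)
    (hU : ∀ i j, r i * (r j)⁻¹ ∈ Γ → i = j)
    (f : ℍ → ℂ) (hf : ∀ γ ∈ Γ, f ∣[k] γ = f) (γ : GL (Fin 2) ℝ) (hγ : γ ∈ Γ) :
    (∑ i, f ∣[k] r i) ∣[k] γ = ∑ i, f ∣[k] r i := by
  classical
  choose π hπ using fun i => hE (r i * γ) (hΔ _ (hr i) γ hγ)
  have hinj : Function.Injective π := by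
    intro i j hij
    apply hU
    have h1 := hπ i
    have h2 := hπ j
    rw [hij] at h1
    have : r i * (r j)⁻¹ = (r i * γ * (r (π j))⁻¹) * (r j * γ * (r (π j))⁻¹)⁻¹ := by group
    rw [this]
    exact Γ.mul_mem h1 (Γ.inv_mem h2)
  have hbij : Function.Bijective π := hinj.bijective_of_finite
  rw [SlashAction.sum_slash]
  have h1 : ∀ i, (f ∣[k] r i) ∣[k] γ = f ∣[k] r (π i) := by
    intro i
    rw [← SlashAction.slash_mul]
    have : r i * γ = (r i * γ * (r (π i))⁻¹) * r (π i) := by group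
    rw [this, SlashAction.slash_mul, hf _ (hπ i)]
  simp_rw [h1]
  exact Fintype.sum_bijective π hbij _ _ (fun _ => rfl)

end Fermat.Agent.DS48
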