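import Fermat.Agent.DS48.HECKE1_lead_Slash
import Fermat.Prelude.Def_ModularForm_HeckeOperatorForms

set_option autoImplicit false

/-!
# [HECKE1] diamond operators and `T_p` on `CuspForm (Gamma1 N) k`
-/

namespace Fermat.Agent.DS48

open Matrix CongruenceSubgroup ModularForm UpperHalfPlane
open scoped MatrixGroups ModularForm

variable {N : ℕ}

/-- `Γ₁(N)` is normalised by `Γ₀(N)` -/
theorem conj_mem_Gamma1 {γ g : SL(2, ℤ)} (hγ : γ ∈ Gamma0 N) (hg : g ∈ Gamma1 N) :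
    γ * g * γ⁻¹ ∈ Gamma1 N := by
  have hg0 : g ∈ Gamma0 N := Gamma1_in_Gamma0 N hg
  have hmem : γ * g * γ⁻¹ ∈ Gamma0 N :=
    (Gamma0 N).mul_mem ((Gamma0 N).mul_mem hγ hg0) ((Gamma0 N).inv_mem hγ)
  have h1 : Gamma0Map N ⟨g, hg0⟩ = 1 := (mem_Gamma1_iff_Gamma0Map ⟨g, hg0⟩).mp hg
  refine (mem_Gamma1_iff_Gamma0Map ⟨γ * g * γ⁻¹, hmem⟩).mpr ?_
  have e : (⟨γ * g * γ⁻¹, hmem⟩ : Gamma0 N) * ⟨γ, hγ⟩ = ⟨γ, hγ⟩ * ⟨g, hg0⟩ := by
    apply Subtype.ext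
    show γ * g * γ⁻¹ * γ = γ * g
    rw [inv_mul_cancel_right]
  have e' := congrArg (Gamma0Map N) e
  rw [map_mul, map_mul, h1, mul_one, mul_comm] at e'
  -- x * y = x in ZMod N with x a unit
  have hu : IsUnit (Gamma0Map N ⟨γ, hγ⟩) := by
    have : (⟨γ, hγ⟩ : Gamma0 N) * ⟨γ, hγ⟩⁻¹ = 1 := mul_inv_cancel _
    have h2 := congrArg (Gamma0Map N) this
    rw [map_mul, map_one] at h2
    exact IsUnit.of_mul_eq_one _ h2
  have : Gamma0Map N ⟨γ, hγ⟩ * Gamma0Map N ⟨γ * g * γ⁻¹, hmem⟩ = Gamma0Map N ⟨γ, hγ⟩ * 1 := by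
    rw [e', mul_one]
  exact hu.mul_left_cancel this

/-- slash by `γ ∈ Γ₀(N)` preserves `Γ₁(N)`-invariance -/
theorem slash_Gamma0_invariant {k : ℤ} {γ : SL(2, ℤ)} (hγ : γ ∈ Gamma0 N) (f : ℍ → ℂ)
    (hf : ∀ g ∈ (Gamma1 N : Subgroup (GL (Fin 2) ℝ)), f ∣[k] g = f)
    (g : GL (Fin 2) ℝ) (hg : g ∈ (Gamma1 N : Subgroup (GL (Fin 2) ℝ))) :
    (f ∣[k] γ) ∣[k] g = f ∣[k] γ := by
  obtain ⟨g', hg', rfl⟩ := hg
  have h1 : (f ∣[k] γ) ∣[k] (Matrix.SpecialLinearGroup.mapGL ℝ g' : GL (Fin 2) ℝ) =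
      f ∣[k] (γ * g') := by
    rw [SlashAction.slash_mul]
    rfl
  rw [h1]
  have h2 : γ * g' = (γ * g' * γ⁻¹) * γ := by group
  rw [h2, SlashAction.slash_mul]
  congr 1
  exact hf _ ⟨γ * g' * γ⁻¹, conj_mem_Gamma1 hγ hg', rfl⟩

open scoped Pointwise in
open ConjAct in
theorem conjAct_Gamma1_eq {γ : SL(2, ℤ)} (hγ : γ ∈ Gamma0 N) :
    (Gamma1 N : Subgroup (GL (Fin 2) ℝ)) =
      toConjAct (Matrix.SpecialLinearGroup.mapGL ℝ γ : GL (Fin 2) ℝ)⁻¹ •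
        (Gamma1 N : Subgroup (GL (Fin 2) ℝ)) := by
  ext x
  rw [Subgroup.mem_pointwise_smul_iff_inv_smul_mem]
  simp only [ConjAct.smul_def, ← ConjAct.toConjAct_inv, inv_inv, ConjAct.ofConjAct_toConjAct]
  constructor
  · rintro ⟨g, hg, rfl⟩
    refine ⟨γ * g * γ⁻¹, conj_mem_Gamma1 hγ hg, ?_⟩
    simp [map_mul]
  · rintro ⟨g, hg, hgx⟩
    refine ⟨γ⁻¹ * g * γ, ?_, ?_⟩
    · have := conj_mem_Gamma1 ((Gamma0 N).inv_mem hγ) hg
      simpa using this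
    · simp only [map_mul, map_inv, hgx]
      group

open scoped Pointwise in
open ConjAct in
/-- slash by `γ ∈ Γ₀(N)` as a cusp form on `Γ₁(N)` -/
noncomputable def slashGamma0 {k : ℤ} (γ : SL(2, ℤ)) (hγ : γ ∈ Gamma0 N)
    (f : CuspForm (Gamma1 N) k) : CuspForm (Gamma1 N) k :=
  CuspForm.mcast rfl (CuspForm.translate f (Matrix.SpecialLinearGroup.mapGL ℝ γ : GL (Fin 2) ℝ))
    (conjAct_Gamma1_eq hγ)

@[simp] theorem coe_slashGamma0 {k : ℤ} (γ : SL(2, ℤ)) (hγ : γ ∈ Gamma0 N)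
    (f : CuspForm (Gamma1 N) k) : ⇑(slashGamma0 γ hγ f) = (f : ℍ → ℂ) ∣[k] γ := rfl

/-- slash by `γ ∈ Γ₀(N)` as a linear endomorphism of `S_k(Γ₁(N))` -/
noncomputable def diamondBy (k : ℤ) (γ : SL(2, ℤ)) (hγ : γ ∈ Gamma0 N) :
    CuspForm (Gamma1 N) k →ₗ[ℂ] CuspForm (Gamma1 N) k where
  toFun := slashGamma0 γ hγ
  map_add' f g := DFunLike.coe_injective <| by
    show (⇑(f + g)) ∣[k] γ = ⇑f ∣[k] γ + ⇑g ∣[k] γ
    rw [FunLike.coe_add, SlashAction.add_slash]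
  map_smul' c f := DFunLike.coe_injective <| by
    show (⇑(c • f)) ∣[k] γ = c • (⇑f ∣[k] γ)
    rw [FunLike.coe_smul, ModularForm.SL_smul_slash]


theorem exists_Gamma0_lowerRight (N : ℕ) [NeZero N] (d : (ZMod N)ˣ) :
    ∃ γ : SL(2, ℤ), γ ∈ Gamma0 N ∧ ((γ 1 1 : ℤ) : ZMod N) = (d : ZMod N) := by
  set D : ℕ := (d : ZMod N).val with hD
  have hcop : Nat.Coprime D N := ZMod.val_coe_unit_coprime d
  have hbez := Int.gcd_eq_gcd_ab (D : ℤ) (N : ℤ)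
  have hg : Int.gcd (D : ℤ) (N : ℤ) = 1 := by
    rw [Int.gcd_natCast_natCast]; exact hcop
  rw [hg] at hbez
  set a := Int.gcdA (D : ℤ) (N : ℤ)
  set b := Int.gcdB (D : ℤ) (N : ℤ)
  refine ⟨⟨!![a, -b; (N : ℤ), (D : ℤ)], ?_⟩, ?_, ?_⟩
  · rw [Matrix.det_fin_two_of]
    push_cast at hbez
    linarith
  · refine Gamma0_mem.mpr ?_
    show (((!![a, -b; (N : ℤ), (D : ℤ)] : Matrix (Fin 2) (Fin 2) ℤ) 1 0 : ℤ) : ZMod N) = 0
    simp
  · show (((!![a, -b; (N : ℤ), (D : ℤ)] : Matrix (Fin 2) (Fin 2) ℤ) 1 1 : ℤ) : ZMod N) = _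
    simp [hD]


theorem mul_inv_mem_Gamma1_of_lowerRight_eq {γ γ' : SL(2, ℤ)} (hγ : γ ∈ Gamma0 N)
    (hγ' : γ' ∈ Gamma0 N) (h : ((γ 1 1 : ℤ) : ZMod N) = ((γ' 1 1 : ℤ) : ZMod N)) :
    γ * γ'⁻¹ ∈ Gamma1 N := by
  have hmem : γ * γ'⁻¹ ∈ Gamma0 N := (Gamma0 N).mul_mem hγ ((Gamma0 N).inv_mem hγ')
  refine (mem_Gamma1_iff_Gamma0Map ⟨γ * γ'⁻¹, hmem⟩).mpr ?_
  have e : (⟨γ * γ'⁻¹, hmem⟩ : Gamma0 N) * ⟨γ', hγ'⟩ = ⟨γ, hγ⟩ := by
    apply Subtype.ext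
    show γ * γ'⁻¹ * γ' = γ
    rw [inv_mul_cancel_right]
  have e' := congrArg (Gamma0Map N) e
  rw [map_mul] at e'
  have hu : IsUnit (Gamma0Map N ⟨γ', hγ'⟩) := by
    have : (⟨γ', hγ'⟩ : Gamma0 N) * ⟨γ', hγ'⟩⁻¹ = 1 := mul_inv_cancel _
    have h2 := congrArg (Gamma0Map N) this
    rw [map_mul, map_one] at h2
    exact IsUnit.of_mul_eq_one _ h2
  have h1 : Gamma0Map N ⟨γ, hγ⟩ = Gamma0Map N ⟨γ', hγ'⟩ := h
  have : Gamma0Map N ⟨γ * γ'⁻¹, hmem⟩ * Gamma0Map N ⟨γ', hγ'⟩ = 1 * Gamma0Map N ⟨γ', hγ'⟩ := by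
    rw [e', h1, one_mul]
  exact hu.mul_right_cancel this

theorem diamondBy_congr {k : ℤ} {γ γ' : SL(2, ℤ)} (hγ : γ ∈ Gamma0 N) (hγ' : γ' ∈ Gamma0 N)
    (h : ((γ 1 1 : ℤ) : ZMod N) = ((γ' 1 1 : ℤ) : ZMod N)) :
    diamondBy k γ hγ = diamondBy k γ' hγ' := by
  apply LinearMap.ext
  intro f
  apply DFunLike.coe_injective
  show (f : ℍ → ℂ) ∣[k] γ = (f : ℍ → ℂ) ∣[k] γ'
  have h2 : γ = (γ * γ'⁻¹) * γ' := by group
  conv_lhs => rw [h2]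
  rw [SlashAction.slash_mul]
  congr 1
  have := SlashInvariantFormClass.slash_action_eq f
    (Matrix.SpecialLinearGroup.mapGL ℝ (γ * γ'⁻¹))
    ⟨γ * γ'⁻¹, mul_inv_mem_Gamma1_of_lowerRight_eq hγ hγ' h, rfl⟩
  exact this

theorem diamondBy_mul {k : ℤ} {γ γ' : SL(2, ℤ)} (hγ : γ ∈ Gamma0 N) (hγ' : γ' ∈ Gamma0 N) :
    diamondBy k (γ * γ') ((Gamma0 N).mul_mem hγ hγ') = (diamondBy k γ' hγ').comp (diamondBy k γ hγ) := by
  apply LinearMap.ext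
  intro f
  apply DFunLike.coe_injective
  show (f : ℍ → ℂ) ∣[k] (γ * γ') = ((f : ℍ → ℂ) ∣[k] γ) ∣[k] γ'
  rw [SlashAction.slash_mul]

theorem diamondBy_of_mem_Gamma1 {k : ℤ} {γ : SL(2, ℤ)} (hγ : γ ∈ Gamma1 N) :
    diamondBy k γ (Gamma1_in_Gamma0 N hγ) = LinearMap.id := by
  apply LinearMap.ext
  intro f
  apply DFunLike.coe_injective
  show (f : ℍ → ℂ) ∣[k] γ = f
  exact SlashInvariantFormClass.slash_action_eq f
    (Matrix.SpecialLinearGroup.mapGL ℝ γ) ⟨γ, hγ, rfl⟩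

variable [NeZero N]

/-- a matrix in `Γ₀(N)` with lower-right entry `≡ d` -/
noncomputable def sigmaOf (N : ℕ) [NeZero N] (d : (ZMod N)ˣ) : SL(2, ℤ) :=
  (exists_Gamma0_lowerRight N d).choose

theorem sigmaOf_mem (d : (ZMod N)ˣ) : sigmaOf N d ∈ Gamma0 N :=
  (exists_Gamma0_lowerRight N d).choose_spec.1

theorem sigmaOf_lowerRight (d : (ZMod N)ˣ) :
    (((sigmaOf N d) 1 1 : ℤ) : ZMod N) = (d : ZMod N) :=
  (exists_Gamma0_lowerRight N d).choose_spec.2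

/-- **the diamond operator `⟨d⟩`** on `S_k(Γ₁(N))`: slash by any `γ ∈ Γ₀(N)` with lower-right
entry `≡ d`. -/
noncomputable def diamond (k : ℤ) (d : (ZMod N)ˣ) :
    CuspForm (Gamma1 N) k →ₗ[ℂ] CuspForm (Gamma1 N) k :=
  diamondBy k (sigmaOf N d) (sigmaOf_mem d)

theorem diamond_eq_diamondBy (k : ℤ) (d : (ZMod N)ˣ) {γ : SL(2, ℤ)} (hγ : γ ∈ Gamma0 N)
    (h : ((γ 1 1 : ℤ) : ZMod N) = (d : ZMod N)) : diamond k d = diamondBy k γ hγ :=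
  diamondBy_congr _ _ ((sigmaOf_lowerRight d).trans h.symm)

theorem coe_diamond_eq_slash (k : ℤ) (d : (ZMod N)ˣ) {γ : SL(2, ℤ)} (hγ : γ ∈ Gamma0 N)
    (h : ((γ 1 1 : ℤ) : ZMod N) = (d : ZMod N)) (f : CuspForm (Gamma1 N) k) :
    ⇑(diamond k d f) = (f : ℍ → ℂ) ∣[k] γ := by
  rw [diamond_eq_diamondBy k d hγ h]
  rfl

omit [NeZero N] in
theorem lowerRight_mul {γ γ' : SL(2, ℤ)} (hγ : γ ∈ Gamma0 N) (hγ' : γ' ∈ Gamma0 N) :
    ((((γ * γ') 1 1 : ℤ)) : ZMod N) = ((γ 1 1 : ℤ) : ZMod N) * ((γ' 1 1 : ℤ) : ZMod N) := by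
  have := map_mul (Gamma0Map N) ⟨γ, hγ⟩ ⟨γ', hγ'⟩
  exact this

theorem diamond_mul (k : ℤ) (d d' : (ZMod N)ˣ) :
    diamond k (d * d') = (diamond k d').comp (diamond k d) := by
  rw [diamond_eq_diamondBy k (d * d') ((Gamma0 N).mul_mem (sigmaOf_mem d) (sigmaOf_mem d')),
    diamondBy_mul]
  · rfl
  · rw [lowerRight_mul (sigmaOf_mem d) (sigmaOf_mem d'), sigmaOf_lowerRight, sigmaOf_lowerRight]
    simp

theorem diamond_one (k : ℤ) : diamond k (1 : (ZMod N)ˣ) = LinearMap.id := by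
  rw [diamond_eq_diamondBy k 1 (Gamma1_in_Gamma0 N (Subgroup.one_mem _)) (by simp)]
  exact diamondBy_of_mem_Gamma1 (Subgroup.one_mem _)

theorem diamond_comm (k : ℤ) (d d' : (ZMod N)ˣ) :
    (diamond k d).comp (diamond k d') = (diamond k d').comp (diamond k d) := by
  rw [← diamond_mul, ← diamond_mul, mul_comm]


theorem isZeroAt_sub {c : OnePoint ℝ} {k : ℤ} {F G : ℍ → ℂ} (hF : OnePoint.IsZeroAt c F k)
    (hG : OnePoint.IsZeroAt c G k) : OnePoint.IsZeroAt c (F - G) k := by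
  intro g hg
  have h1 := hF g hg
  have h2 := hG g hg
  have : (F - G) ∣[k] g = F ∣[k] g + (-(G ∣[k] g)) := by
    rw [sub_eq_add_neg, SlashAction.add_slash, SlashAction.neg_slash]
  rw [this]
  exact h1.add h2.neg

/-- the class of a prime `p ∤ N` in `(ℤ/N)ˣ` -/
noncomputable def primeUnit (N : ℕ) {p : ℕ} (hp : p.Prime) (hpN : ¬ p ∣ N) : (ZMod N)ˣ :=
  ZMod.unitOfCoprime p ((Nat.Prime.coprime_iff_not_dvd hp).mpr hpN)

omit [NeZero N] in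
@[simp] theorem coe_primeUnit {p : ℕ} (hp : p.Prime) (hpN : ¬ p ∣ N) :
    ((primeUnit N hp hpN : (ZMod N)ˣ) : ZMod N) = (p : ZMod N) := rfl

theorem sigmaOf_primeUnit_lowerRight {p : ℕ} (hp : p.Prime) (hpN : ¬ p ∣ N) :
    (((sigmaOf N (primeUnit N hp hpN)) 1 1 : ℤ) : ZMod N) = (p : ZMod N) := by
  rw [sigmaOf_lowerRight, coe_primeUnit]

/-- **the Hecke operator `T_p`, `p ∤ N`, on `S_k(Γ₁(N))`**: `T_p f = U_p f + (⟨p⟩f) ∣ diag(p,1)`. -/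
noncomputable def heckeT1 (k : ℤ) {p : ℕ} (hp : p.Prime) (hpN : ¬ p ∣ N) :
    CuspForm (Gamma1 N) k →ₗ[ℂ] CuspForm (Gamma1 N) k where
  toFun f :=
    { toFun := heckeT1Fun k p (sigmaOf N (primeUnit N hp hpN)) f
      slash_action_eq' := fun γ hγ =>
        heckeT1Fun_slash hp hpN (sigmaOf_mem _) (sigmaOf_primeUnit_lowerRight hp hpN) f
          (fun g hg => SlashInvariantFormClass.slash_action_eq f g hg) γ hγ
      holo' := (mdifferentiable_heckeU (CuspFormClass.holo f) k p).add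
        (((CuspFormClass.holo f).slash k _).slash k _)
      zero_at_cusps' := fun {c} hc => by
        set g := slashGamma0 (sigmaOf N (primeUnit N hp hpN)) (sigmaOf_mem _) f with hg
        have h1 : OnePoint.IsZeroAt c (heckeU k p ⇑f) k := CuspFormClass.isZeroAt_heckeU f p hc
        have h2 : OnePoint.IsZeroAt c (heckeT k p ⇑g) k := CuspFormClass.isZeroAt_heckeT g p hc
        have h3 : OnePoint.IsZeroAt c (heckeU k p ⇑g) k := CuspFormClass.isZeroAt_heckeU g p hc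
        have e : heckeT1Fun k p (sigmaOf N (primeUnit N hp hpN)) f =
            heckeU k p ⇑f + (heckeT k p ⇑g - heckeU k p ⇑g) := by
          rw [heckeT_eq_heckeU_add, add_sub_cancel_left]
          rfl
        show OnePoint.IsZeroAt c (heckeT1Fun k p (sigmaOf N (primeUnit N hp hpN)) f) k
        rw [e]
        exact h1.add (isZeroAt_sub h2 h3) }
  map_add' f g := DFunLike.coe_injective <| by
    show heckeT1Fun k p _ ⇑(f + g) = heckeT1Fun k p _ ⇑f + heckeT1Fun k p _ ⇑g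
    simp only [heckeT1Fun, FunLike.coe_add, heckeU_add, SlashAction.add_slash]
    abel
  map_smul' c f := DFunLike.coe_injective <| by
    show heckeT1Fun k p _ ⇑(c • f) = c • heckeT1Fun k p _ ⇑f
    simp only [heckeT1Fun, FunLike.coe_smul, heckeU_smul, ModularForm.SL_smul_slash, smul_add]
    congr 1
    rw [ModularForm.smul_slash, σ_heckeDiagMatrix]
    rfl

theorem coe_heckeT1 (k : ℤ) {p : ℕ} (hp : p.Prime) (hpN : ¬ p ∣ N) (f : CuspForm (Gamma1 N) k) :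
    ⇑(heckeT1 k hp hpN f) = heckeU k p ⇑f + (⇑(diamond k (primeUnit N hp hpN) f)) ∣[k] heckeDiagMatrix p :=
  rfl


end Fermat.Agent.DS48
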