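import Mathlib.NumberTheory.ModularForms.CongruenceSubgroups
import Mathlib.Data.ZMod.Basic
import Mathlib.Tactic

set_option autoImplicit false

/-!
# [HECKE1] integer matrices of determinant `p` congruent to `(1 *; 0 p)` mod `N`

`Γ₁(N) \ Δ` has the representatives `(1 j; 0 p)`, `j < p`, and `σ (p 0; 0 1)` with
`σ ∈ Γ₀(N)`, `σ₁₁ ≡ p`.
-/

namespace Fermat.Agent.DS48

open Matrix CongruenceSubgroup
open scoped MatrixGroups

/-- integer matrices of determinant `p` congruent to `(1 *; 0 *)` mod `N` -/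
def DeltaInt (N p : ℕ) : Set (Matrix (Fin 2) (Fin 2) ℤ) :=
  {A | A.det = (p : ℤ) ∧ ((A 1 0 : ℤ) : ZMod N) = 0 ∧ ((A 0 0 : ℤ) : ZMod N) = 1}

theorem DeltaInt.lowerRight {N p : ℕ} {A : Matrix (Fin 2) (Fin 2) ℤ} (hA : A ∈ DeltaInt N p) :
    ((A 1 1 : ℤ) : ZMod N) = (p : ZMod N) := by
  obtain ⟨hdet, h10, h00⟩ := hA
  rw [Matrix.det_fin_two] at hdet
  have := congrArg (fun x : ℤ => (x : ZMod N)) hdet
  simp only [Int.cast_sub, Int.cast_mul, h10, h00, mul_zero, sub_zero, one_mul,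
    Int.cast_natCast] at this
  exact this

theorem DeltaInt.mul_mem {N p : ℕ} {A : Matrix (Fin 2) (Fin 2) ℤ} (hA : A ∈ DeltaInt N p)
    {g : SL(2, ℤ)} (hg : g ∈ Gamma1 N) : A * g.1 ∈ DeltaInt N p := by
  obtain ⟨hdet, h10, h00⟩ := hA
  rw [Gamma1_mem] at hg
  obtain ⟨g00, g11, g10⟩ := hg
  refine ⟨by rw [Matrix.det_mul, hdet, g.2, mul_one], ?_, ?_⟩
  · rw [Matrix.mul_apply, Fin.sum_univ_two]
    push_cast
    rw [h10, g10]; ring
  · rw [Matrix.mul_apply, Fin.sum_univ_two]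
    push_cast
    rw [h00, g10, g00]; ring

/-- the representative `(1 j; 0 p)` -/
def repJ (p j : ℕ) : Matrix (Fin 2) (Fin 2) ℤ := !![1, (j : ℤ); 0, (p : ℤ)]

/-- the representative `(p 0; 0 1)` -/
def repD (p : ℕ) : Matrix (Fin 2) (Fin 2) ℤ := !![(p : ℤ), 0; 0, 1]

theorem repJ_mem (N p j : ℕ) : repJ p j ∈ DeltaInt N p := by
  refine ⟨by simp [repJ, Matrix.det_fin_two_of], by simp [repJ], by simp [repJ]⟩

theorem sigma_repD_mem {N p : ℕ} {σ : SL(2, ℤ)} (hσ : σ ∈ Gamma0 N)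
    (hσp : ((σ 1 1 : ℤ) : ZMod N) = (p : ZMod N)) :
    σ.1 * repD p ∈ DeltaInt N p := by
  rw [Gamma0_mem] at hσ
  refine ⟨by rw [Matrix.det_mul, σ.2]; simp [repD, Matrix.det_fin_two_of], ?_, ?_⟩
  · rw [Matrix.mul_apply, Fin.sum_univ_two]
    simp only [repD, Matrix.of_apply, Matrix.cons_val', Matrix.cons_val_zero, Matrix.cons_val_one,
      Matrix.cons_val_fin_one]
    push_cast
    rw [hσ]; ring
  · rw [Matrix.mul_apply, Fin.sum_univ_two]
    simp only [repD, Matrix.of_apply, Matrix.cons_val', Matrix.cons_val_zero, Matrix.cons_val_one,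
      Matrix.cons_val_fin_one]
    push_cast
    have hdet : ((σ.1.det : ℤ) : ZMod N) = 1 := by rw [σ.2]; simp
    rw [Matrix.det_fin_two] at hdet
    push_cast at hdet
    rw [hσ, hσp] at hdet
    simpa using hdet

/-- (E1) first column not divisible by `p`: `A = g (1 j; 0 p)` with `g ∈ Γ₁(N)`. -/
theorem exists_repJ_of_not_dvd {N p : ℕ} (hp : p.Prime) (hpN : IsUnit (p : ZMod N))
    {A : Matrix (Fin 2) (Fin 2) ℤ} (hA : A ∈ DeltaInt N p)
    (h : ¬ ((p : ℤ) ∣ A 0 0 ∧ (p : ℤ) ∣ A 1 0)) :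
    ∃ j < p, ∃ g : SL(2, ℤ), g ∈ Gamma1 N ∧ A = g.1 * repJ p j := by
  have : Fact p.Prime := ⟨hp⟩
  have hlr := DeltaInt.lowerRight hA
  obtain ⟨hdet, h10, h00⟩ := hA
  rw [Matrix.det_fin_two] at hdet
  -- find j with p ∣ A01 - j A00 and p ∣ A11 - j A10
  obtain ⟨j, hj, hj1, hj2⟩ : ∃ j : ℕ, j < p ∧ (p : ℤ) ∣ A 0 1 - j * A 0 0 ∧
      (p : ℤ) ∣ A 1 1 - j * A 1 0 := by
    have hdetp : ((A 0 0 : ℤ) : ZMod p) * (A 1 1 : ℤ) - (A 0 1 : ℤ) * (A 1 0 : ℤ) = 0 := by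
      have := congrArg (fun x : ℤ => (x : ZMod p)) hdet
      simpa using this
    by_cases h0 : (p : ℤ) ∣ A 0 0
    · have h1 : ¬ (p : ℤ) ∣ A 1 0 := fun h1 => h ⟨h0, h1⟩
      have h0' : ((A 0 0 : ℤ) : ZMod p) = 0 := (ZMod.intCast_zmod_eq_zero_iff_dvd _ _).mpr h0
      have h1' : ((A 1 0 : ℤ) : ZMod p) ≠ 0 := fun hh =>
        h1 ((ZMod.intCast_zmod_eq_zero_iff_dvd _ _).mp hh)
      set t : ZMod p := (A 1 1 : ℤ) / (A 1 0 : ℤ) with ht
      refine ⟨t.val, ZMod.val_lt t, ?_, ?_⟩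
      · rw [← ZMod.intCast_zmod_eq_zero_iff_dvd]
        push_cast
        rw [ZMod.natCast_zmod_val, h0', mul_zero, sub_zero]
        rw [h0', zero_mul, zero_sub, neg_eq_zero] at hdetp
        exact (mul_eq_zero.mp hdetp).resolve_right h1'
      · rw [← ZMod.intCast_zmod_eq_zero_iff_dvd]
        push_cast
        rw [ZMod.natCast_zmod_val, ht, div_mul_cancel₀ _ h1', sub_self]
    · have h0' : ((A 0 0 : ℤ) : ZMod p) ≠ 0 := fun hh =>
        h0 ((ZMod.intCast_zmod_eq_zero_iff_dvd _ _).mp hh)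
      set t : ZMod p := (A 0 1 : ℤ) / (A 0 0 : ℤ) with ht
      refine ⟨t.val, ZMod.val_lt t, ?_, ?_⟩
      · rw [← ZMod.intCast_zmod_eq_zero_iff_dvd]
        push_cast
        rw [ZMod.natCast_zmod_val, ht, div_mul_cancel₀ _ h0', sub_self]
      · rw [← ZMod.intCast_zmod_eq_zero_iff_dvd]
        push_cast
        rw [ZMod.natCast_zmod_val, ht]
        have : ((A 0 0 : ℤ) : ZMod p) * ((A 1 1 : ℤ) - (A 0 1 : ℤ) / (A 0 0 : ℤ) * (A 1 0 : ℤ)) = 0 := by
          field_simp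
          linear_combination hdetp
        exact (mul_eq_zero.mp this).resolve_left h0'
  obtain ⟨b, hb⟩ := hj1
  obtain ⟨d, hd⟩ := hj2
  have hpne : (p : ℤ) ≠ 0 := by exact_mod_cast hp.ne_zero
  have hdetg : A 0 0 * d - b * A 1 0 = 1 := by
    apply mul_left_cancel₀ hpne
    have e1 : A 0 1 = p * b + j * A 0 0 := by linarith
    have e2 : A 1 1 = p * d + j * A 1 0 := by linarith
    rw [e1, e2] at hdet
    linear_combination hdet
  refine ⟨j, hj, ⟨!![A 0 0, b; A 1 0, d], by rw [Matrix.det_fin_two_of]; exact hdetg⟩, ?_, ?_⟩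
  · refine (Gamma1_mem N _).mpr ⟨by simpa using h00, ?_, by simpa using h10⟩
    show (((!![A 0 0, b; A 1 0, d] : Matrix (Fin 2) (Fin 2) ℤ) 1 1 : ℤ) : ZMod N) = 1
    simp only [Fin.isValue, Matrix.of_apply, Matrix.cons_val',
      Matrix.cons_val_one, Matrix.cons_val_fin_one]
    -- p * d ≡ p mod N
    have : ((p : ℤ) : ZMod N) * (d : ZMod N) = ((p : ℤ) : ZMod N) * 1 := by
      have := congrArg (fun x : ℤ => (x : ZMod N)) hd
      push_cast at this
      rw [h10, mul_zero, sub_zero, hlr] at this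
      push_cast
      rw [mul_one, ← this]
    have hu : IsUnit (((p : ℤ) : ZMod N)) := by simpa using hpN
    exact hu.mul_left_cancel this
  · ext i k
    fin_cases i <;> fin_cases k
    · simp [repJ, Matrix.mul_apply, Fin.sum_univ_two]
    · simp [repJ, Matrix.mul_apply, Fin.sum_univ_two]; linarith
    · simp [repJ, Matrix.mul_apply, Fin.sum_univ_two]
    · simp [repJ, Matrix.mul_apply, Fin.sum_univ_two]; linarith


theorem mem_Gamma1_iff_Gamma0Map {N : ℕ} (x : Gamma0 N) :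
    (x : SL(2, ℤ)) ∈ Gamma1 N ↔ Gamma0Map N x = 1 := by
  rw [← Gamma1_mem', Gamma1_to_Gamma0_mem, Gamma1_mem]

/-- (E2) first column divisible by `p`: `A = g σ (p 0; 0 1)` with `g ∈ Γ₁(N)`. -/
theorem exists_repD_of_dvd {N p : ℕ} (hp : p.Prime) (hpN : IsUnit (p : ZMod N))
    {A : Matrix (Fin 2) (Fin 2) ℤ} (hA : A ∈ DeltaInt N p)
    (h : (p : ℤ) ∣ A 0 0 ∧ (p : ℤ) ∣ A 1 0)
    {σ : SL(2, ℤ)} (hσ : σ ∈ Gamma0 N) (hσp : ((σ 1 1 : ℤ) : ZMod N) = (p : ZMod N)) :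
    ∃ g : SL(2, ℤ), g ∈ Gamma1 N ∧ A = g.1 * σ.1 * repD p := by
  have hlr := DeltaInt.lowerRight hA
  obtain ⟨hdet, h10, h00⟩ := hA
  rw [Matrix.det_fin_two] at hdet
  obtain ⟨⟨a, ha⟩, ⟨c, hc⟩⟩ := h
  have hpne : (p : ℤ) ≠ 0 := by exact_mod_cast hp.ne_zero
  have hdet' : a * A 1 1 - A 0 1 * c = 1 := by
    apply mul_left_cancel₀ hpne
    rw [ha, hc] at hdet
    linear_combination hdet
  set A' : SL(2, ℤ) := ⟨!![a, A 0 1; c, A 1 1], by rw [Matrix.det_fin_two_of]; exact hdet'⟩ with hA'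
  have hu : IsUnit (((p : ℤ) : ZMod N)) := by simpa using hpN
  have hA'0 : A' ∈ Gamma0 N := by
    refine Gamma0_mem.mpr ?_
    show (((!![a, A 0 1; c, A 1 1] : Matrix (Fin 2) (Fin 2) ℤ) 1 0 : ℤ) : ZMod N) = 0
    simp only [Fin.isValue, Matrix.of_apply, Matrix.cons_val', Matrix.cons_val_one,
      Matrix.cons_val_zero, Matrix.cons_val_fin_one]
    have : ((p : ℤ) : ZMod N) * (c : ZMod N) = ((p : ℤ) : ZMod N) * 0 := by
      rw [mul_zero, ← Int.cast_mul, ← hc, h10]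
    exact hu.mul_left_cancel this
  refine ⟨A' * σ⁻¹, ?_, ?_⟩
  · have hmem : A' * σ⁻¹ ∈ Gamma0 N := (Gamma0 N).mul_mem hA'0 ((Gamma0 N).inv_mem hσ)
    have := (mem_Gamma1_iff_Gamma0Map (N := N) ⟨A' * σ⁻¹, hmem⟩).mpr ?_
    · exact this
    · have e : (⟨A' * σ⁻¹, hmem⟩ : Gamma0 N) * (⟨σ, hσ⟩ : Gamma0 N) = ⟨A', hA'0⟩ := by
        apply Subtype.ext
        show A' * σ⁻¹ * σ = A'
        rw [inv_mul_cancel_right]
      have e' := congrArg (Gamma0Map N) e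
      rw [map_mul] at e'
      have h1 : Gamma0Map N ⟨A', hA'0⟩ = (p : ZMod N) := by
        show (((!![a, A 0 1; c, A 1 1] : Matrix (Fin 2) (Fin 2) ℤ) 1 1 : ℤ) : ZMod N) = _
        simpa using hlr
      have h2 : Gamma0Map N ⟨σ, hσ⟩ = (p : ZMod N) := hσp
      rw [h1, h2] at e'
      have e'' : Gamma0Map N ⟨A' * σ⁻¹, hmem⟩ * (p : ZMod N) = 1 * (p : ZMod N) := by
        rw [e', one_mul]
      exact hpN.mul_right_cancel e''
  · have : (A' * σ⁻¹).1 * σ.1 = A'.1 := by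
      rw [← Matrix.SpecialLinearGroup.coe_mul, inv_mul_cancel_right]
    rw [this]
    ext i k
    fin_cases i <;> fin_cases k
    · simp [hA', repD, Matrix.mul_apply, Fin.sum_univ_two, ha, mul_comm]
    · simp [hA', repD, Matrix.mul_apply, Fin.sum_univ_two]
    · simp [hA', repD, Matrix.mul_apply, Fin.sum_univ_two, hc, mul_comm]
    · simp [hA', repD, Matrix.mul_apply, Fin.sum_univ_two]


/-- (U1) distinct `j < p` give distinct cosets -/
theorem repJ_unique {p j j' : ℕ} (hj : j < p) (hj' : j' < p) {g : SL(2, ℤ)}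
    (h : repJ p j = g.1 * repJ p j') : j = j' := by
  have h00 := congrFun (congrFun h 0) 0
  have h01 := congrFun (congrFun h 0) 1
  simp only [repJ, Matrix.mul_apply, Fin.sum_univ_two, Matrix.of_apply, Matrix.cons_val',
    Matrix.cons_val_zero, Matrix.cons_val_one, Matrix.cons_val_fin_one] at h00 h01
  have ha : g.1 0 0 = 1 := by linarith
  rw [ha] at h01
  -- j = j' + g01 * p
  have hdvd : (p : ℤ) ∣ (j : ℤ) - j' := ⟨g.1 0 1, by linarith⟩
  have h1 : ((j : ℤ) - j').natAbs < p := by omega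
  have h2 : (j : ℤ) - j' = 0 := by
    by_contra hne
    have := Int.le_of_dvd (by positivity) ((Int.dvd_natAbs).mpr hdvd)
    omega
  omega

/-- (U2) the `j`-cosets differ from the `∞`-coset -/
theorem repJ_ne_repD {p j : ℕ} (hp : p.Prime) {g : SL(2, ℤ)} {σ : SL(2, ℤ)}
    (h : repJ p j = g.1 * σ.1 * repD p) : False := by
  have h00 := congrFun (congrFun h 0) 0
  simp only [repJ, repD, Matrix.mul_apply, Fin.sum_univ_two, Matrix.of_apply, Matrix.cons_val',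
    Matrix.cons_val_zero, Matrix.cons_val_one, Matrix.cons_val_fin_one, mul_zero, add_zero] at h00
  have : (p : ℤ) ∣ 1 := ⟨g.1 0 0 * σ.1 0 0 + g.1 0 1 * σ.1 1 0, by linear_combination h00⟩
  have := Int.le_of_dvd one_pos this
  have := hp.two_le
  omega

/-- (U2') the `∞`-coset differs from the `j`-cosets -/
theorem repD_ne_repJ {p j : ℕ} (hp : p.Prime) {g : SL(2, ℤ)} {σ : SL(2, ℤ)}
    (h : σ.1 * repD p = g.1 * repJ p j) : False := by
  have h00 := congrFun (congrFun h 0) 0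
  have h10 := congrFun (congrFun h 1) 0
  simp only [repJ, repD, Matrix.mul_apply, Fin.sum_univ_two, Matrix.of_apply, Matrix.cons_val',
    Matrix.cons_val_zero, Matrix.cons_val_one, Matrix.cons_val_fin_one, mul_zero, add_zero,
    mul_one] at h00 h10
  have hdet := g.2
  rw [Matrix.det_fin_two] at hdet
  have : (p : ℤ) ∣ 1 := ⟨σ.1 0 0 * g.1 1 1 - g.1 0 1 * σ.1 1 0, by
    linear_combination (-1 : ℤ) * hdet - g.1 1 1 * h00 + g.1 0 1 * h10⟩
  have := Int.le_of_dvd one_pos this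
  have := hp.two_le
  omega

end Fermat.Agent.DS48
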