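import Fermat.Agent.DS48.HECKE1_lead_IntCoset
import Fermat.Agent.DS48.HECKE1_lead_Abstract
import Fermat.Prelude.Def_ModularForm_HeckeOperator

set_option autoImplicit false

/-!
# [HECKE1] the function-level Hecke operator `T_p` for `Γ₁(N)`, `p ∤ N`

`heckeT1Fun k p σ f = U_p f + (f ∣ σ) ∣ diag(p,1)` with `σ ∈ Γ₀(N)`, `σ₁₁ ≡ p`; it preserves
`Γ₁(N)`-invariance.
-/

namespace Fermat.Agent.DS48

open Matrix CongruenceSubgroup ModularForm UpperHalfPlane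
open scoped MatrixGroups ModularForm

/-- the image of `DeltaInt` in `GL₂(ℝ)` -/
def DeltaR (N p : ℕ) : Set (GL (Fin 2) ℝ) :=
  {α | ∃ A ∈ DeltaInt N p, (α : Matrix (Fin 2) (Fin 2) ℝ) = A.map (Int.cast : ℤ → ℝ)}

theorem mapGL_val (g : SL(2, ℤ)) :
    ((Matrix.SpecialLinearGroup.mapGL ℝ g : GL (Fin 2) ℝ) : Matrix (Fin 2) (Fin 2) ℝ) =
      g.1.map (Int.cast : ℤ → ℝ) := by
  rw [Matrix.SpecialLinearGroup.mapGL_coe_matrix]
  rfl

theorem map_intCast_mul (A B : Matrix (Fin 2) (Fin 2) ℤ) :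
    (A * B).map (Int.cast : ℤ → ℝ) = A.map (Int.cast : ℤ → ℝ) * B.map (Int.cast : ℤ → ℝ) := by
  ext i j
  simp [Matrix.mul_apply, Matrix.map_apply]

theorem map_intCast_injective :
    Function.Injective (fun A : Matrix (Fin 2) (Fin 2) ℤ => A.map (Int.cast : ℤ → ℝ)) := by
  intro A B h
  ext i j
  have := congrFun (congrFun h i) j
  simpa using this

theorem heckeMatrix_val_eq {p : ℕ} (hp : p ≠ 0) (j : ℕ) :
    ((heckeMatrix p j : GL (Fin 2) ℝ) : Matrix (Fin 2) (Fin 2) ℝ) =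
      (repJ p j).map (Int.cast : ℤ → ℝ) := by
  rw [val_heckeMatrix hp]
  ext i k
  fin_cases i <;> fin_cases k <;> simp [repJ]

theorem heckeDiagMatrix_val_eq {p : ℕ} (hp : p ≠ 0) :
    ((heckeDiagMatrix p : GL (Fin 2) ℝ) : Matrix (Fin 2) (Fin 2) ℝ) =
      (repD p).map (Int.cast : ℤ → ℝ) := by
  rw [val_heckeDiagMatrix hp]
  ext i k
  fin_cases i <;> fin_cases k <;> simp [repD]

/-- the representatives of `Γ₁(N) \ Δ` in `GL₂(ℝ)` -/
noncomputable def heckeRep (p : ℕ) (σ : SL(2, ℤ)) : Option (Fin p) → GL (Fin 2) ℝ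
  | some j => heckeMatrix p j
  | none => Matrix.SpecialLinearGroup.mapGL ℝ σ * heckeDiagMatrix p

theorem heckeRep_val {p : ℕ} (hp : p ≠ 0) (σ : SL(2, ℤ)) (i : Option (Fin p)) :
    ((heckeRep p σ i : GL (Fin 2) ℝ) : Matrix (Fin 2) (Fin 2) ℝ) =
      (match i with
        | some j => repJ p j
        | none => σ.1 * repD p).map (Int.cast : ℤ → ℝ) := by
  cases i with
  | some j => exact heckeMatrix_val_eq hp j
  | none =>
    show ((Matrix.SpecialLinearGroup.mapGL ℝ σ * heckeDiagMatrix p : GL (Fin 2) ℝ) :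
      Matrix (Fin 2) (Fin 2) ℝ) = _
    rw [Units.val_mul, mapGL_val, heckeDiagMatrix_val_eq hp, map_intCast_mul]

/-- membership in the image of `Γ₁(N)` from an integer identity -/
theorem mul_inv_mem_of_int_eq {N : ℕ} {α β : GL (Fin 2) ℝ} {A B : Matrix (Fin 2) (Fin 2) ℤ}
    (hα : (α : Matrix (Fin 2) (Fin 2) ℝ) = A.map (Int.cast : ℤ → ℝ))
    (hβ : (β : Matrix (Fin 2) (Fin 2) ℝ) = B.map (Int.cast : ℤ → ℝ))
    {g : SL(2, ℤ)} (hg : g ∈ Gamma1 N) (h : A = g.1 * B) :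
    α * β⁻¹ ∈ (Gamma1 N : Subgroup (GL (Fin 2) ℝ)) := by
  refine ⟨g, hg, ?_⟩
  have : α = Matrix.SpecialLinearGroup.mapGL ℝ g * β := by
    apply Units.ext
    rw [Units.val_mul, hα, hβ, mapGL_val, h, map_intCast_mul]
  rw [this, mul_inv_cancel_right]

/-- from membership to an integer identity -/
theorem int_eq_of_mul_inv_mem {N : ℕ} {α β : GL (Fin 2) ℝ} {A B : Matrix (Fin 2) (Fin 2) ℤ}
    (hα : (α : Matrix (Fin 2) (Fin 2) ℝ) = A.map (Int.cast : ℤ → ℝ))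
    (hβ : (β : Matrix (Fin 2) (Fin 2) ℝ) = B.map (Int.cast : ℤ → ℝ))
    (h : α * β⁻¹ ∈ (Gamma1 N : Subgroup (GL (Fin 2) ℝ))) :
    ∃ g : SL(2, ℤ), g ∈ Gamma1 N ∧ A = g.1 * B := by
  obtain ⟨g, hg, hge⟩ := h
  refine ⟨g, hg, ?_⟩
  have : α = Matrix.SpecialLinearGroup.mapGL ℝ g * β := by
    rw [hge, inv_mul_cancel_right]
  apply map_intCast_injective
  show A.map (Int.cast : ℤ → ℝ) = (g.1 * B).map (Int.cast : ℤ → ℝ)
  rw [map_intCast_mul, ← hα, ← hβ, ← mapGL_val, ← Units.val_mul, ← this]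

theorem sum_heckeRep_slash_invariant {N p : ℕ} (hp : p.Prime) (hpN : ¬ p ∣ N) {k : ℤ}
    {σ : SL(2, ℤ)} (hσ : σ ∈ Gamma0 N) (hσp : ((σ 1 1 : ℤ) : ZMod N) = (p : ZMod N))
    (f : ℍ → ℂ) (hf : ∀ γ ∈ (Gamma1 N : Subgroup (GL (Fin 2) ℝ)), f ∣[k] γ = f)
    (γ : GL (Fin 2) ℝ) (hγ : γ ∈ (Gamma1 N : Subgroup (GL (Fin 2) ℝ))) :
    (∑ i, f ∣[k] heckeRep p σ i) ∣[k] γ = ∑ i, f ∣[k] heckeRep p σ i := by
  have hp0 : p ≠ 0 := hp.ne_zero
  have hu : IsUnit (p : ZMod N) := by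
    rw [ZMod.isUnit_iff_coprime]
    exact (Nat.Prime.coprime_iff_not_dvd hp).mpr hpN
  -- the integer matrix of a representative
  set R : Option (Fin p) → Matrix (Fin 2) (Fin 2) ℤ := fun i =>
    match i with
    | some j => repJ p j
    | none => σ.1 * repD p with hR
  have hRv : ∀ i, ((heckeRep p σ i : GL (Fin 2) ℝ) : Matrix (Fin 2) (Fin 2) ℝ) =
      (R i).map (Int.cast : ℤ → ℝ) := fun i => by
    rw [heckeRep_val hp0]
  have hRmem : ∀ i, R i ∈ DeltaInt N p := fun i => by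
    cases i with
    | some j => exact repJ_mem N p j
    | none => exact sigma_repD_mem hσ hσp
  refine sum_slash_invariant_of_reps (Gamma1 N : Subgroup (GL (Fin 2) ℝ)) (DeltaR N p)
    (heckeRep p σ) (fun i => ⟨R i, hRmem i, hRv i⟩) ?_ ?_ ?_ f hf γ hγ
  · rintro α ⟨A, hA, hαA⟩ γ' ⟨g, hg, rfl⟩
    refine ⟨A * g.1, DeltaInt.mul_mem hA hg, ?_⟩
    rw [Units.val_mul, hαA, mapGL_val, map_intCast_mul]
  · rintro α ⟨A, hA, hαA⟩
    by_cases h : (p : ℤ) ∣ A 0 0 ∧ (p : ℤ) ∣ A 1 0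
    · obtain ⟨g, hg, hAg⟩ := exists_repD_of_dvd hp hu hA h hσ hσp
      refine ⟨none, mul_inv_mem_of_int_eq hαA (hRv none) hg ?_⟩
      rw [hAg, Matrix.mul_assoc]
    · obtain ⟨j, hj, g, hg, hAg⟩ := exists_repJ_of_not_dvd hp hu hA h
      exact ⟨some ⟨j, hj⟩, mul_inv_mem_of_int_eq hαA (hRv (some ⟨j, hj⟩)) hg hAg⟩
  · intro i j hij
    obtain ⟨g, -, hg⟩ := int_eq_of_mul_inv_mem (hRv i) (hRv j) hij
    cases i with
    | some a =>
      cases j with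
      | some b =>
        have := repJ_unique a.2 b.2 (g := g) hg
        exact congrArg some (Fin.ext this)
      | none =>
        have hg' : repJ p a = g.1 * σ.1 * repD p := by
          rw [Matrix.mul_assoc]; exact hg
        exact (repJ_ne_repD hp hg').elim
    | none =>
      cases j with
      | some b => exact (repD_ne_repJ hp (g := g) (σ := σ) hg).elim
      | none => rfl

/-- the function-level Hecke operator `T_p` for `Γ₁(N)`: `U_p f + (f ∣ σ) ∣ diag(p,1)`. -/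
noncomputable def heckeT1Fun (k : ℤ) (p : ℕ) (σ : SL(2, ℤ)) (f : ℍ → ℂ) : ℍ → ℂ :=
  heckeU k p f + (f ∣[k] σ) ∣[k] heckeDiagMatrix p

theorem heckeT1Fun_eq_sum (k : ℤ) (p : ℕ) (σ : SL(2, ℤ)) (f : ℍ → ℂ) :
    heckeT1Fun k p σ f = ∑ i, f ∣[k] heckeRep p σ i := by
  rw [Fintype.sum_option, heckeT1Fun, heckeU_def, add_comm]
  congr 1
  · show _ = f ∣[k] (Matrix.SpecialLinearGroup.mapGL ℝ σ * heckeDiagMatrix p)
    rw [SlashAction.slash_mul]
    rfl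
  · rw [Finset.sum_range]
    rfl

theorem heckeT1Fun_slash {N p : ℕ} (hp : p.Prime) (hpN : ¬ p ∣ N) {k : ℤ}
    {σ : SL(2, ℤ)} (hσ : σ ∈ Gamma0 N) (hσp : ((σ 1 1 : ℤ) : ZMod N) = (p : ZMod N))
    (f : ℍ → ℂ) (hf : ∀ γ ∈ (Gamma1 N : Subgroup (GL (Fin 2) ℝ)), f ∣[k] γ = f)
    (γ : GL (Fin 2) ℝ) (hγ : γ ∈ (Gamma1 N : Subgroup (GL (Fin 2) ℝ))) :
    heckeT1Fun k p σ f ∣[k] γ = heckeT1Fun k p σ f := by
  rw [heckeT1Fun_eq_sum]
  exact sum_heckeRep_slash_invariant hp hpN hσ hσp f hf γ hγ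


end Fermat.Agent.DS48
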