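import Fermat.Agent.DS48.VOP_lead_Main
import Fermat.Agent.DS48.EIS1_lead_Main

set_option autoImplicit false

/-!
# [INT1] the auxiliary Eisenstein series `E' = E₁^{1,χ} − V₂ E₁^{1,χ} = q + …`
-/

namespace Fermat.Agent.DS48

open Matrix CongruenceSubgroup ModularForm UpperHalfPlane ModularFormClass
open Fermat.Agent.RatStr Fermat.Agent.X0N
open scoped MatrixGroups ModularForm Manifold

noncomputable section

/-- the two notions of niceness agree -/
theorem IsNice.toRat {F : ℍ → ℂ} (h : IsNice F) : RatStr.IsNice F := ⟨h.per, h.hol, h.bdd⟩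

theorem IsNice.ofRat {F : ℍ → ℂ} (h : RatStr.IsNice F) : IsNice F := ⟨h.per, h.holo, h.bdd⟩

variable {N : ℕ} [NeZero N] (χ : DirichletCharacter ℂ N)

/-- a Dirichlet character as a function on `ℤ` -/
def chiInt : ℤ → ℂ := fun d => χ ((d : ℤ) : ZMod N)

theorem hasNeben_eisChi : HasNeben N 1 (chiInt χ) (eisChi χ) :=
  fun _ hγ => eisChi_slash χ hγ

/-- `E' = E − V₂ E` -/
def eisPrime : ℍ → ℂ := eisChi χ - (eisChi χ) ∣[(1 : ℤ)] heckeDiagMatrix 2

theorem isMF_eisPrime : IsMF (Gamma1 (N * 2)) 1 (eisPrime χ) :=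
  ((isMF_eisChi χ).mono (gamma1_mono (Dvd.intro 2 rfl))).sub
    (isMF_slash_diag_Gamma1 2 (isMF_eisChi χ))

theorem hasNeben_eisPrime : HasNeben (N * 2) 1 (chiInt χ) (eisPrime χ) :=
  ((hasNeben_eisChi χ).mono (Dvd.intro 2 rfl)).sub ((hasNeben_eisChi χ).slash_diag 2)

theorem isNice_eisPrime : RatStr.IsNice (eisPrime χ) :=
  (isMF_eisPrime χ).isNice T_mem_Gamma1

theorem qCoeff_eisPrime (hodd : χ (-1) = -1) (n : ℕ) :
    qCoeff (eisPrime χ) n =
      if n = 0 then 0 else sigmaChi χ n - (if 2 ∣ n then sigmaChi χ (n / 2) else 0) := by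
  have hE : IsNice (eisChi χ) := IsNice.ofRat (isNice_eisChi χ)
  unfold eisPrime
  rw [qCoeff_sub hE (hE.slash_diag 1 2), qCoeff_slash_diag hE 1 two_ne_zero]
  simp only [sub_self, zpow_zero, one_mul]
  by_cases hn : n = 0
  · subst hn
    simp
  · rw [if_neg hn, qCoeff_eisChi χ hodd hn]
    by_cases h2 : 2 ∣ n
    · rw [if_pos h2, if_pos h2]
      have hn2 : n / 2 ≠ 0 := by
        obtain ⟨m, rfl⟩ := h2
        simp only [Nat.mul_eq_zero, OfNat.ofNat_ne_zero, false_or] at hn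
        simpa using hn
      rw [qCoeff_eisChi χ hodd hn2]
      rfl
    · rw [if_neg h2, if_neg h2]
      rfl

theorem qCoeff_eisPrime_zero (hodd : χ (-1) = -1) : qCoeff (eisPrime χ) 0 = 0 := by
  rw [qCoeff_eisPrime χ hodd]; simp

theorem qCoeff_eisPrime_one (hodd : χ (-1) = -1) : qCoeff (eisPrime χ) 1 = 1 := by
  rw [qCoeff_eisPrime χ hodd]; simp

end

end Fermat.Agent.DS48
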