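import Fermat.Agent.DS48.INT1_lead_Prod
import Fermat.Agent.DS48.INT1_lead_Lattice

set_option autoImplicit false

/-!
# [INT1] integrality of weight one eigenforms with nebentypus

* `exists_fg_qCoeff_weightOne` : the `q`-coefficients of a weight one cusp form with nebentypus on
  `Γ₁(N)` lie in a finitely generated `ℤ`-submodule of `ℂ`;
* `exists_fg_heckeRing` : for an eigenform (in the coefficient form of S48), the ring
  `ℤ[ε, a_p : p ∤ N]` is contained in a finitely generated `ℤ`-submodule of `ℂ`.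
-/

namespace Fermat.Agent.DS48

open Matrix CongruenceSubgroup ModularForm UpperHalfPlane ModularFormClass
open Fermat.Agent.RatStr
open scoped MatrixGroups ModularForm Manifold

noncomputable section

variable {N : ℕ} [NeZero N]

/-- the ring of values of a Dirichlet character -/
def charRing (χ : DirichletCharacter ℂ N) : Subalgebra ℤ ℂ :=
  Algebra.adjoin ℤ (Set.range fun a : ZMod N => χ a)

theorem char_mem_charRing (χ : DirichletCharacter ℂ N) (a : ZMod N) : χ a ∈ charRing χ :=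
  Algebra.subset_adjoin ⟨a, rfl⟩

theorem isIntegral_char (χ : DirichletCharacter ℂ N) (a : ZMod N) : IsIntegral ℤ (χ a) := by
  by_cases ha : IsUnit a
  · obtain ⟨u, rfl⟩ := ha
    have hpos : 0 < orderOf u := orderOf_pos u
    have h1 : (χ (u : ZMod N)) ^ orderOf u = 1 := by
      rw [← map_pow, ← Units.val_pow_eq_pow_val, pow_orderOf_eq_one, Units.val_one, map_one]
    exact IsIntegral.of_pow hpos (h1 ▸ isIntegral_one)
  · rw [MulChar.map_nonunit χ ha]
    exact isIntegral_zero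

theorem charRing_fg (χ : DirichletCharacter ℂ N) : (charRing χ).toSubmodule.FG :=
  fg_adjoin_of_finite (Set.finite_range _) (by rintro _ ⟨a, rfl⟩; exact isIntegral_char χ a)

theorem sigmaChi_mem_charRing (χ : DirichletCharacter ℂ N) (n : ℕ) : sigmaChi χ n ∈ charRing χ :=
  Subalgebra.sum_mem _ fun d _ => char_mem_charRing χ _

theorem qCoeff_eisPrime_mem (χ : DirichletCharacter ℂ N) (hodd : χ (-1) = -1) (n : ℕ) :
    qCoeff (eisPrime χ) n ∈ charRing χ := by
  rw [qCoeff_eisPrime χ hodd]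
  split_ifs
  · exact Subalgebra.zero_mem _
  · exact Subalgebra.sub_mem _ (sigmaChi_mem_charRing χ n) (sigmaChi_mem_charRing χ _)
  · rw [sub_zero]; exact sigmaChi_mem_charRing χ n

/-- dividing by a power series `q + …` with coefficients in a ring `Z` -/
theorem coeff_mem_of_mul_eq {Z : Subalgebra ℤ ℂ} {Λ : Submodule ℤ ℂ} {P Q H : PowerSeries ℂ}
    (hH : H = P * Q) (hQ0 : PowerSeries.coeff 0 Q = 0) (hQ1 : PowerSeries.coeff 1 Q = 1)
    (hQ : ∀ j, PowerSeries.coeff j Q ∈ Z) (hHΛ : ∀ n, PowerSeries.coeff n H ∈ Λ) :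
    ∀ n, PowerSeries.coeff n P ∈ Z.toSubmodule * Λ := by
  have hΛle : ∀ x ∈ Λ, x ∈ Z.toSubmodule * Λ := fun x hx => by
    have := Submodule.mul_mem_mul (M := Z.toSubmodule) (N := Λ) (Subalgebra.one_mem Z) hx
    rwa [one_mul] at this
  have hZmul : ∀ z ∈ Z, ∀ x ∈ Z.toSubmodule * Λ, x * z ∈ Z.toSubmodule * Λ := by
    intro z hz x hx
    have h1 := Submodule.mul_mem_mul (M := Z.toSubmodule) (N := Z.toSubmodule * Λ) hz hx
    rw [← mul_assoc, (Subalgebra.isIdempotentElem_toSubmodule Z).eq] at h1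
    rw [mul_comm x z]
    exact h1
  intro n
  induction n using Nat.strong_induction_on with
  | _ n ih =>
    have h1 : PowerSeries.coeff (n + 1) H =
        ∑ i ∈ Finset.range (n + 1 + 1), PowerSeries.coeff i P *
          PowerSeries.coeff (n + 1 - i) Q := by
      rw [hH, PowerSeries.coeff_mul,
        Finset.Nat.sum_antidiagonal_eq_sum_range_succ_mk]
    rw [Finset.sum_range_succ, Finset.sum_range_succ] at h1
    simp only [Nat.sub_self, hQ0, mul_zero, add_zero, Nat.add_sub_cancel_left, hQ1, mul_one] at h1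
    have h2 : PowerSeries.coeff n P = PowerSeries.coeff (n + 1) H -
        ∑ i ∈ Finset.range n, PowerSeries.coeff i P * PowerSeries.coeff (n + 1 - i) Q := by
      rw [h1]; ring
    rw [h2]
    refine Submodule.sub_mem _ (hΛle _ (hHΛ _)) (Submodule.sum_mem _ fun i hi => ?_)
    exact hZmul _ (hQ _) _ (ih i (Finset.mem_range.mp hi))

/-- **bounded denominators in weight one** -/
theorem exists_fg_qCoeff_weightOne {ε : DirichletCharacter ℂ N} {f : ℍ → ℂ}
    (hcf : IsCF (Gamma1 N) 1 f) (hf : HasNeben N 1 (chiInt ε) f) (hne : f ≠ 0) :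
    ∃ Λ : Submodule ℤ ℂ, Λ.FG ∧ ∀ n, qCoeff f n ∈ Λ := by
  have hodd : ε (-1) = -1 := odd_of_hasNeben hf hne
  have hodd' : ε⁻¹ (-1) = -1 := by
    rw [MulChar.inv_apply_eq_inv', hodd]; norm_num
  have hprod := isCF_mul_eisPrime hcf hf
  obtain ⟨Λ, hΛ, hΛ'⟩ := exists_fg_qCoeff (by norm_num : (1 : ℤ) ≤ 2) hprod.toCuspForm
  refine ⟨(charRing ε⁻¹).toSubmodule * Λ, (charRing_fg ε⁻¹).mul hΛ, ?_⟩
  have hfn : RatStr.IsNice f := hcf.toIsMF.isNice T_mem_Gamma1
  have hEn := isNice_eisPrime ε⁻¹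
  refine coeff_mem_of_mul_eq (P := qExpansion 1 f) (Q := qExpansion 1 (eisPrime ε⁻¹))
    (H := qExpansion 1 (f * eisPrime ε⁻¹)) (hfn.qExpansion_mul hEn)
    (qCoeff_eisPrime_zero ε⁻¹ hodd') (qCoeff_eisPrime_one ε⁻¹ hodd')
    (qCoeff_eisPrime_mem ε⁻¹ hodd') (fun n => ?_)
  have := hΛ' n
  unfold qCoeff at this
  rwa [IsCF.coe_toCuspForm] at this

end

end Fermat.Agent.DS48
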