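import Fermat.Agent.DS48.INT1_lead_EisPrime
import Fermat.Agent.DS48.A_lead_Main
import Fermat.Agent.RatStr.Bundle

set_option autoImplicit false

/-!
# [INT1] the product `f · E'` of a weight one nebentypus form with the auxiliary Eisenstein
series is a weight two cusp form on `Γ₀(2N)`
-/

namespace Fermat.Agent.DS48

open Matrix CongruenceSubgroup ModularForm UpperHalfPlane ModularFormClass
open Fermat.Agent.RatStr Fermat.Agent.X0N
open scoped MatrixGroups ModularForm Manifold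

noncomputable section

variable {N : ℕ} [NeZero N] {k : ℤ}

theorem hasNeben_of_nebenAt {ε : DirichletCharacter ℂ N} {f : CuspForm (Gamma1 N) k}
    (hf : NebenAt f ε) : HasNeben N k (chiInt ε) (f : ℍ → ℂ) := by
  intro γ hγ
  obtain ⟨u, hu⟩ := unit_of_Gamma0 hγ
  rw [← coe_diamond_eq_slash k u hγ hu.symm f, hf u]
  unfold chiInt
  rw [hu]
  rfl

theorem nebenAt_of_hasNeben {ε : DirichletCharacter ℂ N} {f : CuspForm (Gamma1 N) k}
    (hf : HasNeben N k (chiInt ε) (f : ℍ → ℂ)) : NebenAt f ε := by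
  intro d
  apply DFunLike.coe_injective
  rw [coe_diamond_eq_slash k d (sigmaOf_mem d) (sigmaOf_lowerRight d) f, hf _ (sigmaOf_mem d)]
  unfold chiInt
  rw [sigmaOf_lowerRight]
  rfl

theorem slash_neg_one_weight_one (F : ℍ → ℂ) : F ∣[(1 : ℤ)] (-1 : SL(2, ℤ)) = -F := by
  funext z
  rw [SL_slash_apply]
  have h1 : ((-1 : SL(2, ℤ)) • z : ℍ) = z := by
    have : (-1 : SL(2, ℤ)) • z = (1 : SL(2, ℤ)) • z := ModularGroup.SL_neg_smul 1 z
    rw [this, one_smul]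
  have h2 : denom ((-1 : SL(2, ℤ)) : GL (Fin 2) ℝ) z = -1 := by
    rw [ModularGroup.denom_apply (-1 : SL(2, ℤ)) z]
    simp
  rw [h1, h2]
  simp

omit [NeZero N] in
/-- a nonzero weight one form with nebentypus `ε` forces `ε` to be odd -/
theorem odd_of_hasNeben {ε : DirichletCharacter ℂ N} {F : ℍ → ℂ}
    (hF : HasNeben N 1 (chiInt ε) F) (hne : F ≠ 0) : ε (-1) = -1 := by
  have hmem : (-1 : SL(2, ℤ)) ∈ Gamma0 N := by
    rw [Gamma0_mem]; simp
  have h := hF (-1) hmem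
  rw [slash_neg_one_weight_one] at h
  obtain ⟨z, hz⟩ := Function.ne_iff.mp hne
  have h2 := congrFun h z
  have h3 : chiInt ε ((-1 : SL(2, ℤ)) 1 1) = ε (-1) := by
    unfold chiInt
    simp
  rw [h3] at h2
  simp only [Pi.neg_apply, Pi.smul_apply, smul_eq_mul, Pi.zero_apply] at h2 hz
  have h4 : (ε (-1) + 1) * F z = 0 := by rw [add_mul, ← h2]; ring
  rcases mul_eq_zero.mp h4 with h5 | h5
  · exact eq_neg_of_add_eq_zero_left h5
  · exact absurd h5 hz

theorem chiInt_mul_inv {ε : DirichletCharacter ℂ N} {M : ℕ} (hNM : N ∣ M) {γ : SL(2, ℤ)}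
    (hγ : γ ∈ Gamma0 M) : (chiInt ε * chiInt ε⁻¹) (γ 1 1) = 1 := by
  obtain ⟨u, hu⟩ := unit_of_Gamma0 (gamma0_mono hNM hγ)
  simp only [Pi.mul_apply, chiInt]
  rw [← hu, MulChar.inv_apply_eq_inv']
  exact mul_inv_cancel₀ (IsUnit.ne_zero (u.isUnit.map ε))

/-- **the product `f E'` is a cusp form of weight two on `Γ₀(2N)`** -/
theorem isCF_mul_eisPrime {ε : DirichletCharacter ℂ N} {f : ℍ → ℂ}
    (hcf : IsCF (Gamma1 N) 1 f) (hf : HasNeben N 1 (chiInt ε) f) :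
    IsCF (Gamma0 (N * 2)) 2 (f * eisPrime ε⁻¹) := by
  have hE := isMF_eisPrime ε⁻¹
  have hEn := hasNeben_eisPrime ε⁻¹
  have hdvd : N ∣ N * 2 := Dvd.intro 2 rfl
  have hmul : HasNeben (N * 2) (1 + 1) (chiInt ε * chiInt ε⁻¹) (f * eisPrime ε⁻¹) :=
    (hf.mono hdvd).mul hEn
  have hzero : ∀ γ : SL(2, ℤ), IsZeroAtImInfty ((f * eisPrime ε⁻¹) ∣[(2 : ℤ)] γ) := by
    intro γ
    have h2 : ((2 : ℤ)) = 1 + 1 := by norm_num
    rw [h2, mul_slash_SL2]
    exact (hcf.zero γ).mul_boundedAtFilter (hE.bdd γ)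
  refine ⟨⟨hcf.holo.mul hE.holo, fun γ hγ => ?_, fun γ => (hzero γ).boundedAtFilter⟩, hzero⟩
  have := hmul γ hγ
  rw [chiInt_mul_inv hdvd hγ, one_smul] at this
  exact this

end

end Fermat.Agent.DS48
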