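import Fermat.Agent.DS48.LIFT_lead_Teich
import Fermat.Agent.DS48.INT1_lead_Main

set_option autoImplicit false

/-!
# [LIFT] the Eisenstein series `E ≡ -1 mod 𝔪_A` of weight one, level `ℓ` and character `ω⁻¹`
-/

namespace Fermat.Agent.DS48

open Matrix CongruenceSubgroup ModularForm UpperHalfPlane ModularFormClass IsLocalRing
open Fermat.Agent.RatStr
open scoped MatrixGroups ModularForm Manifold

noncomputable section

variable {ℓ : ℕ} [Fact ℓ.Prime] {A : ValuationSubring ℂ}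

/-- `ω` is a Teichmüller character with respect to `A` -/
def IsTeich (A : ValuationSubring ℂ) (ω : DirichletCharacter ℂ ℓ) : Prop :=
  ∀ x : ZMod ℓ, ∃ h : ω x ∈ A, residue A ⟨ω x, h⟩ = ((x.val : ℕ) : ResidueField A)

theorem char_mem {n : ℕ} [NeZero n] (χ : DirichletCharacter ℂ n) (x : ZMod n) : χ x ∈ A :=
  mem_of_isIntegral_int A (isIntegral_char χ x)

variable {ω : DirichletCharacter ℂ ℓ}

theorem IsTeich.residue_eq (hω : IsTeich A ω) (hℓ : (ℓ : ℂ) ∈ A.nonunits) (x : ZMod ℓ) :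
    haveI := charP_residueField A hℓ
    residue A ⟨ω x, char_mem ω x⟩ = ZMod.castHom (dvd_refl ℓ) (ResidueField A) x := by
  haveI := charP_residueField A hℓ
  obtain ⟨h, hx⟩ := hω x
  rw [ZMod.castHom_apply, ← ZMod.natCast_val]
  exact hx

theorem IsTeich.neg_one (hω : IsTeich A ω) (hℓ : (ℓ : ℂ) ∈ A.nonunits) (hℓ2 : ℓ ≠ 2) :
    ω (-1) = -1 := by
  haveI := charP_residueField A hℓ
  have h1 : ω (-1) * ω (-1) = 1 := by rw [← map_mul]; simp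
  rcases mul_self_eq_one_iff.mp h1 with h | h
  · exfalso
    have h2 := hω.residue_eq hℓ (-1)
    have h2' : ZMod.castHom (dvd_refl ℓ) (ResidueField A) (-1) = -1 := by
      rw [map_neg, map_one]
    rw [h2'] at h2
    have h3 : (⟨ω (-1), char_mem ω (-1)⟩ : A) = 1 := Subtype.ext h
    rw [h3, map_one] at h2
    have h4 : ((2 : ℕ) : ResidueField A) = 0 := by
      push_cast
      have : (2 : ResidueField A) = 1 + 1 := by norm_num
      rw [this]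
      nth_rewrite 1 [h2]
      ring
    have h5 := (CharP.cast_eq_zero_iff (ResidueField A) ℓ 2).mp h4
    exact hℓ2 ((Nat.prime_dvd_prime_iff_eq Fact.out Nat.prime_two).mp h5)
  · exact h

theorem IsTeich.inv_neg_one (hω : IsTeich A ω) (hℓ : (ℓ : ℂ) ∈ A.nonunits) (hℓ2 : ℓ ≠ 2) :
    ω⁻¹ (-1) = -1 := by
  rw [MulChar.inv_apply_eq_inv', hω.neg_one hℓ hℓ2]; norm_num

/-- `j · ω⁻¹(j) ≡ 1` for `j` prime to `ℓ` -/
theorem IsTeich.residue_natCast_mul_inv (hω : IsTeich A ω) (hℓ : (ℓ : ℂ) ∈ A.nonunits) {j : ℕ}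
    (hj : ¬ ℓ ∣ j) :
    residue A ⟨(j : ℂ) * ω⁻¹ (j : ZMod ℓ), mul_mem (natCast_mem A j) (char_mem ω⁻¹ _)⟩ = 1 := by
  haveI := charP_residueField A hℓ
  have hunit : IsUnit ((j : ℕ) : ZMod ℓ) := by
    rw [ZMod.isUnit_iff_coprime]
    exact ((Nat.Prime.coprime_iff_not_dvd Fact.out).mpr hj).symm
  have h1 : ω⁻¹ (j : ZMod ℓ) * ω (j : ZMod ℓ) = 1 := by
    rw [MulChar.inv_apply_eq_inv']
    exact inv_mul_cancel₀ (IsUnit.ne_zero (hunit.map ω))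
  have h2 := hω.residue_eq hℓ (j : ZMod ℓ)
  have h2' : ZMod.castHom (dvd_refl ℓ) (ResidueField A) (j : ZMod ℓ) = (j : ResidueField A) :=
    map_natCast _ j
  rw [h2'] at h2
  have h3 : (⟨(j : ℂ) * ω⁻¹ (j : ZMod ℓ), mul_mem (natCast_mem A j) (char_mem ω⁻¹ _)⟩ : A) =
      (j : A) * ⟨ω⁻¹ (j : ZMod ℓ), char_mem ω⁻¹ _⟩ := by
    apply Subtype.ext; simp
  rw [h3, map_mul, map_natCast, ← h2, ← map_mul]
  have h4 : (⟨ω (j : ZMod ℓ), char_mem ω _⟩ * ⟨ω⁻¹ (j : ZMod ℓ), char_mem ω⁻¹ _⟩ : A) = 1 := by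
    apply Subtype.ext
    show ω (j : ZMod ℓ) * ω⁻¹ (j : ZMod ℓ) = 1
    rw [mul_comm]; exact h1
  rw [h4, map_one]

/-- the constant term `u = Σ_{j < ℓ} j ω⁻¹(j)` -/
def teichConst (ω : DirichletCharacter ℂ ℓ) : ℂ :=
  ∑ j ∈ Finset.range ℓ, (j : ℂ) * ω⁻¹ (j : ZMod ℓ)

theorem teichConst_mem : teichConst ω ∈ A :=
  sum_mem fun j _ => mul_mem (natCast_mem A j) (char_mem ω⁻¹ _)

theorem IsTeich.residue_teichConst (hω : IsTeich A ω) (hℓ : (ℓ : ℂ) ∈ A.nonunits) :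
    residue A ⟨teichConst ω, teichConst_mem⟩ = -1 := by
  have h1 : (⟨teichConst ω, teichConst_mem⟩ : A) = ∑ j ∈ Finset.range ℓ,
      (⟨(j : ℂ) * ω⁻¹ (j : ZMod ℓ), mul_mem (natCast_mem A j) (char_mem ω⁻¹ _)⟩ : A) := by
    apply Subtype.ext
    unfold teichConst
    push_cast
    rfl
  rw [h1, map_sum]
  have hl : ℓ = (ℓ - 1) + 1 := (Nat.sub_add_cancel (Fact.out : ℓ.Prime).one_le).symm
  have h2 : ∀ j ∈ Finset.range (ℓ - 1),
      residue A ⟨((j + 1 : ℕ) : ℂ) * ω⁻¹ ((j + 1 : ℕ) : ZMod ℓ),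
        mul_mem (natCast_mem A (j + 1)) (char_mem ω⁻¹ _)⟩ = 1 := by
    intro j hj
    rw [Finset.mem_range] at hj
    refine hω.residue_natCast_mul_inv hℓ ?_
    intro hdvd
    have := Nat.le_of_dvd (Nat.succ_pos j) hdvd
    omega
  have hr : Finset.range ℓ = Finset.range ((ℓ - 1) + 1) := by rw [← hl]
  rw [hr, Finset.sum_range_succ', Finset.sum_congr rfl h2]
  simp only [Finset.sum_const, Finset.card_range, nsmul_eq_mul, mul_one]
  have h3 : (⟨((0 : ℕ) : ℂ) * ω⁻¹ ((0 : ℕ) : ZMod ℓ),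
      mul_mem (natCast_mem A 0) (char_mem ω⁻¹ _)⟩ : A) = 0 := by
    apply Subtype.ext; simp
  rw [h3, map_zero, add_zero]
  exact natCast_pred_residueField hℓ

theorem IsTeich.teichConst_not_mem_nonunits (hω : IsTeich A ω) (hℓ : (ℓ : ℂ) ∈ A.nonunits) :
    teichConst ω ∉ A.nonunits := by
  intro h
  have h1 := (residue_eq_zero_iff_nonunits A teichConst_mem).mpr h
  rw [hω.residue_teichConst hℓ] at h1
  exact absurd h1 (by simp)

/-- the Eisenstein series `-2ℓ · E₁^{1,ω⁻¹}` -/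
def eisTeich (ω : DirichletCharacter ℂ ℓ) : ℍ → ℂ := (-(2 * (ℓ : ℂ))) • eisChi ω⁻¹

theorem isMF_eisTeich : IsMF (Gamma1 ℓ) 1 (eisTeich ω) := (isMF_eisChi ω⁻¹).smul _

theorem hasNeben_eisTeich : HasNeben ℓ 1 (chiInt ω⁻¹) (eisTeich ω) :=
  (hasNeben_eisChi ω⁻¹).smul _

theorem isNice_eisTeich : IsNice (eisTeich ω) :=
  (IsNice.ofRat (isNice_eisChi ω⁻¹)).smul _

theorem qCoeff_eisTeich_zero (hodd : ω⁻¹ (-1) = -1) : qCoeff (eisTeich ω) 0 = teichConst ω := by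
  unfold eisTeich
  rw [qCoeff_smul (IsNice.ofRat (isNice_eisChi ω⁻¹)), qCoeff_eisChi_zero _ hodd]
  unfold bernoulliOne teichConst
  have hl : (ℓ : ℂ) ≠ 0 := by exact_mod_cast (Fact.out : ℓ.Prime).ne_zero
  field_simp

theorem qCoeff_eisTeich_mem_nonunits (hodd : ω⁻¹ (-1) = -1) (hℓ : (ℓ : ℂ) ∈ A.nonunits) {n : ℕ}
    (hn : n ≠ 0) : qCoeff (eisTeich ω) n ∈ A.nonunits := by
  unfold eisTeich
  rw [qCoeff_smul (IsNice.ofRat (isNice_eisChi ω⁻¹)), qCoeff_eisChi _ hodd hn]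
  have h1 : -(2 * (ℓ : ℂ)) * ∑ d ∈ n.divisors, ω⁻¹ (d : ZMod ℓ) =
      (-(2 : ℂ) * ∑ d ∈ n.divisors, ω⁻¹ (d : ZMod ℓ)) * (ℓ : ℂ) := by ring
  rw [h1]
  refine mul_mem_nonunits A (mul_mem (neg_mem ?_) (sum_mem fun d _ => char_mem ω⁻¹ _)) hℓ
  exact ofNat_mem A 2

end

end Fermat.Agent.DS48
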