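import Fermat.Agent.DS48.LIFT_lead_Theta

set_option autoImplicit false

/-!
# [LIFT] the eigensystem `θ` has finite range
-/

namespace Fermat.Agent.DS48

open Matrix CongruenceSubgroup ModularForm UpperHalfPlane ModularFormClass IsLocalRing
open scoped MatrixGroups ModularForm Manifold

noncomputable section

/-- the reduction of a finitely generated `ℤ`-submodule of `A` is finite -/
theorem finite_residue_image (A : ValuationSubring ℂ) {ℓ : ℕ} [Fact ℓ.Prime]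
    (hℓ : (ℓ : ℂ) ∈ A.nonunits) (S : Finset ℂ) (hS : ∀ g ∈ S, g ∈ A) :
    {y : ResidueField A | ∃ x : A, (x : ℂ) ∈ Submodule.span ℤ (S : Set ℂ) ∧
      y = residue A x}.Finite := by
  classical
  haveI := charP_residueField A hℓ
  let Ψ : (S → ZMod ℓ) → ResidueField A := fun c =>
    ∑ g : S, (((c g).val : ℕ) : ResidueField A) * residue A ⟨g.1, hS g.1 g.2⟩
  refine (Set.finite_range Ψ).subset ?_
  rintro y ⟨x, hx, rfl⟩
  obtain ⟨f, hf⟩ := Submodule.mem_span_finset'.mp hx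
  refine ⟨fun g => ((f g : ℤ) : ZMod ℓ), ?_⟩
  have hxA : x = ∑ g : S, (f g) • (⟨g.1, hS g.1 g.2⟩ : A) := by
    apply Subtype.ext
    rw [← hf]
    push_cast
    rfl
  rw [hxA, map_sum]
  refine Finset.sum_congr rfl fun g _ => ?_
  rw [zsmul_eq_mul, map_mul, map_intCast, ZMod.natCast_val, ZMod.cast_intCast (dvd_refl ℓ)]

variable {M : ℕ} [NeZero M]

local notation "S₂" => CuspForm (Gamma1 M) 2

variable {N : ℕ} {A : ValuationSubring ℂ} {ψ : DirichletCharacter ℂ M}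
  {ε : DirichletCharacter ℂ N} {a : ℕ → ℂ} {u : ℂ}

/-- good scalars can be chosen in any subring containing the `a_p` and the values of `ψ` -/
theorem exists_goodOp_mem {g' : S₂} (H : LiftHyp N A ψ g' ε a u) (R' : Subring ℂ)
    (ha : ∀ p : ℕ, p.Prime → ¬ p ∣ M → a p ∈ R') (hψ : ∀ x, ψ x ∈ R')
    (T : Module.End ℂ S₂) (hT : T ∈ hecke1Alg M) : ∃ c ∈ R', GoodOp N A ψ g' T c := by
  unfold hecke1Alg at hT
  induction hT using Algebra.adjoin_induction with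
  | mem x hx =>
    rcases hx with ⟨p, hp, hpM, rfl⟩ | ⟨d, rfl⟩
    · exact ⟨a p, ha p hp hpM, GoodOp.heckeT1 H hp hpM⟩
    · exact ⟨_, hψ _, GoodOp.diamond H d⟩
  | algebraMap r => exact ⟨_, intCast_mem R' r, GoodOp.algebraMap r⟩
  | add x y _ _ hx hy =>
    obtain ⟨c, hcR, hc⟩ := hx
    obtain ⟨c', hcR', hc'⟩ := hy
    exact ⟨_, add_mem hcR hcR', hc.add hc'⟩
  | mul x y _ _ hx hy =>
    obtain ⟨c, hcR, hc⟩ := hx
    obtain ⟨c', hcR', hc'⟩ := hy
    exact ⟨_, mul_mem hcR hcR', GoodOp.mul H.neben hc hc'⟩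

/-- **the range of `θ` is finite** -/
theorem finite_range_theta {g' : S₂} (H : LiftHyp N A ψ g' ε a u) {ℓ : ℕ} [Fact ℓ.Prime]
    (hℓ : (ℓ : ℂ) ∈ A.nonunits) (R' : Subalgebra ℤ ℂ) (hfg : R'.toSubmodule.FG)
    (hRA : ∀ x ∈ R', x ∈ A)
    (ha : ∀ p : ℕ, p.Prime → ¬ p ∣ M → a p ∈ R') (hψ : ∀ x, ψ x ∈ R') :
    (Set.range (theta H)).Finite := by
  obtain ⟨S, hS⟩ := hfg
  have hSR : ∀ g ∈ S, g ∈ R' := fun g hg => by
    have : g ∈ Submodule.span ℤ (S : Set ℂ) := Submodule.subset_span hg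
    rw [hS] at this
    exact this
  refine (finite_residue_image A hℓ S fun g hg => hRA g (hSR g hg)).subset ?_
  rintro _ ⟨T, rfl⟩
  obtain ⟨c, hcR, hc⟩ := exists_goodOp_mem H R'.toSubring ha hψ T.1 T.2
  refine ⟨⟨c, hc.c_mem⟩, ?_, thetaFun_eq H T hc⟩
  rw [hS]
  exact hcR

end

end Fermat.Agent.DS48
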