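import Fermat.Agent.DS48.LIFT_lead_Eis
import Fermat.Agent.DS48.LIFT_lead_Fin
import Fermat.Agent.DS48.RAT1_lead_Rankin

set_option autoImplicit false

/-!
# [LIFT] the weight two form `g' = f · V_N(E)` of level `ℓ N` and its lifting datum
-/

namespace Fermat.Agent.DS48

open Matrix CongruenceSubgroup ModularForm UpperHalfPlane ModularFormClass IsLocalRing
open Fermat.Agent.RatStr
open scoped MatrixGroups ModularForm Manifold

noncomputable section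

variable {N : ℕ} [NeZero N] {ℓ : ℕ} [Fact ℓ.Prime] {A : ValuationSubring ℂ}
  {ω : DirichletCharacter ℂ ℓ}

/-- `V_N` of the Teichmüller Eisenstein series -/
def vEis (N : ℕ) (ω : DirichletCharacter ℂ ℓ) : ℍ → ℂ :=
  (eisTeich ω) ∣[(1 : ℤ)] heckeDiagMatrix N

theorem isMF_vEis : IsMF (Gamma1 (ℓ * N)) 1 (vEis N ω) :=
  isMF_slash_diag_Gamma1 N isMF_eisTeich

theorem hasNeben_vEis : HasNeben (ℓ * N) 1 (chiInt ω⁻¹) (vEis N ω) :=
  hasNeben_eisTeich.slash_diag N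

theorem isNice_vEis : IsNice (vEis N ω) := isNice_eisTeich.slash_diag 1 N

theorem qCoeff_vEis (j : ℕ) :
    qCoeff (vEis N ω) j = if N ∣ j then qCoeff (eisTeich ω) (j / N) else 0 := by
  unfold vEis
  rw [qCoeff_slash_diag isNice_eisTeich 1 (NeZero.ne N)]
  simp

theorem qCoeff_vEis_zero (hodd : ω⁻¹ (-1) = -1) : qCoeff (vEis N ω) 0 = teichConst ω := by
  rw [qCoeff_vEis, if_pos (dvd_zero N), Nat.zero_div, qCoeff_eisTeich_zero hodd]

theorem qCoeff_vEis_mem_nonunits (hodd : ω⁻¹ (-1) = -1) (hℓ : (ℓ : ℂ) ∈ A.nonunits) {j : ℕ}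
    (hj : j ≠ 0) : qCoeff (vEis N ω) j ∈ A.nonunits := by
  rw [qCoeff_vEis]
  split_ifs with h
  · refine qCoeff_eisTeich_mem_nonunits hodd hℓ ?_
    obtain ⟨m, rfl⟩ := h
    rw [Nat.mul_div_cancel_left _ (Nat.pos_of_ne_zero (NeZero.ne N))]
    rintro rfl; simp at hj
  · exact zero_mem _

theorem isCF_mono {H H' : Subgroup SL(2, ℤ)} {k : ℤ} {F : ℍ → ℂ} (h : H' ≤ H)
    (hF : IsCF H k F) : IsCF H' k F :=
  ⟨hF.toIsMF.mono h, hF.zero⟩

/-- the product of a cusp form and a modular form on `Γ₁` -/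
theorem isCF_mul_isMF {L : ℕ} {F G : ℍ → ℂ} (hF : IsCF (Gamma1 L) 1 F)
    (hG : IsMF (Gamma1 L) 1 G) : IsCF (Gamma1 L) 2 (F * G) := by
  have hzero : ∀ γ : SL(2, ℤ), IsZeroAtImInfty ((F * G) ∣[(2 : ℤ)] γ) := by
    intro γ
    rw [show (2 : ℤ) = 1 + 1 by norm_num, mul_slash_SL2]
    exact (hF.zero γ).mul_boundedAtFilter (hG.bdd γ)
  refine ⟨⟨hF.holo.mul hG.holo, fun γ hγ => ?_, fun γ => (hzero γ).boundedAtFilter⟩, hzero⟩
  rw [show (2 : ℤ) = 1 + 1 by norm_num, mul_slash_SL2, hF.inv γ hγ, hG.inv γ hγ]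

variable (ε : DirichletCharacter ℂ N) (f : CuspForm (Gamma1 N) 1)

theorem isCF_gPrime : IsCF (Gamma1 (ℓ * N)) 2 ((f : ℍ → ℂ) * vEis N ω) :=
  isCF_mul_isMF (isCF_mono (gamma1_mono (Dvd.intro_left ℓ rfl)) (IsCF.of_cuspForm f)) isMF_vEis

/-- the form `g' = f · V_N(E)` -/
def gPrime (ω : DirichletCharacter ℂ ℓ) : CuspForm (Gamma1 (ℓ * N)) 2 :=
  (isCF_gPrime (ω := ω) f).toCuspForm

theorem coe_gPrime : (gPrime f ω : ℍ → ℂ) = (f : ℍ → ℂ) * vEis N ω :=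
  IsCF.coe_toCuspForm _

/-- the nebentypus of `g'` -/
def psiChar (ε : DirichletCharacter ℂ N) (ω : DirichletCharacter ℂ ℓ) :
    DirichletCharacter ℂ (ℓ * N) :=
  DirichletCharacter.changeLevel (Dvd.intro_left ℓ rfl) ε *
    DirichletCharacter.changeLevel (Dvd.intro N rfl) ω⁻¹

theorem psiChar_intCast {d : ℤ} (hd : IsCoprime d ((ℓ * N : ℕ) : ℤ)) :
    psiChar ε ω (d : ZMod (ℓ * N)) = ε (d : ZMod N) * ω⁻¹ (d : ZMod ℓ) := by
  unfold psiChar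
  rw [MulChar.mul_apply, DirichletCharacter.changeLevel_eq_cast_of_dvd' _ _ hd,
    DirichletCharacter.changeLevel_eq_cast_of_dvd' _ _ hd]

theorem isCoprime_lowerRight {L : ℕ} {γ : SL(2, ℤ)} (hγ : γ ∈ Gamma0 L) :
    IsCoprime (γ 1 1) (L : ℤ) := by
  have h0 := dvd_lowerLeft_of_mem_Gamma0 hγ
  obtain ⟨c, hc⟩ := h0
  have hdet : γ 0 0 * γ 1 1 - γ 0 1 * γ 1 0 = 1 := by
    have := γ.det_coe
    rwa [Matrix.det_fin_two] at this
  exact ⟨γ 0 0, -(γ 0 1 * c), by rw [hc] at hdet; linarith⟩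

theorem hasNeben_gPrime {ε : DirichletCharacter ℂ N} {f : CuspForm (Gamma1 N) 1}
    (hf : NebenAt f ε) :
    HasNeben (ℓ * N) 2 (chiInt (psiChar ε ω)) (gPrime f ω : ℍ → ℂ) := by
  intro γ hγ
  have h1 : HasNeben (ℓ * N) (1 + 1) (chiInt ε * chiInt ω⁻¹) ((f : ℍ → ℂ) * vEis N ω) :=
    ((hasNeben_of_nebenAt hf).mono (Dvd.intro_left ℓ rfl)).mul hasNeben_vEis
  rw [coe_gPrime]
  have h2 := h1 γ hγ
  rw [show (1 : ℤ) + 1 = 2 by norm_num] at h2
  rw [h2]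
  congr 1
  have hcop := isCoprime_lowerRight hγ
  unfold chiInt
  rw [psiChar_intCast ε hcop]
  simp only [Pi.mul_apply]

theorem nebenAt_gPrime {ε : DirichletCharacter ℂ N} {f : CuspForm (Gamma1 N) 1}
    (hf : NebenAt f ε) : NebenAt (gPrime f ω) (psiChar ε ω) :=
  nebenAt_of_hasNeben (hasNeben_gPrime hf)

theorem qCoeff_zero_cuspForm : qCoeff f 0 = 0 := by
  have hn : RatStr.IsNice (f : ℍ → ℂ) := (IsCF.of_cuspForm f).toIsMF.isNice T_mem_Gamma1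
  have hz := (IsCF.of_cuspForm f).zero 1
  rw [SlashAction.slash_one] at hz
  exact hn.isZeroAtImInfty_iff.mp hz

/-- the coefficients of `g'` -/
theorem qCoeff_gPrime (n : ℕ) :
    qCoeff (gPrime f ω) n =
      ∑ i ∈ Finset.range (n + 1), qCoeff f i * qCoeff (vEis N ω) (n - i) := by
  have hn : RatStr.IsNice (f : ℍ → ℂ) := (IsCF.of_cuspForm f).toIsMF.isNice T_mem_Gamma1
  unfold qCoeff
  rw [coe_gPrime, hn.qExpansion_mul (isNice_vEis (N := N) (ω := ω)).toRat, PowerSeries.coeff_mul,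
    Finset.Nat.sum_antidiagonal_eq_sum_range_succ_mk]

end

end Fermat.Agent.DS48
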