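import Fermat.Agent.DS48.LIFT_lead_Good
import Fermat.Agent.DS48.INT1_lead_Ring

set_option autoImplicit false

/-!
# [LIFT] the generators `T_p`, `⟨d⟩` are good operators; the ring homomorphism `θ`
-/

namespace Fermat.Agent.DS48

open Matrix CongruenceSubgroup ModularForm UpperHalfPlane ModularFormClass IsLocalRing
open scoped MatrixGroups ModularForm Manifold

noncomputable section

variable {M : ℕ} [NeZero M]

local notation "S₂" => CuspForm (Gamma1 M) 2

/-- the hypotheses of the abstract lifting construction -/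
structure LiftHyp (N : ℕ) (A : ValuationSubring ℂ) (ψ : DirichletCharacter ℂ M)
    (g' : CuspForm (Gamma1 M) 2) (ε : DirichletCharacter ℂ N) (a : ℕ → ℂ) (u : ℂ) : Prop where
  dvd : N ∣ M
  a_mem : ∀ n : ℕ, n ≠ 0 → n.Coprime N → a n ∈ A
  a_one : a 1 = 1
  eigen : CoeffEigen N ε a
  u_mem : u ∈ A
  u_unit : u ∉ A.nonunits
  cong : ∀ n : ℕ, n ≠ 0 → n.Coprime N → qCoeff g' n - u * a n ∈ A.nonunits
  neben : NebenAt g' ψ
  psi_mem : ∀ x, ψ x ∈ A
  psi_cong : ∀ p : ℕ, p.Prime → ¬ p ∣ M →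
    (p : ℂ) * ψ (p : ZMod M) - ε (p : ZMod N) ∈ A.nonunits

variable {N : ℕ} {A : ValuationSubring ℂ} {ψ : DirichletCharacter ℂ M}
  {ε : DirichletCharacter ℂ N} {a : ℕ → ℂ} {u : ℂ}

theorem LiftHyp.not_dvd {g' : S₂} (H : LiftHyp N A ψ g' ε a u) {p : ℕ} (hpM : ¬ p ∣ M) :
    ¬ p ∣ N := fun h => hpM (dvd_trans h H.dvd)

theorem coprime_mul_prime {n p : ℕ} (hp : p.Prime) (hpN : ¬ p ∣ N) (hn : n.Coprime N) :
    (n * p).Coprime N :=
  Nat.Coprime.mul_left hn ((Nat.Prime.coprime_iff_not_dvd hp).mpr hpN)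

theorem GoodOp.diamond {g' : S₂} (H : LiftHyp N A ψ g' ε a u) (d : (ZMod M)ˣ) :
    GoodOp N A ψ g' (diamond 2 d) (ψ (d : ZMod M)) := by
  refine ⟨H.psi_mem _, fun h hn d' => ?_, fun h hn hi => ?_, fun h hn hz => ?_, ?_⟩
  · rw [diamond_comm_apply, hn d', map_smul]
  · rw [hn d]; exact hi.smul (H.psi_mem _)
  · rw [hn d]; exact hz.smul (H.psi_mem _)
  · rw [H.neben d, sub_self]; exact ZeroAt.zero

theorem GoodOp.heckeT1 {g' : S₂} (H : LiftHyp N A ψ g' ε a u) {p : ℕ} (hp : p.Prime)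
    (hpM : ¬ p ∣ M) : GoodOp N A ψ g' (heckeT1 2 hp hpM) (a p) := by
  have hpN : ¬ p ∣ N := H.not_dvd hpM
  have hp0 : p ≠ 0 := hp.ne_zero
  have hpc : p.Coprime N := (Nat.Prime.coprime_iff_not_dvd hp).mpr hpN
  have hpA : (p : ℂ) ∈ A := natCast_mem A p
  have hpow : ((p : ℂ)) ^ ((2 : ℤ) - 1) = p := by norm_num
  have hdiv : ∀ n : ℕ, n ≠ 0 → n.Coprime N → p ∣ n → n / p ≠ 0 ∧ (n / p).Coprime N := by
    intro n hn hc hpn
    obtain ⟨m, rfl⟩ := hpn
    rw [Nat.mul_div_cancel_left _ hp.pos]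
    refine ⟨?_, Nat.Coprime.coprime_mul_left hc⟩
    rintro rfl; simp at hn
  refine ⟨H.a_mem p hp0 hpc, fun h hn d => ?_, fun h hn hi n hn0 hc => ?_,
    fun h hn hz n hn0 hc => ?_, fun n hn0 hc => ?_⟩
  · rw [diamond_heckeT1_apply, hn d, map_smul]
  · rw [qCoeff_heckeT1_of_neben hn hp hpM, hpow]
    refine add_mem (hi _ (Nat.mul_ne_zero hn0 hp0) (coprime_mul_prime hp hpN hc)) ?_
    split_ifs with hpn
    · obtain ⟨h1, h2⟩ := hdiv n hn0 hc hpn
      exact mul_mem hpA (mul_mem (H.psi_mem _) (hi _ h1 h2))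
    · exact A.zero_mem
  · rw [qCoeff_heckeT1_of_neben hn hp hpM, hpow]
    refine add_mem (hz _ (Nat.mul_ne_zero hn0 hp0) (coprime_mul_prime hp hpN hc)) ?_
    split_ifs with hpn
    · obtain ⟨h1, h2⟩ := hdiv n hn0 hc hpn
      exact mul_mem_nonunits A hpA (mul_mem_nonunits A (H.psi_mem _) (hz _ h1 h2))
    · exact zero_mem _
  · rw [qCoeff_cuspForm_sub, qCoeff_cuspForm_smul, qCoeff_heckeT1_of_neben H.neben hp hpM, hpow]
    set r : ℕ → ℂ := fun m => qCoeff g' m - u * a m with hr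
    have hrm : ∀ m : ℕ, m ≠ 0 → m.Coprime N → r m ∈ A.nonunits := H.cong
    have hq : ∀ m, qCoeff g' m = u * a m + r m := fun m => by simp [hr]
    have hnp := hrm _ (Nat.mul_ne_zero hn0 hp0) (coprime_mul_prime hp hpN hc)
    have hTn := H.eigen p hp hpN n
    rw [mul_comm p n] at hTn
    rw [hq (n * p), hq n]
    by_cases hpn : p ∣ n
    · obtain ⟨h1, h2⟩ := hdiv n hn0 hc hpn
      rw [if_pos hpn, hq (n / p)]
      rw [if_pos hpn] at hTn
      have key : u * a (n * p) + r (n * p) +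
          (p : ℂ) * (ψ (p : ZMod M) * (u * a (n / p) + r (n / p))) - a p * (u * a n + r n) =
          (u * a (n / p)) * ((p : ℂ) * ψ (p : ZMod M) - ε (p : ZMod N)) +
            (r (n * p) + (p : ℂ) * (ψ (p : ZMod M) * r (n / p)) - a p * r n) := by
        linear_combination u * hTn
      rw [key]
      refine add_mem (mul_mem_nonunits A (mul_mem H.u_mem (H.a_mem _ h1 h2))
        (H.psi_cong p hp hpM)) ?_
      refine sub_mem (add_mem hnp (mul_mem_nonunits A hpA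
        (mul_mem_nonunits A (H.psi_mem _) (hrm _ h1 h2)))) ?_
      exact mul_mem_nonunits A (H.a_mem p hp0 hpc) (hrm n hn0 hc)
    · rw [if_neg hpn, add_zero]
      rw [if_neg hpn, mul_zero, add_zero] at hTn
      have key : u * a (n * p) + r (n * p) - a p * (u * a n + r n) =
          r (n * p) - a p * r n := by
        linear_combination u * hTn
      rw [key]
      exact sub_mem hnp (mul_mem_nonunits A (H.a_mem p hp0 hpc) (hrm n hn0 hc))

/-- every element of the Hecke algebra is a good operator -/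
theorem exists_goodOp {g' : S₂} (H : LiftHyp N A ψ g' ε a u) (T : Module.End ℂ S₂)
    (hT : T ∈ hecke1Alg M) : ∃ c : ℂ, GoodOp N A ψ g' T c := by
  unfold hecke1Alg at hT
  induction hT using Algebra.adjoin_induction with
  | mem x hx =>
    rcases hx with ⟨p, hp, hpM, rfl⟩ | ⟨d, rfl⟩
    · exact ⟨a p, GoodOp.heckeT1 H hp hpM⟩
    · exact ⟨_, GoodOp.diamond H d⟩
  | algebraMap r => exact ⟨_, GoodOp.algebraMap r⟩
  | add x y _ _ hx hy =>
    obtain ⟨c, hc⟩ := hx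
    obtain ⟨c', hc'⟩ := hy
    exact ⟨_, hc.add hc'⟩
  | mul x y _ _ hx hy =>
    obtain ⟨c, hc⟩ := hx
    obtain ⟨c', hc'⟩ := hy
    exact ⟨_, GoodOp.mul H.neben hc hc'⟩

end

end Fermat.Agent.DS48
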