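import Fermat.Agent.DS48.LIFT_lead_Teich
import Fermat.Agent.DS48.A_lead_Main
import Fermat.Agent.DS48.Defs_lead

set_option autoImplicit false

/-!
# [LIFT] abstract construction of the mod `𝔪` Hecke eigensystem

Given a valuation subring `A ⊂ ℂ`, a weight two form `g'` on `Γ₁(M)` with nebentypus `ψ` whose
coefficients at indices prime to `N` are `≡ u·a_n mod 𝔪_A` for a coefficient eigensystem `a`,
the Hecke algebra `hecke1Alg M` acts on `g'` modulo `𝔪_A` through a ring homomorphism to the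
residue field.
-/

namespace Fermat.Agent.DS48

open Matrix CongruenceSubgroup ModularForm UpperHalfPlane ModularFormClass IsLocalRing
open scoped MatrixGroups ModularForm Manifold

noncomputable section

variable {M : ℕ} [NeZero M] (N : ℕ) (A : ValuationSubring ℂ) (ψ : DirichletCharacter ℂ M)

local notation "S₂" => CuspForm (Gamma1 M) 2

theorem qCoeff_add' {F G : ℍ → ℂ} (hF : IsNice F) (hG : IsNice G) (n : ℕ) :
    qCoeff (F + G) n = qCoeff F n + qCoeff G n := by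
  unfold qCoeff
  rw [qExpansion_add hF.analytic hG.analytic, map_add]

theorem qCoeff_cuspForm_add (h₁ h₂ : S₂) (n : ℕ) :
    qCoeff (h₁ + h₂ : S₂) n = qCoeff h₁ n + qCoeff h₂ n := by
  show qCoeff (⇑h₁ + ⇑h₂) n = _
  exact qCoeff_add' (IsNice.of_cuspForm _) (IsNice.of_cuspForm _) n

theorem qCoeff_cuspForm_sub (h₁ h₂ : S₂) (n : ℕ) :
    qCoeff (h₁ - h₂ : S₂) n = qCoeff h₁ n - qCoeff h₂ n := by
  show qCoeff (⇑h₁ - ⇑h₂) n = _
  exact qCoeff_sub (IsNice.of_cuspForm _) (IsNice.of_cuspForm _) n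

theorem qCoeff_cuspForm_smul (c : ℂ) (h : S₂) (n : ℕ) :
    qCoeff (c • h : S₂) n = c * qCoeff h n := by
  show qCoeff (c • ⇑h) n = _
  exact qCoeff_smul (IsNice.of_cuspForm _) c n

theorem qCoeff_cuspForm_zero (n : ℕ) : qCoeff ((0 : S₂) : ℍ → ℂ) n = 0 := by
  have h := qCoeff_cuspForm_smul (0 : ℂ) (0 : S₂) n
  rw [zero_smul, zero_mul] at h
  exact h

/-- coefficients at indices prime to `N` lie in `A` -/
def IntAt (h : S₂) : Prop := ∀ n : ℕ, n ≠ 0 → n.Coprime N → qCoeff h n ∈ A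

/-- coefficients at indices prime to `N` lie in `𝔪_A` -/
def ZeroAt (h : S₂) : Prop := ∀ n : ℕ, n ≠ 0 → n.Coprime N → qCoeff h n ∈ A.nonunits

variable {N A ψ}

theorem ZeroAt.add {h₁ h₂ : S₂} (H₁ : ZeroAt N A h₁) (H₂ : ZeroAt N A h₂) :
    ZeroAt N A (h₁ + h₂) := fun n hn hc => by
  rw [qCoeff_cuspForm_add]; exact add_mem (H₁ n hn hc) (H₂ n hn hc)

theorem ZeroAt.sub {h₁ h₂ : S₂} (H₁ : ZeroAt N A h₁) (H₂ : ZeroAt N A h₂) :
    ZeroAt N A (h₁ - h₂) := fun n hn hc => by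
  rw [qCoeff_cuspForm_sub]; exact sub_mem (H₁ n hn hc) (H₂ n hn hc)

theorem ZeroAt.smul {c : ℂ} (hc : c ∈ A) {h : S₂} (H : ZeroAt N A h) :
    ZeroAt N A (c • h) := fun n hn hcop => by
  rw [qCoeff_cuspForm_smul]; exact mul_mem_nonunits A hc (H n hn hcop)

theorem ZeroAt.zero : ZeroAt N A (0 : S₂) := fun n _ _ => by
  rw [qCoeff_cuspForm_zero]; exact zero_mem _

theorem IntAt.add {h₁ h₂ : S₂} (H₁ : IntAt N A h₁) (H₂ : IntAt N A h₂) :
    IntAt N A (h₁ + h₂) := fun n hn hc => by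
  rw [qCoeff_cuspForm_add]; exact add_mem (H₁ n hn hc) (H₂ n hn hc)

theorem IntAt.smul {c : ℂ} (hc : c ∈ A) {h : S₂} (H : IntAt N A h) :
    IntAt N A (c • h) := fun n hn hcop => by
  rw [qCoeff_cuspForm_smul]; exact mul_mem hc (H n hn hcop)

theorem NebenAt.add {h₁ h₂ : S₂} (H₁ : NebenAt h₁ ψ) (H₂ : NebenAt h₂ ψ) :
    NebenAt (h₁ + h₂) ψ := fun d => by
  rw [map_add, H₁ d, H₂ d, smul_add]

theorem NebenAt.sub {h₁ h₂ : S₂} (H₁ : NebenAt h₁ ψ) (H₂ : NebenAt h₂ ψ) :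
    NebenAt (h₁ - h₂) ψ := fun d => by
  rw [map_sub, H₁ d, H₂ d, smul_sub]

theorem NebenAt.smul (c : ℂ) {h : S₂} (H : NebenAt h ψ) : NebenAt (c • h) ψ := fun d => by
  rw [map_smul, H d, smul_comm]

/-- `T` acts on `g'` modulo `𝔪_A` through the scalar `c` -/
structure GoodOp (N : ℕ) (A : ValuationSubring ℂ) (ψ : DirichletCharacter ℂ M) (g' : S₂)
    (T : Module.End ℂ S₂) (c : ℂ) : Prop where
  c_mem : c ∈ A
  neben : ∀ h : S₂, NebenAt h ψ → NebenAt (T h) ψ
  int : ∀ h : S₂, NebenAt h ψ → IntAt N A h → IntAt N A (T h)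
  zero : ∀ h : S₂, NebenAt h ψ → ZeroAt N A h → ZeroAt N A (T h)
  eigen : ZeroAt N A (T g' - c • g')

theorem GoodOp.one {g' : S₂} : GoodOp N A ψ g' 1 1 where
  c_mem := A.one_mem
  neben := fun _ h => h
  int := fun _ _ h => h
  zero := fun _ _ h => h
  eigen := by
    rw [Module.End.one_apply, one_smul, sub_self]; exact ZeroAt.zero

theorem GoodOp.add {g' : S₂} {T T' : Module.End ℂ S₂} {c c' : ℂ} (H : GoodOp N A ψ g' T c)
    (H' : GoodOp N A ψ g' T' c') : GoodOp N A ψ g' (T + T') (c + c') := by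
  refine ⟨add_mem H.c_mem H'.c_mem, fun h hn => (H.neben h hn).add (H'.neben h hn),
    fun h hn hi => (H.int h hn hi).add (H'.int h hn hi),
    fun h hn hz => (H.zero h hn hz).add (H'.zero h hn hz), ?_⟩
  have : (T + T') g' - (c + c') • g' = (T g' - c • g') + (T' g' - c' • g') := by
    rw [LinearMap.add_apply, add_smul]; abel
  rw [this]
  exact H.eigen.add H'.eigen

theorem GoodOp.mul {g' : S₂} (hg : NebenAt g' ψ) {T T' : Module.End ℂ S₂} {c c' : ℂ}
    (H : GoodOp N A ψ g' T c) (H' : GoodOp N A ψ g' T' c') :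
    GoodOp N A ψ g' (T * T') (c * c') := by
  refine ⟨mul_mem H.c_mem H'.c_mem, fun h hn => H.neben _ (H'.neben h hn),
    fun h hn hi => H.int _ (H'.neben h hn) (H'.int h hn hi),
    fun h hn hz => H.zero _ (H'.neben h hn) (H'.zero h hn hz), ?_⟩
  have : (T * T') g' - (c * c') • g' = T (T' g' - c' • g') + c' • (T g' - c • g') := by
    rw [Module.End.mul_apply, map_sub, map_smul, smul_sub, smul_smul, mul_comm c' c]; abel
  rw [this]
  exact (H.zero _ ((H'.neben _ hg).sub (hg.smul c')) H'.eigen).add (H.eigen.smul H'.c_mem)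

theorem GoodOp.algebraMap {g' : S₂} (n : ℤ) : GoodOp N A ψ g' (algebraMap ℤ (Module.End ℂ S₂) n) (n : ℂ) where
  c_mem := intCast_mem A n
  neben := fun h hn => by
    rw [Module.algebraMap_end_apply]
    rw [← Int.cast_smul_eq_zsmul ℂ]
    exact hn.smul _
  int := fun h _ hi => by
    rw [Module.algebraMap_end_apply, ← Int.cast_smul_eq_zsmul ℂ]
    exact hi.smul (intCast_mem A n)
  zero := fun h _ hz => by
    rw [Module.algebraMap_end_apply, ← Int.cast_smul_eq_zsmul ℂ]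
    exact hz.smul (intCast_mem A n)
  eigen := by
    rw [Module.algebraMap_end_apply, ← Int.cast_smul_eq_zsmul ℂ, sub_self]
    exact ZeroAt.zero

end

end Fermat.Agent.DS48
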