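import Mathlib

set_option autoImplicit false

/-!
# [LIFT] valuation subrings of `ℂ` above a prime `ℓ`: integral elements, residue characteristic,
the Teichmüller character
-/

namespace Fermat.Agent.DS48

open IsLocalRing

section General

variable {K : Type*} [Field K] (A : ValuationSubring K)

theorem mem_of_isIntegral_int {x : K} (hx : IsIntegral ℤ x) : x ∈ A := by
  have h1 : IsIntegral A x := hx.tower_top
  obtain ⟨y, hy⟩ := IsIntegrallyClosed.isIntegral_iff.mp h1
  rw [← hy]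
  exact y.2

theorem mul_mem_nonunits {a x : K} (ha : a ∈ A) (hx : x ∈ A.nonunits) : a * x ∈ A.nonunits := by
  have hxA : x ∈ A := A.nonunits_subset hx
  have h1 : ((⟨x, hxA⟩ : A) : K) ∈ A.nonunits := hx
  rw [ValuationSubring.coe_mem_nonunits_iff] at h1
  have h2 := Ideal.mul_mem_left _ (⟨a, ha⟩ : A) h1
  rw [← ValuationSubring.coe_mem_nonunits_iff] at h2
  exact h2

theorem residue_eq_zero_iff_nonunits {x : K} (hx : x ∈ A) :
    residue A ⟨x, hx⟩ = 0 ↔ x ∈ A.nonunits := by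
  rw [IsLocalRing.residue_eq_zero_iff]
  exact (ValuationSubring.coe_mem_nonunits_iff (A := A) (a := ⟨x, hx⟩)).symm

theorem natCast_residueField_eq_zero {ℓ : ℕ} (hℓ : (ℓ : K) ∈ A.nonunits) :
    ((ℓ : ℕ) : ResidueField A) = 0 := by
  have h := (residue_eq_zero_iff_nonunits A (A.nonunits_subset hℓ)).mpr hℓ
  have h2 : (⟨(ℓ : K), A.nonunits_subset hℓ⟩ : A) = ((ℓ : ℕ) : A) := by
    apply Subtype.ext; simp
  rw [h2, map_natCast] at h
  exact h

theorem charP_residueField {ℓ : ℕ} [Fact ℓ.Prime] (hℓ : (ℓ : K) ∈ A.nonunits) :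
    CharP (ResidueField A) ℓ := by
  have h := CharP.ringChar_of_prime_eq_zero (Fact.out : ℓ.Prime)
    (natCast_residueField_eq_zero A hℓ)
  exact ringChar.of_eq h

end General

section Teich

variable (ℓ : ℕ) [Fact ℓ.Prime] (A : ValuationSubring ℂ)

theorem rootsOfUnity_le_unitGroup (n : ℕ) [NeZero n] : rootsOfUnity n ℂ ≤ A.unitGroup := by
  intro ζ hζ
  rw [ValuationSubring.mem_unitGroup_iff]
  rw [mem_rootsOfUnity'] at hζ
  have h1 : A.valuation (ζ : ℂ) ^ n = 1 := by rw [← map_pow, hζ, map_one]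
  rcases pow_eq_one_iff.mp h1 with h | h
  · exact h
  · exact absurd h (NeZero.ne n)

/-- reduction of roots of unity -/
noncomputable def redRoots (n : ℕ) [NeZero n] : rootsOfUnity n ℂ →* (ResidueField A)ˣ :=
  A.unitGroupToResidueFieldUnits.comp (Subgroup.inclusion (rootsOfUnity_le_unitGroup A n))

theorem coe_redRoots (n : ℕ) [NeZero n] (ζ : rootsOfUnity n ℂ) :
    ∃ h : ((ζ : ℂˣ) : ℂ) ∈ A, ((redRoots A n ζ : (ResidueField A)ˣ) : ResidueField A) =
      residue A ⟨((ζ : ℂˣ) : ℂ), h⟩ := by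
  have hmem : ((ζ : ℂˣ) : ℂ) ∈ A := by
    have := A.unitGroupMulEquiv (Subgroup.inclusion (rootsOfUnity_le_unitGroup A n) ζ)
    have h2 := ValuationSubring.coe_unitGroupMulEquiv_apply A
      (Subgroup.inclusion (rootsOfUnity_le_unitGroup A n) ζ)
    have h3 : ((Subgroup.inclusion (rootsOfUnity_le_unitGroup A n) ζ : A.unitGroup) : ℂˣ) = ζ :=
      rfl
    rw [h3] at h2
    rw [← h2]
    exact Subtype.property _
  refine ⟨hmem, ?_⟩
  unfold redRoots
  rw [MonoidHom.comp_apply, ValuationSubring.coe_unitGroupToResidueFieldUnits_apply]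
  show residue A _ = residue A _
  congr 1

instance neZero_pred_prime : NeZero (ℓ - 1) :=
  ⟨by have := (Fact.out : ℓ.Prime).two_le; omega⟩

variable {ℓ A} in
theorem natCast_pred_residueField (hℓ : (ℓ : ℂ) ∈ A.nonunits) :
    (((ℓ - 1 : ℕ) : ℕ) : ResidueField A) = -1 := by
  have h0 := natCast_residueField_eq_zero A hℓ
  have h1 : ((ℓ - 1 : ℕ) : ResidueField A) + 1 = 0 := by
    have : ℓ - 1 + 1 = ℓ := Nat.sub_add_cancel (Fact.out : ℓ.Prime).one_le
    rw [← h0]
    conv_rhs => rw [← this]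
    push_cast
    rfl
  exact eq_neg_of_add_eq_zero_left h1

variable {ℓ A} in
theorem redRoots_injective (hℓ : (ℓ : ℂ) ∈ A.nonunits) :
    Function.Injective (redRoots A (ℓ - 1)) := by
  rw [injective_iff_map_eq_one]
  intro ζ hζ
  by_contra hne
  obtain ⟨hmem, hred⟩ := coe_redRoots A (ℓ - 1) ζ
  rw [hζ, Units.val_one] at hred
  set z : ℂ := ((ζ : ℂˣ) : ℂ) with hz
  have hzn : z ^ (ℓ - 1) = 1 := (mem_rootsOfUnity' _ _).mp ζ.2
  have hz1 : z ≠ 1 := by
    intro h
    apply hne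
    apply Subtype.ext
    apply Units.ext
    exact h
  have hsum : ∑ i ∈ Finset.range (ℓ - 1), z ^ i = 0 := by
    have h := geom_sum_mul z (ℓ - 1)
    rw [hzn, sub_self] at h
    rcases mul_eq_zero.mp h with h | h
    · exact h
    · exact absurd (sub_eq_zero.mp h) hz1
  have hsumA : ∑ i ∈ Finset.range (ℓ - 1), (⟨z, hmem⟩ : A) ^ i = 0 := by
    apply Subtype.ext
    push_cast
    exact hsum
  have h2 := congrArg (residue A) hsumA
  rw [map_sum, map_zero] at h2
  have h3 : (residue A) (⟨z, hmem⟩ : A) = 1 := hred.symm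
  simp only [map_pow, h3, one_pow, Finset.sum_const, Finset.card_range, nsmul_eq_mul,
    mul_one] at h2
  rw [natCast_pred_residueField hℓ] at h2
  exact absurd h2 (by simp)

variable {ℓ A} in
/-- **the Teichmüller character** with respect to the valuation subring `A` -/
theorem exists_teichmuller (hℓ : (ℓ : ℂ) ∈ A.nonunits) :
    ∃ ω : DirichletCharacter ℂ ℓ, ∀ x : ZMod ℓ, ∃ h : ω x ∈ A,
      residue A ⟨ω x, h⟩ = ((x.val : ℕ) : ResidueField A) := by
  classical
  haveI := charP_residueField A hℓ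
  set k := ResidueField A
  set n := ℓ - 1 with hn
  set r := redRoots A n with hr
  have hrinj : Function.Injective r := redRoots_injective hℓ
  let c : (ZMod ℓ)ˣ →* kˣ := Units.map ((ZMod.castHom (dvd_refl ℓ) k : ZMod ℓ →+* k) : ZMod ℓ →* k)
  have hle : r.range ≤ rootsOfUnity n k := by
    rintro _ ⟨ζ, rfl⟩
    rw [mem_rootsOfUnity, ← map_pow]
    have : ζ ^ n = 1 := by
      apply Subtype.ext
      exact (mem_rootsOfUnity _ _).mp ζ.2
    rw [this, map_one]
  have hcard : Nat.card (rootsOfUnity n k) ≤ Nat.card r.range := by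
    have h1 : Nat.card r.range = Nat.card (rootsOfUnity n ℂ) :=
      (Nat.card_congr (MonoidHom.ofInjective hrinj).toEquiv).symm
    rw [h1, Complex.card_rootsOfUnity]
    exact card_rootsOfUnity k n
  have hrange : r.range = rootsOfUnity n k := Subgroup.eq_of_le_of_card_ge hle hcard
  have hc : ∀ u : (ZMod ℓ)ˣ, c u ∈ r.range := by
    intro u
    rw [hrange, mem_rootsOfUnity, ← map_pow, hn, ZMod.units_pow_card_sub_one_eq_one, map_one]
  let e := MonoidHom.ofInjective hrinj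
  let ω₀ : (ZMod ℓ)ˣ →* ℂˣ :=
    (rootsOfUnity n ℂ).subtype.comp (e.symm.toMonoidHom.comp (c.codRestrict r.range hc))
  refine ⟨MulChar.ofUnitHom ω₀, fun x => ?_⟩
  by_cases hx : IsUnit x
  · obtain ⟨u, rfl⟩ := hx
    rw [MulChar.ofUnitHom_coe]
    set ζ : rootsOfUnity n ℂ := e.symm (c.codRestrict r.range hc u) with hζ
    have hrζ : r ζ = c u := by
      have h1 : e ζ = c.codRestrict r.range hc u := by rw [hζ, MulEquiv.apply_symm_apply]
      have h2 := congrArg Subtype.val h1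
      exact h2
    obtain ⟨hmem, hred⟩ := coe_redRoots A n ζ
    have hω : ((ω₀ u : ℂˣ) : ℂ) = ((ζ : ℂˣ) : ℂ) := rfl
    refine ⟨hω ▸ hmem, ?_⟩
    have h5 : residue A ⟨((ω₀ u : ℂˣ) : ℂ), hω ▸ hmem⟩ = residue A ⟨((ζ : ℂˣ) : ℂ), hmem⟩ := rfl
    rw [h5, ← hred]
    show ((r ζ : kˣ) : k) = _
    rw [hrζ]
    show (ZMod.castHom (dvd_refl ℓ) k) (u : ZMod ℓ) = _
    rw [ZMod.castHom_apply, ZMod.natCast_val]
  · rw [MulChar.map_nonunit _ hx]
    refine ⟨A.zero_mem, ?_⟩
    have hx0 : x = 0 := by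
      by_contra h
      exact hx (IsUnit.mk0 x h)
    subst hx0
    have : (⟨(0 : ℂ), A.zero_mem⟩ : A) = 0 := rfl
    rw [this, map_zero]
    simp

end Teich

end Fermat.Agent.DS48
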