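import Fermat.Agent.DS48.LIFT_lead_Gen

set_option autoImplicit false

/-!
# [LIFT] the ring homomorphism `θ : hecke1Alg M →+* k_A` attached to a lifting datum
-/

namespace Fermat.Agent.DS48

open Matrix CongruenceSubgroup ModularForm UpperHalfPlane ModularFormClass IsLocalRing
open scoped MatrixGroups ModularForm Manifold

noncomputable section

variable {M : ℕ} [NeZero M]

local notation "S₂" => CuspForm (Gamma1 M) 2

variable {N : ℕ} {A : ValuationSubring ℂ} {ψ : DirichletCharacter ℂ M}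
  {ε : DirichletCharacter ℂ N} {a : ℕ → ℂ} {u : ℂ}

theorem valuation_eq_one_of_not_mem_nonunits {x : ℂ} (hx : x ∈ A) (hx' : x ∉ A.nonunits) :
    A.valuation x = 1 := by
  rw [ValuationSubring.mem_nonunits_iff, not_lt] at hx'
  exact le_antisymm ((A.valuation_le_one_iff x).mpr hx) hx'

theorem mem_nonunits_of_mul_mem {x w : ℂ} (hw : w ∈ A) (hw' : w ∉ A.nonunits)
    (h : x * w ∈ A.nonunits) : x ∈ A.nonunits := by
  rw [ValuationSubring.mem_nonunits_iff] at h ⊢
  rwa [map_mul, valuation_eq_one_of_not_mem_nonunits hw hw', mul_one] at h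

theorem LiftHyp.coeff_one_unit {g' : S₂} (H : LiftHyp N A ψ g' ε a u) :
    qCoeff g' 1 ∈ A ∧ qCoeff g' 1 ∉ A.nonunits := by
  have h1 := H.cong 1 one_ne_zero (Nat.coprime_one_left N)
  rw [H.a_one, mul_one] at h1
  have h2 : qCoeff g' 1 = u + (qCoeff g' 1 - u) := by ring
  refine ⟨?_, fun h3 => H.u_unit ?_⟩
  · rw [h2]; exact add_mem H.u_mem (A.nonunits_subset h1)
  · have : u = qCoeff g' 1 - (qCoeff g' 1 - u) := by ring
    rw [this]
    exact sub_mem h3 h1

/-- uniqueness of the eigenvalue modulo `𝔪_A` -/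
theorem GoodOp.residue_eq {g' : S₂} (H : LiftHyp N A ψ g' ε a u) {T : Module.End ℂ S₂}
    {c c' : ℂ} (hc : GoodOp N A ψ g' T c) (hc' : GoodOp N A ψ g' T c') :
    residue A ⟨c, hc.c_mem⟩ = residue A ⟨c', hc'.c_mem⟩ := by
  have hz : ZeroAt N A ((T g' - c' • g') - (T g' - c • g')) := hc'.eigen.sub hc.eigen
  have h1 := hz 1 one_ne_zero (Nat.coprime_one_left N)
  have h2 : (T g' - c' • g') - (T g' - c • g') = (c - c') • g' := by
    rw [sub_smul]; abel
  rw [h2, qCoeff_cuspForm_smul] at h1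
  obtain ⟨hw, hw'⟩ := H.coeff_one_unit
  have h3 := mem_nonunits_of_mul_mem hw hw' h1
  have h4 : residue A (⟨c, hc.c_mem⟩ - ⟨c', hc'.c_mem⟩ : A) = 0 := by
    have : (⟨c, hc.c_mem⟩ - ⟨c', hc'.c_mem⟩ : A) = ⟨c - c', A.nonunits_subset h3⟩ := rfl
    rw [this]
    exact (residue_eq_zero_iff_nonunits A _).mpr h3
  rw [map_sub, sub_eq_zero] at h4
  exact h4

/-- the eigenvalue of `T` on `g'` modulo `𝔪_A` -/
def thetaFun {g' : S₂} (H : LiftHyp N A ψ g' ε a u) (T : hecke1Alg M) : ResidueField A :=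
  residue A ⟨(exists_goodOp H T.1 T.2).choose, (exists_goodOp H T.1 T.2).choose_spec.c_mem⟩

theorem thetaFun_eq {g' : S₂} (H : LiftHyp N A ψ g' ε a u) (T : hecke1Alg M) {c : ℂ}
    (hc : GoodOp N A ψ g' T.1 c) : thetaFun H T = residue A ⟨c, hc.c_mem⟩ :=
  GoodOp.residue_eq H (exists_goodOp H T.1 T.2).choose_spec hc

/-- **the mod `𝔪_A` eigensystem of `g'`** -/
def theta {g' : S₂} (H : LiftHyp N A ψ g' ε a u) : hecke1Alg M →+* ResidueField A where
  toFun := thetaFun H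
  map_one' := by
    rw [thetaFun_eq H 1 (c := 1) GoodOp.one]
    exact map_one _
  map_mul' := fun T T' => by
    have h1 := (exists_goodOp H T.1 T.2).choose_spec
    have h2 := (exists_goodOp H T'.1 T'.2).choose_spec
    rw [thetaFun_eq H (T * T') (GoodOp.mul H.neben h1 h2), thetaFun_eq H T h1,
      thetaFun_eq H T' h2, ← map_mul]
    rfl
  map_zero' := by
    have h0 : GoodOp N A ψ g' (0 : hecke1Alg M).1 ((0 : ℤ) : ℂ) := by
      have := GoodOp.algebraMap (N := N) (A := A) (ψ := ψ) (g' := g') 0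
      rwa [map_zero] at this
    rw [thetaFun_eq H 0 h0]
    have : (⟨((0 : ℤ) : ℂ), h0.c_mem⟩ : A) = 0 := by
      apply Subtype.ext; simp
    rw [this, map_zero]
  map_add' := fun T T' => by
    have h1 := (exists_goodOp H T.1 T.2).choose_spec
    have h2 := (exists_goodOp H T'.1 T'.2).choose_spec
    rw [thetaFun_eq H (T + T') (h1.add h2), thetaFun_eq H T h1, thetaFun_eq H T' h2, ← map_add]
    rfl

theorem theta_heckeT1 {g' : S₂} (H : LiftHyp N A ψ g' ε a u) {p : ℕ} (hp : p.Prime)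
    (hpM : ¬ p ∣ M) :
    theta H ⟨heckeT1 2 hp hpM, heckeT1_mem_hecke1Alg M hp hpM⟩ =
      residue A ⟨a p, (GoodOp.heckeT1 H hp hpM).c_mem⟩ :=
  thetaFun_eq H _ (GoodOp.heckeT1 H hp hpM)

theorem theta_diamond {g' : S₂} (H : LiftHyp N A ψ g' ε a u) (d : (ZMod M)ˣ) :
    theta H ⟨diamond 2 d, diamond_mem_hecke1Alg M d⟩ =
      residue A ⟨ψ (d : ZMod M), H.psi_mem _⟩ :=
  thetaFun_eq H _ (GoodOp.diamond H d)

end

end Fermat.Agent.DS48
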