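import Fermat.Agent.RatStr.Descent_helper1

set_option autoImplicit false

/-!
# [NF] extending embeddings of number fields to automorphisms of `ℂ`
-/

namespace Fermat.Agent.DS48

open Polynomial IntermediateField
open Fermat.Agent.RatStr

/-- conjugate algebraic numbers are exchanged by an automorphism of `ℂ` -/
theorem exists_ringEquiv_map_eq {α β : ℂ} (hα : IsAlgebraic ℚ α)
    (hβ : aeval β (minpoly ℚ α) = 0) : ∃ σ : ℂ ≃+* ℂ, σ α = β := by
  have hβalg : IsAlgebraic ℚ β := ⟨minpoly ℚ α, minpoly.ne_zero hα.isIntegral, hβ⟩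
  let x' : algebraicClosure ℚ ℂ := ⟨α, (mem_algebraicClosure_iff).2 hα⟩
  let y' : algebraicClosure ℚ ℂ := ⟨β, (mem_algebraicClosure_iff).2 hβalg⟩
  haveI : IsAlgClosure ℚ (algebraicClosure ℚ ℂ) := algebraicClosure.isAlgClosure ℚ ℂ
  haveI : Normal ℚ (algebraicClosure ℚ ℂ) := IsAlgClosure.normal ℚ (algebraicClosure ℚ ℂ)
  have hx'alg : IsAlgebraic ℚ x' := by
    have : IsAlgebraic ℚ (algebraMap (algebraicClosure ℚ ℂ) ℂ x') := hα
    exact (isAlgebraic_algebraMap_iff (algebraMap (algebraicClosure ℚ ℂ) ℂ).injective).mp this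
  have hmin : minpoly ℚ x' = minpoly ℚ α :=
    (minpoly.algebraMap_eq (algebraMap (algebraicClosure ℚ ℂ) ℂ).injective x').symm
  have hev : aeval y' (minpoly ℚ x') = 0 := by
    apply (algebraMap (algebraicClosure ℚ ℂ) ℂ).injective
    rw [map_zero, ← aeval_algebraMap_apply, hmin]
    exact hβ
  obtain ⟨f, hf⟩ := minpoly.exists_algEquiv_of_root' hx'alg hev
  obtain ⟨ι, v, hv⟩ := exists_isTranscendenceBasis' (algebraicClosure ℚ ℂ) ℂ
  obtain ⟨σ, hσ⟩ := exists_ringEquiv_of_mvPolynomial v hv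
    (MvPolynomial.mapEquiv ι f.toRingEquiv)
  refine ⟨σ, ?_⟩
  have h1 := hσ (MvPolynomial.C x')
  simp only [MvPolynomial.aeval_C, MvPolynomial.mapEquiv_apply, MvPolynomial.map_C] at h1
  have h2 : algebraMap (algebraicClosure ℚ ℂ) ℂ x' = α := rfl
  rw [h2] at h1
  rw [h1]
  show algebraMap (algebraicClosure ℚ ℂ) ℂ (f x') = β
  rw [hf]
  rfl

/-- every pair of complex embeddings of a number field differs by an automorphism of `ℂ` -/
theorem exists_ringEquiv_extends (K : Type*) [Field K] [NumberField K] (ι φ : K →+* ℂ) :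
    ∃ σ : ℂ ≃+* ℂ, ∀ x, σ (ι x) = φ x := by
  obtain ⟨α₀, hα₀⟩ := Field.exists_primitive_element ℚ K
  let ιa : K →ₐ[ℚ] ℂ := ι.toRatAlgHom
  let φa : K →ₐ[ℚ] ℂ := φ.toRatAlgHom
  have hint : IsIntegral ℚ α₀ := Algebra.IsIntegral.isIntegral α₀
  have hα : IsAlgebraic ℚ (ι α₀) := (hint.map ιa).isAlgebraic
  have hmin : minpoly ℚ (ι α₀) = minpoly ℚ α₀ := minpoly.algHom_eq ιa ιa.injective α₀
  have hβ : aeval (φ α₀) (minpoly ℚ (ι α₀)) = 0 := by
    rw [hmin]
    have : aeval (φa α₀) (minpoly ℚ α₀) = φa (aeval α₀ (minpoly ℚ α₀)) := aeval_algHom_apply φa α₀ _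
    rw [minpoly.aeval, map_zero] at this
    exact this
  obtain ⟨σ, hσ⟩ := exists_ringEquiv_map_eq hα hβ
  refine ⟨σ, ?_⟩
  let σa : ℂ →ₐ[ℚ] ℂ := (σ : ℂ →+* ℂ).toRatAlgHom
  have hext : σa.comp ιa = φa := by
    have htop : Algebra.adjoin ℚ {α₀} = ⊤ := by
      have h1 := adjoin_simple_toSubalgebra_of_isAlgebraic hint.isAlgebraic
      rw [hα₀] at h1
      rw [← h1]
      rfl
    refine AlgHom.ext_of_adjoin_eq_top htop ?_
    intro x hx
    rw [Set.mem_singleton_iff] at hx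
    subst hx
    exact hσ
  intro x
  exact DFunLike.congr_fun hext x

end Fermat.Agent.DS48
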