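import Fermat.Agent.DS48.INT1_lead_Main
import Fermat.Agent.RatStr.ConjForm

set_option autoImplicit false

/-!
# [RAT1'] `Aut(ℂ)`-conjugates of weight one cusp forms with nebentypus

For a ring endomorphism `σ` of `ℂ` and a weight one cusp form `f` on `Γ₁(N)` with nebentypus `ε`,
there is a weight one cusp form on `Γ₁(2N)` whose `q`-expansion is `σ` applied to that of `f`.
Method: `f E'` is a weight two form on `Γ₀(2N)` (conjugated by `RatStr.exists_conj_isCF`), the
Eisenstein series `E'` is conjugated explicitly, and the quotient is holomorphic because it is a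
root of the conjugated characteristic polynomial of `f` over level one forms.
-/

namespace Fermat.Agent.DS48

open Matrix CongruenceSubgroup ModularForm UpperHalfPlane ModularFormClass
open Fermat.Agent.RatStr
open scoped MatrixGroups ModularForm Manifold

noncomputable section

variable {N : ℕ} [NeZero N]

theorem sigmaChi_ringHomComp (σ : ℂ →+* ℂ) (χ : DirichletCharacter ℂ N) (n : ℕ) :
    sigmaChi (χ.ringHomComp σ) n = σ (sigmaChi χ n) := by
  unfold sigmaChi
  rw [map_sum]
  rfl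

theorem qCoeff_eisPrime_ringHomComp (σ : ℂ →+* ℂ) (χ : DirichletCharacter ℂ N)
    (hodd : χ (-1) = -1) (n : ℕ) :
    qCoeff (eisPrime (χ.ringHomComp σ)) n = σ (qCoeff (eisPrime χ) n) := by
  have hodd' : (χ.ringHomComp σ) (-1) = -1 := by
    rw [MulChar.ringHomComp_apply, hodd, map_neg, map_one]
  rw [qCoeff_eisPrime _ hodd', qCoeff_eisPrime _ hodd]
  split_ifs
  · rw [map_zero]
  · rw [map_sub, sigmaChi_ringHomComp, sigmaChi_ringHomComp]
  · rw [map_sub, sigmaChi_ringHomComp, map_zero]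

theorem isConjPair_eisPrime (σ : ℂ →+* ℂ) (χ : DirichletCharacter ℂ N) (hodd : χ (-1) = -1) :
    IsConjPair (RingHom.id ℂ) σ (eisPrime χ) (eisPrime (χ.ringHomComp σ)) := by
  refine ⟨isNice_eisPrime χ, isNice_eisPrime _, qExpansion 1 (eisPrime χ), ?_, ?_⟩
  · rw [PowerSeries.map_id]; rfl
  · ext n
    rw [PowerSeries.coeff_map]
    exact qCoeff_eisPrime_ringHomComp σ χ hodd n

/-- **conjugates of weight one cusp forms with nebentypus** -/
theorem exists_conj_weightOne (σ : ℂ →+* ℂ) {ε : DirichletCharacter ℂ N} {f : ℍ → ℂ}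
    (hcf : IsCF (Gamma1 N) 1 f) (hf : HasNeben N 1 (chiInt ε) f) (hne : f ≠ 0) :
    ∃ g : ℍ → ℂ, IsCF (Gamma1 (N * 2)) 1 g ∧ qExpansion 1 g = (qExpansion 1 f).map σ := by
  classical
  have hodd : ε (-1) = -1 := odd_of_hasNeben hf hne
  have hodd' : ε⁻¹ (-1) = -1 := by
    rw [MulChar.inv_apply_eq_inv', hodd]; norm_num
  set n := idx (Gamma1 N) with hn
  have hn0 : 0 < n := Fintype.card_pos
  have hid : Function.Injective (RingHom.id ℂ) := fun _ _ h => h
  set B := eisPrime ε⁻¹ with hB_def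
  set B' := eisPrime (ε⁻¹.ringHomComp σ) with hB'_def
  set A := f * B with hA_def
  have hBB : IsConjPair (RingHom.id ℂ) σ B B' := isConjPair_eisPrime σ ε⁻¹ hodd'
  have hAcf : IsCF (Gamma0 (N * 2)) 2 A := isCF_mul_eisPrime hcf hf
  obtain ⟨A', hA'cf, hA'q⟩ := exists_conj_isCF (N * 2) σ hAcf
  have hT0 := T_mem_Gamma0 (N * 2)
  have hAn : RatStr.IsNice A := hAcf.toIsMF.isNice hT0
  have hA'n : RatStr.IsNice A' := hA'cf.toIsMF.isNice hT0
  have hAA : IsConjPair (RingHom.id ℂ) σ A A' :=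
    ⟨hAn, hA'n, qExpansion 1 A, by rw [PowerSeries.map_id]; rfl, hA'q⟩
  have hB'mf : IsMF (Gamma1 (N * 2)) 1 B' := isMF_eisPrime _
  -- conjugates of the level one coefficient forms
  choose cF' hcF'1 hcF'2 using fun j => levelOne_conj_id σ (charCoeff_isMF hcf.toIsMF j)
  -- relations
  have hrel0 : polyRel n (charCoeff (Gamma1 N) 1 f) A B = 0 :=
    polyRel_eq_zero rfl (charCoeff_relation hcf.inv)
  have hrel1 : polyRel n cF' A' B' = 0 := (polyRel_conj hcF'2 hAA hBB).eq_zero hid hrel0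
  have hcFn : cF' n = 1 := by
    have h1 : IsConjPair (RingHom.id ℂ) σ (charCoeff (Gamma1 N) 1 f n - 1) (cF' n - 1) :=
      (hcF'2 n).sub IsConjPair.one
    have := h1.eq_zero hid (by rw [hn, charCoeff_idx, sub_self])
    exact sub_eq_zero.mp this
  have hrel_pt : ∀ z, A' z ^ n + ∑ j : Fin n, cF' j z * A' z ^ (j : ℕ) * B' z ^ (n - j) = 0 := by
    intro z
    have := congrFun hrel1 z
    unfold polyRel at this
    rw [Finset.sum_range_succ, hcFn, Nat.sub_self, pow_zero, mul_one, one_mul,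
      Finset.sum_range, add_comm] at this
    simpa using this
  -- B' is not identically zero
  have hodd'' : (ε⁻¹.ringHomComp σ) (-1) = -1 := by
    rw [MulChar.ringHomComp_apply, hodd', map_neg, map_one]
  have hB'c : (qExpansion 1 B').coeff 1 = 1 := qCoeff_eisPrime_one _ hodd''
  have hB'ne : B' ≠ 0 := by
    intro h
    rw [h, qExpansion_zero] at hB'c
    simp at hB'c
  have hB'0 : ∃ z, B' z ≠ 0 := Function.ne_iff.mp hB'ne
  -- continuation
  obtain ⟨g, hg1, hg2, hg3⟩ := exists_div_of_monic_relation_uhp hA'cf.holo hB'mf.holo hB'0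
    (fun j : Fin n => cF' j) (fun j => (hcF'1 j).holo) hrel_pt
  have hgB : g * B' = A' := funext hg2
  have hgrel : g ^ n + ∑ i ∈ Finset.range n, cF' i * g ^ i = 0 := by
    ext z
    have := hg3 z
    rw [← Finset.sum_range (fun i => cF' i z * g z ^ i)] at this
    simpa using this
  -- invariance
  have hginv : ∀ γ ∈ Gamma1 (N * 2), g ∣[(1 : ℤ)] γ = g := by
    intro γ hγ
    have hγ0 : γ ∈ Gamma0 (N * 2) := Gamma1_in_Gamma0 _ hγ
    have h1 : (g ∣[(1 : ℤ)] γ) * B' = g * B' := by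
      have := hA'cf.inv γ hγ0
      rw [← hgB, show (2 : ℤ) = 1 + 1 by norm_num, mul_slash_SL2, hB'mf.inv γ hγ] at this
      exact this
    have h2 : ∀ z, (g ∣[(1 : ℤ)] γ - g) z * B' z = 0 := by
      intro z
      have := congrFun h1 z
      simp only [Pi.mul_apply, Pi.sub_apply] at this ⊢
      rw [sub_mul, this, sub_self]
    have hcont : Continuous (g ∣[(1 : ℤ)] γ - g) :=
      ((hg1.slash 1 (γ : GL (Fin 2) ℝ)).sub hg1).continuous
    have := eq_zero_of_mul_eq_zero_uhp hcont hB'mf.holo hB'0 h2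
    exact sub_eq_zero.mp this
  -- cusps
  have hcF'zero : ∀ i ∈ Finset.range n, IsZeroAtImInfty (cF' i) := by
    intro i hi
    rw [Finset.mem_range] at hi
    have hp := hcF'2 i
    rw [hp.2.1.isZeroAtImInfty_iff, conjPair_id_qExpansion hp, PowerSeries.coeff_map,
      (hp.1.isZeroAtImInfty_iff).mp (charCoeff_zero_at hcf hi), map_zero]
  have hzero : ∀ γ : SL(2, ℤ), IsZeroAtImInfty (g ∣[(1 : ℤ)] γ) := by
    intro γ
    refine isZeroAtImInfty_of_monic_root hn0 (fun i => cF' i) (g ∣[(1 : ℤ)] γ) hcF'zero ?_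
    have h1 : (g ^ n + ∑ i ∈ Finset.range n, cF' i * g ^ i) ∣[(n : ℤ) * 1] γ = 0 := by
      rw [hgrel, SlashAction.zero_slash]
    rw [SlashAction.add_slash, pow_slash_SL2, SlashAction.sum_slash] at h1
    have h2 : ∀ i ∈ Finset.range n, (cF' i * g ^ i) ∣[(n : ℤ) * 1] γ =
        cF' i * (g ∣[(1 : ℤ)] γ) ^ i := by
      intro i hi
      rw [Finset.mem_range] at hi
      have hw : (n : ℤ) * 1 = ((n - i : ℕ) : ℤ) * 1 + (i : ℤ) * 1 := by
        rw [Nat.cast_sub hi.le]; ring
      rw [hw, mul_slash_SL2, pow_slash_SL2, (hcF'1 i).inv γ (Subgroup.mem_top γ)]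
    rw [Finset.sum_congr rfl h2] at h1
    intro z
    have := congrFun h1 z
    simpa using this
  have hgCF : IsCF (Gamma1 (N * 2)) 1 g :=
    { holo := hg1
      inv := hginv
      bdd := fun γ => (hzero γ).isBoundedAtImInfty
      zero := hzero }
  refine ⟨g, hgCF, ?_⟩
  -- q-expansion
  have hgn : RatStr.IsNice g := hgCF.toIsMF.isNice T_mem_Gamma1
  have hfn : RatStr.IsNice f := hcf.toIsMF.isNice T_mem_Gamma1
  have hqf : qExpansion 1 f * qExpansion 1 B = qExpansion 1 A := by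
    rw [← hfn.qExpansion_mul hBB.1]
  have hqg : qExpansion 1 g * qExpansion 1 B' = qExpansion 1 A' := by
    rw [← hgn.qExpansion_mul hBB.2.1, hgB]
  have hqB'ne : qExpansion 1 B' ≠ 0 := fun h => hB'ne (hBB.2.1.qExpansion_eq_zero_iff.mp h)
  have h3 : (qExpansion 1 f).map σ * qExpansion 1 B' = qExpansion 1 g * qExpansion 1 B' := by
    rw [hqg, conjPair_id_qExpansion hBB, conjPair_id_qExpansion hAA, ← map_mul, hqf]
  exact (mul_right_cancel₀ hqB'ne h3).symm

end

end Fermat.Agent.DS48
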