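import Fermat.Agent.DS48.A_lead_Nice
import Fermat.Agent.X0N.SYM_helper2_Dilate

set_option autoImplicit false

/-!
# [VOP] nebentypus multipliers and the `V_d` operator `F ↦ F ∣[k] diag(d,1)` on `Γ₁`-forms

* `HasNeben L k c F` : `F ∣[k] γ = c (γ₁₁) • F` for all `γ ∈ Γ₀(L)`;
* `HasNeben.slash_diag` : `V_d` keeps the multiplier and multiplies the level by `d`;
* `isMF_slash_diag_Gamma1` : `V_d` maps `M_k(Γ₁(L))` to `M_k(Γ₁(L d))`.
-/

namespace Fermat.Agent.DS48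

open Matrix CongruenceSubgroup ModularForm UpperHalfPlane ModularFormClass
open Fermat.Agent.RatStr Fermat.Agent.X0N
open scoped MatrixGroups ModularForm Manifold

noncomputable section

variable {L : ℕ} {k k₁ k₂ : ℤ} {c c₁ c₂ : ℤ → ℂ} {F G : ℍ → ℂ}

/-- nebentypus with multiplier `c (γ 1 1)` on `Γ₀(L)` -/
def HasNeben (L : ℕ) (k : ℤ) (c : ℤ → ℂ) (F : ℍ → ℂ) : Prop :=
  ∀ γ : SL(2, ℤ), γ ∈ Gamma0 L → F ∣[k] γ = c (γ 1 1) • F

theorem gamma0_mono {d N : ℕ} (h : d ∣ N) : Gamma0 N ≤ Gamma0 d := by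
  intro γ hγ
  rw [Gamma0_mem, ZMod.intCast_zmod_eq_zero_iff_dvd] at hγ ⊢
  exact (Int.natCast_dvd_natCast.mpr h).trans hγ

theorem gamma1_mono {d N : ℕ} (h : d ∣ N) : Gamma1 N ≤ Gamma1 d := by
  intro γ hγ
  rw [Gamma1_mem] at hγ ⊢
  obtain ⟨h00, h11, h10⟩ := hγ
  have hd : (d : ℤ) ∣ (N : ℤ) := Int.natCast_dvd_natCast.mpr h
  refine ⟨?_, ?_, ?_⟩
  · have := (ZMod.intCast_eq_intCast_iff_dvd_sub (γ 0 0) 1 N).mp (by simpa using h00)
    have := (ZMod.intCast_eq_intCast_iff_dvd_sub (γ 0 0) 1 d).mpr (dvd_trans hd this)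
    simpa using this
  · have := (ZMod.intCast_eq_intCast_iff_dvd_sub (γ 1 1) 1 N).mp (by simpa using h11)
    have := (ZMod.intCast_eq_intCast_iff_dvd_sub (γ 1 1) 1 d).mpr (dvd_trans hd this)
    simpa using this
  · rw [ZMod.intCast_zmod_eq_zero_iff_dvd] at h10 ⊢
    exact dvd_trans hd h10

theorem HasNeben.mono {L' : ℕ} (h : L ∣ L') (hF : HasNeben L k c F) : HasNeben L' k c F :=
  fun γ hγ => hF γ (gamma0_mono h hγ)

theorem HasNeben.mul (hF : HasNeben L k₁ c₁ F) (hG : HasNeben L k₂ c₂ G) :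
    HasNeben L (k₁ + k₂) (c₁ * c₂) (F * G) := by
  intro γ hγ
  rw [mul_slash_SL2, hF γ hγ, hG γ hγ]
  ext z
  simp only [Pi.mul_apply, Pi.smul_apply, smul_eq_mul]
  ring

theorem HasNeben.sub (hF : HasNeben L k c F) (hG : HasNeben L k c G) :
    HasNeben L k c (F - G) := by
  intro γ hγ
  rw [sub_eq_add_neg, SlashAction.add_slash, SlashAction.neg_slash, hF γ hγ, hG γ hγ]
  ext z
  simp only [Pi.add_apply, Pi.neg_apply, Pi.smul_apply, smul_eq_mul]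
  ring

theorem HasNeben.smul (a : ℂ) (hF : HasNeben L k c F) : HasNeben L k c (a • F) := by
  intro γ hγ
  rw [ModularForm.SL_smul_slash, hF γ hγ, smul_comm]

/-- moving `γ` with `d ∣ γ₁₀` across `diag(d,1)` -/
theorem exists_alphaN_mul_eq_entries (d : ℕ) [NeZero d] {γ : SL(2, ℤ)}
    (hγ : (d : ℤ) ∣ γ 1 0) :
    ∃ δ : SL(2, ℤ), δ 0 0 = γ 0 0 ∧ δ 1 1 = γ 1 1 ∧ (d : ℤ) * δ 1 0 = γ 1 0 ∧
      alphaN d * (γ : GL (Fin 2) ℝ) = (δ : GL (Fin 2) ℝ) * alphaN d := by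
  obtain ⟨c, hc⟩ := hγ
  have hdet : γ 0 0 * γ 1 1 - γ 0 1 * γ 1 0 = 1 := by
    have := γ.det_coe
    rwa [Matrix.det_fin_two] at this
  let δ : SL(2, ℤ) := ⟨!![γ 0 0, d * γ 0 1; c, γ 1 1], by
    rw [Matrix.det_fin_two_of]; rw [hc] at hdet; linarith⟩
  refine ⟨δ, rfl, rfl, hc.symm, ?_⟩
  apply Units.ext
  rw [Units.val_mul, Units.val_mul]
  have e1 : ((γ : GL (Fin 2) ℝ) : Matrix (Fin 2) (Fin 2) ℝ) =
      (γ : Matrix (Fin 2) (Fin 2) ℤ).map (algebraMap ℤ ℝ) :=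
    Matrix.SpecialLinearGroup.mapGL_coe_matrix γ
  have e2 : ((δ : GL (Fin 2) ℝ) : Matrix (Fin 2) (Fin 2) ℝ) =
      (δ : Matrix (Fin 2) (Fin 2) ℤ).map (algebraMap ℤ ℝ) :=
    Matrix.SpecialLinearGroup.mapGL_coe_matrix δ
  rw [e1, e2]
  unfold alphaN
  rw [val_utGL]
  have hc' : (γ 1 0 : ℝ) = (d : ℝ) * c := by exact_mod_cast hc
  ext i j
  fin_cases i <;> fin_cases j <;>
    simp [Matrix.mul_apply, Fin.sum_univ_two, δ, hc', mul_comm]

theorem dvd_lowerLeft_of_mem_Gamma0 {M : ℕ} {γ : SL(2, ℤ)} (hγ : γ ∈ Gamma0 M) :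
    (M : ℤ) ∣ γ 1 0 := by
  rwa [Gamma0_mem, ZMod.intCast_zmod_eq_zero_iff_dvd] at hγ

/-- **`V_d` keeps the nebentypus multiplier.** -/
theorem HasNeben.slash_diag (d : ℕ) [NeZero d] (hF : HasNeben L k c F) :
    HasNeben (L * d) k c (F ∣[k] heckeDiagMatrix d) := by
  intro γ hγ
  have h0 := dvd_lowerLeft_of_mem_Gamma0 hγ
  have hd : (d : ℤ) ∣ γ 1 0 := dvd_trans ⟨L, by push_cast; ring⟩ h0
  obtain ⟨δ, -, h11, h10, h⟩ := exists_alphaN_mul_eq_entries d hd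
  have hδ : δ ∈ Gamma0 L := by
    rw [Gamma0_mem, ZMod.intCast_zmod_eq_zero_iff_dvd]
    have hd0 : (d : ℤ) ≠ 0 := by exact_mod_cast NeZero.ne d
    have h2 : (d : ℤ) * (L : ℤ) ∣ (d : ℤ) * δ 1 0 := by
      rw [h10]
      refine dvd_trans ?_ h0
      push_cast
      exact ⟨1, by ring⟩
    exact (mul_dvd_mul_iff_left hd0).mp h2
  rw [heckeDiagMatrix_eq_alphaN, SL_slash, ← SlashAction.slash_mul, h, SlashAction.slash_mul,
    ← SL_slash, hF δ hδ, h11, ModularForm.smul_slash]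
  unfold alphaN
  rw [σ_utGL]
  rfl

/-- boundedness at all cusps is preserved by `V_d` -/
theorem isBoundedAtImInfty_slash_diag_slash (d : ℕ) [NeZero d]
    (hF : ∀ γ : SL(2, ℤ), IsBoundedAtImInfty (F ∣[k] γ)) (γ : SL(2, ℤ)) :
    IsBoundedAtImInfty ((F ∣[k] heckeDiagMatrix d) ∣[k] γ) := by
  obtain ⟨δ, a, b, e, ha, he, -, -, -, -, hmat⟩ :=
    exists_decomp_GL d (Nat.pos_of_ne_zero (NeZero.ne d)) γ
  have hmat' : alphaN d * (γ : GL (Fin 2) ℝ) = (δ : GL (Fin 2) ℝ) * utGL a b e ha he := hmat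
  have h0 : (F ∣[k] heckeDiagMatrix d) ∣[k] γ = (F ∣[k] δ) ∣[k] utGL (a : ℝ) b e ha he := by
    rw [heckeDiagMatrix_eq_alphaN, SL_slash, ← SlashAction.slash_mul, hmat',
      SlashAction.slash_mul, ← SL_slash]
  rw [h0]
  have h1 : IsBoundedAtImInfty (fun τ : ℍ => (F ∣[k] δ) (utGL (a : ℝ) b e ha he • τ)) :=
    (hF δ).comp_tendsto (tendsto_utGL_smul_atImInfty ha he)
  have h2 : (F ∣[k] δ) ∣[k] utGL (a : ℝ) b e ha he =
      fun τ : ℍ => (F ∣[k] δ) (utGL (a : ℝ) b e ha he • τ) *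
        ((((a : ℝ) * e : ℝ) : ℂ) ^ (k - 1) * ((e : ℝ) : ℂ) ^ (-k)) := by
    funext τ
    rw [slash_utGL_apply]
    ring
  rw [h2]
  exact h1.mul (Asymptotics.isBigO_const_const _ one_ne_zero _)

/-- **`V_d` maps `M_k(Γ₁(L))` to `M_k(Γ₁(L d))`.** -/
theorem isMF_slash_diag_Gamma1 (d : ℕ) [NeZero d] (hF : IsMF (Gamma1 L) k F) :
    IsMF (Gamma1 (L * d)) k (F ∣[k] heckeDiagMatrix d) := by
  refine ⟨hF.holo.slash k _, fun γ hγ => ?_, isBoundedAtImInfty_slash_diag_slash d hF.bdd⟩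
  rw [Gamma1_mem] at hγ
  obtain ⟨h00, h11, h10⟩ := hγ
  rw [ZMod.intCast_zmod_eq_zero_iff_dvd] at h10
  have hd : (d : ℤ) ∣ γ 1 0 := dvd_trans ⟨L, by push_cast; ring⟩ h10
  obtain ⟨δ, e00, e11, e10, h⟩ := exists_alphaN_mul_eq_entries d hd
  have hLd : (L : ℤ) ∣ ((L * d : ℕ) : ℤ) := ⟨d, by push_cast; ring⟩
  have hδ : δ ∈ Gamma1 L := by
    rw [Gamma1_mem]
    refine ⟨?_, ?_, ?_⟩
    · rw [e00]
      have := (ZMod.intCast_eq_intCast_iff_dvd_sub (γ 0 0) 1 (L * d)).mp (by simpa using h00)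
      have h3 := dvd_trans hLd this
      have := (ZMod.intCast_eq_intCast_iff_dvd_sub (γ 0 0) 1 L).mpr h3
      simpa using this
    · rw [e11]
      have := (ZMod.intCast_eq_intCast_iff_dvd_sub (γ 1 1) 1 (L * d)).mp (by simpa using h11)
      have h3 := dvd_trans hLd this
      have := (ZMod.intCast_eq_intCast_iff_dvd_sub (γ 1 1) 1 L).mpr h3
      simpa using this
    · rw [ZMod.intCast_zmod_eq_zero_iff_dvd]
      have hd0 : (d : ℤ) ≠ 0 := by exact_mod_cast NeZero.ne d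
      have h2 : (d : ℤ) * (L : ℤ) ∣ (d : ℤ) * δ 1 0 := by
        rw [e10]
        refine dvd_trans ?_ h10
        push_cast
        exact ⟨1, by ring⟩
      exact (mul_dvd_mul_iff_left hd0).mp h2
  rw [heckeDiagMatrix_eq_alphaN, SL_slash, ← SlashAction.slash_mul, h, SlashAction.slash_mul,
    ← SL_slash, hF.inv δ hδ]

/-- from a multiplier which is `1` to `Γ₀`-invariance -/
theorem HasNeben.inv_of_eq_one (hF : HasNeben L k c F) {γ : SL(2, ℤ)} (hγ : γ ∈ Gamma0 L)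
    (h1 : c (γ 1 1) = 1) : F ∣[k] γ = F := by
  rw [hF γ hγ, h1, one_smul]

end

end Fermat.Agent.DS48
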